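/-
S55 (Poitou-Tate), BRIDGE part 2: THE A-LEVEL INTERFACE.
Owner: helper9.  Prefix `ab_`.  Definitions and `Prop`s only.

The base case `pt_BaseStatement inv` (global duality in degrees 2 and 3 for the permutation
modules `pt_A p K`) is cut into FIVE elementwise statements about a module `M` (in the
application `M = pt_A p K`), in the language of `Cone.lean` / `PT.lean`:
  `ab_Ex`      [A-EX]       exactness of `H¹_S(M) → ∏_v H¹(ℚ_v, M) → Dual H¹_S(M')`,
  `ab_ShaInj`  [A-SHA-INJ]  a cone cocycle `(c, b)` which pairs to zero with `H¹_S(M')` has `c ∈ B²_S`,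
  `ab_ShaSurj` [A-SHA-SURJ] every functional on `H¹_S(M')` is induced ON `Ш¹(M')` by a cone cocycle,
  `ab_H2Ex`    [A-H2-EX]    exactness of `H²_S(M) → ∏_v H²(ℚ_v, M) → Dual H⁰(M')`,
  `ab_H2Surj`  [A-H2-SURJ]  surjectivity of `∏_v H²(ℚ_v, M) → Dual H⁰(M')`.
`Bridge/ARed.lean` proves  `ab_BaseStatement inv` + LD1 + leaves  ⇒  `pt_BaseStatement inv`.
The five K→A packages prove `ab_*` for `M = pt_A p K` from the K-level targets of `KDefs.lean`
by Shapiro (`ShapDefs.lean`).
-/
import Mathlib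
import Fermat.Agent.S55.Final

set_option autoImplicit false
set_option maxHeartbeats 1000000
set_option synthInstance.maxHeartbeats 400000
open CategoryTheory Module groupCohomology ExtCitation

namespace Fermat.Agent.S55

section Defs

variable {p : ℕ} [Fact p.Prime]

/-- **[A-EX]** a family of local classes `[z_v] ∈ H¹(ℚ_v, M)` which is orthogonal to the
localisations of all global classes `y ∈ H¹_S(M')` is the localisation of a global class. -/
def ab_Ex (inv : pt_InvFamily) (S : Finset Nat.Primes) (M : Rep.{0, 0, 0} (ZMod p) s55_GQ) :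
    Prop :=
  ∀ z : ∀ v : extArithIndex S, ↥(cone_Z1v S M v),
    (∀ (y : cocycles₁ (M.dualTwist (cycloChar p))) (_ : IsLevelConstantS₁ S y)
      (hcoc : ∀ v : extArithIndex S,
        cup₁₁ (pt_evv S v M)
            ((z v : cocycles₁ (Rep.res (extArithLoc S v) M)) :
              extArithLocalGroups S v → Rep.res (extArithLoc S v) M)
            (cone_loc₁ S (M.dualTwist (cycloChar p)) v y) ∈
          levelCocycles₂ (extArithLoc S v) (Rep.res (extArithLoc S v) (pt_T p))),
      ∑ v : extArithIndex S, inv p S v (continuousH2π _ _ ⟨_, hcoc v⟩) = 0) →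
    ∃ x : ↥(continuousH1S S M), asm_locH1Total S M x = cone_q S M z

/-- **[A-SHA-INJ]** if the cone cocycle `x = (c, b)` pairs to zero with every `y ∈ H¹_S(M')`
(for every choice of `ε` with `d ε = c ∪ y`), then `c` is a level-`S` coboundary. -/
def ab_ShaInj (inv : pt_InvFamily) (S : Finset Nat.Primes) (M : Rep.{0, 0, 0} (ZMod p) s55_GQ) :
    Prop :=
  ∀ x : ↥(cone_Z S M),
    (∀ (y : cocycles₁ (M.dualTwist (cycloChar p))) (_ : IsLevelConstantS₁ S y)
      (ε : s55_GQ × s55_GQ → pt_T p) (_ : IsLevelConstantS₂ S ε)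
      (_ : (d₂₃ (pt_T p)).hom ε = cup₂₁ (pt_ev M) x.1.1 y)
      (hcoc : ∀ v : extArithIndex S,
        cup₁₁ (pt_evv S v M) (x.1.2 v) (cone_loc₁ S (M.dualTwist (cycloChar p)) v y) -
            cone_loc₂ S (pt_T p) v ε ∈
          levelCocycles₂ (extArithLoc S v) (Rep.res (extArithLoc S v) (pt_T p))),
      ∑ v : extArithIndex S, inv p S v (continuousH2π _ _ ⟨_, hcoc v⟩) = 0) →
    x.1.1 ∈ levelCoboundariesS₂ S M

/-- **[A-SHA-SURJ]** for every functional `l` on `H¹_S(M')` there is a cone cocycle `x = (c, b)`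
whose pairing with every LOCALLY TRIVIAL class `y ∈ Ш¹(M')` is `l y`. -/
def ab_ShaSurj (inv : pt_InvFamily) (S : Finset Nat.Primes) (M : Rep.{0, 0, 0} (ZMod p) s55_GQ) :
    Prop :=
  ∀ l : Module.Dual (ZMod p) ↥(continuousH1S S (M.dualTwist (cycloChar p))),
    ∃ x : ↥(cone_Z S M),
      ∀ (y : cocycles₁ (M.dualTwist (cycloChar p))) (hy : IsLevelConstantS₁ S y),
        asm_locH1Total S (M.dualTwist (cycloChar p)) (pt_cls1 S _ y hy) = 0 →
        ∀ (ε : s55_GQ × s55_GQ → pt_T p) (_ : IsLevelConstantS₂ S ε)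
          (_ : (d₂₃ (pt_T p)).hom ε = cup₂₁ (pt_ev M) x.1.1 y)
          (hcoc : ∀ v : extArithIndex S,
            cup₁₁ (pt_evv S v M) (x.1.2 v) (cone_loc₁ S (M.dualTwist (cycloChar p)) v y) -
                cone_loc₂ S (pt_T p) v ε ∈
              levelCocycles₂ (extArithLoc S v) (Rep.res (extArithLoc S v) (pt_T p))),
          ∑ v : extArithIndex S, inv p S v (continuousH2π _ _ ⟨_, hcoc v⟩) =
            l (pt_cls1 S _ y hy)

/-- **[A-H2-EX]** a family of local classes `[c_v] ∈ H²(ℚ_v, M)` which pairs to zero with all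
invariants `m' ∈ H⁰(G_ℚ, M')` is the localisation of a class in `H²_S(M)`. -/
def ab_H2Ex (inv : pt_InvFamily) (S : Finset Nat.Primes) (M : Rep.{0, 0, 0} (ZMod p) s55_GQ) :
    Prop :=
  ∀ c : ∀ v : extArithIndex S,
      ↥(levelCocycles₂ (extArithLoc S v) (Rep.res (extArithLoc S v) M)),
    (∀ (m' : ↥((M.dualTwist (cycloChar p)).ρ.invariants))
      (hcoc : ∀ v : extArithIndex S,
        cup₂₀ (pt_evv S v M)
            ((c v : extArithLocalGroups S v × extArithLocalGroups S v →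
              Rep.res (extArithLoc S v) M))
            (m'.1 : Rep.res (extArithLoc S v) (M.dualTwist (cycloChar p))) ∈
          levelCocycles₂ (extArithLoc S v) (Rep.res (extArithLoc S v) (pt_T p))),
      ∑ v : extArithIndex S, inv p S v (continuousH2π _ _ ⟨_, hcoc v⟩) = 0) →
    ∃ x : continuousH2S S M, locTotal₂S S M x = fun v => continuousH2π _ _ (c v)

/-- **[A-H2-SURJ]** every functional on `H⁰(G_ℚ, M')` is induced by a family of local classes
in `∏_v H²(ℚ_v, M)`. -/
def ab_H2Surj (inv : pt_InvFamily) (S : Finset Nat.Primes) (M : Rep.{0, 0, 0} (ZMod p) s55_GQ) :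
    Prop :=
  ∀ l : Module.Dual (ZMod p) ↥((M.dualTwist (cycloChar p)).ρ.invariants),
    ∃ c : ∀ v : extArithIndex S,
        ↥(levelCocycles₂ (extArithLoc S v) (Rep.res (extArithLoc S v) M)),
      ∀ (m' : ↥((M.dualTwist (cycloChar p)).ρ.invariants))
        (hcoc : ∀ v : extArithIndex S,
          cup₂₀ (pt_evv S v M)
              ((c v : extArithLocalGroups S v × extArithLocalGroups S v →
                Rep.res (extArithLoc S v) M))
              (m'.1 : Rep.res (extArithLoc S v) (M.dualTwist (cycloChar p))) ∈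
            levelCocycles₂ (extArithLoc S v) (Rep.res (extArithLoc S v) (pt_T p))),
        ∑ v : extArithIndex S, inv p S v (continuousH2π _ _ ⟨_, hcoc v⟩) = l m'

end Defs

/-- The five A-level statements for all the permutation modules `pt_A p K`, `K/ℚ` finite
Galois, unramified outside `S`, `μ_p ⊆ K`. -/
def ab_BaseStatement (inv : pt_InvFamily) : Prop :=
  ∀ {p : ℕ} [Fact p.Prime], p ≠ 2 → ∀ (S : Finset Nat.Primes), pPrime p ∈ S →
    ∀ K : IntermediateField ℚ (AlgebraicClosure ℚ), K.IsUnramifiedOutside S →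
      K.fixingSubgroup.Normal → (∀ s ∈ K.fixingSubgroup, cycloChar p s = 1) →
      ab_Ex inv S (pt_A p K) ∧ ab_ShaInj inv S (pt_A p K) ∧ ab_ShaSurj inv S (pt_A p K) ∧
        ab_H2Ex inv S (pt_A p K) ∧ ab_H2Surj inv S (pt_A p K)

/-- **[A-EX-OF]** (K→A package 1). -/
def ab_ExOfStatement : Prop :=
  ∀ (inv : lcf_InvType) (ptinv : pt_InvFamily), lcf_IsInvSystem inv → ld_Compat inv ptinv →
    ∀ {p : ℕ} [Fact p.Prime], p ≠ 2 → ∀ (S : Finset Nat.Primes), pPrime p ∈ S →
    ∀ K : IntermediateField ℚ (AlgebraicClosure ℚ), K.IsUnramifiedOutside S →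
      K.fixingSubgroup.Normal → (∀ s ∈ K.fixingSubgroup, cycloChar p s = 1) →
      ab_Ex ptinv S (pt_A p K)

/-- **[A-SHA-INJ-OF]** (K→A package 2). -/
def ab_ShaInjOfStatement : Prop :=
  ∀ (inv : lcf_InvType) (ptinv : pt_InvFamily), lcf_IsInvSystem inv → ld_Compat inv ptinv →
    ∀ {p : ℕ} [Fact p.Prime], p ≠ 2 → ∀ (S : Finset Nat.Primes), pPrime p ∈ S →
    ∀ K : IntermediateField ℚ (AlgebraicClosure ℚ), K.IsUnramifiedOutside S →
      K.fixingSubgroup.Normal → (∀ s ∈ K.fixingSubgroup, cycloChar p s = 1) →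
      ab_ShaInj ptinv S (pt_A p K)

/-- **[A-SHA-SURJ-OF]** (K→A package 3). -/
def ab_ShaSurjOfStatement : Prop :=
  ∀ (inv : lcf_InvType) (ptinv : pt_InvFamily), lcf_IsInvSystem inv → ld_Compat inv ptinv →
    ∀ {p : ℕ} [Fact p.Prime], p ≠ 2 → ∀ (S : Finset Nat.Primes), pPrime p ∈ S →
    ∀ K : IntermediateField ℚ (AlgebraicClosure ℚ), K.IsUnramifiedOutside S →
      K.fixingSubgroup.Normal → (∀ s ∈ K.fixingSubgroup, cycloChar p s = 1) →
      ab_ShaSurj ptinv S (pt_A p K)

/-- **[A-H2-EX-OF]** (K→A package 4). -/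
def ab_H2ExOfStatement : Prop :=
  ∀ (inv : lcf_InvType) (ptinv : pt_InvFamily), lcf_IsInvSystem inv → ld_Compat inv ptinv →
    ∀ {p : ℕ} [Fact p.Prime], p ≠ 2 → ∀ (S : Finset Nat.Primes), pPrime p ∈ S →
    ∀ K : IntermediateField ℚ (AlgebraicClosure ℚ), K.IsUnramifiedOutside S →
      K.fixingSubgroup.Normal → (∀ s ∈ K.fixingSubgroup, cycloChar p s = 1) →
      ab_H2Ex ptinv S (pt_A p K)

/-- **[A-H2-SURJ-OF]** (K→A package 5; purely local: (I5) + Kummer + Shapiro). -/
def ab_H2SurjOfStatement : Prop :=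
  ∀ (inv : lcf_InvType) (ptinv : pt_InvFamily), lcf_IsInvSystem inv → ld_Compat inv ptinv →
    ∀ {p : ℕ} [Fact p.Prime], p ≠ 2 → ∀ (S : Finset Nat.Primes), pPrime p ∈ S →
    ∀ K : IntermediateField ℚ (AlgebraicClosure ℚ), K.IsUnramifiedOutside S →
      K.fixingSubgroup.Normal → (∀ s ∈ K.fixingSubgroup, cycloChar p s = 1) →
      ab_H2Surj ptinv S (pt_A p K)

end Fermat.Agent.S55
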