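/-
S55 (Poitou-Tate), BRIDGE part 2: the reduction of the base case to the A-level statements.
Owner: helper9.  Prefix `ab_`.

  `ab_base_of` : leaves + [LD1] + [REC3] + `ab_BaseStatement inv`  ⇒  `pt_BaseStatement inv`.
-/
import Mathlib
import Fermat.Agent.S55.Bridge.ADefs
import Fermat.Agent.S55.Dev.NatTools
import Fermat.Agent.S55.Dev.Theta3Ex
import Fermat.Agent.S55.CoverOfRep

set_option autoImplicit false
set_option maxHeartbeats 1000000
set_option synthInstance.maxHeartbeats 400000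
open CategoryTheory Module groupCohomology ExtCitation

namespace Fermat.Agent.S55

variable {p : ℕ} [Fact p.Prime] (S : Finset Nat.Primes) (M : Rep.{0, 0, 0} (ZMod p) s55_GQ)

/-- `del ∘ loc = 0`: the image of `H¹_S(M)` in `∏_v H¹(ℚ_v, M)` dies in `H²_c`. -/
theorem ab_del_loc (x : ↥(continuousH1S S M)) :
    cone_del S M (asm_locH1Total S M x) = 0 := by
  obtain ⟨a, ha, rfl⟩ := dev_H1S_exists_cls S x
  rw [pt_locH1Total_cls, cone_del_q, Submodule.Quotient.mk_eq_zero, Submodule.mem_comap]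
  have ha0 : (d₁₂ M).hom (a : s55_GQ → M) = 0 := a.2
  refine ⟨(⟨a.1, ha⟩, 0), ?_⟩
  rw [Submodule.subtype_apply, cone_delZ_coe]
  refine Prod.ext ?_ ?_
  · rw [cone_d_fst, cone_delAmb_fst]
    exact ha0
  · funext v
    rw [cone_d_snd, cone_delAmb_snd]
    simp only [Pi.zero_apply, map_zero, sub_zero]
    rfl


/-- The shape of the local pairing delivered by [LD1]. -/
def ab_IsPair (inv : pt_InvFamily)
    (pair : (∀ v : extArithIndex S, ↥(asm_H1v S v M)) →ₗ[ZMod p]
      Module.Dual (ZMod p) (∀ v : extArithIndex S, ↥(asm_H1v S v (M.dualTwist (cycloChar p))))) :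
    Prop :=
  ∀ (z : ∀ v : extArithIndex S, ↥(cone_Z1v S M v))
    (y : ∀ v : extArithIndex S, ↥(cone_Z1v S (M.dualTwist (cycloChar p)) v))
    (hcoc : ∀ v : extArithIndex S,
      cup₁₁ (pt_evv S v M)
          ((z v : cocycles₁ (Rep.res (extArithLoc S v) M)) :
            extArithLocalGroups S v → Rep.res (extArithLoc S v) M)
          ((y v : cocycles₁ (Rep.res (extArithLoc S v) (M.dualTwist (cycloChar p)))) :
            extArithLocalGroups S v → Rep.res (extArithLoc S v) (M.dualTwist (cycloChar p)))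
        ∈ levelCocycles₂ (extArithLoc S v) (Rep.res (extArithLoc S v) (pt_T p))),
    pair (cone_q S M z) (cone_q S (M.dualTwist (cycloChar p)) y) =
      ∑ v : extArithIndex S, inv p S v (continuousH2π _ _ ⟨_, hcoc v⟩)

variable {S M}

/-- The local cup product of a continuous cocycle with the localisation of a level-`S` cocycle
is a continuous cocycle. -/
theorem ab_hcoc' (hcl : pt_CupLevelStatement) (hp2 : p ≠ 2) (hpS : pPrime p ∈ S)
    [FiniteDimensional (ZMod p) M] (hsm : s55_Smooth M) (hMur : s55_UnramOutside S M)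
    (z : ∀ v : extArithIndex S, ↥(cone_Z1v S M v))
    (y₀ : cocycles₁ (M.dualTwist (cycloChar p))) (hy₀ : IsLevelConstantS₁ S y₀)
    (v : extArithIndex S) :
    cup₁₁ (pt_evv S v M)
        ((z v : cocycles₁ (Rep.res (extArithLoc S v) M)) :
          extArithLocalGroups S v → Rep.res (extArithLoc S v) M)
        (cone_loc₁ S (M.dualTwist (cycloChar p)) v y₀)
      ∈ levelCocycles₂ (extArithLoc S v) (Rep.res (extArithLoc S v) (pt_T p)) := by
  refine ⟨?_, hcl hp2 S hpS M hsm hMur v _ _ (z v).2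
    (pt_locZ S (M.dualTwist (cycloChar p)) v y₀ hy₀).2⟩
  change (d₂₃ _).hom _ = 0
  have hz : (d₁₂ (Rep.res (extArithLoc S v) M)).hom
      ((z v : cocycles₁ (Rep.res (extArithLoc S v) M)) :
        extArithLocalGroups S v → Rep.res (extArithLoc S v) M) = 0 := (z v).1.2
  refine (cup_d₁₁ (pt_evv_equivariant S v M)
    ((z v : cocycles₁ (Rep.res (extArithLoc S v) M)) :
        extArithLocalGroups S v → Rep.res (extArithLoc S v) M)
    (((pt_locZ S (M.dualTwist (cycloChar p)) v y₀ hy₀ :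
            ↥(cone_Z1v S (M.dualTwist (cycloChar p)) v)) :
          cocycles₁ (Rep.res (extArithLoc S v) (M.dualTwist (cycloChar p)))) :
          extArithLocalGroups S v → Rep.res (extArithLoc S v) (M.dualTwist (cycloChar p)))
    (pt_locZ S (M.dualTwist (cycloChar p)) v y₀ hy₀).1.2).trans ?_
  rw [hz]
  funext x
  change (pt_evv S v M) 0 _ = 0
  rw [map_zero, LinearMap.zero_apply]

/-- The value of `Θ` on `del [z]`. -/
theorem ab_theta_delZ (inv : pt_InvFamily)
    (Θ : cone_H S M →ₗ[ZMod p]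
      Module.Dual (ZMod p) ↥(continuousH1S S (M.dualTwist (cycloChar p))))
    (hΘ : pt_IsTheta inv S M Θ)
    (z : ∀ v : extArithIndex S, ↥(cone_Z1v S M v))
    (y₀ : cocycles₁ (M.dualTwist (cycloChar p))) (hy₀ : IsLevelConstantS₁ S y₀)
    (hcoc' : ∀ v : extArithIndex S,
      cup₁₁ (pt_evv S v M)
          ((z v : cocycles₁ (Rep.res (extArithLoc S v) M)) :
            extArithLocalGroups S v → Rep.res (extArithLoc S v) M)
          (cone_loc₁ S (M.dualTwist (cycloChar p)) v y₀)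
        ∈ levelCocycles₂ (extArithLoc S v) (Rep.res (extArithLoc S v) (pt_T p))) :
    Θ (Submodule.Quotient.mk (cone_delZ S M z)) (pt_cls1 S _ y₀ hy₀) =
      ∑ v : extArithIndex S, inv p S v (continuousH2π _ _ ⟨_, hcoc' v⟩) := by
  have hcoc : ∀ v : extArithIndex S,
      cup₁₁ (pt_evv S v M) ((cone_delZ S M z).1.2 v)
          (cone_loc₁ S (M.dualTwist (cycloChar p)) v y₀) -
          cone_loc₂ S (pt_T p) v 0 ∈
        levelCocycles₂ (extArithLoc S v) (Rep.res (extArithLoc S v) (pt_T p)) := by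
    intro v
    rw [map_zero, sub_zero]
    exact hcoc' v
  rw [hΘ (cone_delZ S M z) y₀ hy₀ 0 (isLevelConstantS₂_const S (0 : pt_T p))
    (by
      rw [map_zero]
      funext x
      change (0 : pt_T p) = (pt_ev M) 0 _
      rw [map_zero, LinearMap.zero_apply]) hcoc]
  refine Finset.sum_congr rfl fun v _ => ?_
  congr 2
  apply Subtype.ext
  change _ - cone_loc₂ S (pt_T p) v 0 = _
  rw [map_zero, sub_zero]
  rfl

/-- `Θ ∘ del = (loc')^* ∘ pair`. -/
theorem ab_theta_del (inv : pt_InvFamily) (hcl : pt_CupLevelStatement) (hp2 : p ≠ 2)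
    (hpS : pPrime p ∈ S) [FiniteDimensional (ZMod p) M] (hsm : s55_Smooth M)
    (hMur : s55_UnramOutside S M)
    (pair : (∀ v : extArithIndex S, ↥(asm_H1v S v M)) →ₗ[ZMod p]
      Module.Dual (ZMod p) (∀ v : extArithIndex S, ↥(asm_H1v S v (M.dualTwist (cycloChar p)))))
    (hpair : ab_IsPair S M inv pair)
    (Θ : cone_H S M →ₗ[ZMod p]
      Module.Dual (ZMod p) ↥(continuousH1S S (M.dualTwist (cycloChar p))))
    (hΘ : pt_IsTheta inv S M Θ)
    (w : ∀ v : extArithIndex S, ↥(asm_H1v S v M))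
    (y : ↥(continuousH1S S (M.dualTwist (cycloChar p)))) :
    Θ (cone_del S M w) y = pair w (asm_locH1Total S (M.dualTwist (cycloChar p)) y) := by
  obtain ⟨z, rfl⟩ := cone_q_surjective S M w
  obtain ⟨y₀, hy₀, rfl⟩ := dev_H1S_exists_cls S y
  rw [pt_locH1Total_cls, cone_del_q,
    ab_theta_delZ inv Θ hΘ z y₀ hy₀ (ab_hcoc' hcl hp2 hpS hsm hMur z y₀ hy₀)]
  exact (hpair z (fun v => pt_locZ S (M.dualTwist (cycloChar p)) v y₀ hy₀)
    (ab_hcoc' hcl hp2 hpS hsm hMur z y₀ hy₀)).symm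

/-- **Injectivity of `Θ`** from [A-EX] and [A-SHA-INJ]. -/
theorem ab_injective (inv : pt_InvFamily)
    (hEx : ab_Ex inv S M) (hSI : ab_ShaInj inv S M)
    (Θ : cone_H S M →ₗ[ZMod p]
      Module.Dual (ZMod p) ↥(continuousH1S S (M.dualTwist (cycloChar p))))
    (hΘ : pt_IsTheta inv S M Θ) : Function.Injective Θ := by
  rw [injective_iff_map_eq_zero]
  intro ξ hξ
  obtain ⟨x, rfl⟩ := Submodule.Quotient.mk_surjective _ ξ
  have h1 : x.1.1 ∈ levelCoboundariesS₂ S M := by
    apply hSI x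
    intro y hy ε hε hd hcoc
    rw [← hΘ x y hy ε hε hd hcoc, hξ]
    rfl
  have h2 : cone_pi S M (Submodule.Quotient.mk x) = 0 := by
    rw [cone_pi_mk, continuousH2Sπ_eq_zero_iff]
    exact h1
  have h3 : (Submodule.Quotient.mk x : cone_H S M) ∈ LinearMap.range (cone_del S M) := by
    rw [cone_range_del]
    exact h2
  obtain ⟨w, hw⟩ := h3
  obtain ⟨z, rfl⟩ := cone_q_surjective S M w
  rw [← hw] at hξ ⊢
  obtain ⟨x₀, hx₀⟩ := hEx z (by
    intro y hy hcoc
    have h4 := ab_theta_delZ inv Θ hΘ z y hy hcoc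
    rw [← h4, ← cone_del_q, hξ]
    rfl)
  rw [← hx₀]
  exact ab_del_loc S M x₀


/-- **Surjectivity of `Θ`** from [LD1] and [A-SHA-SURJ]. -/
theorem ab_surjective (inv : pt_InvFamily) (hT : pt_TAdmStatement) (hD : pt_DualAdmStatement)
    (hcl : pt_CupLevelStatement) (hH3 : pt_H3VanStatement) (hp2 : p ≠ 2)
    (hpS : pPrime p ∈ S) [FiniteDimensional (ZMod p) M] (hsm : s55_Smooth M)
    (hMur : s55_UnramOutside S M)
    (pair : (∀ v : extArithIndex S, ↥(asm_H1v S v M)) →ₗ[ZMod p]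
      Module.Dual (ZMod p) (∀ v : extArithIndex S, ↥(asm_H1v S v (M.dualTwist (cycloChar p)))))
    (hsurj : Function.Surjective pair) (hpair : ab_IsPair S M inv pair)
    (hSS : ab_ShaSurj inv S M)
    (Θ : cone_H S M →ₗ[ZMod p]
      Module.Dual (ZMod p) ↥(continuousH1S S (M.dualTwist (cycloChar p))))
    (hΘ : pt_IsTheta inv S M Θ) : Function.Surjective Θ := by
  intro l
  obtain ⟨x, hx⟩ := hSS l
  have hker : l - Θ (Submodule.Quotient.mk x) ∈
      (LinearMap.ker (asm_locH1Total S (M.dualTwist (cycloChar p)))).dualAnnihilator := by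
    rw [Submodule.mem_dualAnnihilator]
    intro y hy0
    rw [LinearMap.mem_ker] at hy0
    obtain ⟨y₀, hy₀, rfl⟩ := dev_H1S_exists_cls S y
    obtain ⟨ε, hε, hd⟩ := dnat_exists_eps S M hT hD hH3 hp2 hpS hsm hMur x y₀ hy₀
    have hcoc := fun v => dnat_hcoc S M hcl hp2 hpS hsm hMur x y₀ hy₀ ε hε hd v
    rw [LinearMap.sub_apply, hΘ x y₀ hy₀ ε hε hd hcoc, hx y₀ hy₀ hy0 ε hε hd hcoc, sub_self]
  rw [← LinearMap.range_dualMap_eq_dualAnnihilator_ker] at hker
  obtain ⟨μ, hμ⟩ := hker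
  obtain ⟨w, hw⟩ := hsurj μ
  refine ⟨Submodule.Quotient.mk x + cone_del S M w, ?_⟩
  ext y
  rw [map_add, LinearMap.add_apply, ab_theta_del inv hcl hp2 hpS hsm hMur pair hpair Θ hΘ w y,
    hw]
  have h5 : μ (asm_locH1Total S (M.dualTwist (cycloChar p)) y) =
      (l - Θ (Submodule.Quotient.mk x)) y := by
    rw [← hμ]
    rfl
  rw [h5, LinearMap.sub_apply]
  abel

/-- **Degree 3** from [A-H2-EX], [A-H2-SURJ] and the fact that `Θ₃` kills the global classes. -/
theorem ab_theta3 (inv : pt_InvFamily)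
    (hEx : ab_H2Ex inv S M) (hSu : ab_H2Surj inv S M)
    (Θ : (∀ v : extArithIndex S,
        continuousH2 (extArithLoc S v) (Rep.res (extArithLoc S v) M)) →ₗ[ZMod p]
      Module.Dual (ZMod p) ↥((M.dualTwist (cycloChar p)).ρ.invariants))
    (hΘ : pt_IsTheta3 inv S M Θ)
    (hrec : ∀ z : continuousH2S S M, Θ (locTotal₂S S M z) = 0) :
    LinearMap.ker Θ = LinearMap.range (locTotal₂S S M) ∧ Function.Surjective Θ := by
  have hrep : ∀ η : (∀ v : extArithIndex S,
      continuousH2 (extArithLoc S v) (Rep.res (extArithLoc S v) M)),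
      ∃ c : ∀ v : extArithIndex S,
        ↥(levelCocycles₂ (extArithLoc S v) (Rep.res (extArithLoc S v) M)),
        η = fun v => continuousH2π _ _ (c v) := by
    intro η
    have h : ∀ v, ∃ c : ↥(levelCocycles₂ (extArithLoc S v) (Rep.res (extArithLoc S v) M)),
        continuousH2π _ _ c = η v := fun v => Submodule.Quotient.mk_surjective _ (η v)
    choose c hc using h
    exact ⟨c, funext fun v => (hc v).symm⟩
  refine ⟨le_antisymm ?_ ?_, ?_⟩
  · intro η hη
    rw [LinearMap.mem_ker] at hη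
    obtain ⟨c, rfl⟩ := hrep η
    obtain ⟨x, hx⟩ := hEx c (by
      intro m' hcoc
      rw [← hΘ c m' hcoc, hη]
      rfl)
    exact ⟨x, hx⟩
  · rintro η ⟨z, rfl⟩
    exact hrec z
  · intro l
    obtain ⟨c, hc⟩ := hSu l
    refine ⟨fun v => continuousH2π _ _ (c v), ?_⟩
    ext m'
    have hcoc := fun v => dth3_mem S v M (c v).1 (c v).2 m'
    rw [hΘ c m' hcoc, hc m' hcoc]


/-- The permutation module `pt_A p K` is admissible (`K/ℚ` Galois, unramified outside `S`). -/
theorem ab_A_adm (K : IntermediateField ℚ (AlgebraicClosure ℚ)) (hK : K.IsUnramifiedOutside S)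
    (hKn : K.fixingSubgroup.Normal) :
    s55_Smooth (pt_A p K) ∧ s55_UnramOutside S (pt_A p K) :=
  ⟨fun a => ⟨K, hK.1, fun s hs => cov_A_fix K hKn s hs a⟩,
    fun q hq B hB g hg => LinearMap.ext (fun a => cov_A_fix K hKn g (hK.2 q hq B hB hg) a)⟩

/-- **[A-RED]** the base case from the five A-level statements. -/
theorem ab_base_of (inv : pt_InvFamily) (hL : dev_Leaves inv) (hR3 : dev_Rec3Statement)
    (hLD1 : pt_LD1Statement inv) (hA : ab_BaseStatement inv) : pt_BaseStatement inv := by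
  intro p _ hp2 S hpS K hK hKn hKc
  haveI : FiniteDimensional ℚ K := hK.1
  haveI := cov_A_finite (p := p) K
  obtain ⟨hsm, hur⟩ := ab_A_adm (p := p) K hK hKn
  obtain ⟨hT, hD, hCL, hREC, hH3, hLCD⟩ := hL
  obtain ⟨h1, h2, h3, h4, h5⟩ := hA hp2 S hpS K hK hKn hKc
  obtain ⟨pair, hsurj, hform⟩ := hLD1 hp2 S hpS (pt_A p K) hsm hur
  refine ⟨fun Θ hΘ => ⟨ab_injective inv h1 h2 Θ hΘ,
    ab_surjective inv hT hD hCL hH3 hp2 hpS hsm hur pair hsurj hform h3 Θ hΘ⟩,
    fun Θ hΘ => ab_theta3 inv h4 h5 Θ hΘ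
      (hR3 inv ⟨hT, hD, hCL, hREC, hH3, hLCD⟩ hp2 S hpS (pt_A p K) ⟨hsm, hur⟩ Θ hΘ)⟩

/-- **[BASE-OF] from the five K→A packages** (and the leaves). -/
theorem ab_baseOf_of (hLD1 : ld_LD1Statement) (hLCD : pt_LCDStatement)
    (hREC : fin55_RecOfStatement) (hH3 : pt_H3VanStatement) (hR3 : dev_Rec3Statement)
    (h1 : ab_ExOfStatement) (h2 : ab_ShaInjOfStatement) (h3 : ab_ShaSurjOfStatement)
    (h4 : ab_H2ExOfStatement) (h5 : ab_H2SurjOfStatement) : fin55_BaseOfStatement := by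
  intro inv ptinv hinv hc
  exact ab_base_of ptinv
    ⟨adm_tAdm, adm_dualAdm, cupl_cupLevel, hREC inv ptinv hinv hc, hH3, hLCD⟩ hR3
    (hLD1 inv ptinv hinv hc)
    (fun hp2 S hpS K hK hKn hKc =>
      ⟨h1 inv ptinv hinv hc hp2 S hpS K hK hKn hKc, h2 inv ptinv hinv hc hp2 S hpS K hK hKn hKc,
        h3 inv ptinv hinv hc hp2 S hpS K hK hKn hKc, h4 inv ptinv hinv hc hp2 S hpS K hK hKn hKc,
        h5 inv ptinv hinv hc hp2 S hpS K hK hKn hKc⟩)

end Fermat.Agent.S55
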