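/-
S55 (Poitou-Tate), BRIDGE part 2: THE K-LEVEL INTERFACE (targets of the GLOBAL side).
Owner: helper9.  Prefix `kl_`.  Definitions and `Prop`s only.

Setting: `p` odd, `p ∈ S`, `K ⊆ ℚ̄` a finite extension of `ℚ` unramified outside `S` with
`μ_p ⊆ K`; `U = K.fixingSubgroup = G_K ≤ G_ℚ`.  Everything is ABSOLUTE and ELEMENTWISE:
* global `K`-level cochains are functions on `↥U`, `↥U × ↥U`, ... with values in `F_p = ZMod p`
  (TRIVIAL action), of level `S` (`kl_LevelS₁/₂/₃`: constant modulo `F.fixingSubgroup` for a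
  field `F` unramified outside `S`);
* for `K/ℚ` Galois (`U` normal) and `q ∈ S` the local group is `kl_H K q = loc_q⁻¹(U)`, an open
  subgroup of `Gal(Ω_q/ℚ_q)` (the same for all places of `K` above `q`), local cochains are
  helper3's smooth cochains on it, and the PLACE `(q, g)` (`g ∈ G_ℚ`; it is the place of the
  embedding `ι_q ∘ g : K → Ω_q`) has the localisation map
      `kl_r K q g : kl_H K q → U`,   `τ ↦ g⁻¹ * loc_q τ * g`;
* the local invariant at the place `(q, g)` of an `F_p`-valued 2-cochain `f` on `kl_H K q` is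
      `kl_inv inv K q g f = inv_q (kl_H K q) ((ι_q (g ζ)) ^ f)`,  `ι_q (g ζ) = ζ_loc ^ χ(g)`
  (`ζ = ld_zeta p` the fixed global primitive `p`-th root of unity, `χ` the cyclotomic character);
* `kl_IsReps S K R` : `R q` is a set of representatives of the places of `K` above `q`
  (double cosets `loc_q(Γ_q) \ G_ℚ / U`).

THE SIX GLOBAL TARGETS (Poitou-Tate for `F_p` over `K ∋ ζ_p`, elementwise):
  `kl_RecQStatement`    [K-REC]  reciprocity over `ℚ` for level-`S` classes in `H²(G_ℚ, F_p(1))`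
  `kl_H3Statement`      [K-H3]   `H³(G_{K,S}, F_p) = 0`                      (K need not be Galois)
  `kl_ExStatement`      [K-EX]   exactness of `H¹(G_{K,S},F_p) → ⊕_w H¹(K_w,F_p) → H¹(G_{K,S},μ_p)^∨`
  `kl_ShaInjStatement`  [K-SHA-INJ]  `Ш²(G_{K,S},F_p) → Ш¹(G_{K,S},μ_p)^∨` is injective
  `kl_ShaSurjStatement` [K-SHA-SURJ] ... and surjective
  `kl_H2Statement`      [K-H2]   exactness of `H²(G_{K,S},F_p) → ⊕_w H²(K_w,F_p) → H⁰(G_{K,S},μ_p)^∨`
-/
import Mathlib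
import Fermat.Agent.S55.Final

set_option autoImplicit false
set_option maxHeartbeats 1000000
set_option synthInstance.maxHeartbeats 400000
open CategoryTheory Module groupCohomology ExtCitation

noncomputable section

namespace Fermat.Agent.S55

section Defs

variable (S : Finset Nat.Primes) (K : IntermediateField ℚ (AlgebraicClosure ℚ))

/-- Level-`S` functions on `U = G_K`. -/
def kl_LevelS₁ {X : Type*} (f : ↥K.fixingSubgroup → X) : Prop :=
  ∃ F : IntermediateField ℚ (AlgebraicClosure ℚ), F.IsUnramifiedOutside S ∧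
    ∀ g s : ↥K.fixingSubgroup, (s : s55_GQ) ∈ F.fixingSubgroup → f (g * s) = f g

/-- Level-`S` functions on `U × U`. -/
def kl_LevelS₂ {X : Type*} (f : ↥K.fixingSubgroup × ↥K.fixingSubgroup → X) : Prop :=
  ∃ F : IntermediateField ℚ (AlgebraicClosure ℚ), F.IsUnramifiedOutside S ∧
    ∀ g g' s s' : ↥K.fixingSubgroup, (s : s55_GQ) ∈ F.fixingSubgroup →
      (s' : s55_GQ) ∈ F.fixingSubgroup → f (g * s, g' * s') = f (g, g')

/-- Level-`S` functions on `U × U × U`. -/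
def kl_LevelS₃ {X : Type*}
    (f : ↥K.fixingSubgroup × ↥K.fixingSubgroup × ↥K.fixingSubgroup → X) : Prop :=
  ∃ F : IntermediateField ℚ (AlgebraicClosure ℚ), F.IsUnramifiedOutside S ∧
    ∀ g g' g'' s s' s'' : ↥K.fixingSubgroup, (s : s55_GQ) ∈ F.fixingSubgroup →
      (s' : s55_GQ) ∈ F.fixingSubgroup → (s'' : s55_GQ) ∈ F.fixingSubgroup →
      f (g * s, g' * s', g'' * s'') = f (g, g', g'')

/-- Additive characters of a group with values in `X`. -/
def kl_IsHom {H : Type*} [Mul H] {X : Type*} [Add X] (f : H → X) : Prop :=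
  ∀ g h : H, f (g * h) = f g + f h

/-- 2-cocycles with trivial action. -/
def kl_IsCoc₂ {H : Type*} [Mul H] {X : Type*} [Add X] (f : H × H → X) : Prop :=
  ∀ g h j : H, f (g * h, j) + f (g, h) = f (h, j) + f (g, h * j)

/-- 3-cocycles with trivial action. -/
def kl_IsCoc₃ {H : Type*} [Mul H] {X : Type*} [AddGroup X] (f : H × H × H → X) : Prop :=
  ∀ g h j l : H, f (h, j, l) - f (g * h, j, l) + f (g, h * j, l) - f (g, h, j * l)
    + f (g, h, j) = 0

/-- The coboundary of a 1-cochain (trivial action): `(g, h) ↦ b h - b (g h) + b g`. -/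
def kl_d₁ {H : Type*} [Mul H] {X : Type*} [AddGroup X] (b : H → X) : H × H → X :=
  fun x => b x.2 - b (x.1 * x.2) + b x.1

/-- The coboundary of a 2-cochain (trivial action). -/
def kl_d₂ {H : Type*} [Mul H] {X : Type*} [AddGroup X] (a : H × H → X) : H × H × H → X :=
  fun x => a (x.2.1, x.2.2) - a (x.1 * x.2.1, x.2.2) + a (x.1, x.2.1 * x.2.2) - a (x.1, x.2.1)

/-- The local group at `q`: the preimage of `U = G_K` in `Gal(Ω_q/ℚ_q)`. -/
def kl_H (q : Nat.Primes) : Subgroup (lcf_Gal (q : ℕ)) :=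
  K.fixingSubgroup.comap (localGaloisToGlobal (q : ℕ))

theorem kl_mem_H_iff (q : Nat.Primes) (τ : lcf_Gal (q : ℕ)) :
    τ ∈ kl_H K q ↔ localGaloisToGlobal (q : ℕ) τ ∈ K.fixingSubgroup := Iff.rfl

/-- The localisation map at the place `(q, g)`: `τ ↦ g⁻¹ * loc_q τ * g`
(for `U` normal in `G_ℚ`). -/
def kl_r [hK : K.fixingSubgroup.Normal] (q : Nat.Primes) (g : s55_GQ) :
    ↥(kl_H K q) →* ↥K.fixingSubgroup where
  toFun τ := ⟨g⁻¹ * localGaloisToGlobal (q : ℕ) (τ : lcf_Gal (q : ℕ)) * g, by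
    have h := hK.conj_mem _ τ.2 g⁻¹
    rwa [inv_inv] at h⟩
  map_one' := by
    apply Subtype.ext
    simp
  map_mul' a b := by
    apply Subtype.ext
    simp [mul_assoc]

@[simp] theorem kl_r_coe [K.fixingSubgroup.Normal] (q : Nat.Primes) (g : s55_GQ)
    (τ : ↥(kl_H K q)) :
    ((kl_r K q g τ : ↥K.fixingSubgroup) : s55_GQ) =
      g⁻¹ * localGaloisToGlobal (q : ℕ) (τ : lcf_Gal (q : ℕ)) * g := rfl

/-- `R q` is a system of representatives of the places of `K` above `q`, for all `q ∈ S`: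
every `g ∈ G_ℚ` lies in exactly one double coset `loc_q(Γ_q) * g₀ * U`, `g₀ ∈ R q`. -/
def kl_IsReps (R : ↥S → Finset s55_GQ) : Prop :=
  ∀ (q : ↥S) (g : s55_GQ), ∃! g₀ : s55_GQ, g₀ ∈ R q ∧
    ∃ (τ : lcf_Gal ((q : Nat.Primes) : ℕ)) (u : s55_GQ), u ∈ K.fixingSubgroup ∧
      g = localGaloisToGlobal ((q : Nat.Primes) : ℕ) τ * g₀ * u

variable {p : ℕ} [Fact p.Prime]

/-- The local invariant at the place `(q, g)` of an `F_p`-valued 2-cochain on `kl_H K q`:
the invariant of the `μ_p`-valued cochain `(ι_q (g ζ)) ^ f = ζ_loc ^ (χ(g) f)`. -/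
def kl_inv (inv : lcf_InvType) (q : Nat.Primes) (g : s55_GQ)
    (f : ↥(kl_H K q) × ↥(kl_H K q) → ZMod p) : lcf_QZ :=
  inv (q : ℕ) (kl_H K q)
    (fun x => ld_zetaLoc p (q : ℕ) ^ (ZMod.val (((cycloChar p g : (ZMod p)ˣ) : ZMod p) * f x)))

/-- The embedding `F_p → ℚ/ℤ`, `a ↦ a / p`. -/
def kl_e (a : ZMod p) : lcf_QZ := lcf_qz ((ZMod.val a : ℚ) / (p : ℚ))

end Defs

/-- **[K-H3]** `H³(G_{K,S}, F_p) = 0` for `K ⊇ μ_p` finite, unramified outside `S`
(`K` not necessarily Galois over `ℚ`): every level-`S` 3-cocycle of `U = G_K` with values in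
`F_p` is the coboundary of a level-`S` 2-cochain.  (NSW 8.3.18, 10.9.3; `p` odd.) -/
def kl_H3Statement : Prop :=
  ∀ {p : ℕ} [Fact p.Prime], p ≠ 2 → ∀ (S : Finset Nat.Primes), pPrime p ∈ S →
    ∀ K : IntermediateField ℚ (AlgebraicClosure ℚ), K.IsUnramifiedOutside S →
      (∀ s ∈ K.fixingSubgroup, cycloChar p s = 1) →
      ∀ z : ↥K.fixingSubgroup × ↥K.fixingSubgroup × ↥K.fixingSubgroup → ZMod p,
        kl_LevelS₃ S K z → kl_IsCoc₃ z →
        ∃ a : ↥K.fixingSubgroup × ↥K.fixingSubgroup → ZMod p, kl_LevelS₂ S K a ∧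
          ∀ x, kl_d₂ a x = z x

/-- **[K-EX]** (middle of the Poitou-Tate sequence for `F_p` over `K`; Artin reciprocity +
existence theorem for exponent `p`): a family of local characters `θ_w : G_{K_w} → F_p`,
`w ∣ S`, which is orthogonal to all global characters `y : G_{K,S} → F_p(1)` (Kummer classes)
under the sum of the local pairings `inv_w (θ_w ∪ y_w)`, is the localisation of a global
character `θ₀ : G_{K,S} → F_p`. -/
def kl_ExStatement : Prop :=
  ∀ (inv : lcf_InvType), lcf_IsInvSystem inv →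
  ∀ {p : ℕ} [Fact p.Prime], p ≠ 2 → ∀ (S : Finset Nat.Primes), pPrime p ∈ S →
    ∀ (K : IntermediateField ℚ (AlgebraicClosure ℚ)) [K.fixingSubgroup.Normal],
      K.IsUnramifiedOutside S → (∀ s ∈ K.fixingSubgroup, cycloChar p s = 1) →
      ∀ R : ↥S → Finset s55_GQ, kl_IsReps S K R →
      ∀ θ : ∀ q : ↥S, s55_GQ → ↥(kl_H K (q : Nat.Primes)) → ZMod p,
        (∀ (q : ↥S), ∀ g ∈ R q, kl_IsHom (θ q g) ∧ lcf_Smooth₁ (kl_H K (q : Nat.Primes)) (θ q g)) →
        (∀ y : ↥K.fixingSubgroup → ZMod p, kl_IsHom y → kl_LevelS₁ S K y →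
          ∑ q : ↥S, ∑ g ∈ R q, kl_inv K inv (q : Nat.Primes) g
            (fun x => θ q g x.1 * y (kl_r K (q : Nat.Primes) g x.2)) = 0) →
        ∃ θ₀ : ↥K.fixingSubgroup → ZMod p, kl_IsHom θ₀ ∧ kl_LevelS₁ S K θ₀ ∧
          ∀ (q : ↥S), ∀ g ∈ R q, ∀ τ : ↥(kl_H K (q : Nat.Primes)),
            θ₀ (kl_r K (q : Nat.Primes) g τ) = θ q g τ

/-- A level-`S` 2-cocycle of `U` which is locally a (smooth) coboundary at all places above
`S`: a representative of a class in `Ш²(G_{K,S}, F_p)`. -/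
def kl_IsSha₂ (S : Finset Nat.Primes) (K : IntermediateField ℚ (AlgebraicClosure ℚ))
    [K.fixingSubgroup.Normal] (R : ↥S → Finset s55_GQ) {p : ℕ}
    (c : ↥K.fixingSubgroup × ↥K.fixingSubgroup → ZMod p) : Prop :=
  kl_IsCoc₂ c ∧ kl_LevelS₂ S K c ∧
    ∀ (q : ↥S), ∀ g ∈ R q, ∃ b : ↥(kl_H K (q : Nat.Primes)) → ZMod p,
      lcf_Smooth₁ (kl_H K (q : Nat.Primes)) b ∧
        ∀ τ τ' : ↥(kl_H K (q : Nat.Primes)),
          c (kl_r K (q : Nat.Primes) g τ, kl_r K (q : Nat.Primes) g τ') = kl_d₁ b (τ, τ')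

/-- A level-`S` character of `U` which is locally trivial at all places above `S`:
an element of `Ш¹(G_{K,S}, F_p(1))`. -/
def kl_IsSha₁ (S : Finset Nat.Primes) (K : IntermediateField ℚ (AlgebraicClosure ℚ))
    [K.fixingSubgroup.Normal] (R : ↥S → Finset s55_GQ) {p : ℕ}
    (y : ↥K.fixingSubgroup → ZMod p) : Prop :=
  kl_IsHom y ∧ kl_LevelS₁ S K y ∧
    ∀ (q : ↥S), ∀ g ∈ R q, ∀ τ : ↥(kl_H K (q : Nat.Primes)),
      y (kl_r K (q : Nat.Primes) g τ) = 0

/-- **The `Ш`-pairing, as a relation.** `kl_ShaPair inv S K R c y t` : `t ∈ ℚ/ℤ` is a value of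
the pairing of `c ∈ Ш²` with `y ∈ Ш¹`, i.e. `t = - ∑_w inv_w (ε ∘ r_w)` for some level-`S`
2-cochain `ε` of `U` with `d ε = c ∪ y`  (`(c ∪ y)(g, h, j) = c (g, h) * y j`).
(By [K-H3] such `ε` exist, by reciprocity over `K` the value does not depend on `ε`.) -/
def kl_ShaPair (inv : lcf_InvType) (S : Finset Nat.Primes)
    (K : IntermediateField ℚ (AlgebraicClosure ℚ)) [K.fixingSubgroup.Normal]
    (R : ↥S → Finset s55_GQ) {p : ℕ} [Fact p.Prime]
    (c : ↥K.fixingSubgroup × ↥K.fixingSubgroup → ZMod p) (y : ↥K.fixingSubgroup → ZMod p)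
    (t : lcf_QZ) : Prop :=
  ∃ ε : ↥K.fixingSubgroup × ↥K.fixingSubgroup → ZMod p, kl_LevelS₂ S K ε ∧
    (∀ g h j : ↥K.fixingSubgroup, kl_d₂ ε (g, h, j) = c (g, h) * y j) ∧
    t = - ∑ q : ↥S, ∑ g ∈ R q, kl_inv K inv (q : Nat.Primes) g
      (fun x => ε (kl_r K (q : Nat.Primes) g x.1, kl_r K (q : Nat.Primes) g x.2))

/-- **[K-SHA-INJ]** the pairing `Ш²(G_{K,S}, F_p) × Ш¹(G_{K,S}, F_p(1)) → ℚ/ℤ` is
non-degenerate on the left: if `c ∈ Ш²` pairs to `0` with every `y ∈ Ш¹` (for every choice of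
`ε`), then `c` is the coboundary of a level-`S` 1-cochain. -/
def kl_ShaInjStatement : Prop :=
  ∀ (inv : lcf_InvType), lcf_IsInvSystem inv →
  ∀ {p : ℕ} [Fact p.Prime], p ≠ 2 → ∀ (S : Finset Nat.Primes), pPrime p ∈ S →
    ∀ (K : IntermediateField ℚ (AlgebraicClosure ℚ)) [K.fixingSubgroup.Normal],
      K.IsUnramifiedOutside S → (∀ s ∈ K.fixingSubgroup, cycloChar p s = 1) →
      ∀ R : ↥S → Finset s55_GQ, kl_IsReps S K R →
      ∀ c : ↥K.fixingSubgroup × ↥K.fixingSubgroup → ZMod p, kl_IsSha₂ S K R c →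
        (∀ (y : ↥K.fixingSubgroup → ZMod p) (t : lcf_QZ), kl_IsSha₁ S K R y →
          kl_ShaPair inv S K R c y t → t = 0) →
        ∃ a : ↥K.fixingSubgroup → ZMod p, kl_LevelS₁ S K a ∧ ∀ x, kl_d₁ a x = c x

/-- **[K-SHA-SURJ]** the pairing `Ш² × Ш¹ → ℚ/ℤ` is non-degenerate on the right, in the form:
every additive functional `l` on the characters is induced on `Ш¹` by some `c ∈ Ш²`. -/
def kl_ShaSurjStatement : Prop :=
  ∀ (inv : lcf_InvType), lcf_IsInvSystem inv →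
  ∀ {p : ℕ} [Fact p.Prime], p ≠ 2 → ∀ (S : Finset Nat.Primes), pPrime p ∈ S →
    ∀ (K : IntermediateField ℚ (AlgebraicClosure ℚ)) [K.fixingSubgroup.Normal],
      K.IsUnramifiedOutside S → (∀ s ∈ K.fixingSubgroup, cycloChar p s = 1) →
      ∀ R : ↥S → Finset s55_GQ, kl_IsReps S K R →
      ∀ l : (↥K.fixingSubgroup → ZMod p) → ZMod p,
        (∀ y y' : ↥K.fixingSubgroup → ZMod p, l (y + y') = l y + l y') →
        ∃ c : ↥K.fixingSubgroup × ↥K.fixingSubgroup → ZMod p, kl_IsSha₂ S K R c ∧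
          ∀ (y : ↥K.fixingSubgroup → ZMod p) (t : lcf_QZ), kl_IsSha₁ S K R y →
            kl_ShaPair inv S K R c y t → t = kl_e (l y)

/-- **[K-H2]** (end of the Poitou-Tate sequence for `F_p` over `K`): a family of local classes
`α_w ∈ H²(K_w, F_p)`, `w ∣ S`, with `∑_w inv_w α_w = 0` is the localisation of a global class
in `H²(G_{K,S}, F_p)`. -/
def kl_H2Statement : Prop :=
  ∀ (inv : lcf_InvType), lcf_IsInvSystem inv →
  ∀ {p : ℕ} [Fact p.Prime], p ≠ 2 → ∀ (S : Finset Nat.Primes), pPrime p ∈ S →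
    ∀ (K : IntermediateField ℚ (AlgebraicClosure ℚ)) [K.fixingSubgroup.Normal],
      K.IsUnramifiedOutside S → (∀ s ∈ K.fixingSubgroup, cycloChar p s = 1) →
      ∀ R : ↥S → Finset s55_GQ, kl_IsReps S K R →
      ∀ α : ∀ q : ↥S, s55_GQ → ↥(kl_H K (q : Nat.Primes)) × ↥(kl_H K (q : Nat.Primes)) → ZMod p,
        (∀ (q : ↥S), ∀ g ∈ R q,
          kl_IsCoc₂ (α q g) ∧ lcf_Smooth₂ (kl_H K (q : Nat.Primes)) (α q g)) →
        ∑ q : ↥S, ∑ g ∈ R q, kl_inv K inv (q : Nat.Primes) g (α q g) = 0 →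
        ∃ c : ↥K.fixingSubgroup × ↥K.fixingSubgroup → ZMod p, kl_IsCoc₂ c ∧ kl_LevelS₂ S K c ∧
          ∀ (q : ↥S), ∀ g ∈ R q, ∃ b : ↥(kl_H K (q : Nat.Primes)) → ZMod p,
            lcf_Smooth₁ (kl_H K (q : Nat.Primes)) b ∧
              ∀ τ τ' : ↥(kl_H K (q : Nat.Primes)),
                c (kl_r K (q : Nat.Primes) g τ, kl_r K (q : Nat.Primes) g τ') - α q g (τ, τ') =
                  kl_d₁ b (τ, τ')

/-- **[K-REC]** (reciprocity over `ℚ`, Hasse's sum formula for `Br(ℚ)[p]` restricted to classes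
split by fields unramified outside `S`): for a level-`S` 2-cocycle `f` of `G_ℚ` with values in
`F_p(1)`, the invariants of the local `μ_p`-valued cocycles `ζ_loc ^ (f ∘ loc_q)`, `q ∈ S`, sum to
zero.  (The primes outside `S` and the real place do not contribute: `f` is unramified with unit
values there, resp. `p` is odd.) -/
def kl_RecQStatement : Prop :=
  ∀ (inv : lcf_InvType), lcf_IsInvSystem inv →
  ∀ {p : ℕ} [Fact p.Prime], p ≠ 2 → ∀ (S : Finset Nat.Primes), pPrime p ∈ S →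
    ∀ f : s55_GQ × s55_GQ → pt_T p, f ∈ levelCocyclesS₂ S (pt_T p) →
      ∑ q : ↥S, inv ((q : Nat.Primes) : ℕ) ⊤
        (ld_mu p S q (cone_loc₂ S (pt_T p) (Sum.inr q) f)) = 0

end Fermat.Agent.S55
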