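/-
S55 (Poitou-Tate), BRIDGE part 2: GENERIC ELEMENTWISE SHAPIRO, interface file.
Owner of the interface: helper9.  Prefix `shp_`.  Definitions and `Prop`s only.
Consumers: the global base case (`Bridge/KDefs.lean` -> `pt_BaseStatement`, `pt_H3BaseStatement`)
and the local duality cover (helper3).

SETTING (pure group theory, no arithmetic).  `Γ` a group acting on a finite set `X`,
`M`, `B` representations of `Γ` over `k` and a COORDINATE SYSTEM `C : shp_Coord X M B`, i.e.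
linear maps `π_x : M → B` (`x ∈ X`) with `π_{g x} (g m) = g (π_x m)` which identify `M` with the
module of all functions `X → B` (so `M = ⊕_{orbits} Coind_{Stab t}^Γ B`).
EXAMPLES: `M = Rep.ofMulAction k Γ X` (`B = k` trivial, `π_x a = a x`); its Tate dual
(`B = k(χ)`, `π_x φ = φ (single x 1)`); `M = (X → Ωˣ)` (`B = Ωˣ`).
LEVEL: a normal subgroup `N` of `Γ` acting trivially on `X`; cochains are "constant mod `N`"
(`shp_Const₁/₂/₃`).  NOTE: a cochain which is constant mod `N` and whose coboundary is constant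
mod `N` automatically takes `N`-invariant values, so `N` need not act trivially on `M`, `B`.
COCHAINS on a group `H` mapping to `Γ` by `r` (in practice `r = id` or the inclusion of a
stabilizer), with the elementwise coboundaries `shp_d₀ .. shp_d₃` (= Mathlib's `d₀₁, d₁₂, d₂₃`).

THE PACKAGES:
  [SHAP-INJ n], n = 1, 2, 3 : a cocycle `z` of `Γ` in `M` whose Shapiro components
       `π_t ∘ z` on the stabilizers of a covering set `T` are coboundaries, is a coboundary;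
  [SHAP-SURJ n], n = 0, 1, 2 : every family of cocycles on the stabilizers of an independent
       set `T` is the family of Shapiro components of a cocycle of `Γ` in `M`;
  [SHAP-CONJ n], n = 1, 2 : conjugation by `g₀ ∈ Γ` acts trivially on cohomology;
  [TR-INV] : for a local invariant system, `inv_Γ (∏_x F_x) = ∑_{t ∈ T} inv_{Stab t} (F_t)`
       for a smooth 2-cocycle `F` of `Γ = Gal(Ω_q/ℚ_q)` with values in the functions `X → Ωˣ`.
-/
import Mathlib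
import Fermat.Agent.S55.Local.LCFDefs

set_option autoImplicit false

noncomputable section

namespace Fermat.Agent.S55

open groupCohomology

section Defs

variable {k Γ H : Type} [CommRing k] [Group Γ] [Group H]

/-- Coboundary of a 0-cochain. -/
def shp_d₀ (r : H →* Γ) (B : Rep.{0, 0, 0} k Γ) (b : B) : H → B :=
  fun g => B.ρ (r g) b - b

/-- Coboundary of a 1-cochain. -/
def shp_d₁ (r : H →* Γ) (B : Rep.{0, 0, 0} k Γ) (f : H → B) : H × H → B :=
  fun x => B.ρ (r x.1) (f x.2) - f (x.1 * x.2) + f x.1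

/-- Coboundary of a 2-cochain. -/
def shp_d₂ (r : H →* Γ) (B : Rep.{0, 0, 0} k Γ) (f : H × H → B) : H × H × H → B :=
  fun x => B.ρ (r x.1) (f (x.2.1, x.2.2)) - f (x.1 * x.2.1, x.2.2) + f (x.1, x.2.1 * x.2.2)
    - f (x.1, x.2.1)

/-- Coboundary of a 3-cochain. -/
def shp_d₃ (r : H →* Γ) (B : Rep.{0, 0, 0} k Γ) (f : H × H × H → B) : H × H × H × H → B :=
  fun x => B.ρ (r x.1) (f (x.2.1, x.2.2.1, x.2.2.2)) - f (x.1 * x.2.1, x.2.2.1, x.2.2.2)
    + f (x.1, x.2.1 * x.2.2.1, x.2.2.2) - f (x.1, x.2.1, x.2.2.1 * x.2.2.2)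
    + f (x.1, x.2.1, x.2.2.1)

/-- 1-cochains which are constant modulo `N`. -/
def shp_Const₁ (r : H →* Γ) (N : Subgroup Γ) {Y : Type*} (f : H → Y) : Prop :=
  ∀ g s : H, r s ∈ N → f (g * s) = f g

/-- 2-cochains which are constant modulo `N`. -/
def shp_Const₂ (r : H →* Γ) (N : Subgroup Γ) {Y : Type*} (f : H × H → Y) : Prop :=
  ∀ g g' s s' : H, r s ∈ N → r s' ∈ N → f (g * s, g' * s') = f (g, g')

/-- 3-cochains which are constant modulo `N`. -/
def shp_Const₃ (r : H →* Γ) (N : Subgroup Γ) {Y : Type*} (f : H × H × H → Y) : Prop :=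
  ∀ g g' g'' s s' s'' : H, r s ∈ N → r s' ∈ N → r s'' ∈ N →
    f (g * s, g' * s', g'' * s'') = f (g, g', g'')

/-- A coordinate system on `M`: an equivariant identification of `M` with the functions
`X → B`. -/
structure shp_Coord (X : Type) [MulAction Γ X] (M B : Rep.{0, 0, 0} k Γ) where
  /-- the coordinate at `x` -/
  π : X → (M →ₗ[k] B)
  /-- equivariance -/
  equiv : ∀ (g : Γ) (x : X) (m : M), π (g • x) (M.ρ g m) = B.ρ g (π x m)
  /-- the coordinates separate the points of `M` -/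
  inj : ∀ m : M, (∀ x, π x m = 0) → m = 0
  /-- every function is a coordinate vector -/
  surj : ∀ f : X → B, ∃ m : M, ∀ x, π x m = f x

/-- `T` meets every orbit. -/
def shp_Covers (Γ : Type) [Group Γ] {X : Type} [MulAction Γ X] (T : Set X) : Prop :=
  ∀ x : X, ∃ t ∈ T, ∃ g : Γ, g • t = x

/-- `T` meets every orbit at most once. -/
def shp_Indep (Γ : Type) [Group Γ] {X : Type} [MulAction Γ X] (T : Set X) : Prop :=
  ∀ t ∈ T, ∀ t' ∈ T, (∃ g : Γ, g • t = t') → t = t'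

end Defs

/-! ### Injectivity -/

/-- **[SHAP-INJ 1]** -/
def shp_Inj₁Statement : Prop :=
  ∀ (k Γ X : Type) [CommRing k] [Group Γ] [MulAction Γ X] [Finite X]
    (M B : Rep.{0, 0, 0} k Γ) (C : shp_Coord X M B) (N : Subgroup Γ) [N.Normal],
    (∀ s ∈ N, ∀ x : X, s • x = x) → ∀ T : Set X, shp_Covers Γ T →
    ∀ z : Γ → M, (∀ x, shp_d₁ (MonoidHom.id Γ) M z x = 0) → shp_Const₁ (MonoidHom.id Γ) N z →
    ∀ a' : X → B,
      (∀ t ∈ T, ∀ v : ↥(MulAction.stabilizer Γ t),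
        C.π t (z v) = shp_d₀ (MulAction.stabilizer Γ t).subtype B (a' t) v) →
      ∃ m : M, ∀ g : Γ, shp_d₀ (MonoidHom.id Γ) M m g = z g

/-- **[SHAP-INJ 2]** -/
def shp_Inj₂Statement : Prop :=
  ∀ (k Γ X : Type) [CommRing k] [Group Γ] [MulAction Γ X] [Finite X]
    (M B : Rep.{0, 0, 0} k Γ) (C : shp_Coord X M B) (N : Subgroup Γ) [N.Normal],
    (∀ s ∈ N, ∀ x : X, s • x = x) → ∀ T : Set X, shp_Covers Γ T →
    ∀ z : Γ × Γ → M, (∀ x, shp_d₂ (MonoidHom.id Γ) M z x = 0) →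
      shp_Const₂ (MonoidHom.id Γ) N z →
    ∀ a' : ∀ t : X, ↥(MulAction.stabilizer Γ t) → B,
      (∀ t ∈ T, shp_Const₁ (MulAction.stabilizer Γ t).subtype N (a' t)) →
      (∀ t ∈ T, ∀ v w : ↥(MulAction.stabilizer Γ t),
        C.π t (z (v, w)) = shp_d₁ (MulAction.stabilizer Γ t).subtype B (a' t) (v, w)) →
      ∃ a : Γ → M, shp_Const₁ (MonoidHom.id Γ) N a ∧
        ∀ x, shp_d₁ (MonoidHom.id Γ) M a x = z x

/-- **[SHAP-INJ 3]** -/
def shp_Inj₃Statement : Prop :=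
  ∀ (k Γ X : Type) [CommRing k] [Group Γ] [MulAction Γ X] [Finite X]
    (M B : Rep.{0, 0, 0} k Γ) (C : shp_Coord X M B) (N : Subgroup Γ) [N.Normal],
    (∀ s ∈ N, ∀ x : X, s • x = x) → ∀ T : Set X, shp_Covers Γ T →
    ∀ z : Γ × Γ × Γ → M, (∀ x, shp_d₃ (MonoidHom.id Γ) M z x = 0) →
      shp_Const₃ (MonoidHom.id Γ) N z →
    ∀ a' : ∀ t : X, ↥(MulAction.stabilizer Γ t) × ↥(MulAction.stabilizer Γ t) → B,
      (∀ t ∈ T, shp_Const₂ (MulAction.stabilizer Γ t).subtype N (a' t)) →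
      (∀ t ∈ T, ∀ u v w : ↥(MulAction.stabilizer Γ t),
        C.π t (z (u, v, w)) = shp_d₂ (MulAction.stabilizer Γ t).subtype B (a' t) (u, v, w)) →
      ∃ a : Γ × Γ → M, shp_Const₂ (MonoidHom.id Γ) N a ∧
        ∀ x, shp_d₂ (MonoidHom.id Γ) M a x = z x

/-! ### Surjectivity -/

/-- **[SHAP-SURJ 0]** -/
def shp_Surj₀Statement : Prop :=
  ∀ (k Γ X : Type) [CommRing k] [Group Γ] [MulAction Γ X] [Finite X]
    (M B : Rep.{0, 0, 0} k Γ) (C : shp_Coord X M B) (T : Set X), shp_Indep Γ T →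
    ∀ a' : X → B, (∀ t ∈ T, ∀ v : ↥(MulAction.stabilizer Γ t), B.ρ (v : Γ) (a' t) = a' t) →
      ∃ m : M, (∀ g : Γ, M.ρ g m = m) ∧ ∀ t ∈ T, C.π t m = a' t

/-- **[SHAP-SURJ 1]** -/
def shp_Surj₁Statement : Prop :=
  ∀ (k Γ X : Type) [CommRing k] [Group Γ] [MulAction Γ X] [Finite X]
    (M B : Rep.{0, 0, 0} k Γ) (C : shp_Coord X M B) (N : Subgroup Γ) [N.Normal],
    (∀ s ∈ N, ∀ x : X, s • x = x) → ∀ T : Set X, shp_Indep Γ T →
    ∀ a' : ∀ t : X, ↥(MulAction.stabilizer Γ t) → B,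
      (∀ t ∈ T, shp_Const₁ (MulAction.stabilizer Γ t).subtype N (a' t)) →
      (∀ t ∈ T, ∀ x, shp_d₁ (MulAction.stabilizer Γ t).subtype B (a' t) x = 0) →
      ∃ z : Γ → M, shp_Const₁ (MonoidHom.id Γ) N z ∧
        (∀ x, shp_d₁ (MonoidHom.id Γ) M z x = 0) ∧
        ∀ t ∈ T, ∀ v : ↥(MulAction.stabilizer Γ t), C.π t (z v) = a' t v

/-- **[SHAP-SURJ 2]** -/
def shp_Surj₂Statement : Prop :=
  ∀ (k Γ X : Type) [CommRing k] [Group Γ] [MulAction Γ X] [Finite X]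
    (M B : Rep.{0, 0, 0} k Γ) (C : shp_Coord X M B) (N : Subgroup Γ) [N.Normal],
    (∀ s ∈ N, ∀ x : X, s • x = x) → ∀ T : Set X, shp_Indep Γ T →
    ∀ a' : ∀ t : X, ↥(MulAction.stabilizer Γ t) × ↥(MulAction.stabilizer Γ t) → B,
      (∀ t ∈ T, shp_Const₂ (MulAction.stabilizer Γ t).subtype N (a' t)) →
      (∀ t ∈ T, ∀ x, shp_d₂ (MulAction.stabilizer Γ t).subtype B (a' t) x = 0) →
      ∃ z : Γ × Γ → M, shp_Const₂ (MonoidHom.id Γ) N z ∧
        (∀ x, shp_d₂ (MonoidHom.id Γ) M z x = 0) ∧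
        ∀ t ∈ T, ∀ v w : ↥(MulAction.stabilizer Γ t), C.π t (z (v, w)) = a' t (v, w)

/-! ### Conjugation -/

/-- **[SHAP-CONJ 1]** for a 1-cocycle `z` and `g₀ ∈ Γ`:
`g₀ z(g₀⁻¹ σ g₀) - z σ = σ m - m` with `m = z g₀`. -/
def shp_Conj₁Statement : Prop :=
  ∀ (k Γ : Type) [CommRing k] [Group Γ] (M : Rep.{0, 0, 0} k Γ) (z : Γ → M),
    (∀ x, shp_d₁ (MonoidHom.id Γ) M z x = 0) → ∀ g₀ σ : Γ,
      M.ρ g₀ (z (g₀⁻¹ * σ * g₀)) - z σ = shp_d₀ (MonoidHom.id Γ) M (z g₀) σ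

/-- **[SHAP-CONJ 2]** for a 2-cocycle `z`, constant mod `N`, and `g₀ ∈ Γ`:
`(σ, τ) ↦ g₀ z(g₀⁻¹ σ g₀, g₀⁻¹ τ g₀) - z (σ, τ)` is the coboundary of a 1-cochain which is
constant mod `N`. -/
def shp_Conj₂Statement : Prop :=
  ∀ (k Γ : Type) [CommRing k] [Group Γ] (M : Rep.{0, 0, 0} k Γ) (N : Subgroup Γ) [N.Normal]
    (z : Γ × Γ → M), (∀ x, shp_d₂ (MonoidHom.id Γ) M z x = 0) →
    shp_Const₂ (MonoidHom.id Γ) N z → ∀ g₀ : Γ,
      ∃ κ : Γ → M, shp_Const₁ (MonoidHom.id Γ) N κ ∧ ∀ σ τ : Γ,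
        M.ρ g₀ (z (g₀⁻¹ * σ * g₀, g₀⁻¹ * τ * g₀)) - z (σ, τ) =
          shp_d₁ (MonoidHom.id Γ) M κ (σ, τ)

/-! ### The trace formula for local invariants -/

/-- **[TR-INV]** Let `inv` be a local invariant system, `X` a finite set with a smooth action
of `Γ = Gal(Ω_q/ℚ_q)`, and `F` a smooth 2-cocycle of `Γ` with values in the `Γ`-module of
functions `X → Ωˣ` (`(g φ)(x) = g (φ (g⁻¹ x))`).  Then the invariant of the product
`∏_x F_x` (a smooth 2-cocycle of `Γ` in `Ωˣ`) is the sum over a set `T` of representatives of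
the orbits of the invariants of the restrictions of `F_t` to the stabilizer of `t`. -/
def shp_TrInvStatement : Prop :=
  ∀ (inv : lcf_InvType), lcf_IsInvSystem inv →
  ∀ (q : ℕ) [Fact q.Prime] (X : Type) [MulAction (lcf_Gal q) X] [Fintype X],
    (∃ E : IntermediateField ℚ_[q] (PadicAlgCl q), FiniteDimensional ℚ_[q] E ∧
      ∀ s ∈ E.fixingSubgroup, ∀ x : X, s • x = x) →
    ∀ F : lcf_Gal q × lcf_Gal q → X → (PadicAlgCl q)ˣ,
      (∃ E : IntermediateField ℚ_[q] (PadicAlgCl q), FiniteDimensional ℚ_[q] E ∧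
        ∀ g g' s s' : lcf_Gal q, s ∈ E.fixingSubgroup → s' ∈ E.fixingSubgroup →
          F (g * s, g' * s') = F (g, g')) →
      (∀ (g h j : lcf_Gal q) (x : X),
        F (g * h, j) x * F (g, h) x = g • F (h, j) (g⁻¹ • x) * F (g, h * j) x) →
      ∀ T : Finset X, shp_Covers (lcf_Gal q) (T : Set X) → shp_Indep (lcf_Gal q) (T : Set X) →
        inv q ⊤ (fun y => ∏ x : X, F ((y.1 : lcf_Gal q), (y.2 : lcf_Gal q)) x) =
          ∑ t ∈ T, inv q (MulAction.stabilizer (lcf_Gal q) t)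
            (fun y => F ((y.1 : lcf_Gal q), (y.2 : lcf_Gal q)) t)

end Fermat.Agent.S55
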