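/-
S55 (Poitou-Tate), BRIDGE part 2, package [SHAP-INJ] (helper24): basic tools.
Prefix `shin_`.  Mathlib + `Bridge/ShapDefs.lean` only.

For a coordinate system `C : shp_Coord X M B` and a covering set `T` we choose for every `x : X`
a point `shin_t x ∈ T` and an element `shin_s x : Γ` with `shin_s x • shin_t x = x`.
The cobounding cochains of [SHAP-INJ n] are given coordinatewise by the prism formula
`a(g_1, …, g_{n-1})[x] = s_x • (a'_t (v_1, …, v_{n-1})
    + ∑_i (-1)^i π_t z(v_1, …, v_i, s_{y_i}⁻¹, g_{i+1}, …, g_{n-1}))`,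
`y_0 = x`, `y_i = g_i⁻¹ y_{i-1}`, `v_i = s_{y_{i-1}}⁻¹ g_i s_{y_i} ∈ Stab t`.
-/
import Mathlib
import Fermat.Agent.S55.Bridge.ShapDefs

set_option autoImplicit false

noncomputable section

namespace Fermat.Agent.S55

open groupCohomology

section Coord

variable {k Γ X : Type} [CommRing k] [Group Γ] [MulAction Γ X] {M B : Rep.{0, 0, 0} k Γ}
  (C : shp_Coord X M B)

/-- The coordinate at `x` of a translate. -/
theorem shin_π_ρ (g : Γ) (x : X) (m : M) : C.π x (M.ρ g m) = B.ρ g (C.π (g⁻¹ • x) m) := by
  have h := C.equiv g (g⁻¹ • x) m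
  rwa [smul_inv_smul] at h

/-- The coordinate at a fixed point. -/
theorem shin_π_stab {t : X} {v : Γ} (hv : v • t = t) (m : M) :
    C.π t (M.ρ v m) = B.ρ v (C.π t m) := by
  have h := C.equiv v t m
  rwa [hv] at h

/-- Transport of the coordinate at `t` to the coordinate at `s • t`. -/
theorem shin_π_transport {t x : X} {s : Γ} (hs : s • t = x) (m : M) :
    B.ρ s (C.π t (M.ρ s⁻¹ m)) = C.π x m := by
  have h := C.equiv s t (M.ρ s⁻¹ m)
  rw [hs] at h
  rw [← h, ← Module.End.mul_apply, ← map_mul, mul_inv_cancel, map_one, Module.End.one_apply]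

theorem shin_ext {m m' : M} (h : ∀ x, C.π x m = C.π x m') : m = m' := by
  have h0 := C.inj (m - m') (fun x => by rw [map_sub, h x, sub_self])
  exact sub_eq_zero.mp h0

/-- The element of `M` with given coordinates. -/
def shin_mk (f : X → B) : M := (C.surj f).choose

@[simp] theorem shin_π_mk (f : X → B) (x : X) : C.π x (shin_mk C f) = f x :=
  (C.surj f).choose_spec x

end Coord

section Choice

variable {Γ X : Type} [Group Γ] [MulAction Γ X] {T : Set X} (hT : shp_Covers Γ T)

/-- The chosen representative in `T` of an orbit. -/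
def shin_tq (ω : Quotient (MulAction.orbitRel Γ X)) : X := (hT (Quotient.out ω)).choose

/-- The chosen representative in `T` of the orbit of `x` (it depends only on the orbit). -/
def shin_t (x : X) : X := shin_tq hT (Quotient.mk (MulAction.orbitRel Γ X) x)

theorem shin_t_mem (x : X) : shin_t hT x ∈ T :=
  (hT (Quotient.out (Quotient.mk (MulAction.orbitRel Γ X) x))).choose_spec.1

theorem shin_t_smul (g : Γ) (x : X) : shin_t hT (g • x) = shin_t hT x := by
  have h : Quotient.mk (MulAction.orbitRel Γ X) (g • x) =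
      Quotient.mk (MulAction.orbitRel Γ X) x :=
    Quotient.sound (MulAction.mem_orbit x g)
  exact congrArg (shin_tq hT) h

theorem shin_exists_s (x : X) : ∃ s : Γ, s • shin_t hT x = x := by
  obtain ⟨g, hg⟩ := (hT (Quotient.out (Quotient.mk (MulAction.orbitRel Γ X) x))).choose_spec.2
  have h1 : Quotient.mk (MulAction.orbitRel Γ X)
      (Quotient.out (Quotient.mk (MulAction.orbitRel Γ X) x)) =
      Quotient.mk (MulAction.orbitRel Γ X) x := Quotient.out_eq _
  obtain ⟨g', hg'⟩ := Quotient.exact h1
  refine ⟨g'⁻¹ * g, ?_⟩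
  have hg2 : g • shin_t hT x = Quotient.out (Quotient.mk (MulAction.orbitRel Γ X) x) := hg
  have hg3 : g' • x = Quotient.out (Quotient.mk (MulAction.orbitRel Γ X) x) := hg'
  rw [mul_smul, hg2, ← hg3, inv_smul_smul]

/-- The chosen element carrying `shin_t x` to `x`. -/
def shin_s (x : X) : Γ := (shin_exists_s hT x).choose

theorem shin_s_smul (x : X) : shin_s hT x • shin_t hT x = x := (shin_exists_s hT x).choose_spec

/-- The chosen element of the orbit of `x`, seen from the representative of `x`. -/
theorem shin_s_smul' (g : Γ) (x : X) : shin_s hT (g • x) • shin_t hT x = g • x := by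
  have h := shin_s_smul hT (g • x)
  rwa [shin_t_smul] at h

/-- `s_x⁻¹ g s_{g⁻¹ x}` fixes the representative of `x`. -/
theorem shin_v_smul (g : Γ) (x : X) :
    ((shin_s hT x)⁻¹ * g * shin_s hT (g⁻¹ • x)) • shin_t hT x = shin_t hT x := by
  rw [mul_smul, mul_smul, shin_s_smul', smul_inv_smul, inv_smul_eq_iff, shin_s_smul]

end Choice

end Fermat.Agent.S55
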