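/-
S55 (Poitou-Tate), BRIDGE part 2, package [SHAP-SURJ].  Owner: helper28.  Prefix `shsu_`.

Every family of cocycles on the stabilizers of an independent set `T` is the family of Shapiro
components of a cocycle of `Γ` in `M`:
`shsu_main₀ : shp_Surj₀Statement`, `shsu_main₁ : shp_Surj₁Statement`,
`shsu_main₂ : shp_Surj₂Statement`.

CONSTRUCTION.  For `x` in the orbit of a point of `T` let `rep x ∈ T` be that point and
`sec x ∈ Γ` with `sec x • rep x = x` (`sec t = 1` for `t ∈ T`).  The coordinates of the cocycle are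
  `π_x (z (g, h)) = sec x • a'_{rep x} (sec x⁻¹ g sec (g⁻¹ x), sec (g⁻¹ x)⁻¹ h sec (h⁻¹ g⁻¹ x))`
(and `0` off the orbits of `T`); similarly in degrees 0 and 1.
-/
import Mathlib
import Fermat.Agent.S55.Bridge.ShapDefs

set_option autoImplicit false

noncomputable section

namespace Fermat.Agent.S55

open groupCohomology

section Choice

variable (Γ : Type) {X : Type} [Group Γ] [MulAction Γ X] (T : Set X)

/-- `x` lies in the orbit of a point of `T`. -/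
def shsu_Good (x : X) : Prop := ∃ t ∈ T, ∃ g : Γ, g • t = x

open Classical in
/-- The point of `T` in the orbit of `x` (`x` itself off the orbits of `T`). -/
def shsu_rep (x : X) : X :=
  if _hx : x ∈ T then x else
    if h : shsu_Good Γ T x then Classical.choose h else x

open Classical in
/-- An element of `Γ` carrying `shsu_rep x` to `x`. -/
def shsu_sec (x : X) : Γ :=
  if _hx : x ∈ T then 1 else
    if h : shsu_Good Γ T x then Classical.choose (Classical.choose_spec h).2 else 1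

theorem shsu_rep_of_mem {t : X} (ht : t ∈ T) : shsu_rep Γ T t = t := by
  simp [shsu_rep, ht]

theorem shsu_sec_of_mem {t : X} (ht : t ∈ T) : shsu_sec Γ T t = 1 := by
  simp [shsu_sec, ht]

theorem shsu_sec_smul (x : X) : shsu_sec Γ T x • shsu_rep Γ T x = x := by
  by_cases hx : x ∈ T
  · rw [shsu_rep_of_mem Γ T hx, shsu_sec_of_mem Γ T hx, one_smul]
  · by_cases h : shsu_Good Γ T x
    · simp only [shsu_rep, shsu_sec, hx, h, dite_false, dite_true]
      exact Classical.choose_spec (Classical.choose_spec h).2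
    · simp [shsu_rep, shsu_sec, hx, h]

theorem shsu_rep_mem {x : X} (h : shsu_Good Γ T x) : shsu_rep Γ T x ∈ T := by
  by_cases hx : x ∈ T
  · rw [shsu_rep_of_mem Γ T hx]; exact hx
  · simp only [shsu_rep, hx, h, dite_false, dite_true]
    exact (Classical.choose_spec h).1

theorem shsu_good_of_mem {t : X} (ht : t ∈ T) : shsu_Good Γ T t := ⟨t, ht, 1, one_smul _ _⟩

theorem shsu_good_smul (g : Γ) {x : X} (h : shsu_Good Γ T x) : shsu_Good Γ T (g • x) := by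
  obtain ⟨t, ht, g', rfl⟩ := h
  exact ⟨t, ht, g * g', mul_smul _ _ _⟩

theorem shsu_good_smul_iff (g : Γ) (x : X) : shsu_Good Γ T (g • x) ↔ shsu_Good Γ T x := by
  refine ⟨fun h => ?_, shsu_good_smul Γ T g⟩
  have := shsu_good_smul Γ T g⁻¹ h
  rwa [inv_smul_smul] at this

variable {Γ T}

theorem shsu_rep_smul (hT : shp_Indep Γ T) (g : Γ) {x : X} (h : shsu_Good Γ T x) :
    shsu_rep Γ T (g • x) = shsu_rep Γ T x := by
  have h' := shsu_good_smul Γ T g h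
  refine hT _ (shsu_rep_mem Γ T h') _ (shsu_rep_mem Γ T h)
    ⟨(shsu_sec Γ T x)⁻¹ * g⁻¹ * shsu_sec Γ T (g • x), ?_⟩
  rw [mul_smul, mul_smul, shsu_sec_smul, inv_smul_smul, inv_smul_eq_iff, shsu_sec_smul]

/-- The element `sec x⁻¹ g sec (g⁻¹ x)` of the stabilizer of `rep x`. -/
theorem shsu_mem_stab (hT : shp_Indep Γ T) (g : Γ) {x : X} (h : shsu_Good Γ T x) :
    (shsu_sec Γ T x)⁻¹ * g * shsu_sec Γ T (g⁻¹ • x) ∈ MulAction.stabilizer Γ (shsu_rep Γ T x) := by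
  rw [MulAction.mem_stabilizer_iff, mul_smul, mul_smul]
  have h1 : shsu_sec Γ T (g⁻¹ • x) • shsu_rep Γ T x = g⁻¹ • x := by
    rw [← shsu_rep_smul hT g⁻¹ h, shsu_sec_smul]
  rw [h1, smul_inv_smul, inv_smul_eq_iff, shsu_sec_smul]

end Choice

section Ext

variable {k Γ X : Type} [CommRing k] [Group Γ] [MulAction Γ X] (B : Rep.{0, 0, 0} k Γ)

open Classical in
/-- Extension by zero of a 1-cochain of the stabilizer of `t`. -/
def shsu_ext₁ (t : X) (a : ↥(MulAction.stabilizer Γ t) → B) : Γ → B :=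
  fun g => if h : g ∈ MulAction.stabilizer Γ t then a ⟨g, h⟩ else 0

open Classical in
/-- Extension by zero of a 2-cochain of the stabilizer of `t`. -/
def shsu_ext₂ (t : X) (a : ↥(MulAction.stabilizer Γ t) × ↥(MulAction.stabilizer Γ t) → B) :
    Γ × Γ → B :=
  fun x => if h : x.1 ∈ MulAction.stabilizer Γ t ∧ x.2 ∈ MulAction.stabilizer Γ t then
    a (⟨x.1, h.1⟩, ⟨x.2, h.2⟩) else 0

theorem shsu_ext₁_of_mem (t : X) (a : ↥(MulAction.stabilizer Γ t) → B) {g : Γ}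
    (h : g ∈ MulAction.stabilizer Γ t) : shsu_ext₁ B t a g = a ⟨g, h⟩ := by
  simp [shsu_ext₁, h]

theorem shsu_ext₂_of_mem (t : X)
    (a : ↥(MulAction.stabilizer Γ t) × ↥(MulAction.stabilizer Γ t) → B) {g g' : Γ}
    (h : g ∈ MulAction.stabilizer Γ t) (h' : g' ∈ MulAction.stabilizer Γ t) :
    shsu_ext₂ B t a (g, g') = a (⟨g, h⟩, ⟨g', h'⟩) := by
  simp [shsu_ext₂, h, h']

/-- The 1-cocycle relation for the extension. -/
theorem shsu_ext₁_mul (t : X) (a : ↥(MulAction.stabilizer Γ t) → B)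
    (ha : ∀ x, shp_d₁ (MulAction.stabilizer Γ t).subtype B a x = 0) {u v : Γ}
    (hu : u ∈ MulAction.stabilizer Γ t) (hv : v ∈ MulAction.stabilizer Γ t) :
    shsu_ext₁ B t a (u * v) = B.ρ u (shsu_ext₁ B t a v) + shsu_ext₁ B t a u := by
  rw [shsu_ext₁_of_mem B t a hu, shsu_ext₁_of_mem B t a hv,
    shsu_ext₁_of_mem B t a (mul_mem hu hv)]
  have h1 := ha (⟨u, hu⟩, ⟨v, hv⟩)
  simp only [shp_d₁, Subgroup.coe_subtype] at h1
  have h2 : B.ρ u (a ⟨v, hv⟩) + a ⟨u, hu⟩ - a (⟨u, hu⟩ * ⟨v, hv⟩) = 0 := by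
    rw [← h1]; abel
  exact (sub_eq_zero.1 h2).symm

/-- The 2-cocycle relation for the extension. -/
theorem shsu_ext₂_coc (t : X)
    (a : ↥(MulAction.stabilizer Γ t) × ↥(MulAction.stabilizer Γ t) → B)
    (ha : ∀ x, shp_d₂ (MulAction.stabilizer Γ t).subtype B a x = 0) {u v w : Γ}
    (hu : u ∈ MulAction.stabilizer Γ t) (hv : v ∈ MulAction.stabilizer Γ t)
    (hw : w ∈ MulAction.stabilizer Γ t) :
    B.ρ u (shsu_ext₂ B t a (v, w)) - shsu_ext₂ B t a (u * v, w) + shsu_ext₂ B t a (u, v * w)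
      - shsu_ext₂ B t a (u, v) = 0 := by
  rw [shsu_ext₂_of_mem B t a hv hw, shsu_ext₂_of_mem B t a (mul_mem hu hv) hw,
    shsu_ext₂_of_mem B t a hu (mul_mem hv hw), shsu_ext₂_of_mem B t a hu hv]
  have h1 := ha (⟨u, hu⟩, ⟨v, hv⟩, ⟨w, hw⟩)
  simp only [shp_d₂, Subgroup.coe_subtype] at h1
  exact h1

end Ext

section Coordinates

variable {k Γ X : Type} [CommRing k] [Group Γ] [MulAction Γ X] {M B : Rep.{0, 0, 0} k Γ}
  (C : shp_Coord X M B)

/-- Two elements with the same coordinates are equal. -/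
theorem shsu_ext {m m' : M} (h : ∀ x, C.π x m = C.π x m') : m = m' := by
  have h1 : m - m' = 0 := C.inj _ fun x => by rw [map_sub, h x, sub_self]
  exact sub_eq_zero.1 h1

/-- The coordinates of `g m`. -/
theorem shsu_coord_smul (g : Γ) (m : M) (x : X) :
    C.π x (M.ρ g m) = B.ρ g (C.π (g⁻¹ • x) m) := by
  have := C.equiv g (g⁻¹ • x) m
  rwa [smul_inv_smul] at this

end Coordinates

section Main

variable {k Γ X : Type} [CommRing k] [Group Γ] [MulAction Γ X] (B : Rep.{0, 0, 0} k Γ)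
  (T : Set X)

open Classical in
/-- The coordinates of the invariant element. -/
def shsu_F₀ (a' : X → B) (x : X) : B :=
  if shsu_Good Γ T x then B.ρ (shsu_sec Γ T x) (a' (shsu_rep Γ T x)) else 0

open Classical in
/-- The coordinates of the 1-cocycle. -/
def shsu_F₁ (a' : ∀ t : X, ↥(MulAction.stabilizer Γ t) → B) (g : Γ) (x : X) : B :=
  if shsu_Good Γ T x then
    B.ρ (shsu_sec Γ T x) (shsu_ext₁ B (shsu_rep Γ T x) (a' (shsu_rep Γ T x))
      ((shsu_sec Γ T x)⁻¹ * g * shsu_sec Γ T (g⁻¹ • x)))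
  else 0

open Classical in
/-- The coordinates of the 2-cocycle. -/
def shsu_F₂ (a' : ∀ t : X, ↥(MulAction.stabilizer Γ t) × ↥(MulAction.stabilizer Γ t) → B)
    (g : Γ × Γ) (x : X) : B :=
  if shsu_Good Γ T x then
    B.ρ (shsu_sec Γ T x) (shsu_ext₂ B (shsu_rep Γ T x) (a' (shsu_rep Γ T x))
      ((shsu_sec Γ T x)⁻¹ * g.1 * shsu_sec Γ T (g.1⁻¹ • x),
        (shsu_sec Γ T (g.1⁻¹ • x))⁻¹ * g.2 * shsu_sec Γ T (g.2⁻¹ • g.1⁻¹ • x)))
  else 0

variable {B T}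

theorem shsu_rho_mul (g h : Γ) (b : B) : B.ρ (g * h) b = B.ρ g (B.ρ h b) := by
  rw [map_mul]; rfl

/-- Equivariance of the coordinates in degree 0. -/
theorem shsu_F₀_smul (hT : shp_Indep Γ T) (a' : X → B)
    (ha : ∀ t ∈ T, ∀ v : ↥(MulAction.stabilizer Γ t), B.ρ (v : Γ) (a' t) = a' t) (g : Γ) (x : X) :
    B.ρ g (shsu_F₀ B T a' (g⁻¹ • x)) = shsu_F₀ B T a' x := by
  by_cases h : shsu_Good Γ T x
  · have h' : shsu_Good Γ T (g⁻¹ • x) := shsu_good_smul Γ T g⁻¹ h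
    simp only [shsu_F₀, h, h', if_true]
    rw [shsu_rep_smul hT g⁻¹ h]
    have hm := shsu_mem_stab hT g h
    have e := ha _ (shsu_rep_mem Γ T h) ⟨_, hm⟩
    simp only at e
    rw [← shsu_rho_mul]
    have e2 : g * shsu_sec Γ T (g⁻¹ • x) =
        shsu_sec Γ T x * ((shsu_sec Γ T x)⁻¹ * g * shsu_sec Γ T (g⁻¹ • x)) := by group
    rw [e2, shsu_rho_mul, e]
  · have h' : ¬ shsu_Good Γ T (g⁻¹ • x) := fun h' => h ((shsu_good_smul_iff Γ T g⁻¹ x).1 h')
    simp only [shsu_F₀, h, h', if_false, map_zero]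

/-- The cocycle relation of the coordinates in degree 1. -/
theorem shsu_F₁_mul (hT : shp_Indep Γ T) (a' : ∀ t : X, ↥(MulAction.stabilizer Γ t) → B)
    (ha : ∀ t ∈ T, ∀ x, shp_d₁ (MulAction.stabilizer Γ t).subtype B (a' t) x = 0)
    (g h : Γ) (x : X) :
    shsu_F₁ B T a' (g * h) x = B.ρ g (shsu_F₁ B T a' h (g⁻¹ • x)) + shsu_F₁ B T a' g x := by
  by_cases hx : shsu_Good Γ T x
  · have hx' : shsu_Good Γ T (g⁻¹ • x) := shsu_good_smul Γ T g⁻¹ hx
    simp only [shsu_F₁, hx, hx', if_true]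
    rw [shsu_rep_smul hT g⁻¹ hx]
    have hu := shsu_mem_stab hT g hx
    have hv := shsu_mem_stab hT h hx'
    rw [shsu_rep_smul hT g⁻¹ hx] at hv
    have e1 : (shsu_sec Γ T x)⁻¹ * (g * h) * shsu_sec Γ T ((g * h)⁻¹ • x) =
        ((shsu_sec Γ T x)⁻¹ * g * shsu_sec Γ T (g⁻¹ • x)) *
          ((shsu_sec Γ T (g⁻¹ • x))⁻¹ * h * shsu_sec Γ T (h⁻¹ • g⁻¹ • x)) := by
      rw [mul_inv_rev, mul_smul]; group
    rw [e1, shsu_ext₁_mul B _ _ (ha _ (shsu_rep_mem Γ T hx)) hu hv, map_add]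
    congr 1
    rw [← shsu_rho_mul, ← shsu_rho_mul]
    congr 2
    group
  · have hx' : ¬ shsu_Good Γ T (g⁻¹ • x) := fun h' => hx ((shsu_good_smul_iff Γ T g⁻¹ x).1 h')
    simp only [shsu_F₁, hx, hx', if_false, map_zero, add_zero]

/-- The cocycle relation of the coordinates in degree 2. -/
theorem shsu_F₂_coc (hT : shp_Indep Γ T)
    (a' : ∀ t : X, ↥(MulAction.stabilizer Γ t) × ↥(MulAction.stabilizer Γ t) → B)
    (ha : ∀ t ∈ T, ∀ x, shp_d₂ (MulAction.stabilizer Γ t).subtype B (a' t) x = 0)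
    (g h j : Γ) (x : X) :
    B.ρ g (shsu_F₂ B T a' (h, j) (g⁻¹ • x)) - shsu_F₂ B T a' (g * h, j) x
      + shsu_F₂ B T a' (g, h * j) x - shsu_F₂ B T a' (g, h) x = 0 := by
  by_cases hx : shsu_Good Γ T x
  · have hx' : shsu_Good Γ T (g⁻¹ • x) := shsu_good_smul Γ T g⁻¹ hx
    have hx'' : shsu_Good Γ T (h⁻¹ • g⁻¹ • x) := shsu_good_smul Γ T h⁻¹ hx'
    simp only [shsu_F₂, hx, hx', if_true]
    rw [shsu_rep_smul hT g⁻¹ hx]
    have hu := shsu_mem_stab hT g hx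
    have hv := shsu_mem_stab hT h hx'
    have hw := shsu_mem_stab hT j hx''
    rw [shsu_rep_smul hT g⁻¹ hx] at hv
    rw [shsu_rep_smul hT h⁻¹ hx', shsu_rep_smul hT g⁻¹ hx] at hw
    have key := shsu_ext₂_coc B _ _ (ha _ (shsu_rep_mem Γ T hx)) hu hv hw
    have e1 : (shsu_sec Γ T x)⁻¹ * (g * h) * shsu_sec Γ T ((g * h)⁻¹ • x) =
        ((shsu_sec Γ T x)⁻¹ * g * shsu_sec Γ T (g⁻¹ • x)) *
          ((shsu_sec Γ T (g⁻¹ • x))⁻¹ * h * shsu_sec Γ T (h⁻¹ • g⁻¹ • x)) := by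
      rw [mul_inv_rev, mul_smul]; group
    have e2 : (shsu_sec Γ T (g⁻¹ • x))⁻¹ * (h * j) * shsu_sec Γ T ((h * j)⁻¹ • g⁻¹ • x) =
        ((shsu_sec Γ T (g⁻¹ • x))⁻¹ * h * shsu_sec Γ T (h⁻¹ • g⁻¹ • x)) *
          ((shsu_sec Γ T (h⁻¹ • g⁻¹ • x))⁻¹ * j * shsu_sec Γ T (j⁻¹ • h⁻¹ • g⁻¹ • x)) := by
      rw [mul_inv_rev, mul_smul]; group
    have e3 : (g * h)⁻¹ • x = h⁻¹ • g⁻¹ • x := by rw [mul_inv_rev, mul_smul]
    rw [e1, e2, e3]
    have e4 : B.ρ g (B.ρ (shsu_sec Γ T (g⁻¹ • x))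
        (shsu_ext₂ B (shsu_rep Γ T x) (a' (shsu_rep Γ T x))
          ((shsu_sec Γ T (g⁻¹ • x))⁻¹ * h * shsu_sec Γ T (h⁻¹ • g⁻¹ • x),
            (shsu_sec Γ T (h⁻¹ • g⁻¹ • x))⁻¹ * j * shsu_sec Γ T (j⁻¹ • h⁻¹ • g⁻¹ • x)))) =
        B.ρ (shsu_sec Γ T x) (B.ρ ((shsu_sec Γ T x)⁻¹ * g * shsu_sec Γ T (g⁻¹ • x))
          (shsu_ext₂ B (shsu_rep Γ T x) (a' (shsu_rep Γ T x))
          ((shsu_sec Γ T (g⁻¹ • x))⁻¹ * h * shsu_sec Γ T (h⁻¹ • g⁻¹ • x),
            (shsu_sec Γ T (h⁻¹ • g⁻¹ • x))⁻¹ * j * shsu_sec Γ T (j⁻¹ • h⁻¹ • g⁻¹ • x)))) := by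
      rw [← shsu_rho_mul, ← shsu_rho_mul]
      congr 2
      group
    rw [e4, ← map_sub, ← map_add, ← map_sub, key, map_zero]
  · have hx' : ¬ shsu_Good Γ T (g⁻¹ • x) := fun h' => hx ((shsu_good_smul_iff Γ T g⁻¹ x).1 h')
    simp only [shsu_F₂, hx, hx', if_false, map_zero, sub_self, add_zero]

end Main

/-- **[SHAP-SURJ 0]** -/
theorem shsu_main₀ : shp_Surj₀Statement := by
  intro k Γ X _ _ _ _ M B C T hT a' ha
  obtain ⟨m, hm⟩ := C.surj (shsu_F₀ B T a')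
  refine ⟨m, fun g => ?_, fun t ht => ?_⟩
  · refine shsu_ext C fun x => ?_
    rw [shsu_coord_smul, hm, hm, shsu_F₀_smul hT a' ha]
  · rw [hm]
    simp only [shsu_F₀, shsu_good_of_mem Γ T ht, if_true]
    rw [shsu_sec_of_mem Γ T ht, shsu_rep_of_mem Γ T ht, map_one]
    rfl

/-- **[SHAP-SURJ 1]** -/
theorem shsu_main₁ : shp_Surj₁Statement := by
  intro k Γ X _ _ _ _ M B C N hN hNX T hT a' hc ha
  have hex : ∀ g : Γ, ∃ m : M, ∀ x, C.π x m = shsu_F₁ B T a' g x := fun g => C.surj _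
  choose z hz using hex
  refine ⟨z, ?_, ?_, ?_⟩
  · -- constant mod `N`
    intro g s hs
    refine shsu_ext C fun x => ?_
    rw [hz, hz]
    by_cases hx : shsu_Good Γ T x
    · simp only [shsu_F₁, hx, if_true]
      have hx' : shsu_Good Γ T (g⁻¹ • x) := shsu_good_smul Γ T g⁻¹ hx
      have e1 : (g * s)⁻¹ • x = g⁻¹ • x := by
        rw [mul_inv_rev, mul_smul, hNX s⁻¹ (N.inv_mem hs)]
      rw [e1]
      have hu := shsu_mem_stab hT g hx
      set c := shsu_sec Γ T (g⁻¹ • x) with hcdef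
      have hs' : c⁻¹ * s * c ∈ N := by
        have := hN.conj_mem s hs c⁻¹
        simpa using this
      have hs'' : c⁻¹ * s * c ∈ MulAction.stabilizer Γ (shsu_rep Γ T x) := by
        rw [MulAction.mem_stabilizer_iff]; exact hNX _ hs' _
      have e2 : (shsu_sec Γ T x)⁻¹ * (g * s) * c =
          ((shsu_sec Γ T x)⁻¹ * g * c) * (c⁻¹ * s * c) := by group
      rw [e2, shsu_ext₁_of_mem B _ _ (mul_mem hu hs''), shsu_ext₁_of_mem B _ _ hu]
      congr 1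
      exact hc _ (shsu_rep_mem Γ T hx) ⟨_, hu⟩ ⟨_, hs''⟩ hs'
    · simp only [shsu_F₁, hx, if_false]
  · -- cocycle
    rintro ⟨g, h⟩
    refine C.inj _ fun x => ?_
    simp only [shp_d₁, MonoidHom.id_apply, map_sub, map_add]
    rw [shsu_coord_smul, hz, hz, hz, shsu_F₁_mul hT a' ha g h x]
    abel
  · -- components
    intro t ht v
    rw [hz]
    simp only [shsu_F₁, shsu_good_of_mem Γ T ht, if_true]
    have e1 : (v : Γ)⁻¹ • t = t := by
      rw [inv_smul_eq_iff]; exact (MulAction.mem_stabilizer_iff.1 v.2).symm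
    rw [e1, shsu_sec_of_mem Γ T ht, shsu_rep_of_mem Γ T ht, map_one]
    have e2 : (1 : Γ)⁻¹ * (v : Γ) * 1 = v := by group
    rw [e2, shsu_ext₁_of_mem B t (a' t) v.2]
    rfl

/-- **[SHAP-SURJ 2]** -/
theorem shsu_main₂ : shp_Surj₂Statement := by
  intro k Γ X _ _ _ _ M B C N hN hNX T hT a' hc ha
  have hex : ∀ g : Γ × Γ, ∃ m : M, ∀ x, C.π x m = shsu_F₂ B T a' g x := fun g => C.surj _
  choose z hz using hex
  refine ⟨z, ?_, ?_, ?_⟩
  · -- constant mod `N`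
    intro g g' s s' hs hs'
    refine shsu_ext C fun x => ?_
    rw [hz, hz]
    by_cases hx : shsu_Good Γ T x
    · simp only [shsu_F₂, hx, if_true]
      have hx' : shsu_Good Γ T (g⁻¹ • x) := shsu_good_smul Γ T g⁻¹ hx
      have e1 : (g * s)⁻¹ • x = g⁻¹ • x := by
        rw [mul_inv_rev, mul_smul, hNX s⁻¹ (N.inv_mem hs)]
      have e1' : (g' * s')⁻¹ • g⁻¹ • x = g'⁻¹ • g⁻¹ • x := by
        rw [mul_inv_rev, mul_smul, hNX s'⁻¹ (N.inv_mem hs')]
      rw [e1, e1']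
      have hu := shsu_mem_stab hT g hx
      have hv := shsu_mem_stab hT g' hx'
      rw [shsu_rep_smul hT g⁻¹ hx] at hv
      set c := shsu_sec Γ T (g⁻¹ • x) with hcdef
      set c' := shsu_sec Γ T (g'⁻¹ • g⁻¹ • x) with hcdef'
      have hs1 : c⁻¹ * s * c ∈ N := by
        have := hN.conj_mem s hs c⁻¹
        simpa using this
      have hs2 : c'⁻¹ * s' * c' ∈ N := by
        have := hN.conj_mem s' hs' c'⁻¹
        simpa using this
      have hs1' : c⁻¹ * s * c ∈ MulAction.stabilizer Γ (shsu_rep Γ T x) := by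
        rw [MulAction.mem_stabilizer_iff]; exact hNX _ hs1 _
      have hs2' : c'⁻¹ * s' * c' ∈ MulAction.stabilizer Γ (shsu_rep Γ T x) := by
        rw [MulAction.mem_stabilizer_iff]; exact hNX _ hs2 _
      have e2 : (shsu_sec Γ T x)⁻¹ * (g * s) * c =
          ((shsu_sec Γ T x)⁻¹ * g * c) * (c⁻¹ * s * c) := by group
      have e3 : c⁻¹ * (g' * s') * c' = (c⁻¹ * g' * c') * (c'⁻¹ * s' * c') := by group
      rw [e2, e3, shsu_ext₂_of_mem B _ _ (mul_mem hu hs1') (mul_mem hv hs2'),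
        shsu_ext₂_of_mem B _ _ hu hv]
      congr 1
      exact hc _ (shsu_rep_mem Γ T hx) ⟨_, hu⟩ ⟨_, hv⟩ ⟨_, hs1'⟩ ⟨_, hs2'⟩ hs1 hs2
    · simp only [shsu_F₂, hx, if_false]
  · -- cocycle
    rintro ⟨g, h, j⟩
    refine C.inj _ fun x => ?_
    simp only [shp_d₂, MonoidHom.id_apply, map_sub, map_add]
    rw [shsu_coord_smul, hz, hz, hz, hz]
    exact shsu_F₂_coc hT a' ha g h j x
  · -- components
    intro t ht v w
    rw [hz]
    simp only [shsu_F₂, shsu_good_of_mem Γ T ht, if_true]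
    have e1 : (v : Γ)⁻¹ • t = t := by
      rw [inv_smul_eq_iff]; exact (MulAction.mem_stabilizer_iff.1 v.2).symm
    have e1' : (w : Γ)⁻¹ • t = t := by
      rw [inv_smul_eq_iff]; exact (MulAction.mem_stabilizer_iff.1 w.2).symm
    rw [e1, e1', shsu_sec_of_mem Γ T ht, shsu_rep_of_mem Γ T ht, map_one]
    have e2 : (1 : Γ)⁻¹ * (v : Γ) * 1 = v := by group
    have e2' : (1 : Γ)⁻¹ * (w : Γ) * 1 = w := by group
    rw [e2, e2', shsu_ext₂_of_mem B t (a' t) v.2 w.2]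
    rfl

end Fermat.Agent.S55
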