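/-
S55 (Poitou-Tate), BRIDGE layer, part 1: interfaces between the Prelude's level-`S` / continuous
cochains on `G_ℚ`, `G_{ℚ_q}` and cochains of FINITE Galois groups.  Owner of the file: helper9.
Prefix `br_`.  Every `def ... : Prop` below is a package (deliver `theorem <prefix>_x : br_XStatement`).

* `[GCLOSURE]`   the Galois closure of a finite extension unramified outside `S` is unramified
                 outside `S`.
* `[FINLEVEL-G]` a level-`S` cochain of `G_ℚ` (degrees 1, 2, 3) is the inflation of a cochain of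
                 `Gal(F/ℚ)`, `F` finite Galois, unramified outside `S`, containing a given `F₀`;
                 and conversely.
* `[FINLEVEL-L]` a continuous cochain of `G_{ℚ_q}` (degrees 1, 2, 3) is the inflation of a cochain
                 of `Gal(E/ℚ_q)`, `E` finite Galois over `ℚ_q`; and conversely (Krasner).
* `[MU-T]`       `F_p(1) ≅ μ_p`: there is a primitive `p`-th root of unity `ζ` with
                 `g ζ = ζ ^ (cycloChar p g)`.
-/
import Mathlib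
import Fermat.Agent.S55.PTBase

set_option autoImplicit false
set_option maxHeartbeats 1000000
set_option synthInstance.maxHeartbeats 400000
open CategoryTheory Module groupCohomology ExtCitation

namespace Fermat.Agent.S55

/-- Restriction `G_ℚ → Gal(F/ℚ)` for a normal subfield `F`. -/
noncomputable abbrev br_res (F : IntermediateField ℚ (AlgebraicClosure ℚ)) [Normal ℚ F] :
    s55_GQ →* (F ≃ₐ[ℚ] F) :=
  AlgEquiv.restrictNormalHom F

/-- **[GCLOSURE]** -/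
def br_GClosureStatement : Prop :=
  ∀ (S : Finset Nat.Primes) (F : IntermediateField ℚ (AlgebraicClosure ℚ)),
    F.IsUnramifiedOutside S →
    ∃ F' : IntermediateField ℚ (AlgebraicClosure ℚ), F ≤ F' ∧ F'.IsUnramifiedOutside S ∧
      Normal ℚ F'

/-- **[FINLEVEL-G1]** -/
def br_FinLevelG1Statement : Prop :=
  ∀ (S : Finset Nat.Primes) (X : Type) (c : s55_GQ → X), IsLevelConstantS₁ S c →
    ∀ F₀ : IntermediateField ℚ (AlgebraicClosure ℚ), F₀.IsUnramifiedOutside S →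
    ∃ (F : IntermediateField ℚ (AlgebraicClosure ℚ)) (_ : Normal ℚ F) (c' : (F ≃ₐ[ℚ] F) → X),
      F₀ ≤ F ∧ F.IsUnramifiedOutside S ∧ ∀ g, c g = c' (br_res F g)

/-- **[FINLEVEL-G2]** -/
def br_FinLevelG2Statement : Prop :=
  ∀ (S : Finset Nat.Primes) (X : Type) (c : s55_GQ × s55_GQ → X), IsLevelConstantS₂ S c →
    ∀ F₀ : IntermediateField ℚ (AlgebraicClosure ℚ), F₀.IsUnramifiedOutside S →
    ∃ (F : IntermediateField ℚ (AlgebraicClosure ℚ)) (_ : Normal ℚ F)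
      (c' : (F ≃ₐ[ℚ] F) × (F ≃ₐ[ℚ] F) → X),
      F₀ ≤ F ∧ F.IsUnramifiedOutside S ∧ ∀ g h, c (g, h) = c' (br_res F g, br_res F h)

/-- **[FINLEVEL-G3]** -/
def br_FinLevelG3Statement : Prop :=
  ∀ (S : Finset Nat.Primes) (X : Type) (c : s55_GQ × s55_GQ × s55_GQ → X), pt_IsLevelS₃ S c →
    ∀ F₀ : IntermediateField ℚ (AlgebraicClosure ℚ), F₀.IsUnramifiedOutside S →
    ∃ (F : IntermediateField ℚ (AlgebraicClosure ℚ)) (_ : Normal ℚ F)
      (c' : (F ≃ₐ[ℚ] F) × (F ≃ₐ[ℚ] F) × (F ≃ₐ[ℚ] F) → X),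
      F₀ ≤ F ∧ F.IsUnramifiedOutside S ∧
        ∀ g h j, c (g, h, j) = c' (br_res F g, br_res F h, br_res F j)

/-- **[INFL-G]** inflations from `Gal(F/ℚ)`, `F` unramified outside `S`, are level-`S`. -/
def br_InflGStatement : Prop :=
  ∀ (S : Finset Nat.Primes) (X : Type) (F : IntermediateField ℚ (AlgebraicClosure ℚ))
    [Normal ℚ F], F.IsUnramifiedOutside S →
    (∀ c' : (F ≃ₐ[ℚ] F) → X, IsLevelConstantS₁ S (fun g => c' (br_res F g))) ∧
    (∀ c' : (F ≃ₐ[ℚ] F) × (F ≃ₐ[ℚ] F) → X,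
      IsLevelConstantS₂ S (fun x : s55_GQ × s55_GQ => c' (br_res F x.1, br_res F x.2))) ∧
    (∀ c' : (F ≃ₐ[ℚ] F) × (F ≃ₐ[ℚ] F) × (F ≃ₐ[ℚ] F) → X,
      pt_IsLevelS₃ S (fun x : s55_GQ × s55_GQ × s55_GQ =>
        c' (br_res F x.1, br_res F x.2.1, br_res F x.2.2)))

section Local

variable (q : ℕ) [Fact q.Prime]

/-- The local absolute Galois group at `q` (as in the Prelude). -/
abbrev br_Gq : Type := PadicAlgCl q ≃ₐ[ℚ_[q]] PadicAlgCl q

/-- Restriction `G_{ℚ_q} → Gal(E/ℚ_q)` for a normal subfield `E`. -/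
noncomputable abbrev br_resq (E : IntermediateField ℚ_[q] (PadicAlgCl q)) [Normal ℚ_[q] E] :
    br_Gq q →* (E ≃ₐ[ℚ_[q]] E) :=
  AlgEquiv.restrictNormalHom E

end Local

/-- **[FINLEVEL-L]** (easy direction): a continuous local cochain factors through a finite
Galois quotient `Gal(E/ℚ_q)`, `E ⊇ E₀` arbitrary finite. -/
def br_FinLevelLStatement : Prop :=
  ∀ (q : ℕ) [Fact q.Prime] (X : Type)
    (E₀ : IntermediateField ℚ_[q] (PadicAlgCl q)), FiniteDimensional ℚ_[q] E₀ →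
    (∀ c : br_Gq q → X, IsLevelConstant₁ (localGaloisToGlobal q) c →
      ∃ (E : IntermediateField ℚ_[q] (PadicAlgCl q)) (_ : Normal ℚ_[q] E)
        (c' : (E ≃ₐ[ℚ_[q]] E) → X), E₀ ≤ E ∧ FiniteDimensional ℚ_[q] E ∧
          ∀ g, c g = c' (br_resq q E g)) ∧
    (∀ c : br_Gq q × br_Gq q → X, IsLevelConstant₂ (localGaloisToGlobal q) c →
      ∃ (E : IntermediateField ℚ_[q] (PadicAlgCl q)) (_ : Normal ℚ_[q] E)
        (c' : (E ≃ₐ[ℚ_[q]] E) × (E ≃ₐ[ℚ_[q]] E) → X), E₀ ≤ E ∧ FiniteDimensional ℚ_[q] E ∧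
          ∀ g h, c (g, h) = c' (br_resq q E g, br_resq q E h)) ∧
    (∀ c : br_Gq q × br_Gq q × br_Gq q → X, pt_IsLevel₃ (localGaloisToGlobal q) c →
      ∃ (E : IntermediateField ℚ_[q] (PadicAlgCl q)) (_ : Normal ℚ_[q] E)
        (c' : (E ≃ₐ[ℚ_[q]] E) × (E ≃ₐ[ℚ_[q]] E) × (E ≃ₐ[ℚ_[q]] E) → X),
        E₀ ≤ E ∧ FiniteDimensional ℚ_[q] E ∧
          ∀ g h j, c (g, h, j) = c' (br_resq q E g, br_resq q E h, br_resq q E j))

/-- **[KRASNER]** every finite extension of `ℚ_q` inside `PadicAlgCl q` is contained in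
`ℚ_q · padicEmbedding(F)` for a number field `F`: the subgroup of `G_{ℚ_q}` fixing `E` contains
the preimage of the fixing subgroup of some finite `F ⊆ AlgebraicClosure ℚ`. -/
def br_KrasnerStatement : Prop :=
  ∀ (q : ℕ) [Fact q.Prime] (E : IntermediateField ℚ_[q] (PadicAlgCl q)),
    FiniteDimensional ℚ_[q] E →
    ∃ F : IntermediateField ℚ (AlgebraicClosure ℚ), FiniteDimensional ℚ F ∧
      ∀ s : br_Gq q, localGaloisToGlobal q s ∈ F.fixingSubgroup → s ∈ E.fixingSubgroup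

/-- **[INFL-L]** (uses [KRASNER]): inflations from `Gal(E/ℚ_q)` are continuous in the Prelude's
sense. -/
def br_InflLStatement : Prop :=
  ∀ (q : ℕ) [Fact q.Prime] (X : Type) (E : IntermediateField ℚ_[q] (PadicAlgCl q))
    [Normal ℚ_[q] E], FiniteDimensional ℚ_[q] E →
    (∀ c' : (E ≃ₐ[ℚ_[q]] E) → X,
      IsLevelConstant₁ (localGaloisToGlobal q) (fun g => c' (br_resq q E g))) ∧
    (∀ c' : (E ≃ₐ[ℚ_[q]] E) × (E ≃ₐ[ℚ_[q]] E) → X,
      IsLevelConstant₂ (localGaloisToGlobal q)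
        (fun x : br_Gq q × br_Gq q => c' (br_resq q E x.1, br_resq q E x.2))) ∧
    (∀ c' : (E ≃ₐ[ℚ_[q]] E) × (E ≃ₐ[ℚ_[q]] E) × (E ≃ₐ[ℚ_[q]] E) → X,
      pt_IsLevel₃ (localGaloisToGlobal q)
        (fun x : br_Gq q × br_Gq q × br_Gq q =>
          c' (br_resq q E x.1, br_resq q E x.2.1, br_resq q E x.2.2)))

/-- **[MU-T]** `F_p(1) ≅ μ_p` as `G_ℚ`-modules. -/
def br_MuTStatement : Prop :=
  ∀ (p : ℕ) [Fact p.Prime], ∃ ζ : AlgebraicClosure ℚ, IsPrimitiveRoot ζ p ∧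
    ∀ g : s55_GQ, g ζ = ζ ^ ((cycloChar p g : ZMod p)).val

end Fermat.Agent.S55
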