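/-
S55 (Poitou-Tate), BRIDGE part 1, global half (helper24).  Prefix `brg_`.

* `brg_gClosure`    : `br_GClosureStatement`   (the normal closure of a finite extension unramified
                      outside `S` is unramified outside `S`);
* `brg_finLevelG1/2/3` : `br_FinLevelG1/2/3Statement` (level-`S` cochains are inflated from a
                      finite Galois quotient `Gal(F/ℚ)`, `F` unramified outside `S`);
* `brg_inflG`       : `br_InflGStatement` (inflations are level-`S`).
-/
import Mathlib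
import Fermat.Agent.S55.Bridge.Defs
import Fermat.Agent.S14.UnramValBridge
import Fermat.Agent.S05.Inertia

set_option autoImplicit false
set_option linter.style.haveILetI false
set_option maxHeartbeats 1000000
set_option synthInstance.maxHeartbeats 400000
open CategoryTheory Module groupCohomology ExtCitation
open scoped Pointwise

namespace Fermat.Agent.S55

open Fermat.Agent.S14 (redC_smul_liesOver redC_smul_nonunits redC_mem_inertia redC_int_mem)

local notation "Qbar" => AlgebraicClosure ℚ
local notation "Bint" => integralClosure ℤ (AlgebraicClosure ℚ)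

local instance brg_isAlgebraicQbar : Algebra.IsAlgebraic ℚ (AlgebraicClosure ℚ) :=
  AlgebraicClosure.isAlgebraic ℚ
local instance brg_isAlgClosureQbar : IsAlgClosure ℚ (AlgebraicClosure ℚ) :=
  ⟨inferInstance, inferInstance⟩
local instance brg_normalQbar : Normal ℚ (AlgebraicClosure ℚ) :=
  IsAlgClosure.normal ℚ (AlgebraicClosure ℚ)

/-! ### Conjugation of inertia groups -/

/-- conjugating an element of the inertia group at `A` by `σ` gives an element of the inertia
group at `σ⁻¹ • A`. -/
theorem brg_conj_inertia (A : ValuationSubring Qbar) {q : ℕ} (hq : q.Prime)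
    (hA : A.LiesOverPrime q) (σ τ : s55_GQ) (hτ : τ ∈ A.inertiaSubgroupIn ℚ) :
    σ⁻¹ * τ * σ ∈ (σ⁻¹ • A).inertiaSubgroupIn ℚ := by
  apply redC_mem_inertia (σ⁻¹ • A) hq (redC_smul_liesOver σ⁻¹ A hA)
  intro b
  have hgb : σ (b : Qbar) ∈ A := redC_int_mem A _ (b.2.map σ)
  have h1 : A.valuation (τ (σ (b : Qbar)) - σ (b : Qbar)) < 1 :=
    Fermat.Agent.S05.inertia_sub_lt_one A τ hτ _ ((A.valuation_le_one_iff _).2 hgb)
  have h2 : τ (σ (b : Qbar)) - σ (b : Qbar) ∈ A.nonunits :=
    (ValuationSubring.mem_nonunits_iff A).2 h1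
  rw [redC_smul_nonunits, inv_inv]
  have h3 : σ ((σ⁻¹ * τ * σ) (b : Qbar) - (b : Qbar)) =
      τ (σ (b : Qbar)) - σ (b : Qbar) := by
    rw [map_sub]
    simp only [AlgEquiv.mul_apply]
    congr 1
    exact AlgEquiv.apply_symm_apply σ _
  rw [h3]
  exact h2

/-- a conjugate of a field unramified outside `S` is unramified outside `S`. -/
theorem brg_map_unram {S : Finset Nat.Primes} {F : IntermediateField ℚ Qbar}
    (hF : F.IsUnramifiedOutside S) (σ : s55_GQ) :
    (F.map (σ : Qbar →ₐ[ℚ] Qbar)).IsUnramifiedOutside S := by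
  haveI := hF.1
  refine ⟨?_, fun q hq A hA τ hτ => ?_⟩
  · exact FiniteDimensional.of_surjective
      (F.equivMap (σ : Qbar →ₐ[ℚ] Qbar)).toLinearMap (F.equivMap _).surjective
  · rw [IntermediateField.mem_fixingSubgroup_iff]
    intro x hx
    obtain ⟨y, hy, rfl⟩ := (IntermediateField.mem_map F).1 hx
    have h1 := brg_conj_inertia A q.2 hA σ τ hτ
    have h2 := hF.2 q hq (σ⁻¹ • A) (redC_smul_liesOver σ⁻¹ A hA) h1
    have h3 := (IntermediateField.mem_fixingSubgroup_iff _ _).1 h2 y hy
    simp only [AlgEquiv.mul_apply] at h3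
    have h4 := congrArg σ h3
    rw [show σ (σ⁻¹ (τ (σ y))) = τ (σ y) from AlgEquiv.apply_symm_apply σ _] at h4
    exact h4

/-- the normal closure of a field unramified outside `S` is unramified outside `S`. -/
theorem brg_normalClosure_unram {S : Finset Nat.Primes} {F : IntermediateField ℚ Qbar}
    (hF : F.IsUnramifiedOutside S) :
    (IntermediateField.normalClosure ℚ F Qbar).IsUnramifiedOutside S := by
  haveI := hF.1
  refine ⟨normalClosure.is_finiteDimensional ℚ F Qbar, fun q hq A hA => ?_⟩
  rw [← IntermediateField.le_iff_le]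
  refine (IntermediateField.normalClosure_def'' F).le.trans ?_
  refine iSup_le fun σ => ?_
  rw [IntermediateField.le_iff_le]
  exact (brg_map_unram hF σ).2 q hq A hA

/-- **[GCLOSURE]** -/
theorem brg_gClosure : br_GClosureStatement := fun _ F hF =>
  ⟨IntermediateField.normalClosure ℚ F Qbar, IntermediateField.le_normalClosure F,
    brg_normalClosure_unram hF, normalClosure.normal ℚ F Qbar⟩

/-! ### Finite levels -/

theorem brg_res_surjective (F : IntermediateField ℚ Qbar) [Normal ℚ F] :
    Function.Surjective (br_res F) :=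
  AlgEquiv.restrictNormalHom_surjective Qbar

theorem brg_res_eq_one_iff (F : IntermediateField ℚ Qbar) [hn : Normal ℚ F] (s : s55_GQ) :
    br_res F s = 1 ↔ s ∈ F.fixingSubgroup := by
  have h := @IntermediateField.restrictNormalHom_ker ℚ Qbar _ _ _ F hn
  constructor
  · intro hs
    rw [← h]
    exact MonoidHom.mem_ker.2 hs
  · intro hs
    rw [← h] at hs
    exact MonoidHom.mem_ker.1 hs

/-- a set-theoretic section of the restriction map. -/
noncomputable def brg_lift (F : IntermediateField ℚ Qbar) [Normal ℚ F] (x : F ≃ₐ[ℚ] F) : s55_GQ :=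
  Function.surjInv (brg_res_surjective F) x

theorem brg_res_lift (F : IntermediateField ℚ Qbar) [Normal ℚ F] (x : F ≃ₐ[ℚ] F) :
    br_res F (brg_lift F x) = x :=
  Function.surjInv_eq (brg_res_surjective F) x

/-- `lift (res g) = g * s` with `s` in the fixing subgroup. -/
theorem brg_lift_res (F : IntermediateField ℚ Qbar) [Normal ℚ F] (g : s55_GQ) :
    ∃ s ∈ F.fixingSubgroup, brg_lift F (br_res F g) = g * s := by
  refine ⟨g⁻¹ * brg_lift F (br_res F g), ?_, by group⟩
  rw [← brg_res_eq_one_iff, map_mul, map_inv, brg_res_lift, inv_mul_cancel]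

/-- a common normal level. -/
theorem brg_common_level {S : Finset Nat.Primes} {F₀ F₁ : IntermediateField ℚ Qbar}
    (h₀ : F₀.IsUnramifiedOutside S) (h₁ : F₁.IsUnramifiedOutside S) :
    ∃ (F : IntermediateField ℚ Qbar) (_ : Normal ℚ F),
      F₀ ≤ F ∧ F₁ ≤ F ∧ F.IsUnramifiedOutside S :=
  ⟨IntermediateField.normalClosure ℚ (F₀ ⊔ F₁ : IntermediateField ℚ Qbar) Qbar,
    normalClosure.normal ℚ _ Qbar,
    le_sup_left.trans (IntermediateField.le_normalClosure _),
    le_sup_right.trans (IntermediateField.le_normalClosure _),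
    brg_normalClosure_unram (h₀.sup h₁)⟩

/-- **[FINLEVEL-G1]** -/
theorem brg_finLevelG1 : br_FinLevelG1Statement := by
  intro S X c hc F₀ hF₀
  obtain ⟨F₁, hF₁, h⟩ := hc
  obtain ⟨F, hn, h0, h1, hF⟩ := brg_common_level hF₀ hF₁
  refine ⟨F, hn, fun x => c (brg_lift F x), h0, hF, fun g => ?_⟩
  obtain ⟨s, hs, e⟩ := brg_lift_res F g
  change c g = c (brg_lift F (br_res F g))
  rw [e]
  exact (h g s (IntermediateField.fixingSubgroup_antitone h1 hs)).symm

/-- **[FINLEVEL-G2]** -/
theorem brg_finLevelG2 : br_FinLevelG2Statement := by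
  intro S X c hc F₀ hF₀
  obtain ⟨F₁, hF₁, h⟩ := hc
  obtain ⟨F, hn, h0, h1, hF⟩ := brg_common_level hF₀ hF₁
  refine ⟨F, hn, fun x => c (brg_lift F x.1, brg_lift F x.2), h0, hF, fun g g' => ?_⟩
  obtain ⟨s, hs, e⟩ := brg_lift_res F g
  obtain ⟨s', hs', e'⟩ := brg_lift_res F g'
  change c (g, g') = c (brg_lift F (br_res F g), brg_lift F (br_res F g'))
  rw [e, e']
  exact (h g g' s s' (IntermediateField.fixingSubgroup_antitone h1 hs)
    (IntermediateField.fixingSubgroup_antitone h1 hs')).symm

/-- **[FINLEVEL-G3]** -/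
theorem brg_finLevelG3 : br_FinLevelG3Statement := by
  intro S X c hc F₀ hF₀
  obtain ⟨F₁, hF₁, h⟩ := hc
  obtain ⟨F, hn, h0, h1, hF⟩ := brg_common_level hF₀ hF₁
  refine ⟨F, hn, fun x => c (brg_lift F x.1, brg_lift F x.2.1, brg_lift F x.2.2), h0, hF,
    fun g g' g'' => ?_⟩
  obtain ⟨s, hs, e⟩ := brg_lift_res F g
  obtain ⟨s', hs', e'⟩ := brg_lift_res F g'
  obtain ⟨s'', hs'', e''⟩ := brg_lift_res F g''
  change c (g, g', g'') =
    c (brg_lift F (br_res F g), brg_lift F (br_res F g'), brg_lift F (br_res F g''))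
  rw [e, e', e'']
  exact (h g g' g'' s s' s'' (IntermediateField.fixingSubgroup_antitone h1 hs)
    (IntermediateField.fixingSubgroup_antitone h1 hs')
    (IntermediateField.fixingSubgroup_antitone h1 hs'')).symm

theorem brg_res_mul_fix (F : IntermediateField ℚ Qbar) [Normal ℚ F] (g s : s55_GQ)
    (hs : s ∈ F.fixingSubgroup) : br_res F (g * s) = br_res F g := by
  rw [map_mul, (brg_res_eq_one_iff F s).2 hs, mul_one]

/-- **[INFL-G]** -/
theorem brg_inflG : br_InflGStatement := by
  intro S X F _ hF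
  refine ⟨fun c' => ⟨F, hF, fun g s hs => ?_⟩, fun c' => ⟨F, hF, fun g g' s s' hs hs' => ?_⟩,
    fun c' => ⟨F, hF, fun g g' g'' s s' s'' hs hs' hs'' => ?_⟩⟩
  · change c' (br_res F (g * s)) = c' (br_res F g)
    rw [brg_res_mul_fix F g s hs]
  · change c' (br_res F (g * s), br_res F (g' * s')) = c' (br_res F g, br_res F g')
    rw [brg_res_mul_fix F g s hs, brg_res_mul_fix F g' s' hs']
  · change c' (br_res F (g * s), br_res F (g' * s'), br_res F (g'' * s'')) =
      c' (br_res F g, br_res F g', br_res F g'')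
    rw [brg_res_mul_fix F g s hs, brg_res_mul_fix F g' s' hs', brg_res_mul_fix F g'' s'' hs'']

end Fermat.Agent.S55
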