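/-
S55 (Poitou-Tate), BRIDGE part 2, package [SHAP-INJ] (helper24): degree 3.
`shin_main₃ : shp_Inj₃Statement`.  Prefix `shin_`.
-/
import Mathlib
import Fermat.Agent.S55.Bridge.ShapInjBasic

set_option autoImplicit false
set_option maxHeartbeats 1000000

noncomputable section

namespace Fermat.Agent.S55

open groupCohomology

/-- The prism identity for a 3-cocycle. -/
theorem shin_prism₃ {k Γ : Type} [CommRing k] [Group Γ] {M : Rep.{0, 0, 0} k Γ}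
    (z : Γ × Γ × Γ → M) (hz : ∀ x, shp_d₃ (MonoidHom.id Γ) M z x = 0)
    (p q r e g h j v₁ v₂ v₃ : Γ) (h₁ : v₁ * q = p * g) (h₂ : v₂ * r = q * h)
    (h₃ : v₃ * e = r * j) :
    M.ρ p (z (g, h, j)) = z (v₁, v₂, v₃)
      + M.ρ v₁ (z (q, h, j)) - M.ρ v₁ (z (v₂, r, j)) + M.ρ v₁ (z (v₂, v₃, e))
      - z (p, g * h, j) + z (v₁ * v₂, r, j) - z (v₁ * v₂, v₃, e)
      + z (p, g, h * j) - z (v₁, q, h * j) + z (v₁, v₂ * v₃, e)
      - z (p, g, h) + z (v₁, q, h) - z (v₁, v₂, r) := by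
  have c1 := hz (p, g, h, j)
  have c2 := hz (v₁, q, h, j)
  have c3 := hz (v₁, v₂, r, j)
  have c4 := hz (v₁, v₂, v₃, e)
  simp only [shp_d₃, MonoidHom.id_apply] at c1 c2 c3 c4
  rw [h₁] at c2
  rw [h₂] at c3
  rw [h₃] at c4
  linear_combination (norm := abel) c1 - c2 + c3 - c4

section Ext

variable {Γ X : Type} [Group Γ] [MulAction Γ X] {B : Type} [Zero B]

open Classical in
/-- Extension by zero of a family of 2-cochains on the stabilizers. -/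
def shin_ext₂ (a' : ∀ t : X, ↥(MulAction.stabilizer Γ t) × ↥(MulAction.stabilizer Γ t) → B)
    (t : X) (γ γ' : Γ) : B :=
  if h : γ • t = t ∧ γ' • t = t then a' t (⟨γ, h.1⟩, ⟨γ', h.2⟩) else 0

theorem shin_ext₂_eq (a' : ∀ t : X, ↥(MulAction.stabilizer Γ t) × ↥(MulAction.stabilizer Γ t) → B)
    (t : X) (v w : ↥(MulAction.stabilizer Γ t)) :
    shin_ext₂ a' t (v : Γ) (w : Γ) = a' t (v, w) := by
  have hv : (v : Γ) • t = t ∧ (w : Γ) • t = t := ⟨v.2, w.2⟩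
  simp only [shin_ext₂, dif_pos hv]

end Ext

theorem shin_main₃ : shp_Inj₃Statement := by
  intro k Γ X _ _ _ _ M B C N hNn hN T hT z hz hzc a' ha'c ha'
  set â : X → Γ → Γ → B := shin_ext₂ a' with hâ
  have hâd : ∀ x : X, ∀ u v w : Γ, u • shin_t hT x = shin_t hT x →
      v • shin_t hT x = shin_t hT x → w • shin_t hT x = shin_t hT x →
      C.π (shin_t hT x) (z (u, v, w)) =
        B.ρ u (â (shin_t hT x) v w) - â (shin_t hT x) (u * v) w + â (shin_t hT x) u (v * w)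
          - â (shin_t hT x) u v := by
    intro x u v w hu hv hw
    have h := ha' (shin_t hT x) (shin_t_mem hT x) ⟨u, hu⟩ ⟨v, hv⟩ ⟨w, hw⟩
    simp only [shp_d₂, Subgroup.coe_subtype] at h
    have e1 : shin_ext₂ a' (shin_t hT x) v w = a' (shin_t hT x) (⟨v, hv⟩, ⟨w, hw⟩) :=
      shin_ext₂_eq a' _ ⟨v, hv⟩ ⟨w, hw⟩
    have e2 : shin_ext₂ a' (shin_t hT x) (u * v) w =
        a' (shin_t hT x) (⟨u, hu⟩ * ⟨v, hv⟩, ⟨w, hw⟩) :=
      shin_ext₂_eq a' _ (⟨u, hu⟩ * ⟨v, hv⟩) ⟨w, hw⟩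
    have e3 : shin_ext₂ a' (shin_t hT x) u (v * w) =
        a' (shin_t hT x) (⟨u, hu⟩, ⟨v, hv⟩ * ⟨w, hw⟩) :=
      shin_ext₂_eq a' _ ⟨u, hu⟩ (⟨v, hv⟩ * ⟨w, hw⟩)
    have e4 : shin_ext₂ a' (shin_t hT x) u v = a' (shin_t hT x) (⟨u, hu⟩, ⟨v, hv⟩) :=
      shin_ext₂_eq a' _ ⟨u, hu⟩ ⟨v, hv⟩
    rw [h, hâ, e1, e2, e3, e4]
  have hâc : ∀ x : X, ∀ v w n n' : Γ, v • shin_t hT x = shin_t hT x →
      w • shin_t hT x = shin_t hT x → n ∈ N → n' ∈ N →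
      â (shin_t hT x) (v * n) (w * n') = â (shin_t hT x) v w := by
    intro x v w n n' hv hw hn hn'
    have hnt : n • shin_t hT x = shin_t hT x := hN n hn _
    have hnt' : n' • shin_t hT x = shin_t hT x := hN n' hn' _
    have h := ha'c (shin_t hT x) (shin_t_mem hT x) ⟨v, hv⟩ ⟨w, hw⟩ ⟨n, hnt⟩ ⟨n', hnt'⟩ hn hn'
    have e1 : shin_ext₂ a' (shin_t hT x) (v * n) (w * n') =
        a' (shin_t hT x) (⟨v, hv⟩ * ⟨n, hnt⟩, ⟨w, hw⟩ * ⟨n', hnt'⟩) :=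
      shin_ext₂_eq a' _ (⟨v, hv⟩ * ⟨n, hnt⟩) (⟨w, hw⟩ * ⟨n', hnt'⟩)
    have e2 : shin_ext₂ a' (shin_t hT x) v w = a' (shin_t hT x) (⟨v, hv⟩, ⟨w, hw⟩) :=
      shin_ext₂_eq a' _ ⟨v, hv⟩ ⟨w, hw⟩
    rw [hâ]
    exact (e1.trans h).trans e2.symm
  -- the cobounding cochain, coordinatewise
  set F : Γ × Γ → X → B := fun gh x =>
    B.ρ (shin_s hT x)
      (â (shin_t hT x) ((shin_s hT x)⁻¹ * gh.1 * shin_s hT (gh.1⁻¹ • x))
          ((shin_s hT (gh.1⁻¹ • x))⁻¹ * gh.2 * shin_s hT (gh.2⁻¹ • gh.1⁻¹ • x))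
      + C.π (shin_t hT x) (z ((shin_s hT x)⁻¹, gh.1, gh.2))
      - C.π (shin_t hT x) (z ((shin_s hT x)⁻¹ * gh.1 * shin_s hT (gh.1⁻¹ • x),
          (shin_s hT (gh.1⁻¹ • x))⁻¹, gh.2))
      + C.π (shin_t hT x) (z ((shin_s hT x)⁻¹ * gh.1 * shin_s hT (gh.1⁻¹ • x),
          (shin_s hT (gh.1⁻¹ • x))⁻¹ * gh.2 * shin_s hT (gh.2⁻¹ • gh.1⁻¹ • x),
          (shin_s hT (gh.2⁻¹ • gh.1⁻¹ • x))⁻¹))) with hF
  have hsmulN : ∀ (g n : Γ) (y : X), n ∈ N → (g * n)⁻¹ • y = g⁻¹ • y := by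
    intro g n y hn
    rw [mul_inv_rev, mul_smul]
    exact hN n⁻¹ (N.inv_mem hn) _
  have hconj : ∀ (s n : Γ), n ∈ N → s⁻¹ * n * s ∈ N := by
    intro s n hn
    have := hNn.conj_mem n hn s⁻¹
    rwa [inv_inv] at this
  refine ⟨fun gh => shin_mk C (F gh), ?_, ?_⟩
  · -- level
    intro g h n n' hn hn'
    have hn : n ∈ N := hn
    have hn' : n' ∈ N := hn'
    apply shin_ext C
    intro x
    rw [shin_π_mk, shin_π_mk]
    simp only [hF]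
    rw [hsmulN g n x hn, hsmulN h n' _ hn']
    set sx := shin_s hT x
    set sy := shin_s hT (g⁻¹ • x)
    set sw := shin_s hT (h⁻¹ • g⁻¹ • x)
    have hv₁ : (sx⁻¹ * g * sy) • shin_t hT x = shin_t hT x := shin_v_smul hT g x
    have hv₂ : (sy⁻¹ * h * sw) • shin_t hT x = shin_t hT x := by
      have h0 := shin_v_smul hT h (g⁻¹ • x)
      rw [shin_t_smul] at h0
      exact h0
    have e1 : sx⁻¹ * (g * n) * sy = sx⁻¹ * g * sy * (sy⁻¹ * n * sy) := by group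
    have e2 : sy⁻¹ * (h * n') * sw = sy⁻¹ * h * sw * (sw⁻¹ * n' * sw) := by group
    have f1 : z (sx⁻¹, g * n, h * n') = z (sx⁻¹, g, h) := by
      have := hzc sx⁻¹ g h 1 n n' N.one_mem hn hn'
      rwa [mul_one] at this
    have f2 : z (sx⁻¹ * g * sy * (sy⁻¹ * n * sy), sy⁻¹, h * n') = z (sx⁻¹ * g * sy, sy⁻¹, h) := by
      have := hzc (sx⁻¹ * g * sy) sy⁻¹ h (sy⁻¹ * n * sy) 1 n' (hconj sy n hn) N.one_mem hn'
      rwa [mul_one] at this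
    have f3 : z (sx⁻¹ * g * sy * (sy⁻¹ * n * sy), sy⁻¹ * h * sw * (sw⁻¹ * n' * sw), sw⁻¹) =
        z (sx⁻¹ * g * sy, sy⁻¹ * h * sw, sw⁻¹) := by
      have := hzc (sx⁻¹ * g * sy) (sy⁻¹ * h * sw) sw⁻¹ (sy⁻¹ * n * sy) (sw⁻¹ * n' * sw) 1
        (hconj sy n hn) (hconj sw n' hn') N.one_mem
      rwa [mul_one] at this
    rw [e1, e2, hâc x _ _ _ _ hv₁ hv₂ (hconj sy n hn) (hconj sw n' hn'), f1, f2, f3]
  · -- coboundary
    rintro ⟨g, h, j⟩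
    apply shin_ext C
    intro x
    simp only [shp_d₂, MonoidHom.id_apply, map_add, map_sub]
    rw [shin_π_ρ, shin_π_mk, shin_π_mk, shin_π_mk, shin_π_mk]
    simp only [hF]
    have hw : (g * h)⁻¹ • x = h⁻¹ • g⁻¹ • x := by rw [mul_inv_rev, mul_smul]
    have hu : (h * j)⁻¹ • g⁻¹ • x = j⁻¹ • h⁻¹ • g⁻¹ • x := by rw [mul_inv_rev, mul_smul]
    rw [shin_t_smul, hw, hu]
    set t := shin_t hT x with ht
    set sx := shin_s hT x with hsx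
    set sy := shin_s hT (g⁻¹ • x) with hsy
    set sw := shin_s hT (h⁻¹ • g⁻¹ • x) with hsw
    set su := shin_s hT (j⁻¹ • h⁻¹ • g⁻¹ • x) with hsu
    have hv₁ : (sx⁻¹ * g * sy) • t = t := shin_v_smul hT g x
    have hv₂ : (sy⁻¹ * h * sw) • t = t := by
      have h0 := shin_v_smul hT h (g⁻¹ • x)
      rw [shin_t_smul] at h0
      exact h0
    have hv₃ : (sw⁻¹ * j * su) • t = t := by
      have h0 := shin_v_smul hT j (h⁻¹ • g⁻¹ • x)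
      rw [shin_t_smul, shin_t_smul] at h0
      exact h0
    have e12 : sx⁻¹ * (g * h) * sw = sx⁻¹ * g * sy * (sy⁻¹ * h * sw) := by group
    have e23 : sy⁻¹ * (h * j) * su = sy⁻¹ * h * sw * (sw⁻¹ * j * su) := by group
    have hP := shin_prism₃ z hz sx⁻¹ sy⁻¹ sw⁻¹ su⁻¹ g h j (sx⁻¹ * g * sy) (sy⁻¹ * h * sw)
      (sw⁻¹ * j * su) (by group) (by group) (by group)
    have hP' := congrArg (C.π t) hP
    simp only [map_add, map_sub] at hP'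
    rw [shin_π_stab C hv₁, shin_π_stab C hv₁, shin_π_stab C hv₁, hâd x _ _ _ hv₁ hv₂ hv₃] at hP'
    have hT' : C.π x (z (g, h, j)) = B.ρ sx (C.π t (M.ρ sx⁻¹ (z (g, h, j)))) :=
      (shin_π_transport C (shin_s_smul hT x) _).symm
    rw [hT', hP', e12, e23]
    have hgs : B.ρ g ∘ₗ B.ρ sy = B.ρ sx ∘ₗ B.ρ (sx⁻¹ * g * sy) := by
      rw [← Module.End.mul_eq_comp, ← Module.End.mul_eq_comp, ← map_mul, ← map_mul]
      congr 1
      group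
    have hgs' : ∀ b : B, B.ρ g (B.ρ sy b) = B.ρ sx (B.ρ (sx⁻¹ * g * sy) b) :=
      fun b => LinearMap.congr_fun hgs b
    rw [hgs']
    simp only [map_add, map_sub]
    abel

end Fermat.Agent.S55
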