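/-
S55 (Poitou-Tate), BRIDGE part 2, K→A package (2) [A-EX-OF] (helper6), part 1: coordinates.
Prefix `kaex_`.

* `kaex_coord'`      : the coordinate system of the Tate dual of a permutation module of `G_ℚ`;
* `kaex_resCoord`    : restriction of a coordinate system along a homomorphism;
* `kaex_act`         : the action of the local Galois group at `q` on `G_ℚ / U`;
* `kaex_smul_eq_iff` : for `U` normal, every stabilizer of `G_ℚ / U` is `U`;
* `kaex_conj`        : the exact conjugation identity for the Shapiro components of a 1-cocycle;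
* `kaex_exists_reps`, `kaex_reps_covers`, `kaex_reps_indep`, `kaex_reps_injOn` : systems of
  representatives of the places (`kl_IsReps`);
* `kaex_lift`        : a level-`S` character of `U` is the Shapiro component at the trivial coset
  of a level-`S` cocycle of `G_ℚ` ([SHAP-SURJ 1]).
-/
import Mathlib
import Fermat.Agent.S55.Bridge.ADefs
import Fermat.Agent.S55.Bridge.KDefs
import Fermat.Agent.S55.Bridge.ShapInjBasic
import Fermat.Agent.S55.Bridge.ShapSurj
import Fermat.Agent.S55.Bridge.ShapConj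
import Fermat.Agent.S55.Local.PermCoord
import Fermat.Agent.S55.H3OfMain
import Fermat.Agent.S55.CoverOfRep

set_option autoImplicit false
set_option maxHeartbeats 1000000
set_option synthInstance.maxHeartbeats 400000
set_option linter.style.haveILetI false
set_option linter.unusedVariables false
set_option linter.unusedSectionVars false

noncomputable section

namespace Fermat.Agent.S55

open CategoryTheory Module groupCohomology ExtCitation

/-! ### Generic coordinate tools -/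

section Generic

variable {k Γ H X : Type} [CommRing k] [Group Γ] [Group H] [MulAction Γ X]

/-- Restriction of a coordinate system along `r : H →* Γ`. -/
def kaex_resCoord [MulAction H X] (r : H →* Γ) (hact : ∀ (h : H) (x : X), h • x = r h • x)
    {M B : Rep.{0, 0, 0} k Γ} (C : shp_Coord X M B) :
    shp_Coord X (Rep.res r M) (Rep.res r B) where
  π := C.π
  equiv g x m := by
    rw [hact]
    exact C.equiv (r g) x m
  inj := C.inj
  surj := C.surj

theorem kaex_resCoord_π [MulAction H X] (r : H →* Γ)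
    (hact : ∀ (h : H) (x : X), h • x = r h • x)
    {M B : Rep.{0, 0, 0} k Γ} (C : shp_Coord X M B) (x : X) (m : M) :
    (kaex_resCoord r hact C).π x m = C.π x m := rfl

/-- The exact conjugation identity for the Shapiro components of a 1-cocycle. -/
theorem kaex_conj {M B : Rep.{0, 0, 0} k Γ} (C : shp_Coord X M B) (z : Γ → M)
    (hz : ∀ x, shp_d₁ (MonoidHom.id Γ) M z x = 0) (g₀ σ : Γ) (x : X)
    (hσx : σ • (g₀ • x) = g₀ • x) (hσB : ∀ b : B, B.ρ σ b = b) :
    C.π (g₀ • x) (z σ) = B.ρ g₀ (C.π x (z (g₀⁻¹ * σ * g₀))) := by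
  have h1 := shcj_main₁ k Γ M z hz g₀ σ
  have h2 := congrArg (C.π (g₀ • x)) h1
  simp only [shp_d₀, MonoidHom.id_apply, map_sub] at h2
  rw [C.equiv g₀ x] at h2
  have h3 : C.π (g₀ • x) (M.ρ σ (z g₀)) = C.π (g₀ • x) (z g₀) := by
    have h4 := C.equiv σ (g₀ • x) (z g₀)
    rw [hσx, hσB] at h4
    exact h4
  rw [h3, sub_self, sub_eq_zero] at h2
  exact h2.symm

end Generic

/-! ### Stabilizers of `G / U`, `U` normal -/

section Stab

variable {G : Type} [Group G] (U : Subgroup G) [hU : U.Normal]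

include hU in
theorem kaex_smul_eq_iff (s : G) (x : G ⧸ U) : s • x = x ↔ s ∈ U := by
  induction x using QuotientGroup.induction_on with
  | H g =>
    rw [MulAction.Quotient.smul_mk, smul_eq_mul, QuotientGroup.eq]
    have h1 : (s * g)⁻¹ * g = g⁻¹ * s⁻¹ * (g⁻¹)⁻¹ := by group
    rw [h1]
    constructor
    · intro h
      have h2 := hU.conj_mem _ h g
      have h3 : g * (g⁻¹ * s⁻¹ * (g⁻¹)⁻¹) * g⁻¹ = s⁻¹ := by group
      rw [h3] at h2
      have h4 := U.inv_mem h2
      rwa [inv_inv] at h4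
    · intro h
      exact hU.conj_mem s⁻¹ (U.inv_mem h) g⁻¹

theorem kaex_mk_eq_smul (g : G) : (QuotientGroup.mk g : G ⧸ U) = g • (QuotientGroup.mk 1 : G ⧸ U) := by
  rw [MulAction.Quotient.smul_mk, smul_eq_mul, mul_one]

end Stab

/-! ### The local action on `G_ℚ / U` -/

section Act

variable (K : IntermediateField ℚ (AlgebraicClosure ℚ))

/-- The action of the local Galois group at `q` on `G_ℚ / U` (through `localGaloisToGlobal`). -/
@[reducible] def kaex_act (q : ℕ) [Fact q.Prime] :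
    MulAction (lcf_Gal q) (s55_GQ ⧸ K.fixingSubgroup) :=
  MulAction.compHom (s55_GQ ⧸ K.fixingSubgroup) (localGaloisToGlobal q)

theorem kaex_act_smul (q : ℕ) [Fact q.Prime] (τ : lcf_Gal q) (x : s55_GQ ⧸ K.fixingSubgroup) :
    (letI := kaex_act K q; τ • x) = localGaloisToGlobal q τ • x := rfl

variable [hKn : K.fixingSubgroup.Normal]

include hKn in
/-- The stabilizers of the local action are `kl_H K q`. -/
theorem kaex_stab_eq (q : ℕ) [Fact q.Prime] (x : s55_GQ ⧸ K.fixingSubgroup) :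
    (letI := kaex_act K q; MulAction.stabilizer (lcf_Gal q) x) =
      K.fixingSubgroup.comap (localGaloisToGlobal q) := by
  letI := kaex_act K q
  ext τ
  rw [MulAction.mem_stabilizer_iff, Subgroup.mem_comap]
  exact kaex_smul_eq_iff K.fixingSubgroup (localGaloisToGlobal q τ) x

include hKn in
/-- The local action is smooth. -/
theorem kaex_act_smooth (hK : FiniteDimensional ℚ K) (q : ℕ) [Fact q.Prime] :
    ∃ E : IntermediateField ℚ_[q] (PadicAlgCl q), FiniteDimensional ℚ_[q] E ∧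
      ∀ s ∈ E.fixingSubgroup, ∀ x : s55_GQ ⧸ K.fixingSubgroup,
        (letI := kaex_act K q; s • x) = x := by
  obtain ⟨E, hE, hEK⟩ := ptinv_loc_fix q K
  exact ⟨E, hE, fun s hs x => (kaex_smul_eq_iff K.fixingSubgroup _ x).2 (hEK s hs)⟩

end Act

/-! ### Systems of representatives of the places -/

section Reps

variable (S : Finset Nat.Primes) (K : IntermediateField ℚ (AlgebraicClosure ℚ))

theorem kaex_exists_reps [Finite (s55_GQ ⧸ K.fixingSubgroup)] :
    ∃ R : ↥S → Finset s55_GQ, kl_IsReps S K R := by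
  classical
  letI : Fintype (s55_GQ ⧸ K.fixingSubgroup) := Fintype.ofFinite _
  have h : ∀ q : ↥S, ∃ T : Finset (s55_GQ ⧸ K.fixingSubgroup),
      (letI := kaex_act K ((q : Nat.Primes) : ℕ);
        shp_Covers (lcf_Gal ((q : Nat.Primes) : ℕ)) (T : Set (s55_GQ ⧸ K.fixingSubgroup)) ∧
        shp_Indep (lcf_Gal ((q : Nat.Primes) : ℕ)) (T : Set (s55_GQ ⧸ K.fixingSubgroup))) := by
    intro q
    letI := kaex_act K ((q : Nat.Primes) : ℕ)
    exact pco_exists_reps (lcf_Gal ((q : Nat.Primes) : ℕ)) (s55_GQ ⧸ K.fixingSubgroup)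
  choose T hTc hTi using h
  refine ⟨fun q => (T q).image Quotient.out, fun q g => ?_⟩
  letI := kaex_act K ((q : Nat.Primes) : ℕ)
  obtain ⟨t, ht, τ, hτ⟩ := hTc q (QuotientGroup.mk g)
  have hτ' : (QuotientGroup.mk (localGaloisToGlobal ((q : Nat.Primes) : ℕ) τ * t.out) :
      s55_GQ ⧸ K.fixingSubgroup) = QuotientGroup.mk g := by
    have h1 : localGaloisToGlobal ((q : Nat.Primes) : ℕ) τ • t = QuotientGroup.mk g := hτ
    rw [← h1]
    conv_rhs => rw [← QuotientGroup.out_eq' t]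
    rfl
  refine ⟨t.out, ⟨Finset.mem_image.2 ⟨t, ht, rfl⟩, τ,
    (localGaloisToGlobal ((q : Nat.Primes) : ℕ) τ * t.out)⁻¹ * g, QuotientGroup.eq.1 hτ', by
      group⟩, ?_⟩
  rintro g₀' ⟨hg₀', τ', u', hu', hgu⟩
  obtain ⟨t'', ht'', rfl⟩ := Finset.mem_image.1 hg₀'
  obtain ⟨t', ht't''⟩ : ∃ t' : s55_GQ ⧸ K.fixingSubgroup, t' = t'' := ⟨t'', rfl⟩
  subst ht't''
  have h2 : (QuotientGroup.mk g : s55_GQ ⧸ K.fixingSubgroup) =
      localGaloisToGlobal ((q : Nat.Primes) : ℕ) τ' • t' := by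
    rw [hgu]
    conv_rhs => rw [← QuotientGroup.out_eq' t']
    rw [MulAction.Quotient.smul_mk, smul_eq_mul]
    exact QuotientGroup.eq.2 (by
      have : (localGaloisToGlobal ((q : Nat.Primes) : ℕ) τ' * Quotient.out t' * u')⁻¹ *
          (localGaloisToGlobal ((q : Nat.Primes) : ℕ) τ' * Quotient.out t') = u'⁻¹ := by group
      rw [this]
      exact K.fixingSubgroup.inv_mem hu')
  have h3 : (τ'⁻¹ * τ) • t = t' := by
    have h4 : localGaloisToGlobal ((q : Nat.Primes) : ℕ) τ • t =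
        localGaloisToGlobal ((q : Nat.Primes) : ℕ) τ' • t' := hτ.trans h2
    change localGaloisToGlobal ((q : Nat.Primes) : ℕ) (τ'⁻¹ * τ) • t = t'
    rw [map_mul, map_inv, mul_smul, h4, inv_smul_smul]
  have h5 : t = t' := hTi q t ht t' ht'' ⟨_, h3⟩
  rw [h5]

variable {S K}

/-- The points `g₀ x₀`, `g₀ ∈ R q`, cover the orbits of the local group. -/
theorem kaex_reps_covers {R : ↥S → Finset s55_GQ} (hR : kl_IsReps S K R) (q : ↥S) (T : Set (s55_GQ ⧸ K.fixingSubgroup))
    (hT : ∀ g₀ ∈ R q, (QuotientGroup.mk g₀ : s55_GQ ⧸ K.fixingSubgroup) ∈ T) :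
    (letI := kaex_act K ((q : Nat.Primes) : ℕ);
      shp_Covers (lcf_Gal ((q : Nat.Primes) : ℕ)) T) := by
  letI := kaex_act K ((q : Nat.Primes) : ℕ)
  intro x
  induction x using QuotientGroup.induction_on with
  | H g =>
    obtain ⟨g₀, ⟨hg₀, τ, u, hu, hgu⟩, -⟩ := hR q g
    refine ⟨QuotientGroup.mk g₀, hT g₀ hg₀, τ, ?_⟩
    change localGaloisToGlobal ((q : Nat.Primes) : ℕ) τ • (QuotientGroup.mk g₀ :
      s55_GQ ⧸ K.fixingSubgroup) = QuotientGroup.mk g
    rw [MulAction.Quotient.smul_mk, smul_eq_mul, hgu]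
    exact QuotientGroup.eq.2 (by
      have : (localGaloisToGlobal ((q : Nat.Primes) : ℕ) τ * g₀)⁻¹ *
          (localGaloisToGlobal ((q : Nat.Primes) : ℕ) τ * g₀ * u) = u := by group
      rw [this]
      exact hu)

/-- Two representatives in the same orbit of the local group are equal. -/
theorem kaex_reps_eq {R : ↥S → Finset s55_GQ} (hR : kl_IsReps S K R) (q : ↥S)
    (g₀ g₀' : s55_GQ) (hg₀ : g₀ ∈ R q) (hg₀' : g₀' ∈ R q)
    (τ : lcf_Gal ((q : Nat.Primes) : ℕ))
    (h : localGaloisToGlobal ((q : Nat.Primes) : ℕ) τ •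
      (QuotientGroup.mk g₀ : s55_GQ ⧸ K.fixingSubgroup) = QuotientGroup.mk g₀') :
    g₀ = g₀' := by
  rw [MulAction.Quotient.smul_mk, smul_eq_mul] at h
  have hu := QuotientGroup.eq.1 h
  obtain ⟨g₁, -, huniq⟩ := hR q g₀'
  have e1 : g₀' = g₁ := huniq g₀' ⟨hg₀', 1, 1, K.fixingSubgroup.one_mem, by
    rw [map_one, one_mul, mul_one]⟩
  have e2 : g₀ = g₁ := huniq g₀ ⟨hg₀, τ,
    (localGaloisToGlobal ((q : Nat.Primes) : ℕ) τ * g₀)⁻¹ * g₀', hu, by group⟩
  rw [e1, e2]

theorem kaex_reps_injOn {R : ↥S → Finset s55_GQ} (hR : kl_IsReps S K R) (q : ↥S) :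
    Set.InjOn (QuotientGroup.mk : s55_GQ → s55_GQ ⧸ K.fixingSubgroup) (R q : Set s55_GQ) := by
  intro g₀ hg₀ g₀' hg₀' h
  refine kaex_reps_eq hR q g₀ g₀' hg₀ hg₀' 1 ?_
  rw [map_one, one_smul]
  exact h

theorem kaex_reps_indep {R : ↥S → Finset s55_GQ} (hR : kl_IsReps S K R) (q : ↥S)
    (T : Set (s55_GQ ⧸ K.fixingSubgroup))
    (hT : ∀ t ∈ T, ∃ g₀ ∈ R q, (QuotientGroup.mk g₀ : s55_GQ ⧸ K.fixingSubgroup) = t) :
    (letI := kaex_act K ((q : Nat.Primes) : ℕ);
      shp_Indep (lcf_Gal ((q : Nat.Primes) : ℕ)) T) := by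
  letI := kaex_act K ((q : Nat.Primes) : ℕ)
  intro t ht t' ht' ⟨τ, hτ⟩
  obtain ⟨g₀, hg₀, rfl⟩ := hT t ht
  obtain ⟨g₀', hg₀', rfl⟩ := hT t' ht'
  rw [kaex_reps_eq hR q g₀ g₀' hg₀ hg₀' τ hτ]

end Reps

/-! ### The coordinate system of the Tate dual -/

section Dual

variable {p : ℕ} [Fact p.Prime]

/-- The coordinate system of the Tate dual of a permutation module of `G_ℚ` (`B = F_p(1)`,
`π'_x φ = φ (single x 1)`). -/
def kaex_coord' (X : Type) [Fintype X] [MulAction s55_GQ X] :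
    shp_Coord X ((Rep.ofMulAction (ZMod p) s55_GQ X).dualTwist (cycloChar p)) (pt_T p) :=
  pco_coord' (p := p) (MonoidHom.id s55_GQ) X

theorem kaex_coord'_π (X : Type) [Fintype X] [MulAction s55_GQ X] (x : X)
    (φ : (Rep.ofMulAction (ZMod p) s55_GQ X).dualTwist (cycloChar p)) :
    (kaex_coord' (p := p) X).π x φ =
      (show Module.Dual (ZMod p) (Rep.ofMulAction (ZMod p) s55_GQ X) from φ)
        (MonoidAlgebra.single x (1 : ZMod p)) := rfl

/-- The evaluation pairing in coordinates. -/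
theorem kaex_ev_sum (X : Type) [Fintype X] [MulAction s55_GQ X]
    (a : Rep.ofMulAction (ZMod p) s55_GQ X)
    (φ : (Rep.ofMulAction (ZMod p) s55_GQ X).dualTwist (cycloChar p)) :
    (pt_ev (Rep.ofMulAction (ZMod p) s55_GQ X) a φ : ZMod p) =
      ∑ x : X, ((lcdb_coord (k := ZMod p) (Γ := s55_GQ) (X := X)).π x a : ZMod p) *
        ((kaex_coord' (p := p) X).π x φ : ZMod p) :=
  pco_ev_sum (p := p) (MonoidHom.id s55_GQ) X a φ

end Dual

/-! ### Lifting characters of `U` to cocycles of `G_ℚ` -/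

section Lift

variable {p : ℕ} [Fact p.Prime] (S : Finset Nat.Primes)
  (K : IntermediateField ℚ (AlgebraicClosure ℚ)) [hKn : K.fixingSubgroup.Normal]

include hKn in
/-- [SHAP-SURJ 1] at the trivial coset: a level-`S` character of `U` (with values in `B`, on
which `U` acts trivially) is the Shapiro component of a level-`S` 1-cocycle of `G_ℚ`. -/
theorem kaex_lift [Finite (s55_GQ ⧸ K.fixingSubgroup)] (hK : K.IsUnramifiedOutside S)
    {M B : Rep.{0, 0, 0} (ZMod p) s55_GQ} (C : shp_Coord (s55_GQ ⧸ K.fixingSubgroup) M B)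
    (hB : ∀ s ∈ K.fixingSubgroup, ∀ b : B, B.ρ s b = b)
    (θ : ↥K.fixingSubgroup → B) (hθ : ∀ g h, θ (g * h) = θ g + θ h)
    (hθl : kl_LevelS₁ S K θ) :
    ∃ z : s55_GQ → M, IsLevelConstantS₁ S z ∧ (∀ g h, z (g * h) = M.ρ g (z h) + z g) ∧
      ∀ v : ↥K.fixingSubgroup, C.π (QuotientGroup.mk 1) (z v) = θ v := by
  obtain ⟨F, hF, hFθ⟩ := hθl
  obtain ⟨F', hle, hF', hnorm⟩ := h3o_normalLevel S (K ⊔ F) (hK.sup hF)
  have hNK : F'.fixingSubgroup ≤ K.fixingSubgroup :=
    IntermediateField.fixingSubgroup_antitone (le_sup_left.trans hle)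
  have hNF : F'.fixingSubgroup ≤ F.fixingSubgroup :=
    IntermediateField.fixingSubgroup_antitone (le_sup_right.trans hle)
  haveI : (F'.fixingSubgroup).Normal := hnorm
  have hN : ∀ s ∈ F'.fixingSubgroup, ∀ x : s55_GQ ⧸ K.fixingSubgroup, s • x = x :=
    fun s hs x => (kaex_smul_eq_iff K.fixingSubgroup s x).2 (hNK hs)
  have hstab : ∀ (t : s55_GQ ⧸ K.fixingSubgroup) (v : ↥(MulAction.stabilizer s55_GQ t)),
      (v : s55_GQ) ∈ K.fixingSubgroup :=
    fun t v => (kaex_smul_eq_iff K.fixingSubgroup _ t).1 (MulAction.mem_stabilizer_iff.1 v.2)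
  obtain ⟨z, hzc, hzd, hzπ⟩ := shsu_main₁ (ZMod p) s55_GQ (s55_GQ ⧸ K.fixingSubgroup) M B C
    F'.fixingSubgroup hN {QuotientGroup.mk 1}
    (by
      intro t ht t' ht' _
      rw [Set.mem_singleton_iff] at ht ht'
      rw [ht, ht'])
    (fun t v => θ ⟨(v : s55_GQ), hstab t v⟩)
    (by
      intro t _ g s hs
      exact hFθ ⟨(g : s55_GQ), hstab t g⟩ ⟨(s : s55_GQ), hstab t s⟩ (hNF hs))
    (by
      intro t _ x
      simp only [shp_d₁, Subgroup.coe_subtype]
      rw [hB _ (hstab t x.1)]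
      have h1 := hθ ⟨(x.1 : s55_GQ), hstab t x.1⟩ ⟨(x.2 : s55_GQ), hstab t x.2⟩
      have h2 : θ ⟨((x.1 * x.2 : ↥(MulAction.stabilizer s55_GQ t)) : s55_GQ),
          hstab t (x.1 * x.2)⟩ =
          θ (⟨(x.1 : s55_GQ), hstab t x.1⟩ * ⟨(x.2 : s55_GQ), hstab t x.2⟩) := rfl
      rw [h2, h1]
      abel)
  refine ⟨z, ⟨F', hF', fun g s hs => hzc g s hs⟩, fun g h => ?_, fun v => ?_⟩
  · have h1 := hzd (g, h)
    simp only [shp_d₁, MonoidHom.id_apply] at h1
    have h2 : z (g * h) = M.ρ g (z h) + z g - (M.ρ g (z h) - z (g * h) + z g) := by abel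
    rw [h2, h1, sub_zero]
  · have hv : (v : s55_GQ) ∈ MulAction.stabilizer s55_GQ
        (QuotientGroup.mk 1 : s55_GQ ⧸ K.fixingSubgroup) :=
      MulAction.mem_stabilizer_iff.2 ((kaex_smul_eq_iff K.fixingSubgroup _ _).2 v.2)
    exact hzπ _ rfl ⟨(v : s55_GQ), hv⟩

end Lift

end Fermat.Agent.S55
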