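/-
S55 (Poitou-Tate), BRIDGE part 2, package [SHAP-INJ] (helper24): degree 2.
`shin_main₂ : shp_Inj₂Statement`.  Prefix `shin_`.
-/
import Mathlib
import Fermat.Agent.S55.Bridge.ShapInjBasic

set_option autoImplicit false

noncomputable section

namespace Fermat.Agent.S55

open groupCohomology

section Prism

variable {k Γ : Type} [CommRing k] [Group Γ] {M : Rep.{0, 0, 0} k Γ}

/-- The prism identity for a 2-cocycle. -/
theorem shin_prism₂ (z : Γ × Γ → M) (hz : ∀ x, shp_d₂ (MonoidHom.id Γ) M z x = 0)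
    (p q r g h v₁ v₂ : Γ) (h₁ : v₁ * q = p * g) (h₂ : v₂ * r = q * h) :
    M.ρ p (z (g, h)) = z (v₁, v₂) + M.ρ v₁ (z (q, h)) - M.ρ v₁ (z (v₂, r)) - z (p, g * h)
      + z (v₁ * v₂, r) + z (p, g) - z (v₁, q) := by
  have c1 := hz (p, g, h)
  have c2 := hz (v₁, q, h)
  have c3 := hz (v₁, v₂, r)
  simp only [shp_d₂, MonoidHom.id_apply] at c1 c2 c3
  rw [h₁] at c2
  rw [h₂] at c3
  linear_combination (norm := abel) c1 - c2 + c3

end Prism

section Ext

variable {Γ X : Type} [Group Γ] [MulAction Γ X] {B : Type} [Zero B]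

open Classical in
/-- Extension by zero of a family of 1-cochains on the stabilizers. -/
def shin_ext₁ (a' : ∀ t : X, ↥(MulAction.stabilizer Γ t) → B) (t : X) (γ : Γ) : B :=
  if h : γ • t = t then a' t ⟨γ, h⟩ else 0

theorem shin_ext₁_eq (a' : ∀ t : X, ↥(MulAction.stabilizer Γ t) → B) (t : X)
    (v : ↥(MulAction.stabilizer Γ t)) : shin_ext₁ a' t (v : Γ) = a' t v := by
  have hv : (v : Γ) • t = t := v.2
  simp only [shin_ext₁, dif_pos hv]

end Ext

theorem shin_main₂ : shp_Inj₂Statement := by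
  intro k Γ X _ _ _ _ M B C N hNn hN T hT z hz hzc a' ha'c ha'
  -- the extended cochains
  set â : X → Γ → B := shin_ext₁ a' with hâ
  have hâd : ∀ x : X, ∀ v w : Γ, v • shin_t hT x = shin_t hT x → w • shin_t hT x = shin_t hT x →
      C.π (shin_t hT x) (z (v, w)) =
        B.ρ v (â (shin_t hT x) w) - â (shin_t hT x) (v * w) + â (shin_t hT x) v := by
    intro x v w hv hw
    have h := ha' (shin_t hT x) (shin_t_mem hT x) ⟨v, hv⟩ ⟨w, hw⟩
    simp only [shp_d₁, Subgroup.coe_subtype] at h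
    rw [h, hâ, ← shin_ext₁_eq a' _ ⟨w, hw⟩, ← shin_ext₁_eq a' _ ⟨v, hv⟩,
      ← shin_ext₁_eq a' _ (⟨v, hv⟩ * ⟨w, hw⟩)]
    rfl
  have hâc : ∀ x : X, ∀ v n : Γ, v • shin_t hT x = shin_t hT x → n ∈ N →
      â (shin_t hT x) (v * n) = â (shin_t hT x) v := by
    intro x v n hv hn
    have hn' : n • shin_t hT x = shin_t hT x := hN n hn _
    have h := ha'c (shin_t hT x) (shin_t_mem hT x) ⟨v, hv⟩ ⟨n, hn'⟩ hn
    have e1 : shin_ext₁ a' (shin_t hT x) (v * n) = a' (shin_t hT x) (⟨v, hv⟩ * ⟨n, hn'⟩) :=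
      shin_ext₁_eq a' _ (⟨v, hv⟩ * ⟨n, hn'⟩)
    have e2 : shin_ext₁ a' (shin_t hT x) v = a' (shin_t hT x) ⟨v, hv⟩ :=
      shin_ext₁_eq a' _ ⟨v, hv⟩
    rw [hâ]
    exact (e1.trans h).trans e2.symm
  -- the cobounding cochain, coordinatewise
  set F : Γ → X → B := fun g x =>
    B.ρ (shin_s hT x) (â (shin_t hT x) ((shin_s hT x)⁻¹ * g * shin_s hT (g⁻¹ • x))
      + C.π (shin_t hT x) (z ((shin_s hT x)⁻¹, g))
      - C.π (shin_t hT x) (z ((shin_s hT x)⁻¹ * g * shin_s hT (g⁻¹ • x),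
          (shin_s hT (g⁻¹ • x))⁻¹))) with hF
  refine ⟨fun g => shin_mk C (F g), ?_, ?_⟩
  · -- level
    intro g n hn
    have hn : n ∈ N := hn
    apply shin_ext C
    intro x
    rw [shin_π_mk, shin_π_mk]
    have hy : (g * n)⁻¹ • x = g⁻¹ • x := by
      rw [mul_inv_rev, mul_smul]
      exact hN n⁻¹ (N.inv_mem hn) _
    simp only [hF]
    rw [hy]
    set sx := shin_s hT x
    set sy := shin_s hT (g⁻¹ • x)
    have hn' : sy⁻¹ * n * sy ∈ N := by
      have := hNn.conj_mem n hn sy⁻¹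
      rwa [inv_inv] at this
    have e1 : sx⁻¹ * (g * n) * sy = sx⁻¹ * g * sy * (sy⁻¹ * n * sy) := by group
    have e2 : z (sx⁻¹, g * n) = z (sx⁻¹, g) := by
      have := hzc sx⁻¹ g 1 n N.one_mem hn
      rwa [mul_one] at this
    have e3 : z (sx⁻¹ * g * sy * (sy⁻¹ * n * sy), sy⁻¹) = z (sx⁻¹ * g * sy, sy⁻¹) := by
      have := hzc (sx⁻¹ * g * sy) sy⁻¹ (sy⁻¹ * n * sy) 1 hn' N.one_mem
      rwa [mul_one] at this
    rw [e1, hâc x _ _ (shin_v_smul hT g x) hn', e2, e3]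
  · -- coboundary
    rintro ⟨g, h⟩
    apply shin_ext C
    intro x
    simp only [shp_d₁, MonoidHom.id_apply, map_add, map_sub]
    rw [shin_π_ρ, shin_π_mk, shin_π_mk, shin_π_mk]
    simp only [hF]
    have hw : h⁻¹ • g⁻¹ • x = (g * h)⁻¹ • x := by rw [mul_inv_rev, mul_smul]
    rw [shin_t_smul, hw]
    set t := shin_t hT x with ht
    set sx := shin_s hT x with hsx
    set sy := shin_s hT (g⁻¹ • x) with hsy
    set sw := shin_s hT ((g * h)⁻¹ • x) with hsw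
    have hv₁ : (sx⁻¹ * g * sy) • t = t := shin_v_smul hT g x
    have hv₂ : (sy⁻¹ * h * sw) • t = t := by
      have h0 := shin_v_smul hT h (g⁻¹ • x)
      rw [shin_t_smul, hw] at h0
      exact h0
    have e12 : sx⁻¹ * (g * h) * sw = sx⁻¹ * g * sy * (sy⁻¹ * h * sw) := by group
    have hP := shin_prism₂ z hz sx⁻¹ sy⁻¹ sw⁻¹ g h (sx⁻¹ * g * sy) (sy⁻¹ * h * sw)
      (by group) (by group)
    have hP' := congrArg (C.π t) hP
    simp only [map_add, map_sub] at hP'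
    rw [shin_π_stab C hv₁, shin_π_stab C hv₁, hâd x _ _ hv₁ hv₂] at hP'
    have hT' : C.π x (z (g, h)) = B.ρ sx (C.π t (M.ρ sx⁻¹ (z (g, h)))) :=
      (shin_π_transport C (shin_s_smul hT x) _).symm
    rw [hT', hP', e12]
    have hgs : B.ρ g ∘ₗ B.ρ sy = B.ρ sx ∘ₗ B.ρ (sx⁻¹ * g * sy) := by
      rw [← Module.End.mul_eq_comp, ← Module.End.mul_eq_comp, ← map_mul, ← map_mul]
      congr 1
      group
    have hgs' : ∀ b : B, B.ρ g (B.ρ sy b) = B.ρ sx (B.ρ (sx⁻¹ * g * sy) b) :=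
      fun b => LinearMap.congr_fun hgs b
    rw [hgs']
    simp only [map_add, map_sub]
    abel

end Fermat.Agent.S55
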