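/-
S55 (Poitou-Tate), BRIDGE part 2, package [TR-INV] (helper14).  Prefix `shtr_`.

`shtr_main : shp_Inj₂Statement → shp_TrInvStatement` : for a local invariant system, a finite
set `X` with a smooth action of `Γ = Gal(Ω_q/ℚ_q)` and a smooth 2-cocycle `F` of `Γ` with values
in the functions `X → Ωˣ`:  `inv_Γ (∏_x F_x) = ∑_{t ∈ T} inv_{Stab t} (F_t)`.

Proof.  For every `t` choose a smooth 2-cocycle `F₀ t` of `Γ` with
`[Γ : Stab t] • inv_Γ (F₀ t) = inv_{Stab t} (F_t)` ((I5) and the divisibility of `ℚ/ℤ`); by (I3),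
(I1), (I2) `F_t / res (F₀ t)` is a smooth coboundary on `Stab t`.  With `τ x ∈ T` the
representative of the orbit of `x`, `z (g, h) x := F (g, h) x / F₀ (τ x) (g, h)` is a 2-cocycle
with values in the functions on `X`, whose Shapiro components are coboundaries; by [SHAP-INJ 2]
`z = d a`.  Taking the product over `X`: `∏_x F_x = (∏_x F₀ (τ x)) · d (∏_x a_x)`, and
`inv (∏_x F₀ (τ x)) = ∑_t #orbit(t) • inv (F₀ t)`.
-/
import Mathlib
import Fermat.Agent.S55.Bridge.ShapTrInvRep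
import Fermat.Agent.S55.Local.H3Mu

set_option autoImplicit false
set_option maxHeartbeats 1000000

noncomputable section

namespace Fermat.Agent.S55

open groupCohomology

variable {q : ℕ} [Fact q.Prime]

/-! ### Small tools -/

theorem shtr_isOpen_top : lcf_IsOpen (⊤ : Subgroup (lcf_Gal q)) :=
  ⟨⊥, inferInstance, le_top⟩

/-- an element of `Γ` as an element of `⊤`. -/
def shtr_top (g : lcf_Gal q) : ↥(⊤ : Subgroup (lcf_Gal q)) := ⟨g, Subgroup.mem_top g⟩

theorem shtr_top_coe (g : ↥(⊤ : Subgroup (lcf_Gal q))) : shtr_top (g : lcf_Gal q) = g := rfl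

/-- the restriction of a smooth cocycle is a smooth cocycle. -/
theorem shtr_isCoc_res {U U' : Subgroup (lcf_Gal q)} (h : U' ≤ U)
    {f : ↥U × ↥U → (PadicAlgCl q)ˣ} (hf : lcf_IsCoc U f) : lcf_IsCoc U' (lcf_res h f) := by
  refine ⟨fun g g' j => ?_, ?_⟩
  · exact hf.1 (Subgroup.inclusion h g) (Subgroup.inclusion h g') (Subgroup.inclusion h j)
  · obtain ⟨E, hE, hEa⟩ := hf.2
    exact ⟨E, hE, fun g g' s s' hs hs' =>
      hEa (Subgroup.inclusion h g) (Subgroup.inclusion h g') (Subgroup.inclusion h s)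
        (Subgroup.inclusion h s') hs hs'⟩

/-- the coboundary of a smooth 1-cochain is a smooth cocycle with invariant `0`. -/
theorem shtr_isCoc_d₁₂ (U : Subgroup (lcf_Gal q)) {b : ↥U → (PadicAlgCl q)ˣ}
    (hb : lcf_Smooth₁ U b) : lcf_IsCoc U (lh3m_d₁₂ U b) :=
  ⟨(lh3m_isCocycle_iff U _).2 (lh3m_d₂₃_d₁₂ U b), lh3m_smooth_d₁₂ U hb⟩

theorem shtr_inv_d₁₂ {inv : lcf_InvType} (hinv : lcf_IsInvSystem inv)
    (U : Subgroup (lcf_Gal q)) (hU : lcf_IsOpen U) {b : ↥U → (PadicAlgCl q)ˣ}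
    (hb : lcf_Smooth₁ U b) : inv q U (lh3m_d₁₂ U b) = 0 :=
  (hinv.eq_zero_iff q U hU _ (shtr_isCoc_d₁₂ U hb)).2 ⟨b, hb, fun _ _ => rfl⟩

/-- the invariant of a finite product. -/
theorem shtr_inv_prod {inv : lcf_InvType} (hinv : lcf_IsInvSystem inv)
    (U : Subgroup (lcf_Gal q)) (hU : lcf_IsOpen U) {ι : Type*} (s : Finset ι)
    (f : ι → ↥U × ↥U → (PadicAlgCl q)ˣ) (hf : ∀ i, lcf_IsCoc U (f i)) :
    lcf_IsCoc U (∏ i ∈ s, f i) ∧ inv q U (∏ i ∈ s, f i) = ∑ i ∈ s, inv q U (f i) := by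
  classical
  induction s using Finset.induction_on with
  | empty =>
    rw [Finset.prod_empty, Finset.sum_empty]
    exact ⟨lh3m_isCoc_one U, lh3m_inv_one hinv U hU⟩
  | insert i s hi ih =>
    rw [Finset.prod_insert hi, Finset.sum_insert hi]
    exact ⟨lh3m_isCoc_mul (hf i) ih.1, by rw [hinv.add q U hU _ _ (hf i) ih.1, ih.2]⟩

/-- an identity in an abelian group. -/
theorem shtr_abel {G : Type*} [AddCommGroup G] (A B C D A' B' C' D' : G)
    (h : C + D = A + B) (h' : C' + D' = A' + B') :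
    (A - A') - (C - C') + (B - B') - (D - D') = 0 := by
  have e : (A - A') - (C - C') + (B - B') - (D - D') =
      (A + B) - (C + D) - ((A' + B') - (C' + D')) := by abel
  rw [e, h, h', sub_self, sub_self, sub_zero]

/-! ### The main theorem -/

/-- **[TR-INV]** from **[SHAP-INJ 2]**. -/
theorem shtr_main : shp_Inj₂Statement → shp_TrInvStatement := by
  intro hInj inv hinv q _ X _ _ hX F hFs hFc T hTc hTi
  classical
  obtain ⟨EX, hEX, hEXa⟩ := hX
  obtain ⟨EF, hEF, hEFa⟩ := hFs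
  -- Step 1: the stabilizers are open, the components are smooth cocycles
  have hopen : ∀ t : X, lcf_IsOpen (MulAction.stabilizer (lcf_Gal q) t) := fun t =>
    ⟨EX, hEX, fun s hs => MulAction.mem_stabilizer_iff.2 (hEXa s hs t)⟩
  have hFt : ∀ t : X, lcf_IsCoc (MulAction.stabilizer (lcf_Gal q) t)
      (fun y => F ((y.1 : lcf_Gal q), (y.2 : lcf_Gal q)) t) := by
    intro t
    refine ⟨fun g h j => ?_, EF, hEF, fun g g' s s' hs hs' => ?_⟩
    · have h1 := hFc (g : lcf_Gal q) (h : lcf_Gal q) (j : lcf_Gal q) t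
      have h2 : ((g : lcf_Gal q))⁻¹ • t = t :=
        MulAction.mem_stabilizer_iff.1 (inv_mem g.2)
      rw [h2] at h1
      exact h1
    · show F (((g * s : ↥(MulAction.stabilizer (lcf_Gal q) t)) : lcf_Gal q),
        ((g' * s' : ↥(MulAction.stabilizer (lcf_Gal q) t)) : lcf_Gal q)) t = F (g, g') t
      exact congrFun (hEFa (g : lcf_Gal q) (g' : lcf_Gal q) (s : lcf_Gal q) (s' : lcf_Gal q)
        hs hs') t
  have hidx : ∀ t : X, (MulAction.stabilizer (lcf_Gal q) t).relIndex ⊤ ≠ 0 := by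
    intro t
    rw [Subgroup.relIndex_top_right, MulAction.index_stabilizer]
    exact Set.ncard_ne_zero_of_mem (MulAction.mem_orbit_self t) (Set.toFinite _)
  -- Step 2: the auxiliary global cocycles
  have h2 : ∀ t : X, ∃ F₀ : ↥(⊤ : Subgroup (lcf_Gal q)) × ↥(⊤ : Subgroup (lcf_Gal q)) →
      (PadicAlgCl q)ˣ, lcf_IsCoc ⊤ F₀ ∧
      ((MulAction.stabilizer (lcf_Gal q) t).relIndex ⊤) • inv q ⊤ F₀ =
        inv q (MulAction.stabilizer (lcf_Gal q) t)
          (fun y => F ((y.1 : lcf_Gal q), (y.2 : lcf_Gal q)) t) ∧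
      ∃ b : ↥(MulAction.stabilizer (lcf_Gal q) t) → (PadicAlgCl q)ˣ,
        lcf_Smooth₁ (MulAction.stabilizer (lcf_Gal q) t) b ∧
        ∀ g h : ↥(MulAction.stabilizer (lcf_Gal q) t), g • b h / b (g * h) * b g =
          F ((g : lcf_Gal q), (h : lcf_Gal q)) t /
            F₀ (shtr_top (g : lcf_Gal q), shtr_top (h : lcf_Gal q)) := by
    intro t
    obtain ⟨s, hs⟩ := lh3m_qz_divisible _ (hidx t)
      (inv q (MulAction.stabilizer (lcf_Gal q) t)
        (fun y => F ((y.1 : lcf_Gal q), (y.2 : lcf_Gal q)) t))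
    obtain ⟨F₀, hF₀, hF₀s⟩ := hinv.surj q ⊤ shtr_isOpen_top s
    refine ⟨F₀, hF₀, by rw [hF₀s, hs], ?_⟩
    have hres := hinv.res q ⊤ (MulAction.stabilizer (lcf_Gal q) t) le_top (hopen t) F₀ hF₀
    have hcr := shtr_isCoc_res (le_top : MulAction.stabilizer (lcf_Gal q) t ≤ ⊤) hF₀
    have h0 : inv q (MulAction.stabilizer (lcf_Gal q) t)
        ((fun y => F ((y.1 : lcf_Gal q), (y.2 : lcf_Gal q)) t) / lcf_res le_top F₀) = 0 := by
      rw [lh3m_inv_div hinv _ (hopen t) (hFt t) hcr, hres, hF₀s, hs, sub_self]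
    obtain ⟨b, hb, hbd⟩ := (hinv.eq_zero_iff q _ (hopen t) _ (lh3m_isCoc_div (hFt t) hcr)).1 h0
    exact ⟨b, hb, fun g h => hbd g h⟩
  choose F₀ hF₀c hF₀i b hbs hbd using h2
  -- the representatives of the orbits
  have hτ : ∀ x : X, ∃ t : X, t ∈ T ∧ ∃ g : lcf_Gal q, g • t = x := by
    intro x
    obtain ⟨t, ht, g, hg⟩ := hTc x
    exact ⟨t, Finset.mem_coe.1 ht, g, hg⟩
  choose τ hτT hτo using hτ
  have hτ_eq : ∀ (x : X) (t : X), t ∈ T → (∃ g : lcf_Gal q, g • t = x) → τ x = t := by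
    intro x t ht ⟨g, hg⟩
    obtain ⟨g', hg'⟩ := hτo x
    refine hTi (τ x) (Finset.mem_coe.2 (hτT x)) t (Finset.mem_coe.2 ht) ⟨g⁻¹ * g', ?_⟩
    rw [mul_smul, hg', ← hg, inv_smul_smul]
  have hτ_smul : ∀ (g : lcf_Gal q) (x : X), τ (g • x) = τ x := by
    intro g x
    obtain ⟨g', hg'⟩ := hτo x
    refine hτ_eq (g • x) (τ x) (hτT x) ⟨g * g', ?_⟩
    rw [mul_smul, hg']
  have hτ_T : ∀ t ∈ T, τ t = t := fun t ht => hτ_eq t t ht ⟨1, one_smul _ t⟩
  -- the common normal level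
  have hlev0 : ∀ t : X, ∃ E : IntermediateField ℚ_[q] (PadicAlgCl q),
      FiniteDimensional ℚ_[q] E ∧
      ∀ g g' s s' : ↥(⊤ : Subgroup (lcf_Gal q)), (s : lcf_Gal q) ∈ E.fixingSubgroup →
        (s' : lcf_Gal q) ∈ E.fixingSubgroup → F₀ t (g * s, g' * s') = F₀ t (g, g') :=
    fun t => (hF₀c t).2
  choose E0 hE0 hE0a using hlev0
  choose Eb hEb hEba using hbs
  have hfd1 : FiniteDimensional ℚ_[q] ↥(⨆ t, E0 t) :=
    IntermediateField.finiteDimensional_iSup_of_finite
  have hfd2 : FiniteDimensional ℚ_[q] ↥(⨆ t, Eb t) :=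
    IntermediateField.finiteDimensional_iSup_of_finite
  have hfd3 : FiniteDimensional ℚ_[q] ↥(EX ⊔ EF) := IntermediateField.finiteDimensional_sup _ _
  have hfd4 : FiniteDimensional ℚ_[q] ↥((⨆ t, E0 t) ⊔ (⨆ t, Eb t)) :=
    IntermediateField.finiteDimensional_sup _ _
  obtain ⟨N, hNf, hNn, hEN, -⟩ := lh3m_exists_normal
    ((EX ⊔ EF) ⊔ ((⨆ t, E0 t) ⊔ (⨆ t, Eb t)))
    (IntermediateField.finiteDimensional_sup _ _) ∅ Set.finite_empty
  have hNX : N.fixingSubgroup ≤ EX.fixingSubgroup :=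
    IntermediateField.fixingSubgroup_antitone ((le_sup_left.trans le_sup_left).trans hEN)
  have hNF : N.fixingSubgroup ≤ EF.fixingSubgroup :=
    IntermediateField.fixingSubgroup_antitone ((le_sup_right.trans le_sup_left).trans hEN)
  have hN0 : ∀ t, N.fixingSubgroup ≤ (E0 t).fixingSubgroup := fun t =>
    IntermediateField.fixingSubgroup_antitone
      (((le_iSup E0 t).trans le_sup_left).trans (le_sup_right.trans hEN))
  have hNb : ∀ t, N.fixingSubgroup ≤ (Eb t).fixingSubgroup := fun t =>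
    IntermediateField.fixingSubgroup_antitone
      (((le_iSup Eb t).trans le_sup_right).trans (le_sup_right.trans hEN))
  have hNnormal : (N.fixingSubgroup).Normal := ⟨fun s hs g => by
    have := lh3m_conj_mem N g⁻¹ s hs
    rwa [inv_inv] at this⟩
  -- Step 3: the cocycle `z`
  obtain ⟨a, haN, haz⟩ := hInj ℤ (lcf_Gal q) X (shtr_M (lcf_Gal q) (PadicAlgCl q)ˣ X)
    (shtr_B (lcf_Gal q) (PadicAlgCl q)ˣ) (shtr_coord (lcf_Gal q) (PadicAlgCl q)ˣ X)
    N.fixingSubgroup (fun s hs x => hEXa s (hNX hs) x) (T : Set X) hTc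
    (fun y x => Additive.ofMul (F y x) -
      Additive.ofMul (F₀ (τ x) (shtr_top y.1, shtr_top y.2)))
    (by
      rintro ⟨g, h, j⟩
      funext x
      show Additive.ofMul (g • Additive.toMul (Additive.ofMul (F (h, j) (g⁻¹ • x)) -
            Additive.ofMul (F₀ (τ (g⁻¹ • x)) (shtr_top h, shtr_top j)))) -
          (Additive.ofMul (F (g * h, j) x) -
            Additive.ofMul (F₀ (τ x) (shtr_top (g * h), shtr_top j))) +
          (Additive.ofMul (F (g, h * j) x) -
            Additive.ofMul (F₀ (τ x) (shtr_top g, shtr_top (h * j)))) -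
          (Additive.ofMul (F (g, h) x) -
            Additive.ofMul (F₀ (τ x) (shtr_top g, shtr_top h))) = 0
      rw [hτ_smul]
      have e0 : Additive.ofMul (g • Additive.toMul (Additive.ofMul (F (h, j) (g⁻¹ • x)) -
            Additive.ofMul (F₀ (τ x) (shtr_top h, shtr_top j)))) =
          Additive.ofMul (g • F (h, j) (g⁻¹ • x)) -
            Additive.ofMul (g • F₀ (τ x) (shtr_top h, shtr_top j)) := by
        show Additive.ofMul (g • (F (h, j) (g⁻¹ • x) / F₀ (τ x) (shtr_top h, shtr_top j))) = _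
        rw [smul_div']
        rfl
      rw [e0]
      have e1 : Additive.ofMul (F (g * h, j) x) + Additive.ofMul (F (g, h) x) =
          Additive.ofMul (g • F (h, j) (g⁻¹ • x)) + Additive.ofMul (F (g, h * j) x) :=
        congrArg Additive.ofMul (hFc g h j x)
      have e2 : Additive.ofMul (F₀ (τ x) (shtr_top (g * h), shtr_top j)) +
            Additive.ofMul (F₀ (τ x) (shtr_top g, shtr_top h)) =
          Additive.ofMul (g • F₀ (τ x) (shtr_top h, shtr_top j)) +
            Additive.ofMul (F₀ (τ x) (shtr_top g, shtr_top (h * j))) :=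
        congrArg Additive.ofMul ((hF₀c (τ x)).1 (shtr_top g) (shtr_top h) (shtr_top j))
      exact shtr_abel _ _ _ _ _ _ _ _ e1 e2)
    (by
      intro g g' s s' hs hs'
      funext x
      show Additive.ofMul (F (g * s, g' * s') x) -
          Additive.ofMul (F₀ (τ x) (shtr_top (g * s), shtr_top (g' * s'))) =
        Additive.ofMul (F (g, g') x) - Additive.ofMul (F₀ (τ x) (shtr_top g, shtr_top g'))
      rw [hEFa g g' s s' (hNF hs) (hNF hs')]
      have := hE0a (τ x) (shtr_top g) (shtr_top g') (shtr_top s) (shtr_top s')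
        (hN0 (τ x) hs) (hN0 (τ x) hs')
      rw [show (shtr_top (g * s) : ↥(⊤ : Subgroup (lcf_Gal q))) = shtr_top g * shtr_top s from rfl,
        show (shtr_top (g' * s') : ↥(⊤ : Subgroup (lcf_Gal q))) = shtr_top g' * shtr_top s'
          from rfl, this])
    (fun t v => Additive.ofMul (b t v))
    (by
      intro t _ g s hs
      show Additive.ofMul (b t (g * s)) = Additive.ofMul (b t g)
      rw [hEba t g s (hNb t hs)])
    (by
      intro t ht v w
      show Additive.ofMul (F ((v : lcf_Gal q), (w : lcf_Gal q)) t) -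
          Additive.ofMul (F₀ (τ t) (shtr_top (v : lcf_Gal q), shtr_top (w : lcf_Gal q))) =
        Additive.ofMul ((v : lcf_Gal q) • b t w) - Additive.ofMul (b t (v * w)) +
          Additive.ofMul (b t v)
      rw [hτ_T t ht]
      exact (congrArg Additive.ofMul (hbd t v w)).symm)
  -- Step 4: the product
  have key : ∀ (g h : lcf_Gal q) (x : X),
      F (g, h) x = F₀ (τ x) (shtr_top g, shtr_top h) *
        (g • Additive.toMul (a h (g⁻¹ • x)) / Additive.toMul (a (g * h) x) *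
          Additive.toMul (a g x)) := by
    intro g h x
    have h1 := congrFun (haz (g, h)) x
    have h2 : g • Additive.toMul (a h (g⁻¹ • x)) / Additive.toMul (a (g * h) x) *
        Additive.toMul (a g x) = F (g, h) x / F₀ (τ x) (shtr_top g, shtr_top h) :=
      congrArg Additive.toMul h1
    rw [h2, mul_div_cancel]
  let β : ↥(⊤ : Subgroup (lcf_Gal q)) → (PadicAlgCl q)ˣ :=
    fun g => ∏ x : X, Additive.toMul (a (g : lcf_Gal q) x)
  have hβs : lcf_Smooth₁ ⊤ β := by
    refine ⟨N, hNf, fun g s hs => ?_⟩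
    show ∏ x : X, Additive.toMul (a ((g : lcf_Gal q) * (s : lcf_Gal q)) x) =
      ∏ x : X, Additive.toMul (a (g : lcf_Gal q) x)
    rw [haN (g : lcf_Gal q) (s : lcf_Gal q) hs]
  have hfun : (fun y : ↥(⊤ : Subgroup (lcf_Gal q)) × ↥(⊤ : Subgroup (lcf_Gal q)) =>
      ∏ x : X, F ((y.1 : lcf_Gal q), (y.2 : lcf_Gal q)) x) =
      (∏ x : X, F₀ (τ x)) * lh3m_d₁₂ ⊤ β := by
    funext ⟨g, h⟩
    rw [Pi.mul_apply, Finset.prod_apply]
    show ∏ x : X, F ((g : lcf_Gal q), (h : lcf_Gal q)) x =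
      (∏ x : X, F₀ (τ x) (g, h)) *
        ((g : lcf_Gal q) • (∏ x : X, Additive.toMul (a (h : lcf_Gal q) x)) /
          (∏ x : X, Additive.toMul (a ((g : lcf_Gal q) * (h : lcf_Gal q)) x)) *
          ∏ x : X, Additive.toMul (a (g : lcf_Gal q) x))
    rw [← shtr_prod_smul (g : lcf_Gal q) (fun x => Additive.toMul (a (h : lcf_Gal q) x)),
      ← Finset.prod_div_distrib, ← Finset.prod_mul_distrib, ← Finset.prod_mul_distrib]
    exact Finset.prod_congr rfl fun x _ => key g h x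
  -- Step 5: the invariants
  have hP := shtr_inv_prod hinv ⊤ shtr_isOpen_top Finset.univ (fun x : X => F₀ (τ x))
    (fun x => hF₀c (τ x))
  rw [hfun, hinv.add q ⊤ shtr_isOpen_top _ _ hP.1 (shtr_isCoc_d₁₂ ⊤ hβs), hP.2,
    shtr_inv_d₁₂ hinv ⊤ shtr_isOpen_top hβs, add_zero]
  -- counting the orbits
  rw [Finset.sum_comp (fun t => inv q ⊤ (F₀ t)) τ]
  have himg : Finset.image τ Finset.univ = T := by
    ext t
    simp only [Finset.mem_image, Finset.mem_univ, true_and]
    exact ⟨fun ⟨x, hx⟩ => hx ▸ hτT x, fun ht => ⟨t, hτ_T t ht⟩⟩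
  rw [himg]
  refine Finset.sum_congr rfl fun t ht => ?_
  rw [← hF₀i t]
  congr 1
  rw [Subgroup.relIndex_top_right, MulAction.index_stabilizer, ← Set.ncard_coe_finset]
  congr 1
  ext x
  simp only [Finset.coe_filter, Finset.mem_univ, true_and, Set.mem_ofPred_eq,
    MulAction.mem_orbit_iff]
  exact ⟨fun hx => ⟨_, (hx ▸ (hτo x).choose_spec : (hτo x).choose • t = x)⟩,
    fun hx => hτ_eq x t ht hx⟩

end Fermat.Agent.S55
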