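/-
S55 (Poitou-Tate), BRIDGE part 2, package [TR-INV] (helper14).  Prefix `shtr_`.

`shtr_fin : shp_TrInvStatement`, hypothesis-free (`shtr_main` fed with helper24's
`shin_main₂ : shp_Inj₂Statement`).
-/
import Mathlib
import Fermat.Agent.S55.Bridge.ShapTrInv
import Fermat.Agent.S55.Bridge.ShapInj2

set_option autoImplicit false

namespace Fermat.Agent.S55

/-- **[TR-INV]** -/
theorem shtr_fin : shp_TrInvStatement := shtr_main shin_main₂

end Fermat.Agent.S55
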