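/-
S55 (Poitou-Tate), BRIDGE part 2, K→A package (2) [A-EX-OF] (helper6), part 2: the local
invariant of a cup product in coordinates ([TR-INV]).  Prefix `kaex_`.

* `kaex_inv_congr` : the invariant does not change under an equality of subgroups;
* `kaex_trinv`     : for `a, b : Γ_q → (X → F_p)` satisfying the cocycle relations of the
  coordinates of cocycles in `F_p[X]` resp. `F_p[X]^*(1)` (`X = G_ℚ / U`, `U` normal, `χ|U = 1`),
  `inv_q (ζ ^ ∑_x a_x(g) χ(g) b_{g⁻¹x}(h)) = ∑_{t ∈ T} inv_{kl_H K q} (ζ ^ (a_t b_t))`.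
-/
import Mathlib
import Fermat.Agent.S55.Bridge.KAExCoord
import Fermat.Agent.S55.Bridge.ShapTrInvFin

set_option autoImplicit false
set_option maxHeartbeats 1000000
set_option synthInstance.maxHeartbeats 400000
set_option linter.style.haveILetI false
set_option linter.unusedVariables false
set_option linter.unusedSectionVars false

noncomputable section

namespace Fermat.Agent.S55

open CategoryTheory Module groupCohomology ExtCitation

/-- The invariant does not change under an equality of subgroups. -/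
theorem kaex_inv_congr (inv : lcf_InvType) {q : ℕ} [Fact q.Prime]
    {U U' : Subgroup (lcf_Gal q)} (h : U = U')
    (f : ↥U × ↥U → (PadicAlgCl q)ˣ) (f' : ↥U' × ↥U' → (PadicAlgCl q)ˣ)
    (hf : ∀ (x : ↥U × ↥U) (x' : ↥U' × ↥U'), (x.1 : lcf_Gal q) = x'.1 →
      (x.2 : lcf_Gal q) = x'.2 → f x = f' x') :
    inv q U f = inv q U' f' := by
  subst h
  congr 1
  funext x
  exact hf x x rfl rfl

section TrInv

variable {p : ℕ} [Fact p.Prime] (q : ℕ) [Fact q.Prime]
  (K : IntermediateField ℚ (AlgebraicClosure ℚ)) [hKn : K.fixingSubgroup.Normal]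

include hKn in
/-- **The local invariant of a cup product in coordinates.** -/
theorem kaex_trinv (inv : lcf_InvType) (hinv : lcf_IsInvSystem inv)
    [Fintype (s55_GQ ⧸ K.fixingSubgroup)] (hK : FiniteDimensional ℚ K)
    (hχ : ∀ s ∈ K.fixingSubgroup, cycloChar p s = 1)
    (a b : lcf_Gal q → (s55_GQ ⧸ K.fixingSubgroup) → ZMod p)
    (ha : ∀ (g h : lcf_Gal q) (x : s55_GQ ⧸ K.fixingSubgroup),
      a (g * h) x = a h ((localGaloisToGlobal q g)⁻¹ • x) + a g x)
    (hb : ∀ (g h : lcf_Gal q) (x : s55_GQ ⧸ K.fixingSubgroup),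
      b (g * h) x = ((cycloChar p (localGaloisToGlobal q g) : (ZMod p)ˣ) : ZMod p) *
        b h ((localGaloisToGlobal q g)⁻¹ • x) + b g x)
    (has : ∃ E : IntermediateField ℚ_[q] (PadicAlgCl q), FiniteDimensional ℚ_[q] E ∧
      ∀ g s : lcf_Gal q, s ∈ E.fixingSubgroup → a (g * s) = a g)
    (hbs : ∃ E : IntermediateField ℚ_[q] (PadicAlgCl q), FiniteDimensional ℚ_[q] E ∧
      ∀ g s : lcf_Gal q, s ∈ E.fixingSubgroup → b (g * s) = b g)
    (T : Finset (s55_GQ ⧸ K.fixingSubgroup))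
    (hTc : (letI := kaex_act K q; shp_Covers (lcf_Gal q) (T : Set (s55_GQ ⧸ K.fixingSubgroup))))
    (hTi : (letI := kaex_act K q; shp_Indep (lcf_Gal q) (T : Set (s55_GQ ⧸ K.fixingSubgroup)))) :
    inv q ⊤ (fun y => ptinv_exp p q (∑ x : s55_GQ ⧸ K.fixingSubgroup,
        a (y.1 : lcf_Gal q) x *
          (((cycloChar p (localGaloisToGlobal q (y.1 : lcf_Gal q)) : (ZMod p)ˣ) : ZMod p) *
            b (y.2 : lcf_Gal q) ((localGaloisToGlobal q (y.1 : lcf_Gal q))⁻¹ • x)))) =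
      ∑ t ∈ T, inv q (K.fixingSubgroup.comap (localGaloisToGlobal q))
        (fun y => ptinv_exp p q (a (y.1 : lcf_Gal q) t * b (y.2 : lcf_Gal q) t)) := by
  classical
  letI := kaex_act K q
  obtain ⟨Ea, hEa, hEaa⟩ := has
  obtain ⟨Eb, hEb, hEbb⟩ := hbs
  obtain ⟨EK, hEK, hEKK⟩ := ptinv_loc_fix q K
  have hUx : ∀ s ∈ K.fixingSubgroup, ∀ x : s55_GQ ⧸ K.fixingSubgroup, s • x = x :=
    fun s hs x => (kaex_smul_eq_iff K.fixingSubgroup s x).2 hs
  -- the cochain `F`
  set F : lcf_Gal q × lcf_Gal q → (s55_GQ ⧸ K.fixingSubgroup) → (PadicAlgCl q)ˣ := fun y x =>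
    ptinv_exp p q (a y.1 x *
      (((cycloChar p (localGaloisToGlobal q y.1) : (ZMod p)ˣ) : ZMod p) *
        b y.2 ((localGaloisToGlobal q y.1)⁻¹ • x))) with hF
  have hsm : ∃ E : IntermediateField ℚ_[q] (PadicAlgCl q), FiniteDimensional ℚ_[q] E ∧
      ∀ s ∈ E.fixingSubgroup, ∀ x : s55_GQ ⧸ K.fixingSubgroup, s • x = x :=
    ⟨EK, hEK, fun s hs x => hUx _ (hEKK s hs) x⟩
  have hFs : ∃ E : IntermediateField ℚ_[q] (PadicAlgCl q), FiniteDimensional ℚ_[q] E ∧
      ∀ g g' s s' : lcf_Gal q, s ∈ E.fixingSubgroup → s' ∈ E.fixingSubgroup →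
        F (g * s, g' * s') = F (g, g') := by
    haveI := hEa
    haveI := hEb
    haveI := hEK
    haveI : FiniteDimensional ℚ_[q] ↥(Ea ⊔ Eb) := IntermediateField.finiteDimensional_sup Ea Eb
    refine ⟨Ea ⊔ Eb ⊔ EK, IntermediateField.finiteDimensional_sup (Ea ⊔ Eb) EK, ?_⟩
    intro g g' s s' hs hs'
    rw [IntermediateField.fixingSubgroup_sup, IntermediateField.fixingSubgroup_sup] at hs hs'
    obtain ⟨⟨hsa, hsb⟩, hsK⟩ := hs
    obtain ⟨⟨hsa', hsb'⟩, hsK'⟩ := hs'
    funext x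
    simp only [hF]
    have hsU : localGaloisToGlobal q s ∈ K.fixingSubgroup := hEKK s hsK
    have h1 : cycloChar p (localGaloisToGlobal q (g * s)) =
        cycloChar p (localGaloisToGlobal q g) := by
      rw [map_mul, map_mul, hχ _ hsU, mul_one]
    have h2 : (localGaloisToGlobal q (g * s))⁻¹ • x = (localGaloisToGlobal q g)⁻¹ • x := by
      rw [map_mul, mul_inv_rev, mul_smul]
      exact hUx _ (K.fixingSubgroup.inv_mem hsU) _
    rw [hEaa g s hsa, hEbb g' s' hsb', h1, h2]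
  have hFc : ∀ (g h j : lcf_Gal q) (x : s55_GQ ⧸ K.fixingSubgroup),
      F (g * h, j) x * F (g, h) x = g • F (h, j) (g⁻¹ • x) * F (g, h * j) x := by
    intro g h j x
    have e1 : (g⁻¹ • x : s55_GQ ⧸ K.fixingSubgroup) = (localGaloisToGlobal q g)⁻¹ • x := by
      change localGaloisToGlobal q g⁻¹ • x = _
      rw [map_inv]
    simp only [hF]
    rw [ptinv_smul_exp, ← ptinv_exp_add, ← ptinv_exp_add, e1, ha g h x, hb h j]
    congr 1
    simp only [map_mul, Units.val_mul, mul_inv_rev, mul_smul]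
    ring
  have key := shtr_fin inv hinv q (s55_GQ ⧸ K.fixingSubgroup) hsm F hFs hFc T hTc hTi
  have hL : (fun y : ↥(⊤ : Subgroup (lcf_Gal q)) × ↥(⊤ : Subgroup (lcf_Gal q)) =>
      ptinv_exp p q (∑ x : s55_GQ ⧸ K.fixingSubgroup,
        a (y.1 : lcf_Gal q) x *
          (((cycloChar p (localGaloisToGlobal q (y.1 : lcf_Gal q)) : (ZMod p)ˣ) : ZMod p) *
            b (y.2 : lcf_Gal q) ((localGaloisToGlobal q (y.1 : lcf_Gal q))⁻¹ • x)))) =
      fun y => ∏ x : s55_GQ ⧸ K.fixingSubgroup, F ((y.1 : lcf_Gal q), (y.2 : lcf_Gal q)) x := by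
    funext y
    rw [pco_exp_sum]
  rw [hL, key]
  refine Finset.sum_congr rfl fun t ht => ?_
  refine kaex_inv_congr inv (kaex_stab_eq K q t) _ _ ?_
  intro x x' h1 h2
  simp only [hF]
  have hx1 : localGaloisToGlobal q (x'.1 : lcf_Gal q) ∈ K.fixingSubgroup := x'.1.2
  rw [h1, h2, hχ _ hx1, Units.val_one, one_mul, hUx _ (K.fixingSubgroup.inv_mem hx1)]

end TrInv

end Fermat.Agent.S55
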