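/-
S55 (Poitou-Tate), BRIDGE part 2: [REC-RED], the reduction of [REC-OF] to the K-level target
`kl_RecQStatement` (reciprocity over `ℚ`).  Owner: helper9.  Prefix `rrd_`.
-/
import Mathlib
import Fermat.Agent.S55.Bridge.KDefs
import Fermat.Agent.S55.Local.Arch
import Fermat.Agent.S55.Local.PtInv
import Fermat.Agent.S55.Dev.NatTools

set_option autoImplicit false
set_option maxHeartbeats 1000000
set_option synthInstance.maxHeartbeats 400000
open CategoryTheory Module groupCohomology ExtCitation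

namespace Fermat.Agent.S55

/-- Restriction of a level-`S` global 2-cocycle to a place is a level local 2-cocycle. -/
theorem rrd_loc_mem {p : ℕ} [Fact p.Prime] (S : Finset Nat.Primes)
    (A : Rep.{0,0,0} (ZMod p) s55_GQ) (v : extArithIndex S)
    (f : s55_GQ × s55_GQ → A) (hf : f ∈ levelCocyclesS₂ S A) :
    cone_loc₂ S A v f ∈
      levelCocycles₂ (extArithLoc S v) (Rep.res (extArithLoc S v) A) := by
  refine ⟨?_, dnat_loc₂_level S v hf.2⟩
  change (d₂₃ _).hom _ = 0
  have h0 : (d₂₃ A).hom f = 0 := hf.1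
  rw [dnat_loc₂_d₂₃, h0]
  rfl

/-- **[REC-RED]**  `kl_RecQStatement ⇒ fin55_RecOfStatement`. -/
theorem rrd_main (hK : kl_RecQStatement) : fin55_RecOfStatement := by
  intro inv ptinv hinv hc p _ hp2 S hpS x
  obtain ⟨f, rfl⟩ := Submodule.mkQ_surjective _ x
  have hsum : ∑ v : extArithIndex S, ptinv p S v
      (locTotal₂S S (pt_T p) ((Submodule.mkQ _) f) v) =
      ∑ v : Unit ⊕ ↥S, ptinv p S v (locTotal₂S S (pt_T p) ((Submodule.mkQ _) f) v) := rfl
  rw [hsum, Fintype.sum_sum_type]
  have h1 : ∀ u : Unit, ptinv p S (Sum.inl u)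
      (locTotal₂S S (pt_T p) ((Submodule.mkQ _) f) (Sum.inl u)) = 0 := by
    intro u
    rw [larch_continuousH2_inl_eq_zero S (pt_T p) hp2 rfl
      (locTotal₂S S (pt_T p) ((Submodule.mkQ _) f) (Sum.inl u)), map_zero]
  rw [Finset.sum_eq_zero (fun u _ => h1 u), zero_add]
  apply ptinv_e_injective p
  rw [map_sum, map_zero, ← hK inv hinv hp2 S hpS f.1 f.2]
  refine Finset.sum_congr rfl fun q _ => ?_
  have hmem := rrd_loc_mem S (pt_T p) (Sum.inr q : extArithIndex S) f.1 f.2
  have hcq := hc p S q _ hmem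
  rw [ptinv_e_apply]
  exact hcq.symm

end Fermat.Agent.S55
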