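/-
S55 (Poitou-Tate), BRIDGE part 2, package [SHAP-INJ] (helper24): degree 1.
`shin_main₁ : shp_Inj₁Statement`.  Prefix `shin_`.
-/
import Mathlib
import Fermat.Agent.S55.Bridge.ShapInjBasic

set_option autoImplicit false

noncomputable section

namespace Fermat.Agent.S55

open groupCohomology

/-- The prism identity for a 1-cocycle. -/
theorem shin_prism₁ {k Γ : Type} [CommRing k] [Group Γ] {M : Rep.{0, 0, 0} k Γ}
    (z : Γ → M) (hz : ∀ x, shp_d₁ (MonoidHom.id Γ) M z x = 0)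
    (p q g v : Γ) (h₁ : v * q = p * g) :
    M.ρ p (z g) = z v + M.ρ v (z q) - z p := by
  have c1 := hz (p, g)
  have c2 := hz (v, q)
  simp only [shp_d₁, MonoidHom.id_apply] at c1 c2
  rw [h₁] at c2
  linear_combination (norm := abel) c1 - c2

theorem shin_main₁ : shp_Inj₁Statement := by
  intro k Γ X _ _ _ _ M B C N hNn hN T hT z hz _ a' ha'
  set F : X → B := fun x =>
    B.ρ (shin_s hT x) (a' (shin_t hT x) + C.π (shin_t hT x) (z (shin_s hT x)⁻¹)) with hF
  refine ⟨shin_mk C F, fun g => ?_⟩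
  apply shin_ext C
  intro x
  simp only [shp_d₀, MonoidHom.id_apply, map_sub]
  rw [shin_π_ρ, shin_π_mk, shin_π_mk]
  simp only [hF]
  rw [shin_t_smul]
  set t := shin_t hT x with ht
  set sx := shin_s hT x with hsx
  set sy := shin_s hT (g⁻¹ • x) with hsy
  have hv : (sx⁻¹ * g * sy) • t = t := shin_v_smul hT g x
  have hP := shin_prism₁ z hz sx⁻¹ sy⁻¹ g (sx⁻¹ * g * sy) (by group)
  have hP' := congrArg (C.π t) hP
  simp only [map_add, map_sub] at hP'
  have hd := ha' t (shin_t_mem hT x) ⟨sx⁻¹ * g * sy, hv⟩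
  simp only [shp_d₀, Subgroup.coe_subtype] at hd
  rw [shin_π_stab C hv, hd] at hP'
  have hT' : C.π x (z g) = B.ρ sx (C.π t (M.ρ sx⁻¹ (z g))) :=
    (shin_π_transport C (shin_s_smul hT x) _).symm
  rw [hT', hP']
  have hgs : B.ρ g ∘ₗ B.ρ sy = B.ρ sx ∘ₗ B.ρ (sx⁻¹ * g * sy) := by
    rw [← Module.End.mul_eq_comp, ← Module.End.mul_eq_comp, ← map_mul, ← map_mul]
    congr 1
    group
  have hgs' : ∀ b : B, B.ρ g (B.ρ sy b) = B.ρ sx (B.ρ (sx⁻¹ * g * sy) b) :=
    fun b => LinearMap.congr_fun hgs b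
  rw [hgs']
  simp only [map_add, map_sub]
  abel

end Fermat.Agent.S55
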