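/-
S55 (Poitou-Tate), BRIDGE part 2, K→A package (2) [A-EX-OF] (helper6), part 3: the local
invariants of `z_q ∪ loc_q y` in terms of the K-level invariants `kl_inv`.  Prefix `kaex_`.
-/
import Mathlib
import Fermat.Agent.S55.Bridge.KAExLoc
import Fermat.Agent.S55.Bridge.ARed
import Fermat.Agent.S55.Bridge.RecRed
import Fermat.Agent.S55.Bridge.ShapInj1
import Fermat.Agent.S55.Local.Arch
import Fermat.Agent.S55.Local.PtInv
import Fermat.Agent.S55.CupLevel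

set_option autoImplicit false
set_option maxHeartbeats 1000000
set_option synthInstance.maxHeartbeats 400000
set_option linter.style.haveILetI false
set_option linter.unusedVariables false
set_option linter.unusedSectionVars false

noncomputable section

namespace Fermat.Agent.S55

open CategoryTheory Module groupCohomology ExtCitation

section Zq

variable {p : ℕ} [Fact p.Prime] (S : Finset Nat.Primes) (q : ↥S)
  (M : Rep.{0, 0, 0} (ZMod p) s55_GQ)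

/-- A local cocycle at `q` as a function on `lcf_Gal q` with values in `M`. -/
def kaex_zq (z : ↥(cone_Z1v S M (Sum.inr q))) : lcf_Gal (q.1 : ℕ) → M :=
  fun τ => ((z : cocycles₁ (Rep.res (extArithLoc S (Sum.inr q)) M)) :
    extArithLocalGroups S (Sum.inr q) → Rep.res (extArithLoc S (Sum.inr q)) M) τ

theorem kaex_zq_mul (z : ↥(cone_Z1v S M (Sum.inr q))) (τ σ : lcf_Gal (q.1 : ℕ)) :
    kaex_zq S q M z (τ * σ) =
      M.ρ (localGaloisToGlobal (q.1 : ℕ) τ) (kaex_zq S q M z σ) + kaex_zq S q M z τ :=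
  (mem_cocycles₁_iff _).1 z.1.2 τ σ

theorem kaex_zq_smooth (z : ↥(cone_Z1v S M (Sum.inr q))) :
    ∃ E : IntermediateField ℚ_[(q.1 : ℕ)] (PadicAlgCl (q.1 : ℕ)),
      FiniteDimensional ℚ_[(q.1 : ℕ)] E ∧
      ∀ g s : lcf_Gal (q.1 : ℕ), s ∈ E.fixingSubgroup →
        kaex_zq S q M z (g * s) = kaex_zq S q M z g := by
  obtain ⟨F, hF, h⟩ := z.2
  haveI := hF
  obtain ⟨E, hE, hEF⟩ := ptinv_loc_fix (q.1 : ℕ) F
  exact ⟨E, hE, fun g s hs => h g s (hEF s hs)⟩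

end Zq

section Inv

variable {p : ℕ} [Fact p.Prime] (S : Finset Nat.Primes)
  (K : IntermediateField ℚ (AlgebraicClosure ℚ)) [hKn : K.fixingSubgroup.Normal]

/-- The local Shapiro components `θ_{q,g} = π_{g x₀} ∘ z_q` on `kl_H K q`. -/
def kaex_theta [Finite (s55_GQ ⧸ K.fixingSubgroup)]
    (z : ∀ v : extArithIndex S, ↥(cone_Z1v S (pt_A p K) v)) (q : ↥S) (g : s55_GQ) :
    ↥(kl_H K (q : Nat.Primes)) → ZMod p :=
  fun τ => ((lcdb_coord (k := ZMod p) (Γ := s55_GQ) (X := s55_GQ ⧸ K.fixingSubgroup)).π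
    (QuotientGroup.mk g) (kaex_zq S q (pt_A p K) (z (Sum.inr q)) (τ : lcf_Gal (q.1 : ℕ))) : ZMod p)

include hKn in
theorem kaex_theta_hom [Finite (s55_GQ ⧸ K.fixingSubgroup)]
    (z : ∀ v : extArithIndex S, ↥(cone_Z1v S (pt_A p K) v)) (q : ↥S) (g : s55_GQ) :
    kl_IsHom (kaex_theta S K z q g) := by
  intro τ σ
  simp only [kaex_theta, Subgroup.coe_mul]
  rw [kaex_zq_mul, cov_A_fix K hKn _ τ.2, map_add, add_comm]

theorem kaex_theta_smooth [Finite (s55_GQ ⧸ K.fixingSubgroup)]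
    (z : ∀ v : extArithIndex S, ↥(cone_Z1v S (pt_A p K) v)) (q : ↥S) (g : s55_GQ) :
    lcf_Smooth₁ (kl_H K (q : Nat.Primes)) (kaex_theta S K z q g) := by
  obtain ⟨E, hE, h⟩ := kaex_zq_smooth S q (pt_A p K) (z (Sum.inr q))
  refine ⟨E, hE, fun g' s hs => ?_⟩
  simp only [kaex_theta, Subgroup.coe_mul]
  rw [h _ _ hs]

end Inv

section InvQ

variable {p : ℕ} [Fact p.Prime] (S : Finset Nat.Primes)
  (K : IntermediateField ℚ (AlgebraicClosure ℚ)) [hKn : K.fixingSubgroup.Normal]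

include hKn in
/-- **The local invariant at `q` of `z_q ∪ loc_q y` is the sum of the K-level invariants at the
places above `q`.** -/
theorem kaex_inv_q (inv : lcf_InvType) (hinv : lcf_IsInvSystem inv)
    [Fintype (s55_GQ ⧸ K.fixingSubgroup)] (hK : FiniteDimensional ℚ K)
    (hχ : ∀ s ∈ K.fixingSubgroup, cycloChar p s = 1)
    (R : ↥S → Finset s55_GQ) (hR : kl_IsReps S K R)
    (z : ∀ v : extArithIndex S, ↥(cone_Z1v S (pt_A p K) v))
    (y : s55_GQ → (pt_A p K).dualTwist (cycloChar p))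
    (hy : ∀ g h, y (g * h) = ((pt_A p K).dualTwist (cycloChar p)).ρ g (y h) + y g)
    (hyl : IsLevelConstantS₁ S y)
    (yK : ↥K.fixingSubgroup → ZMod p)
    (hyK : ∀ v : ↥K.fixingSubgroup,
      ((kaex_coord' (p := p) (s55_GQ ⧸ K.fixingSubgroup)).π (QuotientGroup.mk 1)
        (y (v : s55_GQ)) : ZMod p) = yK v)
    (q : ↥S) :
    inv (q.1 : ℕ) ⊤ (ld_mu p S q (cup₁₁ (pt_evv S (Sum.inr q) (pt_A p K))
        ((z (Sum.inr q) : cocycles₁ (Rep.res (extArithLoc S (Sum.inr q)) (pt_A p K))) :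
          extArithLocalGroups S (Sum.inr q) → Rep.res (extArithLoc S (Sum.inr q)) (pt_A p K))
        (cone_loc₁ S ((pt_A p K).dualTwist (cycloChar p)) (Sum.inr q) y))) =
      ∑ g₀ ∈ R q, kl_inv K inv (q : Nat.Primes) g₀
        (fun x => kaex_theta S K z q g₀ x.1 * yK (kl_r K (q : Nat.Primes) g₀ x.2)) := by
  classical
  set C := lcdb_coord (k := ZMod p) (Γ := s55_GQ) (X := s55_GQ ⧸ K.fixingSubgroup) with hC
  set C' := kaex_coord' (p := p) (s55_GQ ⧸ K.fixingSubgroup) with hC'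
  set zq := kaex_zq S q (pt_A p K) (z (Sum.inr q)) with hzq
  set a : lcf_Gal (q.1 : ℕ) → (s55_GQ ⧸ K.fixingSubgroup) → ZMod p :=
    fun g x => (C.π x (zq g) : ZMod p) with ha
  set b : lcf_Gal (q.1 : ℕ) → (s55_GQ ⧸ K.fixingSubgroup) → ZMod p :=
    fun h x => (C'.π x (y (localGaloisToGlobal (q.1 : ℕ) h)) : ZMod p) with hb
  have hπ' : ∀ (g : s55_GQ) (x : s55_GQ ⧸ K.fixingSubgroup)
      (m : (pt_A p K).dualTwist (cycloChar p)),
      (C'.π x (((pt_A p K).dualTwist (cycloChar p)).ρ g m) : ZMod p) =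
        ((cycloChar p g : (ZMod p)ˣ) : ZMod p) * (C'.π (g⁻¹ • x) m : ZMod p) := by
    intro g x m
    rw [shin_π_ρ C' g x m, adm_T_ρ]
    rfl
  have hπ : ∀ (g : s55_GQ) (x : s55_GQ ⧸ K.fixingSubgroup) (m : pt_A p K),
      (C.π x ((pt_A p K).ρ g m) : ZMod p) = (C.π (g⁻¹ • x) m : ZMod p) := by
    intro g x m
    rw [shin_π_ρ C g x m]
    rfl
  have haa : ∀ (g h : lcf_Gal (q.1 : ℕ)) (x : s55_GQ ⧸ K.fixingSubgroup),
      a (g * h) x = a h ((localGaloisToGlobal (q.1 : ℕ) g)⁻¹ • x) + a g x := by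
    intro g h x
    simp only [ha, hzq]
    rw [kaex_zq_mul, map_add, hπ]
  have hbb : ∀ (g h : lcf_Gal (q.1 : ℕ)) (x : s55_GQ ⧸ K.fixingSubgroup),
      b (g * h) x = ((cycloChar p (localGaloisToGlobal (q.1 : ℕ) g) : (ZMod p)ˣ) : ZMod p) *
        b h ((localGaloisToGlobal (q.1 : ℕ) g)⁻¹ • x) + b g x := by
    intro g h x
    simp only [hb]
    rw [map_mul, hy, map_add, hπ']
  have has : ∃ E : IntermediateField ℚ_[(q.1 : ℕ)] (PadicAlgCl (q.1 : ℕ)),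
      FiniteDimensional ℚ_[(q.1 : ℕ)] E ∧
      ∀ g s : lcf_Gal (q.1 : ℕ), s ∈ E.fixingSubgroup → a (g * s) = a g := by
    obtain ⟨E, hE, h⟩ := kaex_zq_smooth S q (pt_A p K) (z (Sum.inr q))
    refine ⟨E, hE, fun g s hs => ?_⟩
    funext x
    simp only [ha, hzq]
    rw [h g s hs]
  have hbs : ∃ E : IntermediateField ℚ_[(q.1 : ℕ)] (PadicAlgCl (q.1 : ℕ)),
      FiniteDimensional ℚ_[(q.1 : ℕ)] E ∧
      ∀ g s : lcf_Gal (q.1 : ℕ), s ∈ E.fixingSubgroup → b (g * s) = b g := by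
    obtain ⟨F, hF, h⟩ := hyl
    haveI := hF.1
    obtain ⟨E, hE, hEF⟩ := ptinv_loc_fix (q.1 : ℕ) F
    refine ⟨E, hE, fun g s hs => ?_⟩
    funext x
    simp only [hb]
    rw [map_mul, h _ _ (hEF s hs)]
  have hTc := kaex_reps_covers hR q
    (((R q).image (QuotientGroup.mk : s55_GQ → s55_GQ ⧸ K.fixingSubgroup) :
      Finset (s55_GQ ⧸ K.fixingSubgroup)) : Set (s55_GQ ⧸ K.fixingSubgroup))
    (fun g₀ hg₀ => Finset.mem_coe.2 (Finset.mem_image.2 ⟨g₀, hg₀, rfl⟩))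
  have hTi := kaex_reps_indep hR q
    (((R q).image (QuotientGroup.mk : s55_GQ → s55_GQ ⧸ K.fixingSubgroup) :
      Finset (s55_GQ ⧸ K.fixingSubgroup)) : Set (s55_GQ ⧸ K.fixingSubgroup))
    (fun t ht => by
      obtain ⟨g₀, hg₀, rfl⟩ := Finset.mem_image.1 (Finset.mem_coe.1 ht)
      exact ⟨g₀, hg₀, rfl⟩)
  have key := kaex_trinv (p := p) (q.1 : ℕ) K inv hinv hK hχ a b haa hbb has hbs _ hTc hTi
  have hL : ld_mu p S q (cup₁₁ (pt_evv S (Sum.inr q) (pt_A p K))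
        ((z (Sum.inr q) : cocycles₁ (Rep.res (extArithLoc S (Sum.inr q)) (pt_A p K))) :
          extArithLocalGroups S (Sum.inr q) → Rep.res (extArithLoc S (Sum.inr q)) (pt_A p K))
        (cone_loc₁ S ((pt_A p K).dualTwist (cycloChar p)) (Sum.inr q) y)) =
      fun w => ptinv_exp p (q.1 : ℕ) (∑ x : s55_GQ ⧸ K.fixingSubgroup,
        a (w.1 : lcf_Gal (q.1 : ℕ)) x *
          (((cycloChar p (localGaloisToGlobal (q.1 : ℕ) (w.1 : lcf_Gal (q.1 : ℕ))) :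
              (ZMod p)ˣ) : ZMod p) *
            b (w.2 : lcf_Gal (q.1 : ℕ))
              ((localGaloisToGlobal (q.1 : ℕ) (w.1 : lcf_Gal (q.1 : ℕ)))⁻¹ • x))) := by
    funext w
    rw [ptinv_mu_apply]
    congr 1
    change (pt_ev (pt_A p K) (zq (w.1 : lcf_Gal (q.1 : ℕ)))
      (((pt_A p K).dualTwist (cycloChar p)).ρ
        (localGaloisToGlobal (q.1 : ℕ) (w.1 : lcf_Gal (q.1 : ℕ)))
        (y (localGaloisToGlobal (q.1 : ℕ) (w.2 : lcf_Gal (q.1 : ℕ))))) : ZMod p) = _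
    rw [kaex_ev_sum]
    refine Finset.sum_congr rfl fun x _ => ?_
    simp only [ha, hb]
    rw [← hπ']
  rw [hL, key, Finset.sum_image (kaex_reps_injOn hR q)]
  refine Finset.sum_congr rfl fun g₀ hg₀ => ?_
  rw [kl_inv]
  congr 1
  funext w
  change ptinv_exp p (q.1 : ℕ) _ = ptinv_exp p (q.1 : ℕ) _
  congr 1
  have hw2 : localGaloisToGlobal (q.1 : ℕ) (w.2 : lcf_Gal (q.1 : ℕ)) ∈ K.fixingSubgroup := w.2.2
  have hconj := kaex_conj C' y
    (fun x => by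
      simp only [shp_d₁, MonoidHom.id_apply]
      rw [hy x.1 x.2]
      abel)
    g₀ (localGaloisToGlobal (q.1 : ℕ) (w.2 : lcf_Gal (q.1 : ℕ)))
    (QuotientGroup.mk 1 : s55_GQ ⧸ K.fixingSubgroup)
    ((kaex_smul_eq_iff K.fixingSubgroup _ _).2 hw2)
    (fun b => by rw [adm_T_ρ, hχ _ hw2, Units.val_one, one_smul])
  rw [← kaex_mk_eq_smul] at hconj
  have hb2 : b (w.2 : lcf_Gal (q.1 : ℕ)) (QuotientGroup.mk g₀) =
      ((cycloChar p g₀ : (ZMod p)ˣ) : ZMod p) * yK (kl_r K (q : Nat.Primes) g₀ w.2) := by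
    simp only [hb]
    rw [hconj, adm_T_ρ, ← hyK]
    rfl
  rw [hb2]
  change (C.π (QuotientGroup.mk g₀) (zq (w.1 : lcf_Gal (q.1 : ℕ))) : ZMod p) * _ =
    _ * ((C.π (QuotientGroup.mk g₀) (zq (w.1 : lcf_Gal (q.1 : ℕ))) : ZMod p) * _)
  ring

end InvQ

end Fermat.Agent.S55
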