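/-
S55 (Poitou-Tate), BRIDGE part 2, K→A package (2) [A-EX-OF] (helper6), part 4: the assembly.
Prefix `kaex_`.

`kaex_main : kl_ExStatement → ab_ExOfStatement`.

PROOF.  `z = (z_v)` a family of continuous local cocycles with values in `A = pt_A p K`,
orthogonal to the localisations of all level-`S` cocycles `y` of `G_ℚ` in `A' = A^*(1)`.
* `θ_{q,g₀} := π_{g₀ x₀} ∘ z_q` on `kl_H K q` (`kaex_theta`), a smooth character;
* for a level-`S` character `y_K` of `U`, lift it to `y` (`kaex_lift`, [SHAP-SURJ 1]); the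
  hypothesis, `ld_Compat` and [TR-INV] (`kaex_inv_q`) give
  `∑_q ∑_{g₀ ∈ R q} kl_inv (θ_{q,g₀} ∪ y_K ∘ r) = 0` (`kaex_orth`);
* [K-EX] gives a level-`S` character `θ₀` of `U` with `θ₀ ∘ r_{q,g₀} = θ_{q,g₀}`; lift it to a
  level-`S` cocycle `x₁` of `G_ℚ` in `A` (`kaex_lift`);
* `loc_q x₁ - z_q` is a coboundary ([SHAP-INJ 1] for the local group, `kaex_cob`); at the
  archimedean place `H¹ = 0`.
-/
import Mathlib
import Fermat.Agent.S55.Bridge.KAExInv

set_option autoImplicit false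
set_option maxHeartbeats 1000000
set_option synthInstance.maxHeartbeats 400000
set_option linter.style.haveILetI false
set_option linter.unusedVariables false
set_option linter.unusedSectionVars false

noncomputable section

namespace Fermat.Agent.S55

open CategoryTheory Module groupCohomology ExtCitation

section Orth

variable {p : ℕ} [Fact p.Prime] (S : Finset Nat.Primes)
  (K : IntermediateField ℚ (AlgebraicClosure ℚ)) [hKn : K.fixingSubgroup.Normal]

include hKn in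
/-- The family `θ` is orthogonal to all level-`S` characters of `U`. -/
theorem kaex_orth (inv : lcf_InvType) (ptinv : pt_InvFamily) (hinv : lcf_IsInvSystem inv)
    (hc : ld_Compat inv ptinv) (hp2 : p ≠ 2) (hpS : pPrime p ∈ S)
    [Fintype (s55_GQ ⧸ K.fixingSubgroup)] (hK : K.IsUnramifiedOutside S)
    (hχ : ∀ s ∈ K.fixingSubgroup, cycloChar p s = 1)
    (R : ↥S → Finset s55_GQ) (hR : kl_IsReps S K R)
    (z : ∀ v : extArithIndex S, ↥(cone_Z1v S (pt_A p K) v))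
    (hz : ∀ (y : cocycles₁ ((pt_A p K).dualTwist (cycloChar p))) (_ : IsLevelConstantS₁ S y)
      (hcoc : ∀ v : extArithIndex S,
        cup₁₁ (pt_evv S v (pt_A p K))
            ((z v : cocycles₁ (Rep.res (extArithLoc S v) (pt_A p K))) :
              extArithLocalGroups S v → Rep.res (extArithLoc S v) (pt_A p K))
            (cone_loc₁ S ((pt_A p K).dualTwist (cycloChar p)) v y) ∈
          levelCocycles₂ (extArithLoc S v) (Rep.res (extArithLoc S v) (pt_T p))),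
      ∑ v : extArithIndex S, ptinv p S v (continuousH2π _ _ ⟨_, hcoc v⟩) = 0)
    (yK : ↥K.fixingSubgroup → ZMod p) (hyK : kl_IsHom yK) (hyKl : kl_LevelS₁ S K yK) :
    ∑ q : ↥S, ∑ g₀ ∈ R q, kl_inv K inv (q : Nat.Primes) g₀
      (fun x => kaex_theta S K z q g₀ x.1 * yK (kl_r K (q : Nat.Primes) g₀ x.2)) = 0 := by
  classical
  haveI hKfin : FiniteDimensional ℚ K := hK.1
  haveI := cov_A_finite (p := p) K
  obtain ⟨hsm, hur⟩ := ab_A_adm (p := p) (S := S) K hK hKn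
  obtain ⟨y, hyl, hy, hyπ⟩ := kaex_lift (p := p) S K hK
    (kaex_coord' (p := p) (s55_GQ ⧸ K.fixingSubgroup))
    (fun s hs b => by rw [adm_T_ρ, hχ s hs, Units.val_one, one_smul]) yK hyK hyKl
  have hycoc : y ∈ cocycles₁ ((pt_A p K).dualTwist (cycloChar p)) := (mem_cocycles₁_iff y).2 hy
  have hcoc := fun v => ab_hcoc' (S := S) (M := pt_A p K) cupl_cupLevel hp2 hpS hsm hur z
    ⟨y, hycoc⟩ hyl v
  have h0 := hz ⟨y, hycoc⟩ hyl hcoc
  set f : extArithIndex S → ZMod p :=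
    fun v => ptinv p S v (continuousH2π _ _ ⟨_, hcoc v⟩) with hf
  have hsum : ∑ v : extArithIndex S, f v = ∑ v : Unit ⊕ ↥S, f v := rfl
  change ∑ v : extArithIndex S, f v = 0 at h0
  rw [hsum, Fintype.sum_sum_type] at h0
  have h1 : ∀ (v : extArithIndex S) (u : Unit), v = Sum.inl u → f v = 0 := by
    intro v u hv
    simp only [hf]
    rw [larch_continuousH2_inl_eq_zero S (pt_T p) hp2 hv
      (continuousH2π _ _ ⟨_, hcoc v⟩), map_zero]
  rw [Finset.sum_eq_zero (fun u _ => h1 (Sum.inl u) u rfl), zero_add] at h0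
  have h2 := congrArg (ptinv_e p) h0
  rw [map_sum, map_zero] at h2
  rw [← h2]
  refine Finset.sum_congr rfl fun q _ => ?_
  rw [← kaex_inv_q S K inv hinv hKfin hχ R hR z y hy hyl yK hyπ q, ptinv_e_apply]
  exact hc p S q _ (hcoc (Sum.inr q))

end Orth

section Cob

variable {p : ℕ} [Fact p.Prime] (S : Finset Nat.Primes)
  (K : IntermediateField ℚ (AlgebraicClosure ℚ)) [hKn : K.fixingSubgroup.Normal]

include hKn in
/-- [SHAP-INJ 1] for the local group at `q`: if the Shapiro components of `loc_q x₁ - z_q` at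
the representatives vanish, then `loc_q x₁ - z_q` is a coboundary. -/
theorem kaex_cob [Fintype (s55_GQ ⧸ K.fixingSubgroup)]
    (R : ↥S → Finset s55_GQ) (hR : kl_IsReps S K R)
    (z : ∀ v : extArithIndex S, ↥(cone_Z1v S (pt_A p K) v)) (q : ↥S)
    (x₁ : s55_GQ → pt_A p K) (hx₁ : ∀ g h, x₁ (g * h) = (pt_A p K).ρ g (x₁ h) + x₁ g)
    (θ₀ : ↥K.fixingSubgroup → ZMod p)
    (hx₁π : ∀ v : ↥K.fixingSubgroup,
      ((lcdb_coord (k := ZMod p) (Γ := s55_GQ) (X := s55_GQ ⧸ K.fixingSubgroup)).π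
        (QuotientGroup.mk 1) (x₁ (v : s55_GQ)) : ZMod p) = θ₀ v)
    (hθ₀ : ∀ g₀ ∈ R q, ∀ τ : ↥(kl_H K (q : Nat.Primes)),
      θ₀ (kl_r K (q : Nat.Primes) g₀ τ) = kaex_theta S K z q g₀ τ) :
    ∃ m : pt_A p K, ∀ τ : lcf_Gal (q.1 : ℕ),
      (pt_A p K).ρ (localGaloisToGlobal (q.1 : ℕ) τ) m - m =
        x₁ (localGaloisToGlobal (q.1 : ℕ) τ) - kaex_zq S q (pt_A p K) (z (Sum.inr q)) τ := by
  classical
  letI := kaex_act K (q.1 : ℕ)
  set C := lcdb_coord (k := ZMod p) (Γ := s55_GQ) (X := s55_GQ ⧸ K.fixingSubgroup) with hC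
  set zq := kaex_zq S q (pt_A p K) (z (Sum.inr q)) with hzq
  set Cq := kaex_resCoord (localGaloisToGlobal (q.1 : ℕ)) (fun _ _ => rfl) C with hCq
  set w : lcf_Gal (q.1 : ℕ) → Rep.res (localGaloisToGlobal (q.1 : ℕ)) (pt_A p K) :=
    fun τ => x₁ (localGaloisToGlobal (q.1 : ℕ) τ) - zq τ with hw
  have hTc := kaex_reps_covers hR q
    (((R q).image (QuotientGroup.mk : s55_GQ → s55_GQ ⧸ K.fixingSubgroup) :
      Finset (s55_GQ ⧸ K.fixingSubgroup)) : Set (s55_GQ ⧸ K.fixingSubgroup))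
    (fun g₀ hg₀ => Finset.mem_coe.2 (Finset.mem_image.2 ⟨g₀, hg₀, rfl⟩))
  have hwc : ∀ x, shp_d₁ (MonoidHom.id (lcf_Gal (q.1 : ℕ)))
      (Rep.res (localGaloisToGlobal (q.1 : ℕ)) (pt_A p K)) w x = 0 := by
    intro x
    simp only [shp_d₁, MonoidHom.id_apply, hw]
    rw [map_mul, hx₁, hzq, kaex_zq_mul]
    change (pt_A p K).ρ (localGaloisToGlobal (q.1 : ℕ) x.1) _ - _ + _ = 0
    rw [map_sub]
    abel
  obtain ⟨m, hm⟩ := shin_main₁ (ZMod p) (lcf_Gal (q.1 : ℕ)) (s55_GQ ⧸ K.fixingSubgroup)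
    (Rep.res (localGaloisToGlobal (q.1 : ℕ)) (pt_A p K))
    (Rep.res (localGaloisToGlobal (q.1 : ℕ)) (Rep.trivial (ZMod p) s55_GQ (ZMod p))) Cq ⊥
    (fun s hs x => by rw [Subgroup.mem_bot.1 hs, one_smul]) _ hTc w hwc
    (fun g s hs => by
      have h1 : s = 1 := Subgroup.mem_bot.1 hs
      rw [h1, mul_one])
    (fun _ => 0)
    (by
      intro t ht v
      obtain ⟨g₀, hg₀, rfl⟩ := Finset.mem_image.1 (Finset.mem_coe.1 ht)
      have hv0 : localGaloisToGlobal (q.1 : ℕ) (v : lcf_Gal (q.1 : ℕ)) •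
          (QuotientGroup.mk g₀ : s55_GQ ⧸ K.fixingSubgroup) = QuotientGroup.mk g₀ :=
        MulAction.mem_stabilizer_iff.1 v.2
      have hv : localGaloisToGlobal (q.1 : ℕ) (v : lcf_Gal (q.1 : ℕ)) ∈ K.fixingSubgroup :=
        (kaex_smul_eq_iff K.fixingSubgroup _ _).1 hv0
      have hconj := kaex_conj C x₁
        (fun x => by
          simp only [shp_d₁, MonoidHom.id_apply]
          rw [hx₁ x.1 x.2]
          abel)
        g₀ (localGaloisToGlobal (q.1 : ℕ) (v : lcf_Gal (q.1 : ℕ)))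
        (QuotientGroup.mk 1 : s55_GQ ⧸ K.fixingSubgroup)
        ((kaex_smul_eq_iff K.fixingSubgroup _ _).2 hv)
        (fun b => rfl)
      rw [← kaex_mk_eq_smul] at hconj
      have h1 := hθ₀ g₀ hg₀ ⟨(v : lcf_Gal (q.1 : ℕ)), hv⟩
      have h2 := hx₁π (kl_r K (q : Nat.Primes) g₀ ⟨(v : lcf_Gal (q.1 : ℕ)), hv⟩)
      rw [h1] at h2
      simp only [shp_d₀, map_zero, sub_zero]
      rw [kaex_resCoord_π]
      simp only [hw]
      rw [map_sub, hconj, sub_eq_zero]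
      exact h2)
  refine ⟨m, fun τ => ?_⟩
  have := hm τ
  simp only [shp_d₀, MonoidHom.id_apply, hw] at this
  exact this

end Cob

/-- **[A-EX-OF]** (K→A package 2): the K-level exactness `kl_ExStatement` implies the A-level
exactness `ab_Ex` for all the permutation modules `pt_A p K`. -/
theorem kaex_main : kl_ExStatement → ab_ExOfStatement := by
  intro hKex inv ptinv hinv hc p _ hp2 S hpS K hK hKn hχ z hz
  classical
  haveI := hKn
  haveI hKfin : FiniteDimensional ℚ K := hK.1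
  haveI : Finite (s55_GQ ⧸ K.fixingSubgroup) := cov_finite_quot K
  letI : Fintype (s55_GQ ⧸ K.fixingSubgroup) := Fintype.ofFinite _
  obtain ⟨R, hR⟩ := kaex_exists_reps S K
  -- [K-EX]
  obtain ⟨θ₀, hθ₀h, hθ₀l, hθ₀⟩ := hKex inv hinv hp2 S hpS K hK hχ R hR (kaex_theta S K z)
    (fun q g _ => ⟨kaex_theta_hom S K z q g, kaex_theta_smooth S K z q g⟩)
    (fun yK hyK hyKl => kaex_orth S K inv ptinv hinv hc hp2 hpS hK hχ R hR z hz yK hyK hyKl)
  -- the global cocycle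
  obtain ⟨x₁, hx₁l, hx₁, hx₁π⟩ := kaex_lift (p := p) S K hK
    (lcdb_coord (k := ZMod p) (Γ := s55_GQ) (X := s55_GQ ⧸ K.fixingSubgroup))
    (fun s hs b => rfl) θ₀ hθ₀h hθ₀l
  have hx₁coc : x₁ ∈ cocycles₁ (pt_A p K) := (mem_cocycles₁_iff x₁).2 hx₁
  refine ⟨pt_cls1 S (pt_A p K) ⟨x₁, hx₁coc⟩ hx₁l, ?_⟩
  rw [pt_locH1Total_cls]
  funext v
  apply Subtype.ext
  rw [cone_q_apply, cone_q_apply]
  have harch : ∀ (v : extArithIndex S) (u : Unit), v = Sum.inl u →
      (H1π (Rep.res (extArithLoc S v) (pt_A p K))).hom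
          (pt_locZ S (pt_A p K) v ⟨x₁, hx₁coc⟩ hx₁l).1 =
        (H1π (Rep.res (extArithLoc S v) (pt_A p K))).hom (z v).1 := by
    intro v u hv
    rw [larch_H1_inl_eq_zero S (pt_A p K) hp2 hv
        ((H1π (Rep.res (extArithLoc S v) (pt_A p K))).hom
          (pt_locZ S (pt_A p K) v ⟨x₁, hx₁coc⟩ hx₁l).1),
      larch_H1_inl_eq_zero S (pt_A p K) hp2 hv
        ((H1π (Rep.res (extArithLoc S v) (pt_A p K))).hom (z v).1)]
  rcases v with u | q
  · exact harch _ u rfl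
  · obtain ⟨m, hm⟩ := kaex_cob S K R hR z q x₁ hx₁ θ₀ hx₁π (hθ₀ q)
    refine (H1π_eq_iff _ _).2 ⟨m, ?_⟩
    funext τ
    rw [d₀₁_hom_apply]
    exact hm τ

end Fermat.Agent.S55
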