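/-
S55 (Poitou-Tate), BRIDGE part 2, K→A package (3) [A-H2-EX-OF] (helper20), part 1:
the GLOBAL Shapiro lift.  Prefix `kah2_`.

* `kah2_mem_cocycles₂_iff`, `kah2_d₁₂_eq` : the elementwise coboundaries `shp_d₂`, `shp_d₁` of
  `Bridge/ShapDefs.lean` are Mathlib's `d₂₃`, `d₁₂`;
* `kah2_smul_eq_of_le` : a normal subgroup contained in `U` acts trivially on `G ⧸ U`;
* `kah2_lift` : every level-`S` 2-cocycle `c_K` of `U = G_K` with values in `F_p` (trivial action)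
  is the Shapiro component at the trivial coset of a level-`S` 2-cocycle of `G_ℚ` with values in
  `pt_A p K = F_p[G_ℚ ⧸ U]`  (`shsu_main₂`).
-/
import Mathlib
import Fermat.Agent.S55.Bridge.KDefs
import Fermat.Agent.S55.Bridge.ShapSurj
import Fermat.Agent.S55.Bridge.FinLevelG
import Fermat.Agent.S55.Local.LcdBaseShap
import Fermat.Agent.S55.Dev.Lift
import Fermat.Agent.S55.CoverOfRep

set_option autoImplicit false
set_option linter.style.haveILetI false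
set_option maxHeartbeats 1000000
set_option synthInstance.maxHeartbeats 400000
open CategoryTheory Module groupCohomology ExtCitation

noncomputable section

namespace Fermat.Agent.S55

/-! ### Elementwise coboundaries -/

section Cob

variable {k Γ : Type} [CommRing k] [Group Γ] (M : Rep.{0, 0, 0} k Γ)

theorem kah2_d₂₃_apply (z : Γ × Γ → M) (x : Γ × Γ × Γ) :
    (d₂₃ M).hom z x = shp_d₂ (MonoidHom.id Γ) M z x := by
  obtain ⟨g, h, j⟩ := x
  rw [d₂₃_hom_apply]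
  rfl

theorem kah2_d₁₂_apply (a : Γ → M) (x : Γ × Γ) :
    (d₁₂ M).hom a x = shp_d₁ (MonoidHom.id Γ) M a x := by
  obtain ⟨g, h⟩ := x
  rw [d₁₂_hom_apply]
  rfl

theorem kah2_mem_cocycles₂_iff (z : Γ × Γ → M) :
    z ∈ cocycles₂ M ↔ ∀ x, shp_d₂ (MonoidHom.id Γ) M z x = 0 := by
  constructor
  · intro hz x
    have h0 : (d₂₃ M).hom z = 0 := hz
    rw [← kah2_d₂₃_apply, h0]
    rfl
  · intro hz
    show (d₂₃ M).hom z = 0
    funext x
    rw [kah2_d₂₃_apply, hz x]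
    rfl

end Cob

/-! ### The trivial action of small normal subgroups on `G ⧸ U` -/

section Quot

variable {Γ : Type} [Group Γ] (U N : Subgroup Γ)

theorem kah2_smul_eq_of_le [hN : N.Normal] (hNU : N ≤ U) (s : Γ) (hs : s ∈ N) (x : Γ ⧸ U) :
    s • x = x := by
  induction x using QuotientGroup.induction_on with
  | H g =>
    rw [MulAction.Quotient.smul_mk, smul_eq_mul, QuotientGroup.eq]
    have h1 : (s * g)⁻¹ * g = g⁻¹ * s⁻¹ * (g⁻¹)⁻¹ := by group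
    rw [h1]
    exact hNU (hN.conj_mem s⁻¹ (N.inv_mem hs) g⁻¹)

theorem kah2_mem_of_smul_one (v : Γ) (hv : v • (QuotientGroup.mk 1 : Γ ⧸ U) = QuotientGroup.mk 1) :
    v ∈ U := by
  rw [MulAction.Quotient.smul_mk, smul_eq_mul, QuotientGroup.eq, mul_one, mul_one] at hv
  have := U.inv_mem hv
  rwa [inv_inv] at this

theorem kah2_smul_one_of_mem (v : Γ) (hv : v ∈ U) :
    v • (QuotientGroup.mk 1 : Γ ⧸ U) = QuotientGroup.mk 1 := by
  rw [MulAction.Quotient.smul_mk, smul_eq_mul, QuotientGroup.eq, mul_one, mul_one]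
  exact U.inv_mem hv

end Quot

/-! ### Extension by zero of cochains on a subgroup -/

section Ext

variable {Γ : Type} [Group Γ] (U : Subgroup Γ) {Y : Type} [Zero Y]

open Classical in
/-- Extension by zero of a 2-cochain on `U`. -/
def kah2_ext₂ (c : ↥U × ↥U → Y) : Γ × Γ → Y :=
  fun x => if h : x.1 ∈ U ∧ x.2 ∈ U then c (⟨x.1, h.1⟩, ⟨x.2, h.2⟩) else 0

open Classical in
/-- Extension by zero of a 1-cochain on `U`. -/
def kah2_ext₁ (b : ↥U → Y) : Γ → Y :=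
  fun x => if h : x ∈ U then b ⟨x, h⟩ else 0

theorem kah2_ext₂_of_mem (c : ↥U × ↥U → Y) (g h : Γ) (hg : g ∈ U) (hh : h ∈ U) :
    kah2_ext₂ U c (g, h) = c (⟨g, hg⟩, ⟨h, hh⟩) := by
  unfold kah2_ext₂
  rw [dif_pos ⟨hg, hh⟩]

theorem kah2_ext₁_of_mem (b : ↥U → Y) (g : Γ) (hg : g ∈ U) :
    kah2_ext₁ U b g = b ⟨g, hg⟩ := by
  unfold kah2_ext₁
  rw [dif_pos hg]

end Ext

/-! ### The global lift -/

section Lift

variable {p : ℕ} [Fact p.Prime] (S : Finset Nat.Primes)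
  (K : IntermediateField ℚ (AlgebraicClosure ℚ))

/-- **The global Shapiro lift.** -/
theorem kah2_lift (hKS : K.IsUnramifiedOutside S)
    (c : ↥K.fixingSubgroup × ↥K.fixingSubgroup → ZMod p)
    (hc : kl_IsCoc₂ c) (hl : kl_LevelS₂ S K c) :
    ∃ x : s55_GQ × s55_GQ → pt_A p K, x ∈ levelCocyclesS₂ S (pt_A p K) ∧
      ∀ v w : ↥K.fixingSubgroup,
        (MonoidAlgebra.coeff (x ((v : s55_GQ), (w : s55_GQ))))
          (QuotientGroup.mk 1 : s55_GQ ⧸ K.fixingSubgroup) = c (v, w) := by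
  classical
  haveI : FiniteDimensional ℚ K := hKS.1
  haveI : Finite (s55_GQ ⧸ K.fixingSubgroup) := cov_finite_quot K
  obtain ⟨F₁, hF₁, hcl⟩ := hl
  obtain ⟨F, hFn, hKF, hF₁F, hFS⟩ := brg_common_level hKS hF₁
  haveI : Normal ℚ F := hFn
  haveI hNn : F.fixingSubgroup.Normal := dlift_fix_normal F
  have hNU : F.fixingSubgroup ≤ K.fixingSubgroup := IntermediateField.fixingSubgroup_antitone hKF
  have hN1 : F.fixingSubgroup ≤ F₁.fixingSubgroup := IntermediateField.fixingSubgroup_antitone hF₁F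
  have hN : ∀ s ∈ F.fixingSubgroup, ∀ x : s55_GQ ⧸ K.fixingSubgroup, s • x = x :=
    fun s hs x => kah2_smul_eq_of_le K.fixingSubgroup F.fixingSubgroup hNU s hs x
  have hT : shp_Indep s55_GQ
      ({(QuotientGroup.mk 1 : s55_GQ ⧸ K.fixingSubgroup)} : Set (s55_GQ ⧸ K.fixingSubgroup)) := by
    intro t ht t' ht' _
    rw [Set.mem_singleton_iff] at ht ht'
    rw [ht, ht']
  have hconst : ∀ t ∈ ({(QuotientGroup.mk 1 : s55_GQ ⧸ K.fixingSubgroup)} :
        Set (s55_GQ ⧸ K.fixingSubgroup)),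
      shp_Const₂ (MulAction.stabilizer s55_GQ t).subtype F.fixingSubgroup
        (fun y : ↥(MulAction.stabilizer s55_GQ t) × ↥(MulAction.stabilizer s55_GQ t) =>
          kah2_ext₂ K.fixingSubgroup c ((y.1 : s55_GQ), (y.2 : s55_GQ))) := by
    intro t ht g g' s s' hs hs'
    rw [Set.mem_singleton_iff] at ht
    subst ht
    have hg := kah2_mem_of_smul_one K.fixingSubgroup _ g.2
    have hg' := kah2_mem_of_smul_one K.fixingSubgroup _ g'.2
    have hsU := kah2_mem_of_smul_one K.fixingSubgroup _ s.2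
    have hs'U := kah2_mem_of_smul_one K.fixingSubgroup _ s'.2
    show kah2_ext₂ K.fixingSubgroup c ((g : s55_GQ) * (s : s55_GQ), (g' : s55_GQ) * (s' : s55_GQ)) =
      kah2_ext₂ K.fixingSubgroup c ((g : s55_GQ), (g' : s55_GQ))
    rw [kah2_ext₂_of_mem _ c _ _ (K.fixingSubgroup.mul_mem hg hsU)
      (K.fixingSubgroup.mul_mem hg' hs'U), kah2_ext₂_of_mem _ c _ _ hg hg']
    exact hcl ⟨_, hg⟩ ⟨_, hg'⟩ ⟨_, hsU⟩ ⟨_, hs'U⟩ (hN1 hs) (hN1 hs')
  have hcoc : ∀ t ∈ ({(QuotientGroup.mk 1 : s55_GQ ⧸ K.fixingSubgroup)} :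
        Set (s55_GQ ⧸ K.fixingSubgroup)), ∀ x,
      shp_d₂ (MulAction.stabilizer s55_GQ t).subtype (Rep.trivial (ZMod p) s55_GQ (ZMod p))
        (fun y : ↥(MulAction.stabilizer s55_GQ t) × ↥(MulAction.stabilizer s55_GQ t) =>
          kah2_ext₂ K.fixingSubgroup c ((y.1 : s55_GQ), (y.2 : s55_GQ))) x = 0 := by
    intro t ht x
    rw [Set.mem_singleton_iff] at ht
    subst ht
    obtain ⟨g, h, j⟩ := x
    have hg := kah2_mem_of_smul_one K.fixingSubgroup _ g.2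
    have hh := kah2_mem_of_smul_one K.fixingSubgroup _ h.2
    have hj := kah2_mem_of_smul_one K.fixingSubgroup _ j.2
    have h1 := hc ⟨_, hg⟩ ⟨_, hh⟩ ⟨_, hj⟩
    show kah2_ext₂ K.fixingSubgroup c ((h : s55_GQ), (j : s55_GQ)) -
      kah2_ext₂ K.fixingSubgroup c ((g : s55_GQ) * (h : s55_GQ), (j : s55_GQ)) +
      kah2_ext₂ K.fixingSubgroup c ((g : s55_GQ), (h : s55_GQ) * (j : s55_GQ)) -
      kah2_ext₂ K.fixingSubgroup c ((g : s55_GQ), (h : s55_GQ)) = 0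
    rw [kah2_ext₂_of_mem _ c _ _ hh hj, kah2_ext₂_of_mem _ c _ _ (K.fixingSubgroup.mul_mem hg hh) hj,
      kah2_ext₂_of_mem _ c _ _ hg (K.fixingSubgroup.mul_mem hh hj), kah2_ext₂_of_mem _ c _ _ hg hh]
    have h2 : c (⟨(g : s55_GQ) * (h : s55_GQ), K.fixingSubgroup.mul_mem hg hh⟩, ⟨(j : s55_GQ), hj⟩) +
        c (⟨(g : s55_GQ), hg⟩, ⟨(h : s55_GQ), hh⟩) =
        c (⟨(h : s55_GQ), hh⟩, ⟨(j : s55_GQ), hj⟩) +
        c (⟨(g : s55_GQ), hg⟩, ⟨(h : s55_GQ) * (j : s55_GQ), K.fixingSubgroup.mul_mem hh hj⟩) := h1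
    linear_combination -h2
  obtain ⟨z, hzc, hzd, hzπ⟩ := shsu_main₂ (ZMod p) s55_GQ (s55_GQ ⧸ K.fixingSubgroup)
    (pt_A p K) (Rep.trivial (ZMod p) s55_GQ (ZMod p)) lcdb_coord F.fixingSubgroup hN _ hT
    (fun t y => kah2_ext₂ K.fixingSubgroup c ((y.1 : s55_GQ), (y.2 : s55_GQ))) hconst hcoc
  refine ⟨z, ⟨(kah2_mem_cocycles₂_iff _ z).2 hzd, ⟨F, hFS, fun g g' s s' hs hs' =>
    hzc g g' s s' hs hs'⟩⟩, fun v w => ?_⟩
  have h1 := hzπ _ rfl ⟨(v : s55_GQ), kah2_smul_one_of_mem _ _ v.2⟩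
    ⟨(w : s55_GQ), kah2_smul_one_of_mem _ _ w.2⟩
  rw [lcdb_coord_π] at h1
  exact h1.trans (kah2_ext₂_of_mem _ c _ _ v.2 w.2)

end Lift

end Fermat.Agent.S55
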