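/-
S55 (Poitou-Tate), BRIDGE part 2, package [SHAP-CONJ].  Owner: helper28.  Prefix `shcj_`.

Conjugation by `g₀ ∈ Γ` acts trivially on cohomology, elementwise:
`shcj_main₁ : shp_Conj₁Statement`, `shcj_main₂ : shp_Conj₂Statement`
(with `κ σ = z (g₀, g₀⁻¹ σ g₀) - z (σ, g₀)` in degree 2).
-/
import Mathlib
import Fermat.Agent.S55.Bridge.ShapDefs

set_option autoImplicit false

namespace Fermat.Agent.S55

open groupCohomology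

section

variable {k Γ : Type} [CommRing k] [Group Γ] (M : Rep.{0, 0, 0} k Γ)

/-- The 1-cocycle relation, elementwise. -/
theorem shcj_coc₁ {z : Γ → M} (hz : ∀ x, shp_d₁ (MonoidHom.id Γ) M z x = 0) (g h : Γ) :
    z (g * h) = M.ρ g (z h) + z g := by
  have h1 := hz (g, h)
  simp only [shp_d₁, MonoidHom.id_apply] at h1
  have h2 : M.ρ g (z h) + z g - z (g * h) = 0 := by rw [← h1]; abel
  exact (sub_eq_zero.1 h2).symm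

/-- The 2-cocycle relation, elementwise. -/
theorem shcj_coc₂ {z : Γ × Γ → M} (hz : ∀ x, shp_d₂ (MonoidHom.id Γ) M z x = 0) (g h j : Γ) :
    M.ρ g (z (h, j)) + z (g, h * j) = z (g * h, j) + z (g, h) := by
  have h1 := hz (g, h, j)
  simp only [shp_d₂, MonoidHom.id_apply] at h1
  have h2 : M.ρ g (z (h, j)) + z (g, h * j) - (z (g * h, j) + z (g, h)) = 0 := by
    rw [← h1]; abel
  exact sub_eq_zero.1 h2

end

/-- **[SHAP-CONJ 1]** -/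
theorem shcj_main₁ : shp_Conj₁Statement := by
  intro k Γ _ _ M z hz g₀ σ
  have h1 : z (σ * g₀) = M.ρ σ (z g₀) + z σ := shcj_coc₁ M hz σ g₀
  have h2 : z (g₀ * (g₀⁻¹ * σ * g₀)) = M.ρ g₀ (z (g₀⁻¹ * σ * g₀)) + z g₀ :=
    shcj_coc₁ M hz g₀ _
  have h3 : g₀ * (g₀⁻¹ * σ * g₀) = σ * g₀ := by group
  rw [h3, h1] at h2
  simp only [shp_d₀, MonoidHom.id_apply]
  have h4 : M.ρ g₀ (z (g₀⁻¹ * σ * g₀)) = M.ρ σ (z g₀) + z σ - z g₀ := by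
    rw [h2]; abel
  rw [h4]
  abel

/-- **[SHAP-CONJ 2]** -/
theorem shcj_main₂ : shp_Conj₂Statement := by
  intro k Γ _ _ M N hN z hz hc g₀
  refine ⟨fun σ => z (g₀, g₀⁻¹ * σ * g₀) - z (σ, g₀), ?_, ?_⟩
  · intro σ s hs
    have hs' : g₀⁻¹ * s * g₀ ∈ N := by
      have := hN.conj_mem s hs g₀⁻¹
      simpa using this
    have e1 : g₀⁻¹ * (σ * s) * g₀ = (g₀⁻¹ * σ * g₀) * (g₀⁻¹ * s * g₀) := by group
    have e2 : z (g₀, g₀⁻¹ * σ * g₀ * (g₀⁻¹ * s * g₀)) = z (g₀, g₀⁻¹ * σ * g₀) := by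
      have := hc g₀ (g₀⁻¹ * σ * g₀) 1 (g₀⁻¹ * s * g₀) N.one_mem hs'
      simpa using this
    have e3 : z (σ * s, g₀) = z (σ, g₀) := by
      have := hc σ g₀ s 1 hs N.one_mem
      simpa using this
    show z (g₀, g₀⁻¹ * (σ * s) * g₀) - z (σ * s, g₀) = z (g₀, g₀⁻¹ * σ * g₀) - z (σ, g₀)
    rw [e1, e2, e3]
  · intro σ τ
    have c1 := shcj_coc₂ M hz g₀ (g₀⁻¹ * σ * g₀) (g₀⁻¹ * τ * g₀)
    have c2 := shcj_coc₂ M hz σ g₀ (g₀⁻¹ * τ * g₀)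
    have c3 := shcj_coc₂ M hz σ τ g₀
    have e1 : g₀ * (g₀⁻¹ * σ * g₀) = σ * g₀ := by group
    have e2 : g₀ * (g₀⁻¹ * τ * g₀) = τ * g₀ := by group
    have e3 : g₀⁻¹ * σ * g₀ * (g₀⁻¹ * τ * g₀) = g₀⁻¹ * (σ * τ) * g₀ := by group
    rw [e1, e3] at c1
    rw [e2] at c2
    simp only [shp_d₁, MonoidHom.id_apply, map_sub]
    -- c1 : g₀ z(σ',τ') + z(g₀,(στ)') = z(σ g₀, τ') + z(g₀, σ')
    -- c2 : σ z(g₀,τ') + z(σ, τ g₀) = z(σ g₀, τ') + z(σ, g₀)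
    -- c3 : σ z(τ,g₀) + z(σ, τ g₀) = z(σ τ, g₀) + z(σ, τ)
    have h1 : M.ρ g₀ (z (g₀⁻¹ * σ * g₀, g₀⁻¹ * τ * g₀)) =
        z (σ * g₀, g₀⁻¹ * τ * g₀) + z (g₀, g₀⁻¹ * σ * g₀) - z (g₀, g₀⁻¹ * (σ * τ) * g₀) := by
      rw [← c1]; abel
    have h2 : z (σ * g₀, g₀⁻¹ * τ * g₀) =
        M.ρ σ (z (g₀, g₀⁻¹ * τ * g₀)) + z (σ, τ * g₀) - z (σ, g₀) := by
      rw [c2]; abel
    have h3 : z (σ, τ * g₀) = z (σ * τ, g₀) + z (σ, τ) - M.ρ σ (z (τ, g₀)) := by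
      rw [← c3]; abel
    rw [h1, h2, h3]
    abel

end Fermat.Agent.S55
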