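/-
S55 (Poitou-Tate), BRIDGE part 2, K→A package (3) [A-H2-EX-OF] (helper20), part 2:
the LOCAL comparison (pure group theory).  Prefix `kah2_`.

`G` a group, `U ≤ G` normal of finite index, `X = G ⧸ U`, `M = k[X]`; `r : Γ → G` a homomorphism
(the localisation map), `Γ` acting on `X` through `r`.  A 2-cocycle `x` of `G` in `M` and a
2-cocycle `cq` of `Γ` in `M` whose Shapiro components at the points `g₀ U` (`g₀ ∈ R`, a set
meeting every `Γ`-orbit) differ by coboundaries,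
    `π_{1}(x (g₀⁻¹ r(γ) g₀, g₀⁻¹ r(γ') g₀)) - π_{g₀}(cq (γ, γ')) = (d b_{g₀})(γ, γ')`  on `r⁻¹ U`,
satisfy `x ∘ r - cq = d a`  (`shcj_main₂` + `shin_main₂`), with the levels under control.
-/
import Mathlib
import Fermat.Agent.S55.Bridge.KAH2ExLift
import Fermat.Agent.S55.Bridge.ShapInj2
import Fermat.Agent.S55.Bridge.ShapConj

set_option autoImplicit false
set_option linter.style.haveILetI false
set_option maxHeartbeats 1000000
set_option synthInstance.maxHeartbeats 400000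
open CategoryTheory Module groupCohomology

noncomputable section

namespace Fermat.Agent.S55

section ResCoord

variable {k G Γ X : Type} [CommRing k] [Group G] [Group Γ] [MulAction G X] [MulAction Γ X]

/-- The restriction of a coordinate system along a homomorphism `r : Γ → G`
(`Γ` acting through `r`). -/
def kah2_resCoord (r : Γ →* G) (hact : ∀ (γ : Γ) (x : X), γ • x = r γ • x)
    {M B : Rep.{0, 0, 0} k G} (C : shp_Coord X M B) :
    shp_Coord X (Rep.res r M) (Rep.res r B) where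
  π := C.π
  equiv γ x m := by
    rw [hact]
    exact C.equiv (r γ) x m
  inj := C.inj
  surj := C.surj

@[simp] theorem kah2_resCoord_π (r : Γ →* G) (hact : ∀ (γ : Γ) (x : X), γ • x = r γ • x)
    {M B : Rep.{0, 0, 0} k G} (C : shp_Coord X M B) (x : X) (m : M) :
    (kah2_resCoord r hact C).π x m = C.π x m := rfl

end ResCoord

section Stab

variable {G : Type} [Group G] (U : Subgroup G) [hU : U.Normal]

/-- For `U` normal, every element of `U` fixes every point of `G ⧸ U`. -/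
theorem kah2_smul_eq_of_mem (s : G) (hs : s ∈ U) (x : G ⧸ U) : s • x = x :=
  kah2_smul_eq_of_le U U le_rfl s hs x

/-- For `U` normal, the stabilizer of any point of `G ⧸ U` is `U`. -/
theorem kah2_mem_of_smul_eq (s : G) (x : G ⧸ U) (hs : s • x = x) : s ∈ U := by
  induction x using QuotientGroup.induction_on with
  | H g =>
    rw [MulAction.Quotient.smul_mk, smul_eq_mul, QuotientGroup.eq] at hs
    have h1 : s = g * ((s * g)⁻¹ * g)⁻¹ * g⁻¹ := by group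
    rw [h1]
    exact hU.conj_mem _ (U.inv_mem hs) g

omit hU in
theorem kah2_smul_mk_one (g : G) : g • (QuotientGroup.mk 1 : G ⧸ U) = QuotientGroup.mk g := by
  rw [MulAction.Quotient.smul_mk, smul_eq_mul, mul_one]

end Stab

section Compare

variable {k G Γ : Type} [CommRing k] [Group G] [Group Γ] (U : Subgroup G) [hU : U.Normal]
  [Finite (G ⧸ U)] [MulAction Γ (G ⧸ U)] (r : Γ →* G)

/-- **The local comparison.** -/
theorem kah2_compare (hact : ∀ (γ : Γ) (y : G ⧸ U), γ • y = r γ • y)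
    (N : Subgroup G) [hN : N.Normal] (hNU : N ≤ U)
    (x : G × G → Rep.ofMulAction k G (G ⧸ U))
    (hx : ∀ y, shp_d₂ (MonoidHom.id G) (Rep.ofMulAction k G (G ⧸ U)) x y = 0)
    (hxc : shp_Const₂ (MonoidHom.id G) N x)
    (cq : Γ × Γ → Rep.res r (Rep.ofMulAction k G (G ⧸ U)))
    (hcq : ∀ y, shp_d₂ (MonoidHom.id Γ) (Rep.res r (Rep.ofMulAction k G (G ⧸ U))) cq y = 0)
    (hcqc : shp_Const₂ (MonoidHom.id Γ) (N.comap r) cq)
    (R : Set G) (hR : ∀ y : G ⧸ U, ∃ g₀ ∈ R, ∃ γ : Γ, r γ • (QuotientGroup.mk g₀ : G ⧸ U) = y)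
    (b : G → Γ → k)
    (hbc : ∀ g₀ ∈ R, ∀ γ s : Γ, r γ ∈ U → r s ∈ N → b g₀ (γ * s) = b g₀ γ)
    (hb : ∀ g₀ ∈ R, ∀ γ γ' : Γ, r γ ∈ U → r γ' ∈ U →
      (MonoidAlgebra.coeff (x (g₀⁻¹ * r γ * g₀, g₀⁻¹ * r γ' * g₀))) (QuotientGroup.mk 1 : G ⧸ U) -
        (MonoidAlgebra.coeff (cq (γ, γ'))) (QuotientGroup.mk g₀ : G ⧸ U) =
          b g₀ γ' - b g₀ (γ * γ') + b g₀ γ) :
    ∃ a : Γ → Rep.res r (Rep.ofMulAction k G (G ⧸ U)),
      shp_Const₁ (MonoidHom.id Γ) (N.comap r) a ∧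
        ∀ γ γ' : Γ, shp_d₁ (MonoidHom.id Γ) (Rep.res r (Rep.ofMulAction k G (G ⧸ U))) a (γ, γ') =
          (x (r γ, r γ') : Rep.res r (Rep.ofMulAction k G (G ⧸ U))) - cq (γ, γ') := by
  classical
  -- the action of `Γ`
  have hNΓ : ∀ s ∈ N.comap r, ∀ y : G ⧸ U, s • y = y := fun s hs y => by
    rw [hact]
    exact kah2_smul_eq_of_le U N hNU (r s) hs y
  have hstab : ∀ (t : G ⧸ U) (v : Γ), v • t = t → r v ∈ U := fun t v hv => by
    rw [hact] at hv
    exact kah2_mem_of_smul_eq U (r v) t hv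
  -- the set of base points
  have hTc : shp_Covers Γ {t : G ⧸ U | ∃ g₀ ∈ R, (QuotientGroup.mk g₀ : G ⧸ U) = t} := by
    intro y
    obtain ⟨g₀, hg₀, γ, hγ⟩ := hR y
    exact ⟨QuotientGroup.mk g₀, ⟨g₀, hg₀, rfl⟩, γ, by rw [hact]; exact hγ⟩
  -- the choice of representatives
  have hch : ∀ t : G ⧸ U, ∃ g₀ : G, (∃ g₁ ∈ R, (QuotientGroup.mk g₁ : G ⧸ U) = t) →
      g₀ ∈ R ∧ (QuotientGroup.mk g₀ : G ⧸ U) = t := by
    intro t
    by_cases h : ∃ g₁ ∈ R, (QuotientGroup.mk g₁ : G ⧸ U) = t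
    · obtain ⟨g₁, h1, h2⟩ := h
      exact ⟨g₁, fun _ => ⟨h1, h2⟩⟩
    · exact ⟨1, fun h' => absurd h' h⟩
  choose gT hgT using hch
  -- conjugation
  have hconj := fun g₀ : G => shcj_main₂ k G (Rep.ofMulAction k G (G ⧸ U)) N x hx hxc g₀
  choose κ hκc hκ using hconj
  -- the coordinates of the conjugation formula
  have hcoord : ∀ g₀ : G, ∀ σ τ : G, σ ∈ U → τ ∈ U →
      (MonoidAlgebra.coeff (x (σ, τ))) (QuotientGroup.mk g₀ : G ⧸ U) =
        (MonoidAlgebra.coeff (x (g₀⁻¹ * σ * g₀, g₀⁻¹ * τ * g₀))) (QuotientGroup.mk 1 : G ⧸ U) -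
          ((MonoidAlgebra.coeff (κ g₀ τ)) (QuotientGroup.mk g₀ : G ⧸ U) -
            (MonoidAlgebra.coeff (κ g₀ (σ * τ))) (QuotientGroup.mk g₀ : G ⧸ U) +
            (MonoidAlgebra.coeff (κ g₀ σ)) (QuotientGroup.mk g₀ : G ⧸ U)) := by
    intro g₀ σ τ hσ _
    have h1 := congrArg (fun m => (lcdb_coord (k := k) (Γ := G) (X := G ⧸ U)).π
      (QuotientGroup.mk g₀ : G ⧸ U) m) (hκ g₀ σ τ)
    simp only [shp_d₁, MonoidHom.id_apply, map_sub, map_add] at h1
    have h2 : (lcdb_coord (k := k) (Γ := G) (X := G ⧸ U)).π (QuotientGroup.mk g₀ : G ⧸ U)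
        ((Rep.ofMulAction k G (G ⧸ U)).ρ g₀ (x (g₀⁻¹ * σ * g₀, g₀⁻¹ * τ * g₀))) =
        (lcdb_coord (k := k) (Γ := G) (X := G ⧸ U)).π (QuotientGroup.mk 1 : G ⧸ U)
          (x (g₀⁻¹ * σ * g₀, g₀⁻¹ * τ * g₀)) := by
      have := (lcdb_coord (k := k) (Γ := G) (X := G ⧸ U)).equiv g₀ (QuotientGroup.mk 1)
        (x (g₀⁻¹ * σ * g₀, g₀⁻¹ * τ * g₀))
      rw [kah2_smul_mk_one] at this
      exact this
    have h3 : (lcdb_coord (k := k) (Γ := G) (X := G ⧸ U)).π (QuotientGroup.mk g₀ : G ⧸ U)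
        ((Rep.ofMulAction k G (G ⧸ U)).ρ σ (κ g₀ τ)) =
        (lcdb_coord (k := k) (Γ := G) (X := G ⧸ U)).π (QuotientGroup.mk g₀ : G ⧸ U) (κ g₀ τ) :=
      shin_π_stab lcdb_coord (kah2_smul_eq_of_mem U σ hσ _) (κ g₀ τ)
    rw [h2, h3] at h1
    have h4 : (MonoidAlgebra.coeff (x (g₀⁻¹ * σ * g₀, g₀⁻¹ * τ * g₀))) (QuotientGroup.mk 1 : G ⧸ U) -
        (MonoidAlgebra.coeff (x (σ, τ))) (QuotientGroup.mk g₀ : G ⧸ U) =
        (MonoidAlgebra.coeff (κ g₀ τ)) (QuotientGroup.mk g₀ : G ⧸ U) -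
          (MonoidAlgebra.coeff (κ g₀ (σ * τ))) (QuotientGroup.mk g₀ : G ⧸ U) +
          (MonoidAlgebra.coeff (κ g₀ σ)) (QuotientGroup.mk g₀ : G ⧸ U) := h1
    linear_combination -h4
  -- the family of local primitives
  have ha'c : ∀ t ∈ {t : G ⧸ U | ∃ g₀ ∈ R, (QuotientGroup.mk g₀ : G ⧸ U) = t},
      shp_Const₁ (MulAction.stabilizer Γ t).subtype (N.comap r)
        (fun v : ↥(MulAction.stabilizer Γ t) =>
          (b (gT t) (v : Γ) - (MonoidAlgebra.coeff (κ (gT t) (r (v : Γ)))) t :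
            Rep.res r (Rep.trivial k G k))) := by
    intro t ht g s hs
    obtain ⟨hgR, -⟩ := hgT t ht
    have hg : r (g : Γ) ∈ U := hstab t g g.2
    have hsN : r (s : Γ) ∈ N := hs
    show b (gT t) ((g : Γ) * (s : Γ)) - (MonoidAlgebra.coeff (κ (gT t) (r ((g : Γ) * (s : Γ))))) t =
      b (gT t) (g : Γ) - (MonoidAlgebra.coeff (κ (gT t) (r (g : Γ)))) t
    rw [hbc (gT t) hgR g s hg hsN, map_mul, hκc (gT t) (r g) (r s) hsN]
  have ha' : ∀ t ∈ {t : G ⧸ U | ∃ g₀ ∈ R, (QuotientGroup.mk g₀ : G ⧸ U) = t},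
      ∀ v w : ↥(MulAction.stabilizer Γ t),
        (kah2_resCoord r hact (lcdb_coord (k := k) (Γ := G) (X := G ⧸ U))).π t
            ((x (r (v : Γ), r (w : Γ)) : Rep.res r (Rep.ofMulAction k G (G ⧸ U))) -
              cq ((v : Γ), (w : Γ))) =
          shp_d₁ (MulAction.stabilizer Γ t).subtype (Rep.res r (Rep.trivial k G k))
            (fun v : ↥(MulAction.stabilizer Γ t) =>
              (b (gT t) (v : Γ) - (MonoidAlgebra.coeff (κ (gT t) (r (v : Γ)))) t :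
                Rep.res r (Rep.trivial k G k))) (v, w) := by
    intro t ht v w
    obtain ⟨hgR, hgt⟩ := hgT t ht
    have hv : r (v : Γ) ∈ U := hstab t v v.2
    have hw : r (w : Γ) ∈ U := hstab t w w.2
    have h1 := hcoord (gT t) (r v) (r w) hv hw
    have h2 := hb (gT t) hgR v w hv hw
    rw [hgt] at h1 h2
    show (MonoidAlgebra.coeff ((x (r (v : Γ), r (w : Γ)) :
        Rep.res r (Rep.ofMulAction k G (G ⧸ U))) - cq ((v : Γ), (w : Γ)))) t =
      (b (gT t) (w : Γ) - (MonoidAlgebra.coeff (κ (gT t) (r (w : Γ)))) t) -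
        (b (gT t) ((v : Γ) * (w : Γ)) -
          (MonoidAlgebra.coeff (κ (gT t) (r ((v : Γ) * (w : Γ))))) t) +
        (b (gT t) (v : Γ) - (MonoidAlgebra.coeff (κ (gT t) (r (v : Γ)))) t)
    rw [map_mul]
    have h3 : (MonoidAlgebra.coeff ((x (r (v : Γ), r (w : Γ)) :
        Rep.res r (Rep.ofMulAction k G (G ⧸ U))) - cq ((v : Γ), (w : Γ)))) t =
        (MonoidAlgebra.coeff (x (r (v : Γ), r (w : Γ)))) t -
          (MonoidAlgebra.coeff (cq ((v : Γ), (w : Γ)))) t := rfl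
    rw [h3]
    linear_combination h1 + h2
  -- the cocycle `x ∘ r - cq`
  have hzd : ∀ y, shp_d₂ (MonoidHom.id Γ) (Rep.res r (Rep.ofMulAction k G (G ⧸ U)))
      (fun y => (x (r y.1, r y.2) : Rep.res r (Rep.ofMulAction k G (G ⧸ U))) - cq y) y = 0 := by
    rintro ⟨g, h, j⟩
    have h1 : (Rep.ofMulAction k G (G ⧸ U)).ρ (r g) (x (r h, r j)) - x (r g * r h, r j) +
        x (r g, r h * r j) - x (r g, r h) = 0 := hx (r g, r h, r j)
    have h2 : (Rep.ofMulAction k G (G ⧸ U)).ρ (r g) (cq (h, j)) - cq (g * h, j) +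
        cq (g, h * j) - cq (g, h) = 0 := hcq (g, h, j)
    show (Rep.ofMulAction k G (G ⧸ U)).ρ (r g) (x (r h, r j) - cq (h, j)) -
        (x (r (g * h), r j) - cq (g * h, j)) + (x (r g, r (h * j)) - cq (g, h * j)) -
        (x (r g, r h) - cq (g, h)) = 0
    rw [map_mul, map_mul, map_sub]
    have h3 : (Rep.ofMulAction k G (G ⧸ U)).ρ (r g) (x (r h, r j)) -
          (Rep.ofMulAction k G (G ⧸ U)).ρ (r g) (cq (h, j)) -
        (x (r g * r h, r j) - cq (g * h, j)) + (x (r g, r h * r j) - cq (g, h * j)) -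
        (x (r g, r h) - cq (g, h)) =
        ((Rep.ofMulAction k G (G ⧸ U)).ρ (r g) (x (r h, r j)) - x (r g * r h, r j) +
          x (r g, r h * r j) - x (r g, r h)) -
        ((Rep.ofMulAction k G (G ⧸ U)).ρ (r g) (cq (h, j)) - cq (g * h, j) +
          cq (g, h * j) - cq (g, h)) := by abel
    rw [h3, h1, h2, sub_zero]
  have hzc : shp_Const₂ (MonoidHom.id Γ) (N.comap r)
      (fun y => (x (r y.1, r y.2) : Rep.res r (Rep.ofMulAction k G (G ⧸ U))) - cq y) := by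
    intro g g' s s' hs hs'
    have hs1 : r s ∈ N := hs
    have hs1' : r s' ∈ N := hs'
    show (x (r (g * s), r (g' * s')) : Rep.res r (Rep.ofMulAction k G (G ⧸ U))) -
      cq (g * s, g' * s') = x (r g, r g') - cq (g, g')
    rw [map_mul, map_mul, hxc (r g) (r g') (r s) (r s') hs1 hs1', hcqc g g' s s' hs hs']
  obtain ⟨a, hac, had⟩ := shin_main₂ k Γ (G ⧸ U) (Rep.res r (Rep.ofMulAction k G (G ⧸ U)))
    (Rep.res r (Rep.trivial k G k)) (kah2_resCoord r hact lcdb_coord) (N.comap r) hNΓ _ hTc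
    (fun y => (x (r y.1, r y.2) : Rep.res r (Rep.ofMulAction k G (G ⧸ U))) - cq y) hzd hzc
    (fun t v => (b (gT t) (v : Γ) - (MonoidAlgebra.coeff (κ (gT t) (r (v : Γ)))) t :
      Rep.res r (Rep.trivial k G k))) ha'c ha'
  exact ⟨a, hac, fun γ γ' => had (γ, γ')⟩

end Compare

end Fermat.Agent.S55
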