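/-
S55 (Poitou-Tate), BRIDGE part 2, K→A package (3) [A-H2-EX-OF] (helper20), part 3:
the sum of the local invariants.  Prefix `kah2_`.

* `kah2_phi0`     : the invariant `φ⁰ ∈ H⁰(G_ℚ, A')`, `π'_{g x₀} φ⁰ = χ(g)`  (`shsu_main₀`);
* `kah2_inv_sum`  : for a continuous local 2-cocycle `c_q` of `Γ_q` in `A = pt_A p K`,
      `inv_q (ζ ^ (c_q ∪ φ⁰)) = ∑_{g₀ ∈ R q} kl_inv (π_{g₀ x₀} ∘ c_q |_{kl_H})`   ([TR-INV]).
-/
import Mathlib
import Fermat.Agent.S55.Bridge.KAH2ExCmp
import Fermat.Agent.S55.Bridge.KACoord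
import Fermat.Agent.S55.Bridge.ShapTrInvFin
import Fermat.Agent.S55.Local.PtInv
import Fermat.Agent.S55.Local.Krasner
import Fermat.Agent.S55.Dev.Theta3Ex

set_option autoImplicit false
set_option linter.style.haveILetI false
set_option maxHeartbeats 1000000
set_option synthInstance.maxHeartbeats 400000
open CategoryTheory Module groupCohomology ExtCitation

noncomputable section

namespace Fermat.Agent.S55

/-! ### Small tools -/

theorem kah2_exp_sum (p q : ℕ) [Fact p.Prime] [Fact q.Prime] {ι : Type*} (s : Finset ι)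
    (f : ι → ZMod p) :
    ptinv_exp p q (∑ x ∈ s, f x) = ∏ x ∈ s, ptinv_exp p q (f x) := by
  classical
  induction s using Finset.induction_on with
  | empty => rw [Finset.sum_empty, Finset.prod_empty, ptinv_exp_zero]
  | insert a s ha ih => rw [Finset.sum_insert ha, Finset.prod_insert ha, ptinv_exp_add, ih]

/-- The invariant does not depend on the name of the subgroup. -/
theorem kah2_inv_congr (inv : lcf_InvType) (q : ℕ) [Fact q.Prime] {U U' : Subgroup (lcf_Gal q)}
    (h : U = U') (f : lcf_Gal q × lcf_Gal q → (PadicAlgCl q)ˣ) :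
    inv q U (fun y => f ((y.1 : lcf_Gal q), (y.2 : lcf_Gal q))) =
      inv q U' (fun y => f ((y.1 : lcf_Gal q), (y.2 : lcf_Gal q))) := by
  subst h
  rfl

/-! ### The invariant `φ⁰` -/

section Phi

variable (p : ℕ) [Fact p.Prime] (K : IntermediateField ℚ (AlgebraicClosure ℚ))

/-- The invariant `φ⁰` of the Tate dual of `pt_A p K`: `π'_{g x₀} φ⁰ = χ(g)`. -/
theorem kah2_phi0 [Finite (ka_X K)]
    (hχ : ∀ s ∈ K.fixingSubgroup, cycloChar p s = 1) :
    ∃ m' : ↥((pt_A p K).dualTwist (cycloChar p)).ρ.invariants,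
      ∀ g : s55_GQ, (ka_CA' p K).π (g • ka_x₀ K)
        (m'.1 : (pt_A p K).dualTwist (cycloChar p)) = ((cycloChar p g : (ZMod p)ˣ) : ZMod p) := by
  obtain ⟨m, hm, hπ⟩ := shsu_main₀ (ZMod p) s55_GQ (ka_X K)
    ((pt_A p K).dualTwist (cycloChar p)) (pt_T p) (ka_CA' p K) _ (ka_x₀_indep (K := K))
    (fun _ => (1 : ZMod p)) (by
      intro t ht v
      rw [Set.mem_singleton_iff] at ht
      subst ht
      have hv : (v : s55_GQ) ∈ K.fixingSubgroup :=
        kah2_mem_of_smul_one K.fixingSubgroup _ v.2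
      show ((cycloChar p (v : s55_GQ) : (ZMod p)ˣ) : ZMod p) • (1 : ZMod p) = 1
      rw [hχ _ hv, Units.val_one, one_smul])
  refine ⟨⟨m, fun g => hm g⟩, fun g => ?_⟩
  have h1 := (ka_CA' p K).equiv g (ka_x₀ K) m
  rw [hm g, hπ _ rfl] at h1
  rw [h1]
  show ((cycloChar p g : (ZMod p)ˣ) : ZMod p) • (1 : ZMod p) = _
  rw [smul_eq_mul, mul_one]

end Phi

/-! ### The sum of the local invariants -/

section InvSum

variable {p : ℕ} [Fact p.Prime] (S : Finset Nat.Primes)
  (K : IntermediateField ℚ (AlgebraicClosure ℚ))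

/-- The coordinates of `φ⁰` along an orbit of the local group. -/
theorem kah2_phi0_smul [Finite (ka_X K)]
    (m' : ↥((pt_A p K).dualTwist (cycloChar p)).ρ.invariants) (g : s55_GQ) (x : ka_X K) :
    (ka_CA' p K).π (g • x) (m'.1 : (pt_A p K).dualTwist (cycloChar p)) =
      ((cycloChar p g : (ZMod p)ˣ) : ZMod p) *
        (ka_CA' p K).π x (m'.1 : (pt_A p K).dualTwist (cycloChar p)) := by
  have h1 := (ka_CA' p K).equiv g x (m'.1 : (pt_A p K).dualTwist (cycloChar p))
  rw [m'.2 g] at h1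
  rw [h1]
  rfl

/-- **[TR-INV] for `pt_A p K`**: the invariant of `ζ ^ (c_q ∪ φ⁰)` is the sum of the invariants
of the Shapiro components of `c_q` at the places of `K` above `q`. -/
theorem kah2_inv_sum [Finite (ka_X K)] (inv : lcf_InvType) (hinv : lcf_IsInvSystem inv)
    (hKS : K.IsUnramifiedOutside S) (hKn : K.fixingSubgroup.Normal)
    (R : ↥S → Finset s55_GQ) (hR : kl_IsReps S K R) (q : ↥S)
    (cq : ↥(levelCocycles₂ (extArithLoc S (Sum.inr q : extArithIndex S))
      (Rep.res (extArithLoc S (Sum.inr q : extArithIndex S)) (pt_A p K))))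
    (m' : ↥((pt_A p K).dualTwist (cycloChar p)).ρ.invariants)
    (hm' : ∀ g : s55_GQ, (ka_CA' p K).π (g • ka_x₀ K)
      (m'.1 : (pt_A p K).dualTwist (cycloChar p)) = ((cycloChar p g : (ZMod p)ˣ) : ZMod p)) :
    inv ((q : Nat.Primes) : ℕ) ⊤
        (ld_mu p S q (cup₂₀ (pt_evv S (Sum.inr q : extArithIndex S) (pt_A p K))
          (cq : extArithLocalGroups S (Sum.inr q : extArithIndex S) ×
            extArithLocalGroups S (Sum.inr q : extArithIndex S) →
              Rep.res (extArithLoc S (Sum.inr q : extArithIndex S)) (pt_A p K))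
          (m'.1 : Rep.res (extArithLoc S (Sum.inr q : extArithIndex S))
            ((pt_A p K).dualTwist (cycloChar p))))) =
      ∑ g ∈ R q, kl_inv K inv (q : Nat.Primes) g
        (fun y => (MonoidAlgebra.coeff (cq.1 ((y.1 : lcf_Gal ((q : Nat.Primes) : ℕ)),
          (y.2 : lcf_Gal ((q : Nat.Primes) : ℕ))))) (QuotientGroup.mk g : ka_X K)) := by
  classical
  haveI : Fintype (ka_X K) := Fintype.ofFinite _
  letI : MulAction (lcf_Gal ((q : Nat.Primes) : ℕ)) (ka_X K) :=
    MulAction.compHom (ka_X K) (localGaloisToGlobal ((q : Nat.Primes) : ℕ))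
  have hsm : ∀ (τ : lcf_Gal ((q : Nat.Primes) : ℕ)) (x : ka_X K),
      τ • x = localGaloisToGlobal ((q : Nat.Primes) : ℕ) τ • x := fun _ _ => rfl
  -- the cocycle, as a function on the local Galois group
  obtain ⟨c', hc'⟩ : ∃ c' : lcf_Gal ((q : Nat.Primes) : ℕ) × lcf_Gal ((q : Nat.Primes) : ℕ) →
      pt_A p K, c' = fun y => cq.1 y := ⟨_, rfl⟩
  have hc'l : ∃ F₀ : IntermediateField ℚ (AlgebraicClosure ℚ), FiniteDimensional ℚ F₀ ∧
      ∀ g g' s s' : lcf_Gal ((q : Nat.Primes) : ℕ),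
        localGaloisToGlobal ((q : Nat.Primes) : ℕ) s ∈ F₀.fixingSubgroup →
        localGaloisToGlobal ((q : Nat.Primes) : ℕ) s' ∈ F₀.fixingSubgroup →
          c' (g * s, g' * s') = c' (g, g') := by
    obtain ⟨F₀, hF₀, h₀⟩ := cq.2.2
    refine ⟨F₀, hF₀, fun g g' s s' hs hs' => ?_⟩
    rw [hc']
    exact h₀ g g' s s' hs hs'
  have hc'c : ∀ g h j : lcf_Gal ((q : Nat.Primes) : ℕ),
      c' (g * h, j) + c' (g, h) =
        (Representation.ofMulAction (ZMod p) s55_GQ (ka_X K)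
          (localGaloisToGlobal ((q : Nat.Primes) : ℕ) g)) (c' (h, j)) + c' (g, h * j) := by
    intro g h j
    rw [hc']
    exact (mem_cocycles₂_iff cq.1).1 cq.2.1 g h j
  -- the family `F`
  obtain ⟨F, hF⟩ : ∃ F : lcf_Gal ((q : Nat.Primes) : ℕ) × lcf_Gal ((q : Nat.Primes) : ℕ) →
      ka_X K → (PadicAlgCl ((q : Nat.Primes) : ℕ))ˣ,
      F = fun y x => ptinv_exp p ((q : Nat.Primes) : ℕ)
        ((ka_CA' p K).π x (m'.1 : (pt_A p K).dualTwist (cycloChar p)) *
          (MonoidAlgebra.coeff (c' y)) x) := ⟨_, rfl⟩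
  -- smoothness of the action
  have hact : ∃ E : IntermediateField ℚ_[((q : Nat.Primes) : ℕ)] (PadicAlgCl ((q : Nat.Primes) : ℕ)),
      FiniteDimensional ℚ_[((q : Nat.Primes) : ℕ)] E ∧
        ∀ s ∈ E.fixingSubgroup, ∀ x : ka_X K, s • x = x := by
    obtain ⟨E, hE, h⟩ := kras_conv ((q : Nat.Primes) : ℕ) K hKS.1
    exact ⟨E, hE, fun s hs x => by rw [hsm]; exact ka_fix hKn (h s hs) x⟩
  -- smoothness of `F`
  have hFs : ∃ E : IntermediateField ℚ_[((q : Nat.Primes) : ℕ)] (PadicAlgCl ((q : Nat.Primes) : ℕ)),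
      FiniteDimensional ℚ_[((q : Nat.Primes) : ℕ)] E ∧
        ∀ g g' s s' : lcf_Gal ((q : Nat.Primes) : ℕ), s ∈ E.fixingSubgroup →
          s' ∈ E.fixingSubgroup → F (g * s, g' * s') = F (g, g') := by
    obtain ⟨F₀, hF₀, h₀⟩ := hc'l
    obtain ⟨E, hE, h⟩ := kras_conv ((q : Nat.Primes) : ℕ) F₀ hF₀
    refine ⟨E, hE, fun g g' s s' hs hs' => ?_⟩
    have h1 : c' (g * s, g' * s') = c' (g, g') := h₀ g g' s s' (h s hs) (h s' hs')
    funext x
    simp only [hF, h1]
  -- the cocycle identity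
  have hFc : ∀ (g h j : lcf_Gal ((q : Nat.Primes) : ℕ)) (x : ka_X K),
      F (g * h, j) x * F (g, h) x = g • F (h, j) (g⁻¹ • x) * F (g, h * j) x := by
    intro g h j x
    have h1 := hc'c g h j
    have h2 := congrArg (fun m : pt_A p K => (MonoidAlgebra.coeff m) x) h1
    have h3 : (MonoidAlgebra.coeff (c' (g * h, j))) x + (MonoidAlgebra.coeff (c' (g, h))) x =
        (MonoidAlgebra.coeff (c' (h, j))) (g⁻¹ • x) +
          (MonoidAlgebra.coeff (c' (g, h * j))) x := by
      have h4 : (MonoidAlgebra.coeff ((Representation.ofMulAction (ZMod p) s55_GQ (ka_X K)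
          (localGaloisToGlobal ((q : Nat.Primes) : ℕ) g)) (c' (h, j)))) x =
          (MonoidAlgebra.coeff (c' (h, j))) (g⁻¹ • x) := by
        rw [Representation.coeff_ofMulAction, hsm, map_inv]
      rw [← h4]
      exact h2
    have h5 : (ka_CA' p K).π x (m'.1 : (pt_A p K).dualTwist (cycloChar p)) =
        ((cycloChar p (localGaloisToGlobal ((q : Nat.Primes) : ℕ) g) : (ZMod p)ˣ) : ZMod p) *
          (ka_CA' p K).π (g⁻¹ • x) (m'.1 : (pt_A p K).dualTwist (cycloChar p)) := by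
      rw [← kah2_phi0_smul K m' (localGaloisToGlobal ((q : Nat.Primes) : ℕ) g) (g⁻¹ • x), ← hsm,
        smul_inv_smul]
    simp only [hF]
    rw [← ptinv_exp_add, ptinv_smul_exp, ← ptinv_exp_add]
    congr 1
    rw [← mul_add, h3, h5]
    ring
  have h := shtr_fin inv hinv ((q : Nat.Primes) : ℕ) (ka_X K) hact F hFs hFc (ka_T R q)
    (ka_T_covers hR q) (ka_T_indep hR q)
  -- the left hand side
  have hL : ld_mu p S q (cup₂₀ (pt_evv S (Sum.inr q : extArithIndex S) (pt_A p K))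
      (cq : extArithLocalGroups S (Sum.inr q : extArithIndex S) ×
        extArithLocalGroups S (Sum.inr q : extArithIndex S) →
          Rep.res (extArithLoc S (Sum.inr q : extArithIndex S)) (pt_A p K))
      (m'.1 : Rep.res (extArithLoc S (Sum.inr q : extArithIndex S))
        ((pt_A p K).dualTwist (cycloChar p)))) =
      fun y => ∏ x : ka_X K, F ((y.1 : lcf_Gal ((q : Nat.Primes) : ℕ)),
        (y.2 : lcf_Gal ((q : Nat.Primes) : ℕ))) x := by
    funext y
    rw [ptinv_mu_apply]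
    have h7 : cup₂₀ (pt_evv S (Sum.inr q : extArithIndex S) (pt_A p K))
        (cq : extArithLocalGroups S (Sum.inr q : extArithIndex S) ×
          extArithLocalGroups S (Sum.inr q : extArithIndex S) →
            Rep.res (extArithLoc S (Sum.inr q : extArithIndex S)) (pt_A p K))
        (m'.1 : Rep.res (extArithLoc S (Sum.inr q : extArithIndex S))
          ((pt_A p K).dualTwist (cycloChar p)))
        ((y.1 : lcf_Gal ((q : Nat.Primes) : ℕ)), (y.2 : lcf_Gal ((q : Nat.Primes) : ℕ))) =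
        pt_ev (pt_A p K) (c' ((y.1 : lcf_Gal ((q : Nat.Primes) : ℕ)),
          (y.2 : lcf_Gal ((q : Nat.Primes) : ℕ)))) (m'.1 : (pt_A p K).dualTwist (cycloChar p)) := by
      rw [hc']
      exact congrArg (pt_ev (pt_A p K) (cq.1 ((y.1 : lcf_Gal ((q : Nat.Primes) : ℕ)),
        (y.2 : lcf_Gal ((q : Nat.Primes) : ℕ))))) (m'.2 _)
    rw [h7, ka_pt_ev_sum, kah2_exp_sum, hF]
    refine Finset.prod_congr rfl fun x _ => ?_
    rw [mul_comm]
    rfl
  rw [hL, h, ka_sum_T hR q]
  refine Finset.sum_congr rfl fun g hg => ?_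
  have hst : MulAction.stabilizer (lcf_Gal ((q : Nat.Primes) : ℕ)) (g • ka_x₀ K) =
      kl_H K (q : Nat.Primes) :=
    ka_stab_comp hKn (localGaloisToGlobal ((q : Nat.Primes) : ℕ)) (g • ka_x₀ K)
  refine (kah2_inv_congr inv ((q : Nat.Primes) : ℕ) hst (fun y => F y (g • ka_x₀ K))).trans ?_
  unfold kl_inv
  congr 1
  funext y
  simp only [hF, hc']
  rw [hm' g, ka_smul_x₀]
  rfl

end InvSum

end Fermat.Agent.S55
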