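/-
S55 (Poitou-Tate), BRIDGE part 2, K→A package (3) [A-H2-EX-OF] (helper20), part 4:
the local comparison for `pt_A p K`.  Prefix `kah2_`.

* `kah2_alpha_coc`, `kah2_alpha_smooth` : the Shapiro components `π_{g₀ x₀} ∘ c_q |_{kl_H}` of a
  continuous local 2-cocycle are smooth 2-cocycles with trivial action;
* `kah2_local` : if the Shapiro components of a level-`S` global cocycle `x` and of the local
  cocycle `c_q` differ by smooth coboundaries at all places above `q`, then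
  `loc_q x - c_q` is a continuous coboundary  (`kah2_compare` + Krasner).
-/
import Mathlib
import Fermat.Agent.S55.Bridge.KAH2ExInv

set_option autoImplicit false
set_option linter.style.haveILetI false
set_option maxHeartbeats 1000000
set_option synthInstance.maxHeartbeats 400000
open CategoryTheory Module groupCohomology ExtCitation

noncomputable section

namespace Fermat.Agent.S55

/-- A common finite level of a finite family of finite extensions. -/
theorem kah2_common_finset {ι : Type*} (s : Finset ι)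
    (Fam : ι → IntermediateField ℚ (AlgebraicClosure ℚ))
    (h : ∀ i ∈ s, FiniteDimensional ℚ (Fam i)) :
    ∃ F : IntermediateField ℚ (AlgebraicClosure ℚ), FiniteDimensional ℚ F ∧
      ∀ i ∈ s, Fam i ≤ F := by
  classical
  induction s using Finset.induction_on with
  | empty => exact ⟨⊥, inferInstance, fun i hi => absurd hi (Finset.notMem_empty i)⟩
  | insert a s ha ih =>
    obtain ⟨F, hF, hle⟩ := ih (fun i hi => h i (Finset.mem_insert_of_mem hi))
    haveI := hF
    haveI := h a (Finset.mem_insert_self a s)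
    refine ⟨Fam a ⊔ F, IntermediateField.finiteDimensional_sup _ _, fun i hi => ?_⟩
    rcases Finset.mem_insert.1 hi with rfl | hi'
    · exact le_sup_left
    · exact (hle i hi').trans le_sup_right

section Alpha

variable {p : ℕ} [Fact p.Prime] (S : Finset Nat.Primes)
  (K : IntermediateField ℚ (AlgebraicClosure ℚ))

/-- The Shapiro component at the point `t` of a local cocycle is a 2-cocycle of `kl_H K q` with
trivial action. -/
theorem kah2_alpha_coc (hKn : K.fixingSubgroup.Normal) (q : ↥S)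
    (cq : ↥(levelCocycles₂ (extArithLoc S (Sum.inr q : extArithIndex S))
      (Rep.res (extArithLoc S (Sum.inr q : extArithIndex S)) (pt_A p K))))
    (t : ka_X K) :
    kl_IsCoc₂ (fun y : ↥(kl_H K (q : Nat.Primes)) × ↥(kl_H K (q : Nat.Primes)) =>
      (MonoidAlgebra.coeff (cq.1 ((y.1 : lcf_Gal ((q : Nat.Primes) : ℕ)),
        (y.2 : lcf_Gal ((q : Nat.Primes) : ℕ))))) t) := by
  intro g h j
  have h1 := (mem_cocycles₂_iff cq.1).1 cq.2.1 (g : lcf_Gal ((q : Nat.Primes) : ℕ))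
    (h : lcf_Gal ((q : Nat.Primes) : ℕ)) (j : lcf_Gal ((q : Nat.Primes) : ℕ))
  have h2 := congrArg (fun m : pt_A p K => (MonoidAlgebra.coeff m) t) h1
  have h4 : (MonoidAlgebra.coeff ((Representation.ofMulAction (ZMod p) s55_GQ (ka_X K)
      (localGaloisToGlobal ((q : Nat.Primes) : ℕ) (g : lcf_Gal ((q : Nat.Primes) : ℕ))))
      (cq.1 ((h : lcf_Gal ((q : Nat.Primes) : ℕ)), (j : lcf_Gal ((q : Nat.Primes) : ℕ)))))) t =
      (MonoidAlgebra.coeff (cq.1 ((h : lcf_Gal ((q : Nat.Primes) : ℕ)),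
        (j : lcf_Gal ((q : Nat.Primes) : ℕ))))) t := by
    rw [Representation.coeff_ofMulAction]
    congr 1
    exact ka_fix hKn (K.fixingSubgroup.inv_mem g.2) t
  exact h2.trans (congrArg (· + _) h4)

/-- The Shapiro components of a continuous local cocycle are smooth. -/
theorem kah2_alpha_smooth (q : ↥S)
    (cq : ↥(levelCocycles₂ (extArithLoc S (Sum.inr q : extArithIndex S))
      (Rep.res (extArithLoc S (Sum.inr q : extArithIndex S)) (pt_A p K))))
    (t : ka_X K) :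
    lcf_Smooth₂ (kl_H K (q : Nat.Primes))
      (fun y : ↥(kl_H K (q : Nat.Primes)) × ↥(kl_H K (q : Nat.Primes)) =>
        (MonoidAlgebra.coeff (cq.1 ((y.1 : lcf_Gal ((q : Nat.Primes) : ℕ)),
          (y.2 : lcf_Gal ((q : Nat.Primes) : ℕ))))) t) := by
  have h1 : IsLevelConstant₂ (localGaloisToGlobal ((q : Nat.Primes) : ℕ))
      (fun y : lcf_Gal ((q : Nat.Primes) : ℕ) × lcf_Gal ((q : Nat.Primes) : ℕ) =>
        (MonoidAlgebra.coeff (cq.1 y)) t) := by
    obtain ⟨F₀, hF₀, h₀⟩ := cq.2.2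
    exact ⟨F₀, hF₀, fun g g' s s' hs hs' =>
      congrArg (fun m : pt_A p K => (MonoidAlgebra.coeff m) t) (h₀ g g' s s' hs hs')⟩
  exact kras_smooth₂_of_level (kl_H K (q : Nat.Primes)) _ h1

end Alpha

section Local

variable {p : ℕ} [Fact p.Prime] (S : Finset Nat.Primes)
  (K : IntermediateField ℚ (AlgebraicClosure ℚ))

/-- The representatives cover `X` under the local group. -/
theorem kah2_reps_cover (R : ↥S → Finset s55_GQ) (hR : kl_IsReps S K R) (q : ↥S) (y : ka_X K) :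
    ∃ g₀ ∈ (R q : Set s55_GQ), ∃ γ : lcf_Gal ((q : Nat.Primes) : ℕ),
      localGaloisToGlobal ((q : Nat.Primes) : ℕ) γ • (QuotientGroup.mk g₀ : ka_X K) = y := by
  induction y using QuotientGroup.induction_on with
  | H g =>
    obtain ⟨g₀, ⟨hg₀, τ, u, hu, he⟩, -⟩ := hR q g
    refine ⟨g₀, hg₀, τ, ?_⟩
    change (QuotientGroup.mk (localGaloisToGlobal ((q : Nat.Primes) : ℕ) τ * g₀) : ka_X K) = _
    rw [QuotientGroup.eq, he]
    have : (localGaloisToGlobal ((q : Nat.Primes) : ℕ) τ * g₀)⁻¹ *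
        (localGaloisToGlobal ((q : Nat.Primes) : ℕ) τ * g₀ * u) = u := by group
    rw [this]
    exact hu

/-- **The local comparison for `pt_A p K`.** -/
theorem kah2_local [hKn : K.fixingSubgroup.Normal] [Finite (ka_X K)]
    (hKS : K.IsUnramifiedOutside S)
    (R : ↥S → Finset s55_GQ) (hR : kl_IsReps S K R) (q : ↥S)
    (x : s55_GQ × s55_GQ → pt_A p K) (hx : x ∈ levelCocyclesS₂ S (pt_A p K))
    (cq : ↥(levelCocycles₂ (extArithLoc S (Sum.inr q : extArithIndex S))
      (Rep.res (extArithLoc S (Sum.inr q : extArithIndex S)) (pt_A p K))))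
    (hb : ∀ g ∈ R q, ∃ b : ↥(kl_H K (q : Nat.Primes)) → ZMod p,
      lcf_Smooth₁ (kl_H K (q : Nat.Primes)) b ∧
        ∀ τ τ' : ↥(kl_H K (q : Nat.Primes)),
          (MonoidAlgebra.coeff (x (((kl_r K (q : Nat.Primes) g τ : ↥K.fixingSubgroup) : s55_GQ),
              ((kl_r K (q : Nat.Primes) g τ' : ↥K.fixingSubgroup) : s55_GQ))))
              (QuotientGroup.mk 1 : ka_X K) -
            (MonoidAlgebra.coeff (cq.1 ((τ : lcf_Gal ((q : Nat.Primes) : ℕ)),
              (τ' : lcf_Gal ((q : Nat.Primes) : ℕ))))) (QuotientGroup.mk g : ka_X K) =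
          kl_d₁ b (τ, τ')) :
    cone_loc₂ S (pt_A p K) (Sum.inr q : extArithIndex S) x -
        (cq : extArithLocalGroups S (Sum.inr q : extArithIndex S) ×
          extArithLocalGroups S (Sum.inr q : extArithIndex S) →
            Rep.res (extArithLoc S (Sum.inr q : extArithIndex S)) (pt_A p K)) ∈
      levelCoboundaries₂ (extArithLoc S (Sum.inr q : extArithIndex S))
        (Rep.res (extArithLoc S (Sum.inr q : extArithIndex S)) (pt_A p K)) := by
  classical
  obtain ⟨Fx, hFx, hxl⟩ := hx.2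
  obtain ⟨Fc, hFc, hcl⟩ := cq.2.2
  -- the family of primitives and their levels
  have hb' : ∀ g : s55_GQ, ∃ (b : ↥(kl_H K (q : Nat.Primes)) → ZMod p)
      (Fb : IntermediateField ℚ (AlgebraicClosure ℚ)), FiniteDimensional ℚ Fb ∧
      (g ∈ R q →
        (∀ γ s : ↥(kl_H K (q : Nat.Primes)),
          localGaloisToGlobal ((q : Nat.Primes) : ℕ) (s : lcf_Gal ((q : Nat.Primes) : ℕ)) ∈
            Fb.fixingSubgroup → b (γ * s) = b γ) ∧
        ∀ τ τ' : ↥(kl_H K (q : Nat.Primes)),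
          (MonoidAlgebra.coeff (x (((kl_r K (q : Nat.Primes) g τ : ↥K.fixingSubgroup) : s55_GQ),
              ((kl_r K (q : Nat.Primes) g τ' : ↥K.fixingSubgroup) : s55_GQ))))
              (QuotientGroup.mk 1 : ka_X K) -
            (MonoidAlgebra.coeff (cq.1 ((τ : lcf_Gal ((q : Nat.Primes) : ℕ)),
              (τ' : lcf_Gal ((q : Nat.Primes) : ℕ))))) (QuotientGroup.mk g : ka_X K) =
          kl_d₁ b (τ, τ')) := by
    intro g
    by_cases hg : g ∈ R q
    · obtain ⟨b, ⟨E, hE, hbs⟩, hbd⟩ := hb g hg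
      obtain ⟨Fb, hFb, hfix⟩ := kras_main ((q : Nat.Primes) : ℕ) E hE
      exact ⟨b, Fb, hFb, fun _ => ⟨fun γ s hs => hbs γ s (hfix _ hs), hbd⟩⟩
    · exact ⟨0, ⊥, inferInstance, fun h => absurd h hg⟩
  choose b Fb hFbfin hbprop using hb'
  obtain ⟨FR, hFR, hFRle⟩ := kah2_common_finset (R q) Fb (fun g _ => hFbfin g)
  -- the common normal level
  haveI := hKS.1
  haveI := hFx.1
  haveI := hFc
  haveI := hFR
  haveI h1 : FiniteDimensional ℚ ↥(K ⊔ Fx) := IntermediateField.finiteDimensional_sup K Fx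
  haveI h2 : FiniteDimensional ℚ ↥(K ⊔ Fx ⊔ Fc) := IntermediateField.finiteDimensional_sup _ Fc
  have h3 : FiniteDimensional ℚ ↥(K ⊔ Fx ⊔ Fc ⊔ FR) := IntermediateField.finiteDimensional_sup _ FR
  obtain ⟨F', hF'n, hle, -, hF'fin⟩ := dlift_common_normal _ _ h3 h3
  haveI : Normal ℚ F' := hF'n
  haveI hNn : F'.fixingSubgroup.Normal := dlift_fix_normal F'
  have hKF : K ≤ F' := (le_sup_left.trans (le_sup_left.trans le_sup_left)).trans hle
  have hFxF : Fx ≤ F' := (le_sup_right.trans (le_sup_left.trans le_sup_left)).trans hle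
  have hFcF : Fc ≤ F' := (le_sup_right.trans le_sup_left).trans hle
  have hFRF : FR ≤ F' := le_sup_right.trans hle
  have hNU : F'.fixingSubgroup ≤ K.fixingSubgroup := IntermediateField.fixingSubgroup_antitone hKF
  -- the action of the local group
  letI : MulAction (lcf_Gal ((q : Nat.Primes) : ℕ)) (ka_X K) :=
    MulAction.compHom (ka_X K) (localGaloisToGlobal ((q : Nat.Primes) : ℕ))
  -- the local cocycle as a function on the local Galois group
  obtain ⟨c', hc'⟩ : ∃ c' : lcf_Gal ((q : Nat.Primes) : ℕ) × lcf_Gal ((q : Nat.Primes) : ℕ) →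
      Rep.res (localGaloisToGlobal ((q : Nat.Primes) : ℕ)) (pt_A p K), c' = fun y => cq.1 y :=
    ⟨_, rfl⟩
  have hc'd : ∀ y, shp_d₂ (MonoidHom.id (lcf_Gal ((q : Nat.Primes) : ℕ)))
      (Rep.res (localGaloisToGlobal ((q : Nat.Primes) : ℕ)) (pt_A p K)) c' y = 0 := by
    rw [hc']
    exact (kah2_mem_cocycles₂_iff _ _).1 cq.2.1
  have hc'c : shp_Const₂ (MonoidHom.id (lcf_Gal ((q : Nat.Primes) : ℕ)))
      (F'.fixingSubgroup.comap (localGaloisToGlobal ((q : Nat.Primes) : ℕ))) c' := by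
    intro g g' s s' hs hs'
    rw [hc']
    exact hcl g g' s s' (IntermediateField.fixingSubgroup_antitone hFcF hs)
      (IntermediateField.fixingSubgroup_antitone hFcF hs')
  have hxd : ∀ y, shp_d₂ (MonoidHom.id s55_GQ) (pt_A p K) x y = 0 :=
    (kah2_mem_cocycles₂_iff _ _).1 hx.1
  have hxc : shp_Const₂ (MonoidHom.id s55_GQ) F'.fixingSubgroup x := fun g g' s s' hs hs' =>
    hxl g g' s s' (IntermediateField.fixingSubgroup_antitone hFxF hs)
      (IntermediateField.fixingSubgroup_antitone hFxF hs')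
  have hbc : ∀ g₀ ∈ (R q : Set s55_GQ), ∀ γ s : lcf_Gal ((q : Nat.Primes) : ℕ),
      localGaloisToGlobal ((q : Nat.Primes) : ℕ) γ ∈ K.fixingSubgroup →
      localGaloisToGlobal ((q : Nat.Primes) : ℕ) s ∈ F'.fixingSubgroup →
      kah2_ext₁ (kl_H K (q : Nat.Primes)) (b g₀) (γ * s) =
        kah2_ext₁ (kl_H K (q : Nat.Primes)) (b g₀) γ := by
    intro g₀ hg₀ γ s hγ hs
    have hsU : localGaloisToGlobal ((q : Nat.Primes) : ℕ) s ∈ K.fixingSubgroup := hNU hs
    rw [kah2_ext₁_of_mem _ _ γ hγ, kah2_ext₁_of_mem _ _ (γ * s)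
      ((kl_H K (q : Nat.Primes)).mul_mem hγ hsU)]
    exact (hbprop g₀ hg₀).1 ⟨γ, hγ⟩ ⟨s, hsU⟩
      (IntermediateField.fixingSubgroup_antitone ((hFRle g₀ hg₀).trans hFRF) hs)
  have hbd : ∀ g₀ ∈ (R q : Set s55_GQ), ∀ γ γ' : lcf_Gal ((q : Nat.Primes) : ℕ),
      localGaloisToGlobal ((q : Nat.Primes) : ℕ) γ ∈ K.fixingSubgroup →
      localGaloisToGlobal ((q : Nat.Primes) : ℕ) γ' ∈ K.fixingSubgroup →
      (MonoidAlgebra.coeff (x (g₀⁻¹ * localGaloisToGlobal ((q : Nat.Primes) : ℕ) γ * g₀,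
          g₀⁻¹ * localGaloisToGlobal ((q : Nat.Primes) : ℕ) γ' * g₀)))
          (QuotientGroup.mk 1 : s55_GQ ⧸ K.fixingSubgroup) -
        (MonoidAlgebra.coeff (c' (γ, γ'))) (QuotientGroup.mk g₀ : s55_GQ ⧸ K.fixingSubgroup) =
      kah2_ext₁ (kl_H K (q : Nat.Primes)) (b g₀) γ' -
        kah2_ext₁ (kl_H K (q : Nat.Primes)) (b g₀) (γ * γ') +
        kah2_ext₁ (kl_H K (q : Nat.Primes)) (b g₀) γ := by
    intro g₀ hg₀ γ γ' hγ hγ'
    rw [kah2_ext₁_of_mem _ _ γ hγ, kah2_ext₁_of_mem _ _ γ' hγ', kah2_ext₁_of_mem _ _ (γ * γ')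
      ((kl_H K (q : Nat.Primes)).mul_mem hγ hγ')]
    have h5 := (hbprop g₀ hg₀).2 ⟨γ, hγ⟩ ⟨γ', hγ'⟩
    rw [hc']
    exact h5
  obtain ⟨a, hac, had⟩ := kah2_compare (k := ZMod p) K.fixingSubgroup
    (localGaloisToGlobal ((q : Nat.Primes) : ℕ)) (fun _ _ => rfl) F'.fixingSubgroup hNU x hxd hxc
    c' hc'd hc'c (R q : Set s55_GQ) (kah2_reps_cover S K R hR q)
    (fun g => kah2_ext₁ (kl_H K (q : Nat.Primes)) (b g)) hbc hbd
  rw [mem_levelCoboundaries₂_iff]
  refine ⟨a, ⟨F', hF'fin, fun g s hs => hac g s hs⟩, ?_⟩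
  funext y
  have h6 := had y.1 y.2
  rw [hc'] at h6
  exact (kah2_d₁₂_apply (Rep.res (extArithLoc S (Sum.inr q : extArithIndex S)) (pt_A p K))
    a y).trans h6

end Local

end Fermat.Agent.S55
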