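/-
S55 (Poitou-Tate), BRIDGE part 2, K→A package (3) [A-H2-EX-OF] (helper20), part 5: the main
theorem.  Prefix `kah2_`.

    theorem kah2_main : kl_H2Statement → ab_H2ExOfStatement

Route.  `A = pt_A p K = F_p[G_ℚ/G_K]`.  A family of continuous local classes `[c_v]`,
`c_q : Γ_q × Γ_q → A`, has Shapiro components `α_{q,g} = π_{g x₀} ∘ c_q |_{Γ_q ∩ g U g⁻¹}`, one
for every place `w = g w₀` of `K` above `q` (`g ∈ R q` a system of representatives of
`Γ_q \ G / U`).  Pairing with the invariant `φ⁰ ∈ H⁰(G_ℚ, A')`, `π_{g x₀} φ⁰ = χ(g)`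
(`kah2_phi0`), gives `inv_q (c_q ∪ φ⁰) = ∑_{g ∈ R q} inv_w α_{q,g}` (`kah2_inv_sum`, [TR-INV]), so
the hypothesis of [A-H2-EX] for `m' = φ⁰` is the hypothesis `∑_w inv_w α_w = 0` of [K-H2].  [K-H2]
gives a level-`S` 2-cocycle `cK` of `U = G_K`, which lifts (`kah2_lift`, global Shapiro) to a
level-`S` 2-cocycle `x` of `G_ℚ` in `A` with `π_{x₀} ∘ x |_U = cK`; and `loc_q x - c_q` is a
continuous coboundary by the local comparison `kah2_local` (local Shapiro injectivity).  The
archimedean place does not contribute (`p` odd).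
-/
import Mathlib
import Fermat.Agent.S55.Bridge.KAH2ExLoc
import Fermat.Agent.S55.Bridge.ADefs
import Fermat.Agent.S55.Local.Arch
import Fermat.Agent.S55.Dev.Nat3
import Fermat.Agent.S55.Bridge.RecRed

set_option autoImplicit false
set_option linter.style.haveILetI false
set_option maxHeartbeats 1000000
set_option synthInstance.maxHeartbeats 400000
open CategoryTheory Module groupCohomology ExtCitation

noncomputable section

namespace Fermat.Agent.S55

/-- **K→A package (3) [A-H2-EX-OF]**: exactness of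
`H²_S(A) → ∏_v H²(ℚ_v, A) → H⁰(G_ℚ, A')^∨` in the middle for `A = F_p[G_ℚ/G_K]`, from the
K-level statement [K-H2]. -/
theorem kah2_main (hK2 : kl_H2Statement) : ab_H2ExOfStatement := by
  intro inv ptinv hinv hcompat p _ hp2 S hpS K hKS hKn hχ c hc
  classical
  haveI := hKn
  haveI : Finite (ka_X K) := ka_finite_X K hKS
  obtain ⟨R, hR⟩ := ka_exists_reps S K
  obtain ⟨m', hm'⟩ := kah2_phi0 p K hχ
  -- the Shapiro components
  obtain ⟨α, hαdef⟩ : ∃ α : ∀ q : ↥S, s55_GQ →
      ↥(kl_H K (q : Nat.Primes)) × ↥(kl_H K (q : Nat.Primes)) → ZMod p,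
      α = fun q g y => (MonoidAlgebra.coeff ((c (Sum.inr q : extArithIndex S)).1
        ((y.1 : lcf_Gal ((q : Nat.Primes) : ℕ)), (y.2 : lcf_Gal ((q : Nat.Primes) : ℕ)))))
          (QuotientGroup.mk g : ka_X K) := ⟨_, rfl⟩
  have hα : ∀ (q : ↥S), ∀ g ∈ R q,
      kl_IsCoc₂ (α q g) ∧ lcf_Smooth₂ (kl_H K (q : Nat.Primes)) (α q g) := by
    intro q g _
    rw [hαdef]
    exact ⟨kah2_alpha_coc S K hKn q (c (Sum.inr q)) _,
      kah2_alpha_smooth S K q (c (Sum.inr q)) _⟩
  have hsum : ∑ q : ↥S, ∑ g ∈ R q, kl_inv K inv (q : Nat.Primes) g (α q g) = 0 := by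
    have h0 := hc m' (fun v => dnat_cup₂₀_mem S (pt_A p K) v (c v) m')
    obtain ⟨F, hF⟩ : ∃ F : extArithIndex S → ZMod p, F = fun v => ptinv p S v
        (continuousH2π (extArithLoc S v) (Rep.res (extArithLoc S v) (pt_T p))
          ⟨_, dnat_cup₂₀_mem S (pt_A p K) v (c v) m'⟩) := ⟨_, rfl⟩
    have h0' : ∑ v : extArithIndex S, F v = 0 := by
      rw [hF]
      exact h0
    have hsplit : ∑ v : extArithIndex S, F v =
        ∑ u : Unit, F (Sum.inl u) + ∑ q : ↥S, F (Sum.inr q) :=
      Fintype.sum_sum_type (fun v : Unit ⊕ ↥S => F v)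
    rw [hsplit] at h0'
    have h1 : ∀ (v : extArithIndex S) (u : Unit), v = Sum.inl u → F v = 0 := by
      intro v u hv
      rw [hF]
      show ptinv p S v _ = 0
      rw [larch_continuousH2_inl_eq_zero S (pt_T p) hp2 hv
        (continuousH2π (extArithLoc S v) (Rep.res (extArithLoc S v) (pt_T p))
          ⟨_, dnat_cup₂₀_mem S (pt_A p K) v (c v) m'⟩), map_zero]
    rw [Finset.sum_eq_zero (fun u _ => h1 (Sum.inl u) u rfl), zero_add] at h0'
    have h2 := congrArg (ptinv_e p) h0'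
    rw [map_sum, map_zero] at h2
    rw [← h2]
    refine Finset.sum_congr rfl fun q _ => ?_
    rw [hF]
    show _ = ptinv_e p (ptinv p S (Sum.inr q : extArithIndex S) _)
    rw [ptinv_e_apply,
      ← hcompat p S q _ (dnat_cup₂₀_mem S (pt_A p K) (Sum.inr q : extArithIndex S)
        (c (Sum.inr q : extArithIndex S)) m'),
      kah2_inv_sum S K inv hinv hKS hKn R hR q (c (Sum.inr q)) m' hm', hαdef]
  obtain ⟨cK, hcK, hcKl, hcKb⟩ := hK2 inv hinv hp2 S hpS K hKS hχ R hR α hα hsum
  obtain ⟨x, hx, hxπ⟩ := kah2_lift S K hKS cK hcK hcKl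
  refine ⟨continuousH2Sπ S (pt_A p K) ⟨x, hx⟩, ?_⟩
  funext v
  have hv : (∃ u : Unit, v = Sum.inl u) ∨ (∃ q : ↥S, v = Sum.inr q) := by
    rcases v with u | q
    · exact Or.inl ⟨u, rfl⟩
    · exact Or.inr ⟨q, rfl⟩
  rcases hv with ⟨u, hu⟩ | ⟨q, hq⟩
  · rw [larch_continuousH2_inl_eq_zero S (pt_A p K) hp2 hu
        (locTotal₂S S (pt_A p K) (continuousH2Sπ S (pt_A p K) ⟨x, hx⟩) v),
      larch_continuousH2_inl_eq_zero S (pt_A p K) hp2 hu
        (continuousH2π (extArithLoc S v) (Rep.res (extArithLoc S v) (pt_A p K)) (c v))]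
  subst hq
  · have hloc : cone_loc₂ S (pt_A p K) (Sum.inr q : extArithIndex S) x -
        ((c (Sum.inr q)) : extArithLocalGroups S (Sum.inr q : extArithIndex S) ×
          extArithLocalGroups S (Sum.inr q : extArithIndex S) →
            Rep.res (extArithLoc S (Sum.inr q : extArithIndex S)) (pt_A p K)) ∈
        levelCoboundaries₂ (extArithLoc S (Sum.inr q : extArithIndex S))
          (Rep.res (extArithLoc S (Sum.inr q : extArithIndex S)) (pt_A p K)) := by
      apply kah2_local S K hKS R hR q x hx (c (Sum.inr q))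
      intro g hg
      obtain ⟨b, hb, hbd⟩ := hcKb q g hg
      refine ⟨b, hb, fun τ τ' => ?_⟩
      rw [hxπ]
      have h3 := hbd τ τ'
      rw [hαdef] at h3
      exact h3
    show continuousH2π (extArithLoc S (Sum.inr q : extArithIndex S))
        (Rep.res (extArithLoc S (Sum.inr q : extArithIndex S)) (pt_A p K))
        ⟨cone_loc₂ S (pt_A p K) (Sum.inr q : extArithIndex S) x,
          rrd_loc_mem S (pt_A p K) (Sum.inr q : extArithIndex S) x hx⟩ =
      continuousH2π (extArithLoc S (Sum.inr q : extArithIndex S))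
        (Rep.res (extArithLoc S (Sum.inr q : extArithIndex S)) (pt_A p K))
        (c (Sum.inr q : extArithIndex S))
    exact (Submodule.Quotient.eq _).2 hloc

end Fermat.Agent.S55
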