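/-
S55 (Poitou-Tate), BRIDGE part 2, K→A package (4) [A-H2-SURJ-OF]:
`ab_H2SurjOfStatement` (surjectivity of `∏_v H²(ℚ_v, A) → Dual H⁰(G_ℚ, A')`, `A = pt_A p K`).
Owner: helper22.  Prefix `kah2s_`.

ROUTE.  The statement is PURELY LOCAL and follows from local duality in degrees `(2,0)` at ONE
place `q₀ ∈ S` (we take `q₀ = p`): the restriction of `A = F_p[G_ℚ/G_K]` to `Γ = Gal(Ω/ℚ_{q₀})`
is (definitionally) the permutation module of the finite `Γ`-set `Z = G_ℚ/G_K`, whose action is
smooth and whose stabilizers fix `μ_p` (`G_K` is normal and fixes `μ_p`).  By [LB-PERM20]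
(`ld1_Perm20Statement`, helper3's interface) the pairing `H²(Γ, A) → Dual H⁰(Γ, A')` is
bijective.  A functional `l` on the GLOBAL invariants `H⁰(G_ℚ, A') ⊆ H⁰(Γ, A')` extends to the
local invariants (linear algebra over `F_p`), hence is induced by a class `c₀ ∈ H²(Γ, A)`; put
`c_v = 0` at the other places.

`kah2s_main : ld1_Perm20Statement → ab_H2SurjOfStatement`.
-/
import Mathlib
import Fermat.Agent.S55.Bridge.ADefs
import Fermat.Agent.S55.Local.LD1Base
import Fermat.Agent.S55.CoverOfRep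

set_option autoImplicit false
set_option maxHeartbeats 1000000
set_option synthInstance.maxHeartbeats 400000
set_option linter.style.haveILetI false
open CategoryTheory Module groupCohomology ExtCitation

noncomputable section

namespace Fermat.Agent.S55

variable {p : ℕ} [Fact p.Prime]

section Generic

variable {H : Type} [Group H] (r : H →* s55_GQ) (M : Rep.{0, 0, 0} (ZMod p) s55_GQ)

/-- The action of the local Tate dual of `M|_H` is the restriction of the action of the global
Tate dual. -/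
theorem kah2s_D_ρ (s : H) (φ : Module.Dual (ZMod p) M) :
    (show Module.Dual (ZMod p) M from (ld1_D r (Rep.res r M)).ρ s φ) =
      (show Module.Dual (ZMod p) M from (M.dualTwist (cycloChar p)).ρ (r s) φ) := by
  apply LinearMap.ext
  intro x
  change ((cycloChar p (r s) : (ZMod p)ˣ) : ZMod p) • φ (M.ρ (r s⁻¹) x) =
    ((cycloChar p (r s) : (ZMod p)ˣ) : ZMod p) • φ (M.ρ ((r s)⁻¹) x)
  rw [r.map_inv]

/-- A global invariant of `M^*(1)` is an invariant of the local Tate dual of `M|_H`. -/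
theorem kah2s_inv_mem (m' : ↥((M.dualTwist (cycloChar p)).ρ.invariants)) :
    (show ld1_D r (Rep.res r M) from m'.1) ∈ (ld1_D r (Rep.res r M)).ρ.invariants := by
  intro s
  exact (kah2s_D_ρ r M s m'.1).trans (m'.2 (r s))

/-- The cup product with a global invariant, computed with the local pairing. -/
theorem kah2s_cup_eq (c : H × H → Rep.res r M)
    (m' : ↥((M.dualTwist (cycloChar p)).ρ.invariants)) :
    cup₂₀ (ld1_ev r (Rep.res r M)) c (show ld1_D r (Rep.res r M) from m'.1) =
      cup₂₀ (show Rep.res r M →ₗ[ZMod p] Rep.res r (M.dualTwist (cycloChar p)) →ₗ[ZMod p]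
        Rep.res r (pt_T p) from pt_ev M) c m'.1 := by
  funext x
  change (show Module.Dual (ZMod p) M from
      (ld1_D r (Rep.res r M)).ρ (x.1 * x.2) m'.1) (c x) =
    (show Module.Dual (ZMod p) M from
      (M.dualTwist (cycloChar p)).ρ (r (x.1 * x.2)) m'.1) (c x)
  rw [kah2s_D_ρ]

end Generic

section Action

variable (K : IntermediateField ℚ (AlgebraicClosure ℚ)) {H : Type} [Group H] (r : H →* s55_GQ)

/-- Elements of the normal subgroup `G_K` act trivially on `G_ℚ / G_K`. -/
theorem kah2s_smul_eq (hn : K.fixingSubgroup.Normal) (g : s55_GQ) (hg : g ∈ K.fixingSubgroup)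
    (z : s55_GQ ⧸ K.fixingSubgroup) : g • z = z := by
  induction z using QuotientGroup.induction_on with
  | H a =>
    rw [MulAction.Quotient.smul_mk, QuotientGroup.eq]
    have h1 : a⁻¹ * g⁻¹ * a⁻¹⁻¹ ∈ K.fixingSubgroup :=
      hn.conj_mem _ (K.fixingSubgroup.inv_mem hg) a⁻¹
    have h2 : (g • a)⁻¹ * a = a⁻¹ * g⁻¹ * a⁻¹⁻¹ := by
      rw [smul_eq_mul, mul_inv_rev, inv_inv]
    rw [h2]
    exact h1

/-- The stabilizers of the points of `G_ℚ / G_K` are contained in `G_K`. -/
theorem kah2s_mem_of_smul_eq (hn : K.fixingSubgroup.Normal) (g : s55_GQ)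
    (z : s55_GQ ⧸ K.fixingSubgroup) (h : g • z = z) : g ∈ K.fixingSubgroup := by
  induction z using QuotientGroup.induction_on with
  | H a =>
    rw [MulAction.Quotient.smul_mk, QuotientGroup.eq] at h
    have h2 : (g • a)⁻¹ * a = a⁻¹ * g⁻¹ * a⁻¹⁻¹ := by
      rw [smul_eq_mul, mul_inv_rev, inv_inv]
    rw [h2] at h
    have h3 := hn.conj_mem _ h a
    have h4 : a * (a⁻¹ * g⁻¹ * a⁻¹⁻¹) * a⁻¹ = g⁻¹ := by group
    rw [h4] at h3
    exact (K.fixingSubgroup.inv_mem_iff).1 h3

end Action

/-- **[A-H2-SURJ-OF]** from local duality in degrees `(2,0)` for permutation modules. -/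
theorem kah2s_main (hP20 : ld1_Perm20Statement) : ab_H2SurjOfStatement := by
  classical
  intro inv ptinv hinv hc p _ hp2 S hpS K hK hKn hχ l
  have hfd : FiniteDimensional ℚ K := hK.1
  haveI : Finite (s55_GQ ⧸ K.fixingSubgroup) := cov_finite_quot K
  letI : Fintype (s55_GQ ⧸ K.fixingSubgroup) := Fintype.ofFinite _
  letI act : MulAction (extArithLocalGroups S (Sum.inr ⟨pPrime p, hpS⟩ : extArithIndex S))
      (s55_GQ ⧸ K.fixingSubgroup) :=
    MulAction.compHom (s55_GQ ⧸ K.fixingSubgroup)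
      (extArithLoc S (Sum.inr ⟨pPrime p, hpS⟩ : extArithIndex S))
  have hsm : ld1_SmoothAct (extArithLoc S (Sum.inr ⟨pPrime p, hpS⟩ : extArithIndex S))
      (s55_GQ ⧸ K.fixingSubgroup) :=
    ⟨K, hfd, fun s hs z => kah2s_smul_eq K hKn _ hs z⟩
  have hct : ld1_ChiTriv (extArithLoc S (Sum.inr ⟨pPrime p, hpS⟩ : extArithIndex S)) p
      (s55_GQ ⧸ K.fixingSubgroup) :=
    fun z s hs => hχ _ (kah2s_mem_of_smul_eq K hKn _ z hs)
  obtain ⟨P, hP, hPb⟩ := hP20 inv ptinv hinv hc hp2 S ⟨pPrime p, hpS⟩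
    (s55_GQ ⧸ K.fixingSubgroup) hsm hct
  -- the inclusion of the global invariants into the local invariants
  let ι : ↥(((pt_A p K).dualTwist (cycloChar p)).ρ.invariants) →ₗ[ZMod p]
      ↥((ld1_D (extArithLoc S (Sum.inr ⟨pPrime p, hpS⟩ : extArithIndex S))
        (Rep.res (extArithLoc S (Sum.inr ⟨pPrime p, hpS⟩ : extArithIndex S))
          (pt_A p K))).ρ.invariants) :=
    { toFun := fun m' => ⟨m'.1, kah2s_inv_mem _ (pt_A p K) m'⟩
      map_add' := fun _ _ => rfl
      map_smul' := fun _ _ => rfl }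
  have hι : Function.Injective ι := by
    intro m m' h
    have h' := congrArg Subtype.val h
    exact Subtype.ext h'
  obtain ⟨g, hg⟩ := LinearMap.exists_leftInverse_of_injective ι (LinearMap.ker_eq_bot.2 hι)
  obtain ⟨cbar, hcbar⟩ := hPb.2 (l ∘ₗ g)
  obtain ⟨c₀, rfl⟩ := Submodule.mkQ_surjective _ cbar
  refine ⟨Pi.single (Sum.inr ⟨pPrime p, hpS⟩ : extArithIndex S) c₀, fun m' hcoc => ?_⟩
  refine (Finset.sum_eq_single (Sum.inr ⟨pPrime p, hpS⟩ : extArithIndex S) ?_ ?_).trans ?_
  · intro (v : extArithIndex S) _ hv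
    have h0 : ∀ (c : ↥(levelCocycles₂ (extArithLoc S v)
          (Rep.res (extArithLoc S v) (pt_A p K))))
        (hc : cup₂₀ (pt_evv S v (pt_A p K)) (c : _ → _)
          (m'.1 : Rep.res (extArithLoc S v) ((pt_A p K).dualTwist (cycloChar p))) ∈
            levelCocycles₂ (extArithLoc S v) (Rep.res (extArithLoc S v) (pt_T p))),
        c = 0 → ptinv p S v (continuousH2π _ _ ⟨_, hc⟩) = 0 := by
      intro c hc h
      subst h
      have e : (⟨_, hc⟩ : ↥(levelCocycles₂ (extArithLoc S v)
          (Rep.res (extArithLoc S v) (pt_T p)))) = 0 := by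
        apply Subtype.ext
        funext x
        change (pt_evv S v (pt_A p K)) 0 _ = 0
        rw [map_zero, LinearMap.zero_apply]
      rw [e, map_zero, map_zero]
    exact h0 _ (hcoc v) (Pi.single_eq_of_ne (M := fun v : extArithIndex S =>
      ↥(levelCocycles₂ (extArithLoc S v) (Rep.res (extArithLoc S v) (pt_A p K)))) hv c₀)
  · intro h
    exact absurd (Finset.mem_univ _) h
  · -- the place `p`
    have h1 : ∀ (c : ↥(levelCocycles₂ (extArithLoc S (Sum.inr ⟨pPrime p, hpS⟩))
          (Rep.res (extArithLoc S (Sum.inr ⟨pPrime p, hpS⟩)) (pt_A p K))))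
        (hc : cup₂₀ (pt_evv S (Sum.inr ⟨pPrime p, hpS⟩) (pt_A p K)) (c : _ → _)
          (m'.1 : Rep.res (extArithLoc S (Sum.inr ⟨pPrime p, hpS⟩))
            ((pt_A p K).dualTwist (cycloChar p))) ∈
            levelCocycles₂ (extArithLoc S (Sum.inr ⟨pPrime p, hpS⟩))
              (Rep.res (extArithLoc S (Sum.inr ⟨pPrime p, hpS⟩)) (pt_T p))),
        c = c₀ → ptinv p S (Sum.inr ⟨pPrime p, hpS⟩) (continuousH2π _ _ ⟨_, hc⟩) = l m' := by
      intro c hc h
      subst h
      have hcoc' : cup₂₀ (ld1_ev (extArithLoc S (Sum.inr ⟨pPrime p, hpS⟩ : extArithIndex S))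
          (Rep.res (extArithLoc S (Sum.inr ⟨pPrime p, hpS⟩ : extArithIndex S)) (pt_A p K)))
          (c : _ → _) ((ι m').1) ∈
            levelCocycles₂ (extArithLoc S (Sum.inr ⟨pPrime p, hpS⟩ : extArithIndex S))
              (ld1_T (p := p) (extArithLoc S (Sum.inr ⟨pPrime p, hpS⟩ : extArithIndex S))) := by
        exact Eq.subst (motive := fun f => f ∈
            levelCocycles₂ (extArithLoc S (Sum.inr ⟨pPrime p, hpS⟩ : extArithIndex S))
              (ld1_T (p := p) (extArithLoc S (Sum.inr ⟨pPrime p, hpS⟩ : extArithIndex S))))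
          (kah2s_cup_eq (extArithLoc S (Sum.inr ⟨pPrime p, hpS⟩ : extArithIndex S))
            (pt_A p K) (c : _ → _) m').symm hc
      have h2 := hP c (ι m') hcoc'
      have h3 : P (continuousH2π _ _ c) (ι m') = l m' := by
        change P ((Submodule.mkQ _) c) (ι m') = l m'
        rw [hcbar]
        exact congrArg l (LinearMap.congr_fun hg m')
      rw [← h3, h2]
      congr 2
      apply Subtype.ext
      exact (kah2s_cup_eq _ (pt_A p K) _ m').symm
    exact h1 _ (hcoc _) (Pi.single_eq_same (M := fun v : extArithIndex S =>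
      ↥(levelCocycles₂ (extArithLoc S v) (Rep.res (extArithLoc S v) (pt_A p K)))) _ c₀)

end Fermat.Agent.S55
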