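/-
S55 (Poitou-Tate), BRIDGE part 2, K→A package (1) [A-H3-OF] (helper13).  Prefix `kah3_`.

`kah3_main : kl_H3Statement → pt_H3BaseStatement`.

PROOF.  `z` a level-`S` 3-cocycle of `G_ℚ` with values in `pt_A p K = F_p[G_ℚ / U]`,
`U = G_K`.  Its component `z₀` at the trivial coset, restricted to `U`, is a level-`S`
3-cocycle of `U` with values in `F_p` (trivial action), hence `= d₂ a_K` with `a_K` of level `S`
([K-H3]).  Let `N` be the fixing subgroup of a NORMAL field containing `K` and the levels of `z`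
and `a_K`, unramified outside `S` (`h3o_normalLevel`).  Shapiro's lemma in degree 3
(helper24's `lcdb_shapiro₃`, from [SHAP-INJ 3]) gives a 2-cochain `a`, constant mod `N`, with
`d a = z`.  `K` is not assumed to be Galois.
-/
import Mathlib
import Fermat.Agent.S55.Bridge.KDefs
import Fermat.Agent.S55.Local.LcdBaseShap
import Fermat.Agent.S55.H3OfMain

set_option autoImplicit false
set_option maxHeartbeats 1000000
set_option synthInstance.maxHeartbeats 400000
set_option linter.style.haveILetI false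
set_option linter.unusedVariables false

noncomputable section

namespace Fermat.Agent.S55

open CategoryTheory Module groupCohomology ExtCitation

/-- The core of [A-H3-OF] for one field `K`. -/
theorem kah3_core (hK3 : kl_H3Statement) {p : ℕ} [Fact p.Prime] (hp2 : p ≠ 2)
    (S : Finset Nat.Primes) (hpS : pPrime p ∈ S)
    (K : IntermediateField ℚ (AlgebraicClosure ℚ)) (hK : K.IsUnramifiedOutside S)
    (hχ : ∀ s ∈ K.fixingSubgroup, cycloChar p s = 1)
    (z : s55_GQ × s55_GQ × s55_GQ → pt_A p K) (hzl : pt_IsLevelS₃ S z)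
    (hzc : pt_IsCocycle₃ (pt_A p K) z) :
    ∃ a : s55_GQ × s55_GQ → pt_A p K, IsLevelConstantS₂ S a ∧ (d₂₃ (pt_A p K)).hom a = z := by
  classical
  obtain ⟨-, -, hfin⟩ := h3o_open_subgroup K.fixingSubgroup K hK.1 le_rfl
  haveI : Finite (s55_GQ ⧸ K.fixingSubgroup) := hfin
  -- the level of `z`
  obtain ⟨Fz, hFz, hFzz⟩ := hzl
  -- the component at the trivial coset
  set t₀ : s55_GQ ⧸ K.fixingSubgroup := QuotientGroup.mk 1 with ht₀
  have hPt : ∀ g : s55_GQ, g ∈ K.fixingSubgroup → g • t₀ = t₀ := by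
    intro g hg
    rw [ht₀, MulAction.Quotient.smul_mk, smul_eq_mul, QuotientGroup.eq, mul_one, mul_one]
    exact K.fixingSubgroup.inv_mem hg
  set C : shp_Coord (s55_GQ ⧸ K.fixingSubgroup)
    (Rep.ofMulAction (ZMod p) s55_GQ (s55_GQ ⧸ K.fixingSubgroup))
    (Rep.trivial (ZMod p) s55_GQ (ZMod p)) := lcdb_coord with hC
  set z₀ : ↥K.fixingSubgroup × ↥K.fixingSubgroup × ↥K.fixingSubgroup → ZMod p := fun x =>
    C.π t₀ (z ((x.1 : s55_GQ), (x.2.1 : s55_GQ), (x.2.2 : s55_GQ))) with hz₀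
  have hz₀l : kl_LevelS₃ S K z₀ := by
    refine ⟨Fz, hFz, fun g g' g'' s s' s'' hs hs' hs'' => ?_⟩
    simp only [hz₀, Subgroup.coe_mul]
    rw [hFzz _ _ _ _ _ _ hs hs' hs'']
  have hz₀c : kl_IsCoc₃ z₀ := by
    intro g h j l
    have h1 := congrArg (C.π t₀) (hzc (g : s55_GQ) (h : s55_GQ) (j : s55_GQ) (l : s55_GQ))
    simp only [map_add, map_sub, map_zero] at h1
    rw [shin_π_stab C (hPt (g : s55_GQ) g.2)] at h1
    simp only [hz₀, Subgroup.coe_mul]
    exact h1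
  -- [K-H3]
  obtain ⟨aK, ⟨Fa, hFa, hFaa⟩, hda⟩ := hK3 hp2 S hpS K hK hχ z₀ hz₀l hz₀c
  -- extension by zero
  set a₀ : s55_GQ × s55_GQ → ZMod p := fun x =>
    if h : x.1 ∈ K.fixingSubgroup ∧ x.2 ∈ K.fixingSubgroup then aK (⟨x.1, h.1⟩, ⟨x.2, h.2⟩) else 0
    with ha₀
  have ha₀e : ∀ (v w : s55_GQ) (hv : v ∈ K.fixingSubgroup) (hw : w ∈ K.fixingSubgroup),
      a₀ (v, w) = aK (⟨v, hv⟩, ⟨w, hw⟩) := by
    intro v w hv hw
    simp only [ha₀]
    rw [dif_pos ⟨hv, hw⟩]
  -- the normal level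
  obtain ⟨F', hle, hF', hnorm⟩ := h3o_normalLevel S (K ⊔ Fz ⊔ Fa) ((hK.sup hFz).sup hFa)
  have hNK : F'.fixingSubgroup ≤ K.fixingSubgroup :=
    IntermediateField.fixingSubgroup_antitone ((le_sup_left.trans le_sup_left).trans hle)
  have hNz : F'.fixingSubgroup ≤ Fz.fixingSubgroup :=
    IntermediateField.fixingSubgroup_antitone ((le_sup_right.trans le_sup_left).trans hle)
  have hNa : F'.fixingSubgroup ≤ Fa.fixingSubgroup :=
    IntermediateField.fixingSubgroup_antitone (le_sup_right.trans hle)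
  haveI : (F'.fixingSubgroup).Normal := hnorm
  -- Shapiro
  obtain ⟨a, hac, had⟩ := lcdb_shapiro₃ (k := ZMod p) K.fixingSubgroup F'.fixingSubgroup hNK z
    (fun x => hzc x.1 x.2.1 x.2.2.1 x.2.2.2)
    (fun g g' g'' s s' s'' hs hs' hs'' =>
      hFzz g g' g'' s s' s'' (hNz hs) (hNz hs') (hNz hs''))
    a₀
    (fun v w n n' hv hw hn hn' => by
      rw [ha₀e (v * n) (w * n') (K.fixingSubgroup.mul_mem hv (hNK hn))
        (K.fixingSubgroup.mul_mem hw (hNK hn')), ha₀e v w hv hw]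
      exact hFaa ⟨v, hv⟩ ⟨w, hw⟩ ⟨n, hNK hn⟩ ⟨n', hNK hn'⟩ (hNa hn) (hNa hn'))
    (fun u v w hu hv hw => by
      rw [ha₀e v w hv hw, ha₀e (u * v) w (K.fixingSubgroup.mul_mem hu hv) hw,
        ha₀e u (v * w) hu (K.fixingSubgroup.mul_mem hv hw), ha₀e u v hu hv]
      have h1 := hda (⟨u, hu⟩, ⟨v, hv⟩, ⟨w, hw⟩)
      simp only [kl_d₂, hz₀] at h1
      rw [← lcdb_coord_π]
      exact h1.symm)
  refine ⟨a, ⟨F', hF', fun g g' s s' hs hs' => hac g g' s s' hs hs'⟩, ?_⟩
  funext x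
  obtain ⟨g, h, j⟩ := x
  rw [d₂₃_hom_apply]
  exact had (g, h, j)

/-- **[A-H3-OF]** `H³(G_{K,S}, F_p) = 0` (K-level, elementwise) implies the Shapiro form
`pt_H3BaseStatement` for the permutation modules `pt_A p K`. -/
theorem kah3_main : kl_H3Statement → pt_H3BaseStatement :=
  fun hK3 _ _ hp2 S hpS K hK hχ z hzl hzc => kah3_core hK3 hp2 S hpS K hK hχ z hzl hzc

end Fermat.Agent.S55
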