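/-
S55 (Poitou-Tate), BRIDGE part 2, K→A packages (5) [A-SHA-INJ-OF] and (6) [A-SHA-SURJ-OF]:
THE SHARED CALCULATION, interface file.  Owner: helper12.  Prefix `kasc_`.
Definitions and closed `Prop`s only.

SETTING: `p` odd, `p ∈ S`, `K/ℚ` finite Galois unramified outside `S`, `χ = cycloChar p` trivial
on `U = G_K`; `X = G_ℚ / U`, `x₀ = 1·U`; `A = pt_A p K`, `A' = A.dualTwist χ` with ARBITRARY
coordinate systems `C : shp_Coord X A F_p`, `C' : shp_Coord X A' F_p(1)` such that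
`ev (a, φ) = ∑_x π_x a • π'_x φ`.

`kasc_CalcStatement` : for a cone cocycle `(c, b)` of `A`, a level-`S` 1-cocycle `y` of `A'`
whose Shapiro component `y_K = π'_{x₀} ∘ y|U` is locally trivial at all places `(q, g₀)`,
`g₀ ∈ R q`, and a level-`S` 2-cochain `E` of `A'` with `d E = c ·∪ y` (pointwise product in
coordinates), put `ε = tr ∘ E = ∑_x π'_x ∘ E` and `ε_K = π'_{x₀} ∘ E|U²`.  Then
    `kl_e (∑_v ptinv_v [b_v ∪ loc_v y - loc_v ε]) = - ∑_q ∑_{g₀ ∈ R q} kl_inv (ε_K ∘ r_{q,g₀})`.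
PROOF (TR-INV + prism homotopy + `ld_Compat`; the place `inl` by `larch`):
`f_x (σ, τ) := π_x (b_q σ) · π'_x (σ • y (loc τ)) - π'_x (E (loc σ, loc τ))` is a 2-cocycle of
`Γ_q` with values in the functions `X → F_p(1)` and `∑_x f_x = b_q ∪ loc y - loc ε`; by
`shtr_fin` and `ld_Compat`, `kl_e (ptinv_q [...]) = ∑_{g₀ ∈ R q} inv_{kl_H} (ζ ^ f_{g₀ x₀})`; on
`kl_H K q` (`= Stab (g₀ x₀)`), with `s' := g₀⁻¹ s g₀`,
  `g₀ • E (s', t') - E (s, t) = d κ (s, t) + w (g₀, s', t') - w (s, g₀, t') + w (s, t, g₀)`,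
`κ s = E (g₀, s') - E (s, g₀)`, `w = d E`; the coordinate at `g₀ x₀` of the first two `w`-terms
and of `b_q ∪ y` is a multiple of `y_K ∘ r = 0`, the third is `π_t (c (s, t)) · π'_t (y g₀) =
d (π'_t (y g₀) · π_t ∘ b_q)`; hence `f_{g₀x₀} = - χ(g₀) ε_K ∘ r + d (smooth)`.
-/
import Mathlib
import Fermat.Agent.S55.Bridge.ADefs
import Fermat.Agent.S55.Bridge.KDefs
import Fermat.Agent.S55.Bridge.ShapDefs

set_option autoImplicit false
set_option maxHeartbeats 1000000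
set_option synthInstance.maxHeartbeats 400000
open CategoryTheory Module groupCohomology ExtCitation

noncomputable section

namespace Fermat.Agent.S55

/-- The base point `x₀ = 1·U` of `X = G_ℚ / G_K`. -/
def kasc_x₀ (K : IntermediateField ℚ (AlgebraicClosure ℚ)) : s55_GQ ⧸ K.fixingSubgroup :=
  ((1 : s55_GQ) : s55_GQ ⧸ K.fixingSubgroup)

/-- A pair of coordinate systems on `A = pt_A p K` and on its Tate dual which diagonalises the
evaluation pairing: `ev (a, φ) = ∑_x π_x a • π'_x φ`. -/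
def kasc_IsEvSum {p : ℕ} [Fact p.Prime] (K : IntermediateField ℚ (AlgebraicClosure ℚ))
    [Fintype (s55_GQ ⧸ K.fixingSubgroup)]
    (C : shp_Coord (s55_GQ ⧸ K.fixingSubgroup) (pt_A p K) (Rep.trivial (ZMod p) s55_GQ (ZMod p)))
    (C' : shp_Coord (s55_GQ ⧸ K.fixingSubgroup) ((pt_A p K).dualTwist (cycloChar p)) (pt_T p)) :
    Prop :=
  ∀ (a : pt_A p K) (φ : (pt_A p K).dualTwist (cycloChar p)),
    pt_ev (pt_A p K) a φ =
      ∑ x : s55_GQ ⧸ K.fixingSubgroup, (show ZMod p from C.π x a) • C'.π x φ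

/-- **The shared calculation of [A-SHA-INJ-OF] and [A-SHA-SURJ-OF].** -/
def kasc_CalcStatement : Prop :=
  ∀ (inv : lcf_InvType) (ptinv : pt_InvFamily), lcf_IsInvSystem inv → ld_Compat inv ptinv →
  ∀ {p : ℕ} [Fact p.Prime], p ≠ 2 → ∀ (S : Finset Nat.Primes), pPrime p ∈ S →
  ∀ (K : IntermediateField ℚ (AlgebraicClosure ℚ)) [K.fixingSubgroup.Normal]
    [Fintype (s55_GQ ⧸ K.fixingSubgroup)],
    K.IsUnramifiedOutside S → (∀ s ∈ K.fixingSubgroup, cycloChar p s = 1) →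
  ∀ R : ↥S → Finset s55_GQ, kl_IsReps S K R →
  ∀ (C : shp_Coord (s55_GQ ⧸ K.fixingSubgroup) (pt_A p K) (Rep.trivial (ZMod p) s55_GQ (ZMod p)))
    (C' : shp_Coord (s55_GQ ⧸ K.fixingSubgroup) ((pt_A p K).dualTwist (cycloChar p)) (pt_T p)),
    kasc_IsEvSum K C C' →
  ∀ (x : ↥(cone_Z S (pt_A p K))) (y : cocycles₁ ((pt_A p K).dualTwist (cycloChar p))),
    IsLevelConstantS₁ S y →
    (∀ (q : ↥S), ∀ g₀ ∈ R q, ∀ τ : ↥(kl_H K (q : Nat.Primes)),
      C'.π (kasc_x₀ K) (y.1 ((kl_r K (q : Nat.Primes) g₀ τ : ↥K.fixingSubgroup) : s55_GQ)) = 0) →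
  ∀ E : s55_GQ × s55_GQ → (pt_A p K).dualTwist (cycloChar p), IsLevelConstantS₂ S E →
    (∀ (g h j : s55_GQ) (x' : s55_GQ ⧸ K.fixingSubgroup),
      C'.π x' (shp_d₂ (MonoidHom.id s55_GQ) ((pt_A p K).dualTwist (cycloChar p)) E (g, h, j)) =
        (show ZMod p from C.π x' (x.1.1 (g, h))) •
          C'.π x' (((pt_A p K).dualTwist (cycloChar p)).ρ (g * h) (y.1 j))) →
  ∀ ε : s55_GQ × s55_GQ → pt_T p,
    (∀ g h : s55_GQ, ε (g, h) = ∑ x' : s55_GQ ⧸ K.fixingSubgroup, C'.π x' (E (g, h))) →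
  ∀ (hcoc : ∀ v : extArithIndex S,
      cup₁₁ (pt_evv S v (pt_A p K)) (x.1.2 v)
          (cone_loc₁ S ((pt_A p K).dualTwist (cycloChar p)) v y) -
          cone_loc₂ S (pt_T p) v ε ∈
        levelCocycles₂ (extArithLoc S v) (Rep.res (extArithLoc S v) (pt_T p))),
    kl_e (∑ v : extArithIndex S, ptinv p S v (continuousH2π _ _ ⟨_, hcoc v⟩)) =
      - ∑ q : ↥S, ∑ g₀ ∈ R q, kl_inv K inv (q : Nat.Primes) g₀
          (fun z => (show ZMod p from C'.π (kasc_x₀ K)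
            (E (((kl_r K (q : Nat.Primes) g₀ z.1 : ↥K.fixingSubgroup) : s55_GQ),
              ((kl_r K (q : Nat.Primes) g₀ z.2 : ↥K.fixingSubgroup) : s55_GQ)))))

end Fermat.Agent.S55
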