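/-
S55 (Poitou-Tate), BRIDGE part 2, K→A packages (5), (6): the shared calculation, LOCAL PART.
Owner: helper12.  Prefix `kasc_`.

At a prime `q`: for the family `f_x` of `KAShaCalcAlg.lean` (`H = Gal(Ω_q/ℚ_q)`, `r = loc_q`),
    `inv_q (ζ ^ (∑_x f_x)) = - ∑_{g₀ ∈ R₀} kl_inv (ε_K ∘ r_{q,g₀})`
by the trace formula `shtr_fin` and the stabilizer formula `kasc_f_stab`.
-/
import Mathlib
import Fermat.Agent.S55.Bridge.KAShaCalcDefs
import Fermat.Agent.S55.Bridge.KAShaCalcAlg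
import Fermat.Agent.S55.Bridge.ShapTrInvFin
import Fermat.Agent.S55.Local.PtInv

set_option autoImplicit false
set_option maxHeartbeats 1000000
set_option synthInstance.maxHeartbeats 400000
open CategoryTheory Module groupCohomology ExtCitation

noncomputable section

namespace Fermat.Agent.S55

/-! ### The `G_ℚ`-set `X = G_ℚ / G_K` -/

section Act

variable (K : IntermediateField ℚ (AlgebraicClosure ℚ))

theorem kasc_smul_mk (g g' : s55_GQ) :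
    g • ((g' : s55_GQ) : s55_GQ ⧸ K.fixingSubgroup) = ((g * g' : s55_GQ) : s55_GQ ⧸ K.fixingSubgroup) :=
  rfl

theorem kasc_smul_x₀ (g : s55_GQ) :
    g • kasc_x₀ K = ((g : s55_GQ) : s55_GQ ⧸ K.fixingSubgroup) := by
  rw [kasc_x₀, kasc_smul_mk, mul_one]

theorem kasc_exists_smul_x₀ (x : s55_GQ ⧸ K.fixingSubgroup) : ∃ g : s55_GQ, g • kasc_x₀ K = x := by
  induction x using QuotientGroup.induction_on with
  | H g => exact ⟨g, kasc_smul_x₀ K g⟩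

theorem kasc_smul_x₀_eq_iff (g g' : s55_GQ) :
    g • kasc_x₀ K = g' • kasc_x₀ K ↔ g⁻¹ * g' ∈ K.fixingSubgroup := by
  rw [kasc_smul_x₀, kasc_smul_x₀]
  exact QuotientGroup.eq

variable [hN : K.fixingSubgroup.Normal]

/-- `U = G_K` acts trivially on `X` (`U` is normal). -/
theorem kasc_U_smul (u : s55_GQ) (hu : u ∈ K.fixingSubgroup) (x : s55_GQ ⧸ K.fixingSubgroup) :
    u • x = x := by
  obtain ⟨g, rfl⟩ := kasc_exists_smul_x₀ K x
  rw [← mul_smul, kasc_smul_x₀_eq_iff]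
  have h := hN.conj_mem u hu g⁻¹
  rw [inv_inv] at h
  have e : (u * g)⁻¹ * g = (g⁻¹ * u * g)⁻¹ := by group
  rw [e]
  exact K.fixingSubgroup.inv_mem h

/-- The action of the local Galois group on `X`. -/
@[reducible] def kasc_act (q : Nat.Primes) : MulAction (lcf_Gal (q : ℕ)) (s55_GQ ⧸ K.fixingSubgroup) :=
  MulAction.compHom _ (localGaloisToGlobal (q : ℕ))

/-- Conjugation carries the fixing subgroup of `τ E` into the fixing subgroup of `E`. -/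
theorem kasc_conj_mem_fixing (τ : s55_GQ) (E : IntermediateField ℚ (AlgebraicClosure ℚ))
    (g : s55_GQ) (hg : g ∈ (E.map τ.toAlgHom).fixingSubgroup) :
    τ⁻¹ * g * τ ∈ E.fixingSubgroup := by
  rw [IntermediateField.mem_fixingSubgroup_iff] at hg ⊢
  intro x hx
  have h1 : g (τ x) = τ x := hg (τ x) ((IntermediateField.mem_map E).2 ⟨x, hx, rfl⟩)
  show τ⁻¹ (g (τ x)) = x
  rw [h1]
  exact τ.symm_apply_apply x

/-- The stabilizer of `g₀ x₀` in the local Galois group is `kl_H K q`. -/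
theorem kasc_stab (q : Nat.Primes) (g₀ : s55_GQ) :
    @MulAction.stabilizer (lcf_Gal (q : ℕ)) (s55_GQ ⧸ K.fixingSubgroup) _ (kasc_act K q)
      (g₀ • kasc_x₀ K) = kl_H K q := by
  ext σ
  rw [kl_mem_H_iff]
  change localGaloisToGlobal (q : ℕ) σ • (g₀ • kasc_x₀ K) = g₀ • kasc_x₀ K ↔ _
  rw [← mul_smul, kasc_smul_x₀_eq_iff]
  have e : (localGaloisToGlobal (q : ℕ) σ * g₀)⁻¹ * g₀ =
      g₀⁻¹ * (localGaloisToGlobal (q : ℕ) σ)⁻¹ * g₀⁻¹⁻¹ := by group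
  rw [e]
  constructor
  · intro h
    have h2 := hN.conj_mem _ h g₀
    have e2 : g₀ * (g₀⁻¹ * (localGaloisToGlobal (q : ℕ) σ)⁻¹ * g₀⁻¹⁻¹) * g₀⁻¹ =
        (localGaloisToGlobal (q : ℕ) σ)⁻¹ := by group
    rw [e2] at h2
    exact (K.fixingSubgroup.inv_mem_iff).1 h2
  · intro h
    exact hN.conj_mem _ (K.fixingSubgroup.inv_mem h) g₀⁻¹

end Act

/-! ### Small tools -/

section Tools

theorem kasc_inv_congr (inv : lcf_InvType) {q : ℕ} [Fact q.Prime] {V V' : Subgroup (lcf_Gal q)}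
    (h : V = V') (F : lcf_Gal q × lcf_Gal q → (PadicAlgCl q)ˣ) :
    inv q V (fun z => F ((z.1 : lcf_Gal q), (z.2 : lcf_Gal q))) =
      inv q V' (fun z => F ((z.1 : lcf_Gal q), (z.2 : lcf_Gal q))) := by
  subst h
  rfl

theorem kasc_exp_sum (p q : ℕ) [Fact p.Prime] [Fact q.Prime] {ι : Type*} (s : Finset ι)
    (f : ι → ZMod p) : ptinv_exp p q (∑ i ∈ s, f i) = ∏ i ∈ s, ptinv_exp p q (f i) := by
  classical
  induction s using Finset.induction_on with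
  | empty => rw [Finset.sum_empty, Finset.prod_empty, ptinv_exp_zero]
  | insert i s hi ih => rw [Finset.sum_insert hi, Finset.prod_insert hi, ptinv_exp_add, ih]

end Tools

/-! ### The local calculation -/

section Local

variable {p : ℕ} [Fact p.Prime] (K : IntermediateField ℚ (AlgebraicClosure ℚ))
  [hN : K.fixingSubgroup.Normal] {M M' : Rep.{0, 0, 0} (ZMod p) s55_GQ}
  (C : shp_Coord (s55_GQ ⧸ K.fixingSubgroup) M (Rep.trivial (ZMod p) s55_GQ (ZMod p)))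
  (C' : shp_Coord (s55_GQ ⧸ K.fixingSubgroup) M' (pt_T p))
  (q : Nat.Primes)
  (b : lcf_Gal (q : ℕ) → M) (c : s55_GQ × s55_GQ → M) (y : s55_GQ → M')
  (E : s55_GQ × s55_GQ → M')

/-- The hypotheses of the local calculation. -/
structure kasc_Hyp : Prop where
  fin : FiniteDimensional ℚ K
  chi : ∀ s ∈ K.fixingSubgroup, cycloChar p s = 1
  hb : ∀ g h : lcf_Gal (q : ℕ), M.ρ (localGaloisToGlobal (q : ℕ) g) (b h) - b (g * h) + b g =
    c (localGaloisToGlobal (q : ℕ) g, localGaloisToGlobal (q : ℕ) h)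
  hy : ∀ g h : s55_GQ, y (g * h) = M'.ρ g (y h) + y g
  hE : ∀ (g h j : s55_GQ) (x : s55_GQ ⧸ K.fixingSubgroup),
    kasc_c' (cycloChar p) C' x (shp_d₂ (MonoidHom.id s55_GQ) M' E (g, h, j)) =
      kasc_c C x (c (g, h)) * kasc_c' (cycloChar p) C' x (M'.ρ (g * h) (y j))
  hbl : ∃ F : IntermediateField ℚ (AlgebraicClosure ℚ), FiniteDimensional ℚ F ∧
    ∀ g s : lcf_Gal (q : ℕ), localGaloisToGlobal (q : ℕ) s ∈ F.fixingSubgroup → b (g * s) = b g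
  hyl : ∃ F : IntermediateField ℚ (AlgebraicClosure ℚ), FiniteDimensional ℚ F ∧
    ∀ g s : s55_GQ, s ∈ F.fixingSubgroup → y (g * s) = y g
  hEl : ∃ F : IntermediateField ℚ (AlgebraicClosure ℚ), FiniteDimensional ℚ F ∧
    ∀ g g' s s' : s55_GQ, s ∈ F.fixingSubgroup → s' ∈ F.fixingSubgroup →
      E (g * s, g' * s') = E (g, g')

variable {K C C' q b c y E}

/-- A common level. -/
theorem kasc_Hyp.level (h : kasc_Hyp K C C' q b c y E) :
    ∃ L : IntermediateField ℚ (AlgebraicClosure ℚ), FiniteDimensional ℚ L ∧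
      L.fixingSubgroup ≤ K.fixingSubgroup ∧
      (∀ g s : lcf_Gal (q : ℕ), localGaloisToGlobal (q : ℕ) s ∈ L.fixingSubgroup →
        b (g * s) = b g) ∧
      (∀ g s : s55_GQ, s ∈ L.fixingSubgroup → y (g * s) = y g) ∧
      (∀ g g' s s' : s55_GQ, s ∈ L.fixingSubgroup → s' ∈ L.fixingSubgroup →
        E (g * s, g' * s') = E (g, g')) := by
  obtain ⟨F₁, hF₁, h₁⟩ := h.hbl
  obtain ⟨F₂, hF₂, h₂⟩ := h.hyl
  obtain ⟨F₃, hF₃, h₃⟩ := h.hEl
  haveI := h.fin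
  haveI := hF₁
  haveI := hF₂
  haveI := hF₃
  have l0 : K ≤ K ⊔ F₁ ⊔ F₂ ⊔ F₃ := le_sup_left.trans (le_sup_left.trans le_sup_left)
  have l1 : F₁ ≤ K ⊔ F₁ ⊔ F₂ ⊔ F₃ := le_sup_right.trans (le_sup_left.trans le_sup_left)
  have l2 : F₂ ≤ K ⊔ F₁ ⊔ F₂ ⊔ F₃ := le_sup_right.trans le_sup_left
  have l3 : F₃ ≤ K ⊔ F₁ ⊔ F₂ ⊔ F₃ := le_sup_right
  refine ⟨K ⊔ F₁ ⊔ F₂ ⊔ F₃, inferInstance, IntermediateField.fixingSubgroup_antitone l0,
    fun g s hs => h₁ g s (IntermediateField.fixingSubgroup_antitone l1 hs),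
    fun g s hs => h₂ g s (IntermediateField.fixingSubgroup_antitone l2 hs),
    fun g g' s s' hs hs' => h₃ g g' s s' (IntermediateField.fixingSubgroup_antitone l3 hs)
      (IntermediateField.fixingSubgroup_antitone l3 hs')⟩

theorem kasc_isOpen_H (hK : FiniteDimensional ℚ K) : lcf_IsOpen (kl_H K q) := by
  haveI := hK
  obtain ⟨E₀, hE₀, hE₀K⟩ := ptinv_loc_fix (q : ℕ) K
  exact ⟨E₀, hE₀, fun s hs => hE₀K s hs⟩

/-- The family `F_x = ζ ^ f_x`. -/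
def kasc_F (K : IntermediateField ℚ (AlgebraicClosure ℚ))
    (C : shp_Coord (s55_GQ ⧸ K.fixingSubgroup) M (Rep.trivial (ZMod p) s55_GQ (ZMod p)))
    (C' : shp_Coord (s55_GQ ⧸ K.fixingSubgroup) M' (pt_T p)) (q : Nat.Primes)
    (b : lcf_Gal (q : ℕ) → M) (y : s55_GQ → M') (E : s55_GQ × s55_GQ → M')
    (z : lcf_Gal (q : ℕ) × lcf_Gal (q : ℕ)) (x : s55_GQ ⧸ K.fixingSubgroup) :
    (PadicAlgCl (q : ℕ))ˣ :=
  ptinv_exp p (q : ℕ) (kasc_f (cycloChar p) C C' (localGaloisToGlobal (q : ℕ)) b y E x z)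

/-- `F` is a twisted cocycle. -/
theorem kasc_F_coc (h : kasc_Hyp K C C' q b c y E) (g g' j : lcf_Gal (q : ℕ))
    (x : s55_GQ ⧸ K.fixingSubgroup) :
    kasc_F K C C' q b y E (g * g', j) x * kasc_F K C C' q b y E (g, g') x =
      g • kasc_F K C C' q b y E (g', j) ((localGaloisToGlobal (q : ℕ) g)⁻¹ • x) *
        kasc_F K C C' q b y E (g, g' * j) x := by
  simp only [kasc_F]
  rw [← ptinv_exp_add, ptinv_smul_exp, ← ptinv_exp_add]
  congr 1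
  exact kasc_f_coc h.hb h.hy h.hE g g' j x

/-- `F` is smooth. -/
theorem kasc_F_smooth (h : kasc_Hyp K C C' q b c y E) :
    ∃ E₀ : IntermediateField ℚ_[(q : ℕ)] (PadicAlgCl (q : ℕ)),
      FiniteDimensional ℚ_[(q : ℕ)] E₀ ∧
      (∀ s : lcf_Gal (q : ℕ), s ∈ E₀.fixingSubgroup →
        localGaloisToGlobal (q : ℕ) s ∈ K.fixingSubgroup) ∧
      ∀ g g' s s' : lcf_Gal (q : ℕ), s ∈ E₀.fixingSubgroup → s' ∈ E₀.fixingSubgroup →
        kasc_F K C C' q b y E (g * s, g' * s') = kasc_F K C C' q b y E (g, g') := by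
  obtain ⟨L, hL, hLK, hbL, hyL, hEL⟩ := h.level
  haveI := hL
  obtain ⟨E₀, hE₀, hE₀L⟩ := ptinv_loc_fix (q : ℕ) L
  refine ⟨E₀, hE₀, fun s hs => hLK (hE₀L s hs), fun g g' s s' hs hs' => ?_⟩
  funext x
  simp only [kasc_F]
  congr 1
  exact kasc_f_const K.fixingSubgroup (kasc_U_smul K) h.chi L.fixingSubgroup hLK hbL hyL hEL
    x g g' s s' (hE₀L s hs) (hE₀L s' hs')

/-- **The term at `g₀`.** -/
theorem kasc_term {inv : lcf_InvType} (hinv : lcf_IsInvSystem inv)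
    (h : kasc_Hyp K C C' q b c y E) (g₀ : s55_GQ)
    (hyK : ∀ τ : ↥(kl_H K q), kasc_c' (cycloChar p) C' (kasc_x₀ K)
      (y ((kl_r K q g₀ τ : ↥K.fixingSubgroup) : s55_GQ)) = 0) :
    inv (q : ℕ) (kl_H K q)
        (fun z => kasc_F K C C' q b y E ((z.1 : lcf_Gal (q : ℕ)), (z.2 : lcf_Gal (q : ℕ)))
          (g₀ • kasc_x₀ K)) =
      - kl_inv K inv q g₀ (fun z => kasc_c' (cycloChar p) C' (kasc_x₀ K)
          (E (((kl_r K q g₀ z.1 : ↥K.fixingSubgroup) : s55_GQ),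
            ((kl_r K q g₀ z.2 : ↥K.fixingSubgroup) : s55_GQ)))) := by
  have hV : lcf_IsOpen (kl_H K q) := kasc_isOpen_H h.fin
  have hχV : ∀ σ : ↥(kl_H K q),
      cycloChar p (localGaloisToGlobal (q : ℕ) (σ : lcf_Gal (q : ℕ))) = 1 :=
    fun σ => h.chi _ σ.2
  have hsmul : ∀ (σ : ↥(kl_H K q)) (a : ZMod p),
      σ • ptinv_exp p (q : ℕ) a = ptinv_exp p (q : ℕ) a := by
    intro σ a
    change (σ : lcf_Gal (q : ℕ)) • ptinv_exp p (q : ℕ) a = _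
    rw [ptinv_smul_exp, hχV σ, Units.val_one, one_mul]
  -- `F_t` is a smooth cocycle on `kl_H`
  have hFt : lcf_IsCoc (kl_H K q)
      (fun z => kasc_F K C C' q b y E ((z.1 : lcf_Gal (q : ℕ)), (z.2 : lcf_Gal (q : ℕ)))
        (g₀ • kasc_x₀ K)) := by
    refine ⟨fun g g' j => ?_, ?_⟩
    · have e := kasc_F_coc h (g : lcf_Gal (q : ℕ)) (g' : lcf_Gal (q : ℕ))
        (j : lcf_Gal (q : ℕ)) (g₀ • kasc_x₀ K)
      rw [kasc_U_smul K _ (K.fixingSubgroup.inv_mem g.2)] at e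
      exact e
    · obtain ⟨E₀, hE₀, -, hE₀F⟩ := kasc_F_smooth h
      exact ⟨E₀, hE₀, fun g g' s s' hs hs' =>
        congrFun (hE₀F (g : lcf_Gal (q : ℕ)) (g' : lcf_Gal (q : ℕ)) (s : lcf_Gal (q : ℕ))
          (s' : lcf_Gal (q : ℕ)) hs hs') _⟩
  -- the smooth 1-cochain `ζ ^ β`
  have hβ : lcf_Smooth₁ (kl_H K q) (fun σ : ↥(kl_H K q) =>
      ptinv_exp p (q : ℕ) (kasc_beta (cycloChar p) C C' (localGaloisToGlobal (q : ℕ)) b y E
        (kasc_x₀ K) g₀ (σ : lcf_Gal (q : ℕ)))) := by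
    obtain ⟨L, hL, hLK, hbL, hyL, hEL⟩ := h.level
    haveI := hL
    obtain ⟨E₀, hE₀, hE₀L⟩ := ptinv_loc_fix (q : ℕ) (L ⊔ L.map g₀.toAlgHom)
    refine ⟨E₀, hE₀, fun g s hs => ?_⟩
    have hs1 := hE₀L _ hs
    exact congrArg (ptinv_exp p (q : ℕ))
      (kasc_beta_const (χ := cycloChar p) (C := C) (C' := C') (y := y) L.fixingSubgroup hbL hEL
        (kasc_x₀ K) g₀ (g : lcf_Gal (q : ℕ)) (s : lcf_Gal (q : ℕ))
        (IntermediateField.fixingSubgroup_antitone le_sup_left hs1)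
        (kasc_conj_mem_fixing g₀ L _
          (IntermediateField.fixingSubgroup_antitone le_sup_right hs1)))
  -- the key identity
  have key : (fun z : ↥(kl_H K q) × ↥(kl_H K q) =>
        ptinv_exp p (q : ℕ) (((cycloChar p g₀ : (ZMod p)ˣ) : ZMod p) *
          kasc_c' (cycloChar p) C' (kasc_x₀ K)
            (E (((kl_r K q g₀ z.1 : ↥K.fixingSubgroup) : s55_GQ),
              ((kl_r K q g₀ z.2 : ↥K.fixingSubgroup) : s55_GQ))))) =
      lh3m_d₁₂ (kl_H K q) (fun σ : ↥(kl_H K q) =>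
        ptinv_exp p (q : ℕ) (kasc_beta (cycloChar p) C C' (localGaloisToGlobal (q : ℕ)) b y E
          (kasc_x₀ K) g₀ (σ : lcf_Gal (q : ℕ)))) /
      (fun z => kasc_F K C C' q b y E ((z.1 : lcf_Gal (q : ℕ)), (z.2 : lcf_Gal (q : ℕ)))
        (g₀ • kasc_x₀ K)) := by
    funext z
    have e := kasc_f_stab (C := C) (C' := C') h.hb h.hy h.hE K.fixingSubgroup (kasc_U_smul K)
      h.chi (kasc_x₀ K) g₀ (z.1 : lcf_Gal (q : ℕ)) (z.2 : lcf_Gal (q : ℕ)) z.1.2 z.2.2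
      (hyK z.2)
    rw [Pi.div_apply]
    simp only [lh3m_d₁₂, kasc_F]
    rw [hsmul, ← ptinv_exp_sub, ← ptinv_exp_add, ← ptinv_exp_sub, e]
    congr 1
    simp only [kl_r_coe, Subgroup.coe_mul]
    ring
  have hinvA := lh3m_inv_div hinv (kl_H K q) hV (shtr_isCoc_d₁₂ (kl_H K q) hβ) hFt
  rw [← key, shtr_inv_d₁₂ hinv (kl_H K q) hV hβ, zero_sub] at hinvA
  rw [kl_inv, ← neg_eq_iff_eq_neg, ← hinvA]
  rfl

/-- **The local calculation.** -/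
theorem kasc_local [Fintype (s55_GQ ⧸ K.fixingSubgroup)] {inv : lcf_InvType}
    (hinv : lcf_IsInvSystem inv) (h : kasc_Hyp K C C' q b c y E) (R₀ : Finset s55_GQ)
    (hR : ∀ g : s55_GQ, ∃! g₀ : s55_GQ, g₀ ∈ R₀ ∧
      ∃ (τ : lcf_Gal (q : ℕ)) (u : s55_GQ), u ∈ K.fixingSubgroup ∧
        g = localGaloisToGlobal (q : ℕ) τ * g₀ * u)
    (hyK : ∀ g₀ ∈ R₀, ∀ τ : ↥(kl_H K q), kasc_c' (cycloChar p) C' (kasc_x₀ K)
      (y ((kl_r K q g₀ τ : ↥K.fixingSubgroup) : s55_GQ)) = 0) :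
    inv (q : ℕ) ⊤ (fun z => ptinv_exp p (q : ℕ)
        (∑ x : s55_GQ ⧸ K.fixingSubgroup,
          kasc_f (cycloChar p) C C' (localGaloisToGlobal (q : ℕ)) b y E x
            ((z.1 : lcf_Gal (q : ℕ)), (z.2 : lcf_Gal (q : ℕ))))) =
      - ∑ g₀ ∈ R₀, kl_inv K inv q g₀ (fun z => kasc_c' (cycloChar p) C' (kasc_x₀ K)
          (E (((kl_r K q g₀ z.1 : ↥K.fixingSubgroup) : s55_GQ),
            ((kl_r K q g₀ z.2 : ↥K.fixingSubgroup) : s55_GQ)))) := by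
  classical
  letI : MulAction (lcf_Gal (q : ℕ)) (s55_GQ ⧸ K.fixingSubgroup) := kasc_act K q
  obtain ⟨E₀, hE₀, hE₀K, hE₀F⟩ := kasc_F_smooth h
  have hX : ∃ E : IntermediateField ℚ_[(q : ℕ)] (PadicAlgCl (q : ℕ)),
      FiniteDimensional ℚ_[(q : ℕ)] E ∧
        ∀ s ∈ E.fixingSubgroup, ∀ x : s55_GQ ⧸ K.fixingSubgroup, s • x = x :=
    ⟨E₀, hE₀, fun s hs x => kasc_U_smul K _ (hE₀K s hs) x⟩
  have hFc : ∀ (g g' j : lcf_Gal (q : ℕ)) (x : s55_GQ ⧸ K.fixingSubgroup),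
      kasc_F K C C' q b y E (g * g', j) x * kasc_F K C C' q b y E (g, g') x =
        g • kasc_F K C C' q b y E (g', j) (g⁻¹ • x) * kasc_F K C C' q b y E (g, g' * j) x := by
    intro g g' j x
    have e : g⁻¹ • x = (localGaloisToGlobal (q : ℕ) g)⁻¹ • x := by
      change localGaloisToGlobal (q : ℕ) g⁻¹ • x = _
      rw [map_inv]
    rw [e]
    exact kasc_F_coc h g g' j x
  have hinj : ∀ g₀ ∈ R₀, ∀ g₁ ∈ R₀,
      (∃ σ : lcf_Gal (q : ℕ), σ • (g₀ • kasc_x₀ K) = g₁ • kasc_x₀ K) → g₀ = g₁ := by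
    rintro g₀ hg₀ g₁ hg₁ ⟨σ, hσ⟩
    change localGaloisToGlobal (q : ℕ) σ • (g₀ • kasc_x₀ K) = _ at hσ
    rw [← mul_smul, kasc_smul_x₀_eq_iff] at hσ
    obtain ⟨g', -, huniq⟩ := hR g₁
    have h0 := huniq g₀ ⟨hg₀, σ, _, hσ, by group⟩
    have h1 := huniq g₁ ⟨hg₁, 1, 1, K.fixingSubgroup.one_mem, by simp⟩
    rw [h0, h1]
  have hTc : shp_Covers (lcf_Gal (q : ℕ))
      ((R₀.image (fun g₀ => g₀ • kasc_x₀ K) : Finset (s55_GQ ⧸ K.fixingSubgroup)) :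
        Set (s55_GQ ⧸ K.fixingSubgroup)) := by
    intro x
    obtain ⟨g, rfl⟩ := kasc_exists_smul_x₀ K x
    obtain ⟨g₀, ⟨hg₀, τ, u, hu, hg⟩, -⟩ := hR g
    refine ⟨g₀ • kasc_x₀ K, Finset.mem_coe.2 (Finset.mem_image_of_mem _ hg₀), τ, ?_⟩
    change localGaloisToGlobal (q : ℕ) τ • (g₀ • kasc_x₀ K) = g • kasc_x₀ K
    rw [hg, mul_smul, mul_smul, kasc_U_smul K u hu]
  have hTi : shp_Indep (lcf_Gal (q : ℕ))
      ((R₀.image (fun g₀ => g₀ • kasc_x₀ K) : Finset (s55_GQ ⧸ K.fixingSubgroup)) :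
        Set (s55_GQ ⧸ K.fixingSubgroup)) := by
    intro t ht t' ht' hex
    obtain ⟨g₀, hg₀, rfl⟩ := Finset.mem_image.1 (Finset.mem_coe.1 ht)
    obtain ⟨g₁, hg₁, rfl⟩ := Finset.mem_image.1 (Finset.mem_coe.1 ht')
    rw [hinj g₀ hg₀ g₁ hg₁ hex]
  have main := shtr_fin inv hinv (q : ℕ) (s55_GQ ⧸ K.fixingSubgroup) hX
    (kasc_F K C C' q b y E) ⟨E₀, hE₀, hE₀F⟩ hFc _ hTc hTi
  have hL : (fun z : ↥(⊤ : Subgroup (lcf_Gal (q : ℕ))) × ↥(⊤ : Subgroup (lcf_Gal (q : ℕ))) =>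
      ptinv_exp p (q : ℕ) (∑ x : s55_GQ ⧸ K.fixingSubgroup,
        kasc_f (cycloChar p) C C' (localGaloisToGlobal (q : ℕ)) b y E x
          ((z.1 : lcf_Gal (q : ℕ)), (z.2 : lcf_Gal (q : ℕ))))) =
      fun z => ∏ x : s55_GQ ⧸ K.fixingSubgroup,
        kasc_F K C C' q b y E ((z.1 : lcf_Gal (q : ℕ)), (z.2 : lcf_Gal (q : ℕ))) x := by
    funext z
    exact kasc_exp_sum p (q : ℕ) Finset.univ _
  rw [hL, main, Finset.sum_image (fun g₀ hg₀ g₁ hg₁ e =>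
    hinj g₀ hg₀ g₁ hg₁ ⟨1, by rw [one_smul]; exact e⟩), ← Finset.sum_neg_distrib]
  refine Finset.sum_congr rfl fun g₀ hg₀ => ?_
  rw [kasc_inv_congr inv (kasc_stab K q g₀)
    (fun z => kasc_F K C C' q b y E z (g₀ • kasc_x₀ K))]
  exact kasc_term hinv h g₀ (hyK g₀ hg₀)

end Local

end Fermat.Agent.S55
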