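/-
S55 (Poitou-Tate), BRIDGE part 2, K→A packages (5), (6): THE SHARED CALCULATION.
Owner: helper12.  Prefix `kasc_`.

`kasc_main : kasc_CalcStatement` (the Prop of `KAShaCalcDefs.lean`): the sum over the places of
`KAShaCalcLoc.lean` (`kasc_local`), `ld_Compat`, and the archimedean place (`larch`).
-/
import Mathlib
import Fermat.Agent.S55.Bridge.KAShaCalcLoc
import Fermat.Agent.S55.Local.Arch

set_option autoImplicit false
set_option maxHeartbeats 1000000
set_option synthInstance.maxHeartbeats 400000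
open CategoryTheory Module groupCohomology ExtCitation

noncomputable section

namespace Fermat.Agent.S55

/-- `kl_e` is the additive embedding `ptinv_e`. -/
theorem kasc_kl_e {p : ℕ} [Fact p.Prime] (a : ZMod p) : kl_e a = ptinv_e p a :=
  (ptinv_e_apply p a).symm

/-- **The shared calculation of [A-SHA-INJ-OF] and [A-SHA-SURJ-OF].** -/
theorem kasc_main : kasc_CalcStatement := by
  intro inv ptinv hinv hc p _ hp2 S hpS K _ _ hK hχ R hR C C' hev x y hyl hyK E hEl hdE ε hε hcoc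
  rw [kasc_kl_e, map_sum]
  have hsum : ∀ Φ : extArithIndex S → lcf_QZ,
      ∑ v : extArithIndex S, Φ v = ∑ u : Unit, Φ (Sum.inl u) + ∑ q : ↥S, Φ (Sum.inr q) :=
    fun Φ => Fintype.sum_sum_type Φ
  rw [hsum]
  have h1 : ∀ u : Unit, ptinv_e p (ptinv p S (Sum.inl u)
      (continuousH2π _ _ ⟨_, hcoc (Sum.inl u)⟩)) = 0 := by
    intro u
    rw [larch_continuousH2_inl_eq_zero S (pt_T p) hp2 rfl
      (continuousH2π _ _ ⟨_, hcoc (Sum.inl u)⟩), map_zero, map_zero]
  rw [Finset.sum_eq_zero (fun u _ => h1 u), zero_add, ← Finset.sum_neg_distrib]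
  refine Finset.sum_congr rfl fun q _ => ?_
  rw [ptinv_e_apply, ← hc p S q _ (hcoc (Sum.inr q))]
  -- the hypotheses of the local calculation
  have hyc : ∀ g h : s55_GQ, y.1 (g * h) =
      ((pt_A p K).dualTwist (cycloChar p)).ρ g (y.1 h) + y.1 g :=
    (mem_cocycles₁_iff y.1).1 y.2
  have hb : ∀ g h : lcf_Gal ((q : Nat.Primes) : ℕ),
      (pt_A p K).ρ (localGaloisToGlobal ((q : Nat.Primes) : ℕ) g) (x.1.2 (Sum.inr q) h) -
        x.1.2 (Sum.inr q) (g * h) + x.1.2 (Sum.inr q) g =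
      x.1.1 (localGaloisToGlobal ((q : Nat.Primes) : ℕ) g,
        localGaloisToGlobal ((q : Nat.Primes) : ℕ) h) := by
    intro g h
    have e := congrFun (x.2.2 (Sum.inr q)).2 (g, h)
    exact e
  have hH : kasc_Hyp K C C' (q : Nat.Primes) (x.1.2 (Sum.inr q)) x.1.1 y.1 E :=
    ⟨hK.1, hχ, hb, hyc, fun g h j x' => hdE g h j x', (x.2.2 (Sum.inr q)).1,
      ⟨hyl.choose, hyl.choose_spec.1.1, hyl.choose_spec.2⟩,
      ⟨hEl.choose, hEl.choose_spec.1.1, hEl.choose_spec.2⟩⟩
  have hloc := kasc_local hinv hH (R q) (hR q) (hyK q)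
  refine Eq.trans ?_ hloc
  congr 1
  funext z
  rw [ptinv_mu_apply]
  congr 1
  rw [kasc_f_sum (pt_ev (pt_A p K)) (fun a m => hev a m) ε hε]
  rfl

end Fermat.Agent.S55
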