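/-
S55 (Poitou-Tate), BRIDGE part 2, K→A package (5) [A-SHA-INJ-OF], part 2 (helper12).
Prefix `kasi_`.

`kasi_exists_E` : for a level-`S` 2-cocycle `c` of `A = pt_A p K`, a level-`S` 1-cocycle `y` of
`A'` and a level-`S` 2-cochain `ε_K` of `U` with `d ε_K = c_K ∪ y_K` there is a level-`S`
2-cochain `E` of `A'` with `d E = c ·∪ y` (coordinatewise product) and `π'_{x₀} ∘ E|U² = ε_K`
([SHAP-INJ 3] + [SHAP-SURJ 2]).
-/
import Mathlib
import Fermat.Agent.S55.Bridge.KAShaInjSha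
import Fermat.Agent.S55.Bridge.ShapInj3
import Fermat.Agent.S55.Bridge.ShapSurj
import Fermat.Agent.S55.Dev.NatTools

set_option autoImplicit false
set_option maxHeartbeats 1000000
set_option synthInstance.maxHeartbeats 400000
set_option linter.style.haveILetI false
set_option linter.unusedVariables false
set_option linter.unusedSectionVars false
open CategoryTheory Module groupCohomology ExtCitation

noncomputable section

namespace Fermat.Agent.S55

section Lift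

variable {p : ℕ} [Fact p.Prime] {S : Finset Nat.Primes}
  {K : IntermediateField ℚ (AlgebraicClosure ℚ)} [hKn : K.fixingSubgroup.Normal]
  (C : shp_Coord (s55_GQ ⧸ K.fixingSubgroup) (pt_A p K) (Rep.trivial (ZMod p) s55_GQ (ZMod p)))
  (C' : shp_Coord (s55_GQ ⧸ K.fixingSubgroup) ((pt_A p K).dualTwist (cycloChar p)) (pt_T p))

/-- The action on `F_p(1)`. -/
theorem kasi_T_ρ (g : s55_GQ) (b : pt_T p) :
    (pt_T p).ρ g b = (((cycloChar p g : (ZMod p)ˣ) : ZMod p) * (show ZMod p from b) : ZMod p) :=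
  rfl

/-- `U` acts trivially on `F_p(1)`. -/
theorem kasi_T_fix (hχ : ∀ s ∈ K.fixingSubgroup, cycloChar p s = 1) {s : s55_GQ}
    (hs : s ∈ K.fixingSubgroup) (b : pt_T p) : (pt_T p).ρ s b = b := by
  rw [kasi_T_ρ, hχ s hs, Units.val_one, one_mul]

include C' in
/-- `U` acts trivially on the Tate dual of `pt_A p K`. -/
theorem kasi_A'_fix (hχ : ∀ s ∈ K.fixingSubgroup, cycloChar p s = 1) {s : s55_GQ}
    (hs : s ∈ K.fixingSubgroup) (φ : (pt_A p K).dualTwist (cycloChar p)) :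
    ((pt_A p K).dualTwist (cycloChar p)).ρ s φ = φ := by
  apply kasi_ext (cycloChar p) C'
  intro x
  rw [kasc_c'_ρ, hχ s hs, Units.val_one, one_mul, kasi_fix (K.fixingSubgroup.inv_mem hs)]

/-- The stabilizer of every point is `U`. -/
theorem kasi_stab_mem (t : s55_GQ ⧸ K.fixingSubgroup)
    (v : ↥(MulAction.stabilizer s55_GQ t)) : (v : s55_GQ) ∈ K.fixingSubgroup := by
  exact le_of_eq (ka_stab hKn t) v.2

/-- **The lift `E` of `ε_K`.** -/
theorem kasi_exists_E (hK : K.IsUnramifiedOutside S)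
    (hχ : ∀ s ∈ K.fixingSubgroup, cycloChar p s = 1)
    [Finite (s55_GQ ⧸ K.fixingSubgroup)]
    {c : s55_GQ × s55_GQ → pt_A p K} (hc : c ∈ levelCocyclesS₂ S (pt_A p K))
    {y : s55_GQ → (pt_A p K).dualTwist (cycloChar p)} (hyl : IsLevelConstantS₁ S y)
    (hy0 : (d₁₂ ((pt_A p K).dualTwist (cycloChar p))).hom y = 0)
    (εK : ↥K.fixingSubgroup × ↥K.fixingSubgroup → ZMod p) (hεl : kl_LevelS₂ S K εK)
    (hεd : ∀ g h j : ↥K.fixingSubgroup, kl_d₂ εK (g, h, j) =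
      kasi_cK C c (g, h) * kasc_c' (cycloChar p) C' (kasc_x₀ K) (y (j : s55_GQ))) :
    ∃ E : s55_GQ × s55_GQ → (pt_A p K).dualTwist (cycloChar p), IsLevelConstantS₂ S E ∧
      (∀ g h j : s55_GQ,
        shp_d₂ (MonoidHom.id s55_GQ) ((pt_A p K).dualTwist (cycloChar p)) E (g, h, j) =
          kasi_mu (cycloChar p) C C' (c (g, h))
            (((pt_A p K).dualTwist (cycloChar p)).ρ (g * h) (y j))) ∧
      ∀ u v : ↥K.fixingSubgroup,
        kasc_c' (cycloChar p) C' (kasc_x₀ K) (E ((u : s55_GQ), (v : s55_GQ))) = εK (u, v) := by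
  classical
  obtain ⟨Fc, hFc, hcc⟩ := hc.2
  obtain ⟨Fy, hFy, hyy⟩ := hyl
  obtain ⟨Fε, hFε, hεε⟩ := hεl
  obtain ⟨F', hle, hF', hnorm⟩ := h3o_normalLevel S (K ⊔ Fc ⊔ Fy ⊔ Fε)
    (((hK.sup hFc).sup hFy).sup hFε)
  haveI : (F'.fixingSubgroup).Normal := hnorm
  have hNK : F'.fixingSubgroup ≤ K.fixingSubgroup :=
    IntermediateField.fixingSubgroup_antitone
      ((le_sup_left.trans (le_sup_left.trans le_sup_left)).trans hle)
  have hNc : F'.fixingSubgroup ≤ Fc.fixingSubgroup :=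
    IntermediateField.fixingSubgroup_antitone
      ((le_sup_right.trans (le_sup_left.trans le_sup_left)).trans hle)
  have hNy : F'.fixingSubgroup ≤ Fy.fixingSubgroup :=
    IntermediateField.fixingSubgroup_antitone ((le_sup_right.trans le_sup_left).trans hle)
  have hNε : F'.fixingSubgroup ≤ Fε.fixingSubgroup :=
    IntermediateField.fixingSubgroup_antitone (le_sup_right.trans hle)
  have hN : ∀ s ∈ F'.fixingSubgroup, ∀ x : s55_GQ ⧸ K.fixingSubgroup, s • x = x :=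
    fun s hs x => kasi_fix (hNK hs) x
  -- the 3-cocycle `w = c ·∪ y`
  set w : s55_GQ × s55_GQ × s55_GQ → (pt_A p K).dualTwist (cycloChar p) :=
    cup₂₁ (kasi_mu (cycloChar p) C C') c y with hw
  have hw3 : pt_IsCocycle₃ ((pt_A p K).dualTwist (cycloChar p)) w :=
    dnat_cup₂₁_cocycle₃ (kasi_mu_equivariant (cycloChar p) C C') c y hc.1 hy0
  have hwc : shp_Const₃ (MonoidHom.id s55_GQ) F'.fixingSubgroup w := by
    intro g g' g'' s s' s'' hs hs' hs''
    simp only [MonoidHom.id_apply] at hs hs' hs''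
    simp only [hw, cup₂₁_apply]
    rw [hcc _ _ _ _ (hNc hs) (hNc hs'), hyy _ _ (hNy hs'')]
    have e : g * s * (g' * s') = g * g' * (g'⁻¹ * s * g' * s') := by group
    have hmem : g'⁻¹ * s * g' * s' ∈ K.fixingSubgroup := by
      have h1 := hnorm.conj_mem s hs g'⁻¹
      rw [inv_inv] at h1
      exact hNK (F'.fixingSubgroup.mul_mem h1 hs')
    rw [e, map_mul, Module.End.mul_apply, kasi_A'_fix C' hχ hmem]
  -- the coordinate of `w` at `x₀` on `U`
  have hwπ : ∀ u v t : s55_GQ, u ∈ K.fixingSubgroup → v ∈ K.fixingSubgroup →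
      kasc_c' (cycloChar p) C' (kasc_x₀ K) (w (u, v, t)) =
        kasc_c C (kasc_x₀ K) (c (u, v)) * kasc_c' (cycloChar p) C' (kasc_x₀ K) (y t) := by
    intro u v t hu hv
    simp only [hw, cup₂₁_apply]
    rw [kasi_mu_c', kasi_A'_fix C' hχ (K.fixingSubgroup.mul_mem hu hv)]
  -- [SHAP-INJ 3]
  obtain ⟨E', hE'c, hE'd⟩ := shin_main₃ (ZMod p) s55_GQ (s55_GQ ⧸ K.fixingSubgroup)
    ((pt_A p K).dualTwist (cycloChar p)) (pt_T p) C' F'.fixingSubgroup hN
    {kasc_x₀ K} (ka_x₀_covers (K := K)) w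
    (fun x => hw3 x.1 x.2.1 x.2.2.1 x.2.2.2) hwc
    (fun t z => (εK (⟨(z.1 : s55_GQ), kasi_stab_mem t z.1⟩, ⟨(z.2 : s55_GQ), kasi_stab_mem t z.2⟩) :
      ZMod p))
    (by
      intro t _ g g' s s' hs hs'
      exact hεε ⟨(g : s55_GQ), kasi_stab_mem t g⟩ ⟨(g' : s55_GQ), kasi_stab_mem t g'⟩
        ⟨(s : s55_GQ), kasi_stab_mem t s⟩ ⟨(s' : s55_GQ), kasi_stab_mem t s'⟩ (hNε hs) (hNε hs'))
    (by
      intro t ht u v t'
      rw [Set.mem_singleton_iff] at ht
      subst ht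
      have h1 := hεd ⟨(u : s55_GQ), kasi_stab_mem _ u⟩ ⟨(v : s55_GQ), kasi_stab_mem _ v⟩
        ⟨(t' : s55_GQ), kasi_stab_mem _ t'⟩
      have h2 := hwπ (u : s55_GQ) (v : s55_GQ) (t' : s55_GQ) (kasi_stab_mem _ u)
        (kasi_stab_mem _ v)
      simp only [shp_d₂, Subgroup.coe_subtype]
      rw [kasi_T_fix hχ (kasi_stab_mem _ u)]
      exact h2.trans h1.symm)
  -- the correction: the 2-cocycle `δ = π'_{x₀} ∘ E'|U² - ε_K` of `U`
  obtain ⟨z, hzc, hzd, hzπ⟩ := shsu_main₂ (ZMod p) s55_GQ (s55_GQ ⧸ K.fixingSubgroup)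
    ((pt_A p K).dualTwist (cycloChar p)) (pt_T p) C' F'.fixingSubgroup hN
    {kasc_x₀ K} (ka_x₀_indep (K := K))
    (fun t z => (kasc_c' (cycloChar p) C' (kasc_x₀ K) (E' ((z.1 : s55_GQ), (z.2 : s55_GQ))) -
      εK (⟨(z.1 : s55_GQ), kasi_stab_mem t z.1⟩, ⟨(z.2 : s55_GQ), kasi_stab_mem t z.2⟩) : ZMod p))
    (by
      intro t _ g g' s s' hs hs'
      have h1 := hεε ⟨(g : s55_GQ), kasi_stab_mem t g⟩ ⟨(g' : s55_GQ), kasi_stab_mem t g'⟩
        ⟨(s : s55_GQ), kasi_stab_mem t s⟩ ⟨(s' : s55_GQ), kasi_stab_mem t s'⟩ (hNε hs) (hNε hs')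
      have h2 := hE'c (g : s55_GQ) (g' : s55_GQ) (s : s55_GQ) (s' : s55_GQ) hs hs'
      simp only [Subgroup.coe_mul]
      rw [h2]
      exact congrArg _ h1)
    (by
      intro t ht x
      obtain ⟨u, v, t'⟩ := x
      have h1 := hεd ⟨(u : s55_GQ), kasi_stab_mem _ u⟩ ⟨(v : s55_GQ), kasi_stab_mem _ v⟩
        ⟨(t' : s55_GQ), kasi_stab_mem _ t'⟩
      have h2 := hwπ (u : s55_GQ) (v : s55_GQ) (t' : s55_GQ) (kasi_stab_mem _ u)
        (kasi_stab_mem _ v)
      have h3 := congrArg (kasc_c' (cycloChar p) C' (kasc_x₀ K))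
        (hE'd ((u : s55_GQ), (v : s55_GQ), (t' : s55_GQ)))
      simp only [shp_d₂, MonoidHom.id_apply, map_sub, map_add] at h3
      rw [kasi_A'_fix C' hχ (kasi_stab_mem _ u)] at h3
      simp only [shp_d₂, Subgroup.coe_subtype, Subgroup.coe_mul]
      rw [kasi_T_fix hχ (kasi_stab_mem _ u)]
      simp only [kl_d₂, kasi_cK] at h1
      change ((_ : ZMod p) - _ - (_ - _) + (_ - _) - (_ - _) : ZMod p) = 0
      linear_combination h3 - h1 + h2)
  -- the result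
  refine ⟨E' - z, ⟨F', hF', fun g g' s s' hs hs' => ?_⟩, fun g h j => ?_, fun u v => ?_⟩
  · simp only [Pi.sub_apply]
    rw [hE'c g g' s s' hs hs', hzc g g' s s' hs hs']
  · have h1 := hE'd (g, h, j)
    have h2 := hzd (g, h, j)
    have h3 : shp_d₂ (MonoidHom.id s55_GQ) ((pt_A p K).dualTwist (cycloChar p)) (E' - z)
        (g, h, j) =
        shp_d₂ (MonoidHom.id s55_GQ) ((pt_A p K).dualTwist (cycloChar p)) E' (g, h, j) -
          shp_d₂ (MonoidHom.id s55_GQ) ((pt_A p K).dualTwist (cycloChar p)) z (g, h, j) := by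
      simp only [shp_d₂, MonoidHom.id_apply, Pi.sub_apply, map_sub]
      abel
    rw [h3, h1, h2, sub_zero, hw, cup₂₁_apply]
  · have hu : (u : s55_GQ) ∈ MulAction.stabilizer s55_GQ (kasc_x₀ K) :=
      MulAction.mem_stabilizer_iff.2 (kasi_fix u.2 _)
    have hv : (v : s55_GQ) ∈ MulAction.stabilizer s55_GQ (kasc_x₀ K) :=
      MulAction.mem_stabilizer_iff.2 (kasi_fix v.2 _)
    have h1 := hzπ (kasc_x₀ K) rfl ⟨(u : s55_GQ), hu⟩ ⟨(v : s55_GQ), hv⟩
    simp only [Pi.sub_apply, map_sub]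
    change kasc_c' (cycloChar p) C' (kasc_x₀ K) (z ((u : s55_GQ), (v : s55_GQ))) = _ at h1
    rw [h1]
    change ((_ : ZMod p) - (_ - _) : ZMod p) = _
    ring

end Lift

end Fermat.Agent.S55
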