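/-
S55 (Poitou-Tate), BRIDGE part 2, K→A package (5) [A-SHA-INJ-OF] (helper12).  Prefix `kasi_`.

`kasi_main : kl_ShaInjStatement → ab_ShaInjOfStatement`.

PROOF.  `x = (c, b)` a cone cocycle of `A = pt_A p K` which pairs to zero with `H¹_S(A')`.
(1) `c_K = π_{x₀} ∘ c|U²` represents a class in `Ш²(G_{K,S}, F_p)` (`kasi_cK_coc/level/loc`).
(2) It pairs to zero with `Ш¹(G_{K,S}, F_p(1))`: for `y_K ∈ Ш¹` and `ε_K` with
    `d ε_K = c_K ∪ y_K`, lift `y_K` to a level-`S` cocycle `y` of `A'` ([SHAP-SURJ 1]) and `ε_K`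
    to `E` with `d E = c ·∪ y` (`kasi_exists_E`), put `ε = tr ∘ E`; then `d ε = c ∪ y`, the
    hypothesis gives `∑_v ptinv_v [b_v ∪ loc_v y - loc_v ε] = 0`, and the shared calculation
    `kasc_main` identifies this sum with `- ∑_w inv_w (ε_K ∘ r_w)`.
(3) [K-SHA-INJ] gives `c_K = d a_K`, and [SHAP-INJ 2] gives `c = d a` with `a` of level `S`.
-/
import Mathlib
import Fermat.Agent.S55.Bridge.KAShaInjLift
import Fermat.Agent.S55.Bridge.KAShaCalc
import Fermat.Agent.S55.Bridge.KAExCoord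
import Fermat.Agent.S55.Bridge.ShapInj2
import Fermat.Agent.S55.CupLevel

set_option autoImplicit false
set_option maxHeartbeats 1000000
set_option synthInstance.maxHeartbeats 400000
set_option linter.style.haveILetI false
set_option linter.unusedVariables false
set_option linter.unusedSectionVars false
open CategoryTheory Module groupCohomology ExtCitation

noncomputable section

namespace Fermat.Agent.S55

section Main

variable {p : ℕ} [Fact p.Prime] {S : Finset Nat.Primes}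
  {K : IntermediateField ℚ (AlgebraicClosure ℚ)} [hKn : K.fixingSubgroup.Normal]

/-- `kl_e 0 = 0`. -/
theorem kasi_kl_e_zero : kl_e (0 : ZMod p) = 0 := by
  rw [kasc_kl_e, map_zero]

/-- **Step (2)**: `c_K` pairs to zero with `Ш¹`. -/
theorem kasi_pair {inv : lcf_InvType} {ptinv : pt_InvFamily} (hinv : lcf_IsInvSystem inv)
    (hcp : ld_Compat inv ptinv) (hp2 : p ≠ 2) (hpS : pPrime p ∈ S)
    (hK : K.IsUnramifiedOutside S) (hχ : ∀ s ∈ K.fixingSubgroup, cycloChar p s = 1)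
    [Fintype (s55_GQ ⧸ K.fixingSubgroup)]
    {R : ↥S → Finset s55_GQ} (hR : kl_IsReps S K R)
    (x : ↥(cone_Z S (pt_A p K)))
    (hA : ∀ (y : cocycles₁ ((pt_A p K).dualTwist (cycloChar p))) (_ : IsLevelConstantS₁ S y)
      (ε : s55_GQ × s55_GQ → pt_T p) (_ : IsLevelConstantS₂ S ε)
      (_ : (d₂₃ (pt_T p)).hom ε = cup₂₁ (pt_ev (pt_A p K)) x.1.1 y)
      (hcoc : ∀ v : extArithIndex S,
        cup₁₁ (pt_evv S v (pt_A p K)) (x.1.2 v)
            (cone_loc₁ S ((pt_A p K).dualTwist (cycloChar p)) v y) -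
            cone_loc₂ S (pt_T p) v ε ∈
          levelCocycles₂ (extArithLoc S v) (Rep.res (extArithLoc S v) (pt_T p))),
      ∑ v : extArithIndex S, ptinv p S v (continuousH2π _ _ ⟨_, hcoc v⟩) = 0)
    (yK : ↥K.fixingSubgroup → ZMod p) (t : lcf_QZ) (hyK : kl_IsSha₁ S K R yK)
    (ht : kl_ShaPair inv S K R (kasi_cK (ka_CA p K) x.1.1) yK t) : t = 0 := by
  classical
  obtain ⟨εK, hεl, hεd, rfl⟩ := ht
  obtain ⟨hyKhom, hyKl, hyK0⟩ := hyK
  -- the lift of `y_K`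
  obtain ⟨y, hyl, hyc, hyπ⟩ := kaex_lift S K hK (ka_CA' p K)
    (fun s hs b => kasi_T_fix hχ hs b) yK hyKhom hyKl
  have hymem : y ∈ cocycles₁ ((pt_A p K).dualTwist (cycloChar p)) :=
    (mem_cocycles₁_iff y).2 hyc
  have hy0 : (d₁₂ ((pt_A p K).dualTwist (cycloChar p))).hom y = 0 := hymem
  have hyπ' : ∀ v : ↥K.fixingSubgroup,
      kasc_c' (cycloChar p) (ka_CA' p K) (kasc_x₀ K) (y (v : s55_GQ)) = yK v := hyπ
  -- the lift of `ε_K`
  obtain ⟨E, hEl, hEd, hEπ⟩ := kasi_exists_E (ka_CA p K) (ka_CA' p K) hK hχ x.2.1 hyl hy0 εK hεl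
    (fun g h j => by rw [hεd, hyπ'])
  -- `ε = tr ∘ E`
  set ε : s55_GQ × s55_GQ → pt_T p := fun v => kasi_tr (cycloChar p) (ka_CA' p K) (E v) with hε
  have hεlev : IsLevelConstantS₂ S ε := by
    obtain ⟨F, hF, h⟩ := hEl
    refine ⟨F, hF, fun g g' s s' hs hs' => ?_⟩
    simp only [hε]
    rw [h g g' s s' hs hs']
  have hd : (d₂₃ (pt_T p)).hom ε = cup₂₁ (pt_ev (pt_A p K)) x.1.1 y := by
    funext ⟨g, h, j⟩
    rw [d₂₃_hom_apply, cup₂₁_apply]
    have h1 := kasi_d_tr (cycloChar p) (ka_CA' p K) E g h j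
    rw [hEd, kasi_tr_mu] at h1
    rw [ka_pt_ev_sum]
    exact h1
  -- admissibility of `pt_A p K`
  haveI : FiniteDimensional ℚ K := hK.1
  haveI := cov_A_finite (p := p) K
  have hsm : s55_Smooth (pt_A p K) := fun a => ⟨K, hK.1, fun s hs => cov_A_fix K hKn s hs a⟩
  have hur : s55_UnramOutside S (pt_A p K) := fun q hq B hB g hg =>
    LinearMap.ext (fun a => cov_A_fix K hKn g (hK.2 q hq B hB hg) a)
  have hcoc := fun v => dnat_hcoc S (pt_A p K) cupl_cupLevel hp2 hpS hsm hur x ⟨y, hymem⟩ hyl ε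
    hεlev hd v
  have h0 := hA ⟨y, hymem⟩ hyl ε hεlev hd hcoc
  have h1 := kasc_main inv ptinv hinv hcp hp2 S hpS K hK hχ R hR (ka_CA p K) (ka_CA' p K)
    (fun a φ => ka_pt_ev_sum p K a φ) x ⟨y, hymem⟩ hyl
    (fun q g₀ hg₀ τ => by
      have := hyπ' (kl_r K (q : Nat.Primes) g₀ τ)
      rw [hyK0 q g₀ hg₀ τ] at this
      exact this)
    E hEl
    (fun g h j x' => by
      rw [hEd]
      exact kasi_mu_c' (cycloChar p) (ka_CA p K) (ka_CA' p K) _ _ x')
    ε (fun g h => kasi_tr_apply (cycloChar p) (ka_CA' p K) (E (g, h))) hcoc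
  rw [h0, kasi_kl_e_zero] at h1
  rw [h1]
  congr 1
  refine Finset.sum_congr rfl fun q _ => Finset.sum_congr rfl fun g₀ _ => ?_
  congr 1
  funext z
  exact (hEπ (kl_r K (q : Nat.Primes) g₀ z.1) (kl_r K (q : Nat.Primes) g₀ z.2)).symm

/-- **[A-SHA-INJ] for `pt_A p K`** from [K-SHA-INJ]. -/
theorem kasi_core (hKSI : kl_ShaInjStatement) {inv : lcf_InvType} {ptinv : pt_InvFamily}
    (hinv : lcf_IsInvSystem inv) (hcp : ld_Compat inv ptinv) (hp2 : p ≠ 2) (hpS : pPrime p ∈ S)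
    (hK : K.IsUnramifiedOutside S) (hχ : ∀ s ∈ K.fixingSubgroup, cycloChar p s = 1) :
    ab_ShaInj ptinv S (pt_A p K) := by
  classical
  intro x hA
  haveI : Finite (s55_GQ ⧸ K.fixingSubgroup) := ka_finite_X K hK
  letI : Fintype (s55_GQ ⧸ K.fixingSubgroup) := Fintype.ofFinite _
  obtain ⟨R, hR⟩ := ka_exists_reps S K
  -- step (1)
  have hsha : kl_IsSha₂ S K R (kasi_cK (ka_CA p K) x.1.1) :=
    ⟨kasi_cK_coc (ka_CA p K) x.2.1.1, kasi_cK_level (ka_CA p K) x.2.1.2, fun q g₀ _ =>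
      kasi_cK_loc (ka_CA p K) hK x.2.1 (q : Nat.Primes) (x.1.2 (Sum.inr q))
        (x.2.2 (Sum.inr q)).1 (fun g h => congrFun (x.2.2 (Sum.inr q)).2 (g, h)) g₀⟩
  -- steps (2), (3)
  obtain ⟨aK, ⟨Fa, hFa, haa⟩, had⟩ := hKSI inv hinv hp2 S hpS K hK hχ R hR
    (kasi_cK (ka_CA p K) x.1.1) hsha
    (fun yK t hyK ht => kasi_pair hinv hcp hp2 hpS hK hχ hR x hA yK t hyK ht)
  obtain ⟨Fc, hFc, hcc⟩ := x.2.1.2
  obtain ⟨F', hle, hF', hnorm⟩ := h3o_normalLevel S (K ⊔ Fc ⊔ Fa) ((hK.sup hFc).sup hFa)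
  haveI : (F'.fixingSubgroup).Normal := hnorm
  have hNK : F'.fixingSubgroup ≤ K.fixingSubgroup :=
    IntermediateField.fixingSubgroup_antitone ((le_sup_left.trans le_sup_left).trans hle)
  have hNc : F'.fixingSubgroup ≤ Fc.fixingSubgroup :=
    IntermediateField.fixingSubgroup_antitone ((le_sup_right.trans le_sup_left).trans hle)
  have hNa : F'.fixingSubgroup ≤ Fa.fixingSubgroup :=
    IntermediateField.fixingSubgroup_antitone (le_sup_right.trans hle)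
  obtain ⟨a, hac, hda⟩ := shin_main₂ (ZMod p) s55_GQ (s55_GQ ⧸ K.fixingSubgroup) (pt_A p K)
    (Rep.trivial (ZMod p) s55_GQ (ZMod p)) (ka_CA p K) F'.fixingSubgroup
    (fun s hs x => kasi_fix (hNK hs) x) {kasc_x₀ K} (ka_x₀_covers (K := K)) x.1.1
    (fun z => by
      have h := (mem_cocycles₂_iff x.1.1).1 x.2.1.1 z.1 z.2.1 z.2.2
      simp only [shp_d₂, MonoidHom.id_apply]
      rw [sub_add_eq_add_sub, ← h]
      abel)
    (fun g g' s s' hs hs' => hcc g g' s s' (hNc hs) (hNc hs'))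
    (fun t v => (aK ⟨(v : s55_GQ), kasi_stab_mem t v⟩ : ZMod p))
    (by
      intro t _ g s hs
      exact haa ⟨(g : s55_GQ), kasi_stab_mem t g⟩ ⟨(s : s55_GQ), kasi_stab_mem t s⟩ (hNa hs))
    (by
      intro t ht v w
      rw [Set.mem_singleton_iff] at ht
      subst ht
      have h1 := had (⟨(v : s55_GQ), kasi_stab_mem _ v⟩, ⟨(w : s55_GQ), kasi_stab_mem _ w⟩)
      simp only [kl_d₁, kasi_cK] at h1
      simp only [shp_d₁, Subgroup.coe_subtype]
      exact h1.symm)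
  refine (mem_levelCoboundariesS₂_iff S (pt_A p K) x.1.1).2
    ⟨a, ⟨F', hF', fun g s hs => hac g s hs⟩, ?_⟩
  funext z
  obtain ⟨g, h⟩ := z
  rw [d₁₂_hom_apply]
  exact hda (g, h)

end Main

/-- **[A-SHA-INJ-OF]** (K→A package (5)). -/
theorem kasi_main : kl_ShaInjStatement → ab_ShaInjOfStatement :=
  fun hKSI inv ptinv hinv hcp _ _ hp2 S hpS K hK hKn hχ =>
    haveI := hKn
    kasi_core hKSI hinv hcp hp2 hpS hK hχ

end Fermat.Agent.S55
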