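/-
S55 (Poitou-Tate), BRIDGE part 2: the K→A DICTIONARY (coordinates on the permutation modules).
Owner: helper9.  Prefix `ka_`.

* `ka_res r C`     : restriction of a coordinate system along `r : H →* Γ`
                     (the `H`-action on `X` is `MulAction.compHom X r`);
* `ka_perm`        : the coordinate system of `Rep.ofMulAction k Γ X` (`B` = trivial `k`),
* `ka_permDual χ`  : the coordinate system of `(Rep.ofMulAction k Γ X).dualTwist χ`
                     (`B = ofChar χ`), `π'_x φ = φ (single x 1)`;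
* `ka_ev_sum`      : `φ a = ∑_x π_x a * π'_x φ`;
* `ka_CA`, `ka_CA'`: the two coordinate systems for `pt_A p K`, and the stabilizers.
-/
import Mathlib
import Fermat.Agent.S55.Bridge.KDefs
import Fermat.Agent.S55.Bridge.ShapDefs
import Fermat.Agent.S55.CoverOfRep

set_option autoImplicit false
set_option maxHeartbeats 1000000
set_option synthInstance.maxHeartbeats 400000
open CategoryTheory Module groupCohomology ExtCitation

noncomputable section

namespace Fermat.Agent.S55

section Generic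

variable {k Γ H X : Type} [CommRing k] [Group Γ] [Group H] [MulAction Γ X]

/-- Restriction of a coordinate system along `r : H →* Γ`; `H` acts on `X` through `r`. -/
def ka_res (r : H →* Γ) {M B : Rep.{0, 0, 0} k Γ} (C : shp_Coord X M B) :
    @shp_Coord k H _ _ X (MulAction.compHom X r) (Rep.res r M) (Rep.res r B) :=
  letI : MulAction H X := MulAction.compHom X r
  { π := C.π
    equiv := fun g x m => C.equiv (r g) x m
    inj := C.inj
    surj := C.surj }

theorem ka_res_π (r : H →* Γ) {M B : Rep.{0, 0, 0} k Γ} (C : shp_Coord X M B) (x : X)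
    (m : M) :
    @shp_Coord.π k H _ _ X (MulAction.compHom X r) (Rep.res r M) (Rep.res r B) (ka_res r C) x m =
      C.π x m := rfl

variable (k Γ X)

/-- The coordinate system of the permutation module: `π_x a = a x`. -/
def ka_perm [Finite X] :
    shp_Coord X (Rep.ofMulAction k Γ X) (Rep.trivial k Γ k) where
  π x := (Finsupp.lapply x : (X →₀ k) →ₗ[k] k) ∘ₗ
    (MonoidAlgebra.coeffLinearEquiv k).toLinearMap
  equiv g x m := by
    change ((Representation.ofMulAction k Γ X g) m).coeff (g • x) = m.coeff x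
    rw [Representation.coeff_ofMulAction, inv_smul_smul]
  inj m hm := by
    apply MonoidAlgebra.coeff_injective
    ext x
    exact hm x
  surj f := by
    refine ⟨(MonoidAlgebra.coeffLinearEquiv k).symm (Finsupp.equivFunOnFinite.symm f), fun x => ?_⟩
    change ((MonoidAlgebra.coeffLinearEquiv k)
      ((MonoidAlgebra.coeffLinearEquiv k).symm (Finsupp.equivFunOnFinite.symm f))) x = f x
    rw [LinearEquiv.apply_symm_apply]
    rfl

theorem ka_perm_π [Finite X] (x : X) (a : Rep.ofMulAction k Γ X) :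
    (ka_perm k Γ X).π x a = MonoidAlgebra.coeff a x := rfl

variable {k Γ X}

/-- The coordinate system of the Tate dual of the permutation module:
`π'_x φ = φ (single x 1)`, with values in `k(χ)`. -/
def ka_permDual [Finite X] (χ : Γ →* kˣ) :
    shp_Coord X ((Rep.ofMulAction k Γ X).dualTwist χ) (Rep.of (Representation.trivial k Γ k |>.twist χ)) where
  π x :=
    { toFun := fun φ => (show Module.Dual k (Rep.ofMulAction k Γ X) from φ)
        (MonoidAlgebra.single x 1)
      map_add' := fun _ _ => rfl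
      map_smul' := fun _ _ => rfl }
  equiv g x φ := by
    change ((Rep.ofMulAction k Γ X).dualTwist χ).ρ g φ (MonoidAlgebra.single (g • x) 1) =
      (χ g : k) • (show Module.Dual k (Rep.ofMulAction k Γ X) from φ) (MonoidAlgebra.single x 1)
    rw [Rep.dualTwist_ρ_apply]
    change (χ g : k) • (show Module.Dual k (Rep.ofMulAction k Γ X) from φ)
      (Representation.ofMulAction k Γ X g⁻¹ (MonoidAlgebra.single (g • x) 1)) = _
    rw [Representation.ofMulAction_single, inv_smul_smul]
  inj φ hφ := by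
    apply LinearMap.ext
    intro a
    induction a using MonoidAlgebra.induction_linear with
    | zero => simp
    | add a b ha hb => rw [map_add, ha, hb, map_add]
    | single x r =>
      have h1 : (MonoidAlgebra.single x r : MonoidAlgebra k X) =
          r • MonoidAlgebra.single x 1 := by
        rw [MonoidAlgebra.smul_single, smul_eq_mul, mul_one]
      rw [h1, map_smul, map_smul]
      congr 1
      exact hφ x
  surj f := by
    refine ⟨(Finsupp.linearCombination k f) ∘ₗ
      (MonoidAlgebra.coeffLinearEquiv k).toLinearMap, fun x => ?_⟩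
    change (Finsupp.linearCombination k f) ((MonoidAlgebra.coeffLinearEquiv k)
      (MonoidAlgebra.single x 1)) = f x
    simp

/-- **The evaluation pairing in coordinates.** -/
theorem ka_ev_sum [Fintype X] (χ : Γ →* kˣ) (a : Rep.ofMulAction k Γ X)
    (φ : (Rep.ofMulAction k Γ X).dualTwist χ) :
    (show Module.Dual k (Rep.ofMulAction k Γ X) from φ) a =
      ∑ x : X, (ka_perm k Γ X).π x a * (ka_permDual χ).π x φ := by
  induction a using MonoidAlgebra.induction_linear with
  | zero => simp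
  | add a b ha hb =>
    rw [map_add, ha, hb, ← Finset.sum_add_distrib]
    refine Finset.sum_congr rfl fun x _ => ?_
    rw [map_add, add_mul]
  | single y r =>
    have h1 : (MonoidAlgebra.single y r : MonoidAlgebra k X) =
        r • MonoidAlgebra.single y 1 := by
      rw [MonoidAlgebra.smul_single, smul_eq_mul, mul_one]
    rw [Finset.sum_eq_single y]
    · change _ = MonoidAlgebra.coeff (MonoidAlgebra.single y r) y *
        (show Module.Dual k (Rep.ofMulAction k Γ X) from φ) (MonoidAlgebra.single y 1)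
      rw [MonoidAlgebra.coeff_single, Finsupp.single_eq_same]
      conv_lhs => rw [h1, map_smul, smul_eq_mul]
    · intro x _ hx
      change MonoidAlgebra.coeff (MonoidAlgebra.single y r) x * _ = 0
      rw [MonoidAlgebra.coeff_single, Finsupp.single_eq_of_ne hx, zero_mul]
    · intro h
      exact absurd (Finset.mem_univ y) h

/-- **Exact conjugation identity in degree 1**: for a 1-cocycle `z` and `s` fixing `g₀ • x` and
acting trivially on `B`, `π_{g₀ x} (z s) = g₀ · π_x (z (g₀⁻¹ s g₀))`. -/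
theorem ka_conj₁ {M B : Rep.{0, 0, 0} k Γ} (C : shp_Coord X M B) (z : Γ → M)
    (hz : ∀ x, shp_d₁ (MonoidHom.id Γ) M z x = 0) (g₀ s : Γ) (x : X)
    (hs : s • (g₀ • x) = g₀ • x) (hB : ∀ b : B, B.ρ s b = b) :
    C.π (g₀ • x) (z s) = B.ρ g₀ (C.π x (z (g₀⁻¹ * s * g₀))) := by
  have hc : ∀ g h : Γ, z (g * h) = M.ρ g (z h) + z g := by
    intro g h
    have := hz (g, h)
    simp only [shp_d₁, MonoidHom.id_apply] at this
    rw [sub_add_eq_add_sub, sub_eq_zero] at this
    exact this.symm
  -- `z (s * g₀) = s • z g₀ + z s` and `z (g₀ * (g₀⁻¹ s g₀)) = g₀ • z (g₀⁻¹ s g₀) + z g₀`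
  have h1 := hc s g₀
  have h2 := hc g₀ (g₀⁻¹ * s * g₀)
  have h3 : g₀ * (g₀⁻¹ * s * g₀) = s * g₀ := by group
  rw [h3, h1] at h2
  -- apply `π_{g₀ x}`
  have h4 := congrArg (C.π (g₀ • x)) h2
  rw [map_add, map_add, C.equiv g₀ x] at h4
  have h5 : C.π (g₀ • x) (M.ρ s (z g₀)) = C.π (g₀ • x) (z g₀) := by
    conv_lhs => rw [← hs]
    rw [C.equiv s (g₀ • x), hB]
  rw [h5] at h4
  rw [add_comm (B.ρ g₀ _)] at h4
  exact add_left_cancel h4

end Generic

/-! ### The permutation modules `pt_A p K` -/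

section PtA

variable (p : ℕ) [Fact p.Prime] (K : IntermediateField ℚ (AlgebraicClosure ℚ))

/-- `X = G_ℚ / G_K`. -/
abbrev ka_X : Type := s55_GQ ⧸ K.fixingSubgroup

/-- The base point of `X`. -/
def ka_x₀ : ka_X K := QuotientGroup.mk 1

theorem ka_smul_x₀ (g : s55_GQ) : g • ka_x₀ K = QuotientGroup.mk g := by
  change (QuotientGroup.mk (g * 1) : ka_X K) = _
  rw [mul_one]

theorem ka_finite_X {S : Finset Nat.Primes} (hK : K.IsUnramifiedOutside S) : Finite (ka_X K) := by
  haveI : FiniteDimensional ℚ K := hK.1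
  exact cov_finite_quot K

/-- The coordinates of `pt_A p K` (values in the trivial module `F_p`). -/
def ka_CA [Finite (ka_X K)] :
    shp_Coord (ka_X K) (pt_A p K) (Rep.trivial (ZMod p) s55_GQ (ZMod p)) :=
  ka_perm (ZMod p) s55_GQ (ka_X K)

/-- The coordinates of the Tate dual of `pt_A p K` (values in `pt_T p = F_p(1)`). -/
def ka_CA' [Finite (ka_X K)] :
    shp_Coord (ka_X K) ((pt_A p K).dualTwist (cycloChar p)) (pt_T p) :=
  ka_permDual (cycloChar p)

/-- `pt_ev` in coordinates. -/
theorem ka_pt_ev_sum [Fintype (ka_X K)] (a : pt_A p K)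
    (φ : (pt_A p K).dualTwist (cycloChar p)) :
    pt_ev (pt_A p K) a φ = ∑ x : ka_X K, (ka_CA p K).π x a * (ka_CA' p K).π x φ :=
  ka_ev_sum (cycloChar p) a φ

variable {K}

/-- `U` normal: every `s ∈ U` fixes every point of `X`. -/
theorem ka_fix (hn : K.fixingSubgroup.Normal) {s : s55_GQ} (hs : s ∈ K.fixingSubgroup)
    (x : ka_X K) : s • x = x := by
  induction x using QuotientGroup.induction_on with
  | H g =>
    change (QuotientGroup.mk (s * g) : ka_X K) = QuotientGroup.mk g
    rw [QuotientGroup.eq]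
    have h1 : g⁻¹ * s⁻¹ * g⁻¹⁻¹ ∈ K.fixingSubgroup := hn.conj_mem _ (inv_mem hs) g⁻¹
    have h2 : (s * g)⁻¹ * g = g⁻¹ * s⁻¹ * g⁻¹⁻¹ := by group
    rw [h2]
    exact h1

/-- `U` normal: the stabilizer of every point of `X` is `U`. -/
theorem ka_stab (hn : K.fixingSubgroup.Normal) (x : ka_X K) :
    MulAction.stabilizer s55_GQ x = K.fixingSubgroup := by
  ext s
  rw [MulAction.mem_stabilizer_iff]
  refine ⟨fun h => ?_, fun h => ka_fix hn h x⟩
  induction x using QuotientGroup.induction_on with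
  | H g =>
    have h0 : (QuotientGroup.mk (s * g) : ka_X K) = QuotientGroup.mk g := h
    rw [QuotientGroup.eq] at h0
    have h1 := hn.conj_mem _ (inv_mem h0) g
    have h2 : g * ((s * g)⁻¹ * g)⁻¹ * g⁻¹ = s := by group
    rwa [h2] at h1

/-- The stabilizer in a group `H` acting through `r : H →* G_ℚ`. -/
theorem ka_stab_comp (hn : K.fixingSubgroup.Normal) {H : Type} [Group H] (r : H →* s55_GQ)
    (x : ka_X K) :
    @MulAction.stabilizer H (ka_X K) _ (MulAction.compHom (ka_X K) r) x =
      K.fixingSubgroup.comap r := by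
  letI : MulAction H (ka_X K) := MulAction.compHom (ka_X K) r
  ext s
  rw [MulAction.mem_stabilizer_iff, Subgroup.mem_comap]
  have h := ka_stab hn x
  constructor
  · intro hs
    rw [← h, MulAction.mem_stabilizer_iff]
    exact hs
  · intro hs
    exact ka_fix hn hs x

end PtA

/-! ### Representatives of the places -/

section Reps

variable (S : Finset Nat.Primes) (K : IntermediateField ℚ (AlgebraicClosure ℚ))

theorem ka_doset_finite [Finite (ka_X K)] (q : Nat.Primes) :
    Finite (DoubleCoset.Quotient ((localGaloisToGlobal (q : ℕ)).range : Set s55_GQ)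
      (K.fixingSubgroup : Set s55_GQ)) := by
  let f : ka_X K → DoubleCoset.Quotient ((localGaloisToGlobal (q : ℕ)).range : Set s55_GQ)
      (K.fixingSubgroup : Set s55_GQ) :=
    Quotient.lift (DoubleCoset.mk (localGaloisToGlobal (q : ℕ)).range K.fixingSubgroup) (by
      intro a b hab
      have h1 : a⁻¹ * b ∈ K.fixingSubgroup := QuotientGroup.leftRel_apply.1 hab
      rw [DoubleCoset.eq]
      exact ⟨1, one_mem _, a⁻¹ * b, h1, by group⟩)
  refine Finite.of_surjective f ?_
  intro d
  induction d using Quotient.inductionOn with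
  | h g => exact ⟨QuotientGroup.mk g, rfl⟩

/-- **Existence of representatives of the places of `K` above the primes of `S`.** -/
theorem ka_exists_reps [Finite (ka_X K)] : ∃ R : ↥S → Finset s55_GQ, kl_IsReps S K R := by
  classical
  haveI : ∀ q : Nat.Primes, Fintype (DoubleCoset.Quotient
      ((localGaloisToGlobal (q : ℕ)).range : Set s55_GQ) (K.fixingSubgroup : Set s55_GQ)) :=
    fun q => @Fintype.ofFinite _ (ka_doset_finite K q)
  refine ⟨fun q => Finset.univ.image (fun d : DoubleCoset.Quotient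
      ((localGaloisToGlobal ((q : Nat.Primes) : ℕ)).range : Set s55_GQ)
      (K.fixingSubgroup : Set s55_GQ) => Quotient.out d), fun q g => ?_⟩
  set Hq := (localGaloisToGlobal ((q : Nat.Primes) : ℕ)).range with hHq
  refine ⟨Quotient.out (DoubleCoset.mk Hq K.fixingSubgroup g), ⟨?_, ?_⟩, ?_⟩
  · exact Finset.mem_image.2 ⟨_, Finset.mem_univ _, rfl⟩
  · obtain ⟨h, k, hh, hk, he⟩ := DoubleCoset.mk_out_eq_mul Hq K.fixingSubgroup g
    obtain ⟨τ, hτ⟩ := hh
    refine ⟨τ⁻¹, k⁻¹, inv_mem hk, ?_⟩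
    rw [he, map_inv, hτ]
    group
  · rintro g₀ ⟨hg₀, τ, u, hu, he⟩
    obtain ⟨d, -, hd⟩ := Finset.mem_image.1 hg₀
    have h1 : DoubleCoset.mk Hq K.fixingSubgroup g₀ = d := by
      rw [← hd]
      exact Quotient.out_eq d
    have h2 : DoubleCoset.mk Hq K.fixingSubgroup g₀ = DoubleCoset.mk Hq K.fixingSubgroup g := by
      rw [DoubleCoset.eq]
      exact ⟨_, ⟨τ, rfl⟩, u, hu, he⟩
    rw [← hd, ← h1, h2]

variable {S K}

/-- The points `g₀ • x₀`, `g₀ ∈ R q`: representatives of the orbits of `Γ_q` on `X`. -/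
def ka_T [DecidableEq (ka_X K)] (R : ↥S → Finset s55_GQ) (q : ↥S) : Finset (ka_X K) :=
  (R q).image (fun g₀ => g₀ • ka_x₀ K)

theorem ka_mem_T [DecidableEq (ka_X K)] {R : ↥S → Finset s55_GQ} {q : ↥S} {g₀ : s55_GQ}
    (h : g₀ ∈ R q) : g₀ • ka_x₀ K ∈ ka_T R q :=
  Finset.mem_image.2 ⟨g₀, h, rfl⟩

theorem ka_T_injOn {R : ↥S → Finset s55_GQ} (hR : kl_IsReps S K R) (q : ↥S) :
    Set.InjOn (fun g₀ : s55_GQ => g₀ • ka_x₀ K) (R q : Set s55_GQ) := by
  intro a ha b hb hab
  have h0 : (QuotientGroup.mk a : ka_X K) = QuotientGroup.mk b := by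
    rw [← ka_smul_x₀, ← ka_smul_x₀]
    exact hab
  rw [QuotientGroup.eq] at h0
  obtain ⟨g₀, -, huniq⟩ := hR q b
  have h1 := huniq a ⟨ha, 1, a⁻¹ * b, h0, by rw [map_one]; group⟩
  have h2 := huniq b ⟨hb, 1, 1, one_mem _, by rw [map_one]; group⟩
  rw [h1, h2]

theorem ka_sum_T [DecidableEq (ka_X K)] {R : ↥S → Finset s55_GQ} (hR : kl_IsReps S K R)
    (q : ↥S) {Y : Type*} [AddCommMonoid Y] (f : ka_X K → Y) :
    ∑ t ∈ ka_T R q, f t = ∑ g₀ ∈ R q, f (g₀ • ka_x₀ K) :=
  Finset.sum_image (fun _ ha _ hb hab => ka_T_injOn hR q ha hb hab)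

theorem ka_T_covers [DecidableEq (ka_X K)] {R : ↥S → Finset s55_GQ} (hR : kl_IsReps S K R)
    (q : ↥S) :
    @shp_Covers (lcf_Gal ((q : Nat.Primes) : ℕ)) _ (ka_X K)
      (MulAction.compHom (ka_X K) (localGaloisToGlobal ((q : Nat.Primes) : ℕ)))
      ((ka_T (K := K) R q : Finset (ka_X K)) : Set (ka_X K)) := by
  letI : MulAction (lcf_Gal ((q : Nat.Primes) : ℕ)) (ka_X K) :=
    MulAction.compHom (ka_X K) (localGaloisToGlobal ((q : Nat.Primes) : ℕ))
  intro x
  induction x using QuotientGroup.induction_on with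
  | H g =>
    obtain ⟨g₀, ⟨hg₀, τ, u, hu, he⟩, -⟩ := hR q g
    refine ⟨g₀ • ka_x₀ K, ka_mem_T hg₀, τ, ?_⟩
    change localGaloisToGlobal ((q : Nat.Primes) : ℕ) τ • (g₀ • ka_x₀ K) = QuotientGroup.mk g
    rw [ka_smul_x₀]
    change (QuotientGroup.mk (localGaloisToGlobal ((q : Nat.Primes) : ℕ) τ * g₀) : ka_X K) = _
    rw [QuotientGroup.eq, he]
    have : (localGaloisToGlobal ((q : Nat.Primes) : ℕ) τ * g₀)⁻¹ *
        (localGaloisToGlobal ((q : Nat.Primes) : ℕ) τ * g₀ * u) = u := by group
    rw [this]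
    exact hu

theorem ka_T_indep [DecidableEq (ka_X K)] {R : ↥S → Finset s55_GQ} (hR : kl_IsReps S K R)
    (q : ↥S) :
    @shp_Indep (lcf_Gal ((q : Nat.Primes) : ℕ)) _ (ka_X K)
      (MulAction.compHom (ka_X K) (localGaloisToGlobal ((q : Nat.Primes) : ℕ)))
      ((ka_T (K := K) R q : Finset (ka_X K)) : Set (ka_X K)) := by
  letI : MulAction (lcf_Gal ((q : Nat.Primes) : ℕ)) (ka_X K) :=
    MulAction.compHom (ka_X K) (localGaloisToGlobal ((q : Nat.Primes) : ℕ))
  intro t ht t' ht' ⟨τ, hτ⟩
  obtain ⟨a, ha, rfl⟩ := Finset.mem_image.1 ht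
  obtain ⟨b, hb, rfl⟩ := Finset.mem_image.1 ht'
  have h0 : (QuotientGroup.mk (localGaloisToGlobal ((q : Nat.Primes) : ℕ) τ * a) : ka_X K) =
      QuotientGroup.mk b := by
    rw [← ka_smul_x₀ K b]
    change localGaloisToGlobal ((q : Nat.Primes) : ℕ) τ • (QuotientGroup.mk a : ka_X K) = _
    rw [← ka_smul_x₀ K a]
    exact hτ
  rw [QuotientGroup.eq] at h0
  obtain ⟨g₀, -, huniq⟩ := hR q b
  have h1 := huniq a ⟨ha, τ, (localGaloisToGlobal ((q : Nat.Primes) : ℕ) τ * a)⁻¹ * b, h0, by
    group⟩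
  have h2 := huniq b ⟨hb, 1, 1, one_mem _, by rw [map_one]; group⟩
  change a • ka_x₀ K = b • ka_x₀ K
  rw [h1, h2]

/-- The local group at `inr q` is `Gal(Ω_q/ℚ_q)` and `extArithLoc` is `localGaloisToGlobal`
(definitionally). -/
theorem ka_loc_eq (q : ↥S) (τ : lcf_Gal ((q : Nat.Primes) : ℕ)) :
    extArithLoc S (Sum.inr q : extArithIndex S) τ =
      localGaloisToGlobal ((q : Nat.Primes) : ℕ) τ := rfl

/-- The covering set `{x₀}` for the global action. -/
theorem ka_x₀_covers : shp_Covers s55_GQ ({ka_x₀ K} : Set (ka_X K)) := by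
  intro x
  induction x using QuotientGroup.induction_on with
  | H g => exact ⟨ka_x₀ K, rfl, g, ka_smul_x₀ K g⟩

theorem ka_x₀_indep : shp_Indep s55_GQ ({ka_x₀ K} : Set (ka_X K)) := by
  intro t ht t' ht' _
  rw [Set.mem_singleton_iff] at ht ht'
  rw [ht, ht']

end Reps

end Fermat.Agent.S55
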