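/-
S55 (Poitou-Tate), BRIDGE part 2, K→A package (6) [A-SHA-SURJ-OF] (helper21).  Prefix `kass_`.
Part 1: basic tools, generic in a module `A'` (resp. `A`) with a coordinate system
`C' : shp_Coord X A' F_p(1)` (resp. `C : shp_Coord X A F_p`), `X = G_ℚ / U`, `U = G_K` normal.

* `kass_exists_factor` : a functional which kills `ker f` factors through `f` (over a field);
* `kass_cls_eq_zero`   : [SHAP-INJ 1] a level-`S` cocycle of `A'` whose Shapiro component at `x₀`
                         vanishes on `U` is a coboundary;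
* `kass_exists_lK`     : every functional `l` on `H¹_S(A')` is `l_K ∘ ψ`, `ψ [y] = π'_{x₀} ∘ y|U`;
* `kass_exists_c`      : [SHAP-SURJ 2] a level-`S` 2-cocycle `c_K` of `U` in `F_p` is the Shapiro
                         component of a level-`S` 2-cocycle `c` of `G_ℚ` in `A`;
* `kass_sha₁`          : the Shapiro component of a locally trivial class lies in `Ш¹`.
-/
import Mathlib
import Fermat.Agent.S55.Bridge.KACoord
import Fermat.Agent.S55.Bridge.ShapInj1
import Fermat.Agent.S55.Bridge.ShapSurj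
import Fermat.Agent.S55.H3OfMain

set_option autoImplicit false
set_option maxHeartbeats 1000000
set_option synthInstance.maxHeartbeats 400000
set_option linter.style.haveILetI false
set_option linter.unusedVariables false
set_option linter.unusedSectionVars false
open CategoryTheory Module groupCohomology ExtCitation

noncomputable section

namespace Fermat.Agent.S55

/-- Factorisation of a functional through a linear map (over a field). -/
theorem kass_exists_factor {k V W : Type*} [Field k] [AddCommGroup V] [Module k V]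
    [AddCommGroup W] [Module k W] (f : V →ₗ[k] W) (g : V →ₗ[k] k)
    (h : LinearMap.ker f ≤ LinearMap.ker g) : ∃ l : W →ₗ[k] k, ∀ v, l (f v) = g v := by
  have h1 : g ∈ (LinearMap.ker f).dualAnnihilator := by
    rw [Submodule.mem_dualAnnihilator]
    intro v hv
    exact h hv
  rw [← LinearMap.range_dualMap_eq_dualAnnihilator_ker] at h1
  obtain ⟨l, hl⟩ := h1
  refine ⟨l, fun v => ?_⟩
  rw [← hl]
  rfl

section Setup

variable {p : ℕ} [Fact p.Prime] (S : Finset Nat.Primes)
  (K : IntermediateField ℚ (AlgebraicClosure ℚ))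

/-- `U` acts trivially on `F_p(1)`. -/
theorem kass_T_fix (hχ : ∀ s ∈ K.fixingSubgroup, cycloChar p s = 1) {s : s55_GQ}
    (hs : s ∈ K.fixingSubgroup) (b : pt_T p) : (pt_T p).ρ s b = b := by
  change ((cycloChar p s : (ZMod p)ˣ) : ZMod p) • b = b
  rw [hχ s hs, Units.val_one, one_smul]

/-- A normal level containing `K` and a given level. -/
theorem kass_normal_level (hK : K.IsUnramifiedOutside S)
    (F : IntermediateField ℚ (AlgebraicClosure ℚ)) (hF : F.IsUnramifiedOutside S) :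
    ∃ F' : IntermediateField ℚ (AlgebraicClosure ℚ), F'.IsUnramifiedOutside S ∧
      F'.fixingSubgroup.Normal ∧ F'.fixingSubgroup ≤ K.fixingSubgroup ∧
      F'.fixingSubgroup ≤ F.fixingSubgroup := by
  obtain ⟨F', hle, hF', hnorm⟩ := h3o_normalLevel S (K ⊔ F) (hK.sup hF)
  exact ⟨F', hF', hnorm, IntermediateField.fixingSubgroup_antitone (le_sup_left.trans hle),
    IntermediateField.fixingSubgroup_antitone (le_sup_right.trans hle)⟩

variable (A A' : Rep.{0, 0, 0} (ZMod p) s55_GQ)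
  (C : shp_Coord (ka_X K) A (Rep.trivial (ZMod p) s55_GQ (ZMod p)))
  (C' : shp_Coord (ka_X K) A' (pt_T p))

/-- The coordinates of `A'` are `U`-invariant. -/
theorem kass_π'_fix {A'} (C' : shp_Coord (ka_X K) A' (pt_T p)) (hn : K.fixingSubgroup.Normal)
    (hχ : ∀ s ∈ K.fixingSubgroup, cycloChar p s = 1) {s : s55_GQ}
    (hs : s ∈ K.fixingSubgroup) (x : ka_X K) (m : A') :
    C'.π x (A'.ρ s m) = C'.π x m := by
  rw [shin_π_stab C' (ka_fix hn hs x), kass_T_fix K hχ hs]

/-- The coordinates of `A` are `U`-invariant. -/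
theorem kass_π_fix {A} (C : shp_Coord (ka_X K) A (Rep.trivial (ZMod p) s55_GQ (ZMod p)))
    (hn : K.fixingSubgroup.Normal) {s : s55_GQ}
    (hs : s ∈ K.fixingSubgroup) (x : ka_X K) (m : A) :
    C.π x (A.ρ s m) = C.π x m := by
  rw [shin_π_stab C (ka_fix hn hs x)]
  rfl

/-- **Shapiro, injectivity in degree 1**: a level-`S` cocycle of `A'` whose component at `x₀`
vanishes on `U` is a coboundary. -/
theorem kass_cls_eq_zero [Finite (ka_X K)] (hK : K.IsUnramifiedOutside S)
    (hn : K.fixingSubgroup.Normal)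
    (hχ : ∀ s ∈ K.fixingSubgroup, cycloChar p s = 1)
    (y : cocycles₁ A') (hy : IsLevelConstantS₁ S y)
    (h0 : ∀ u : ↥K.fixingSubgroup, C'.π (ka_x₀ K) (y.1 (u : s55_GQ)) = 0) :
    (H1π A').hom y = 0 := by
  classical
  obtain ⟨F, hF, hFy⟩ := hy
  obtain ⟨F', hF', hnorm, hNK, hNF⟩ := kass_normal_level S K hK F hF
  haveI : F'.fixingSubgroup.Normal := hnorm
  have hcoc : ∀ x, shp_d₁ (MonoidHom.id s55_GQ) A' y.1 x = 0 := by
    rintro ⟨g, h⟩
    have h1 := (mem_cocycles₁_iff (y : s55_GQ → A')).1 y.2 g h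
    simp only [shp_d₁, MonoidHom.id_apply]
    rw [sub_add_eq_add_sub, sub_eq_zero]
    exact h1.symm
  obtain ⟨m, hm⟩ := shin_main₁ (ZMod p) s55_GQ (ka_X K) A'
    (pt_T p) C' F'.fixingSubgroup (fun s hs x => ka_fix hn (hNK hs) x)
    ({ka_x₀ K} : Set (ka_X K)) ka_x₀_covers y.1 hcoc
    (fun g s hs => hFy g s (hNF hs)) (fun _ => 0)
    (fun t ht v => by
      rw [Set.mem_singleton_iff] at ht
      subst ht
      have hv : (v : s55_GQ) ∈ K.fixingSubgroup :=
        (SetLike.ext_iff.1 (ka_stab hn (ka_x₀ K)) v.1).1 v.2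
      rw [h0 ⟨v, hv⟩]
      simp [shp_d₀])
  rw [H1π_eq_zero_iff]
  refine ⟨m, ?_⟩
  funext g
  exact hm g

/-- The Shapiro component at `x₀` of a 1-cochain of `A'`, restricted to `U`. -/
def kass_yK {A'} (C' : shp_Coord (ka_X K) A' (pt_T p)) (y : s55_GQ → A') :
    ↥K.fixingSubgroup → ZMod p :=
  fun u => C'.π (ka_x₀ K) (y (u : s55_GQ))

theorem kass_yK_apply {A'} (C' : shp_Coord (ka_X K) A' (pt_T p)) (y : s55_GQ → A')
    (u : ↥K.fixingSubgroup) :
    kass_yK K C' y u = C'.π (ka_x₀ K) (y (u : s55_GQ)) := rfl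

/-- The Shapiro component map on level-`S` cocycles. -/
def kass_Psi : ↥(levelCocyclesS₁ S A') →ₗ[ZMod p] (↥K.fixingSubgroup → ZMod p) where
  toFun y := kass_yK K C' (y.1 : s55_GQ → A')
  map_add' y y' := by
    funext u
    simp only [kass_yK_apply, Pi.add_apply]
    exact map_add (C'.π (ka_x₀ K)) _ _
  map_smul' c y := by
    funext u
    simp only [kass_yK_apply, Pi.smul_apply, RingHom.id_apply]
    exact map_smul (C'.π (ka_x₀ K)) c _

/-- The class map on level-`S` cocycles. -/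
def kass_cls : ↥(levelCocyclesS₁ S A') →ₗ[ZMod p] ↥(continuousH1S S A') :=
  ((H1π A').hom ∘ₗ (levelCocyclesS₁ S A').subtype).codRestrict (continuousH1S S A')
    (fun y => Submodule.mem_map_of_mem y.2)

theorem kass_cls_eq (y : cocycles₁ A') (hy : IsLevelConstantS₁ S y) :
    kass_cls S A' ⟨y, hy⟩ = pt_cls1 S _ y hy := rfl

/-- **Every functional on `H¹_S(A')` factors through the Shapiro component.** -/
theorem kass_exists_lK [Finite (ka_X K)] (hK : K.IsUnramifiedOutside S)
    (hn : K.fixingSubgroup.Normal)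
    (hχ : ∀ s ∈ K.fixingSubgroup, cycloChar p s = 1)
    (l : Module.Dual (ZMod p) ↥(continuousH1S S A')) :
    ∃ lK : (↥K.fixingSubgroup → ZMod p) →ₗ[ZMod p] ZMod p,
      ∀ (y : cocycles₁ A') (hy : IsLevelConstantS₁ S y),
        lK (kass_yK K C' (y : s55_GQ → A')) = l (pt_cls1 S _ y hy) := by
  obtain ⟨lK, hlK⟩ := kass_exists_factor (kass_Psi S K A' C') (l ∘ₗ kass_cls S A') (by
    intro y hy
    have hy' : kass_Psi S K A' C' y = 0 := hy
    change l (kass_cls S A' y) = 0
    have h1 : kass_cls S A' y = 0 := by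
      apply Subtype.ext
      change (H1π A').hom y.1 = 0
      refine kass_cls_eq_zero S K A' C' hK hn hχ y.1 y.2 (fun u => ?_)
      exact congrFun hy' u
    rw [h1]
    exact map_zero l)
  refine ⟨lK, fun y hy => ?_⟩
  exact hlK ⟨y, hy⟩

end Setup

section Setup

variable {p : ℕ} [Fact p.Prime] (S : Finset Nat.Primes)
  (K : IntermediateField ℚ (AlgebraicClosure ℚ))

theorem kass_stab_le (hn : K.fixingSubgroup.Normal) (t : ka_X K) {v : s55_GQ}
    (hv : v ∈ MulAction.stabilizer s55_GQ t) : v ∈ K.fixingSubgroup :=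
  (SetLike.ext_iff.1 (ka_stab hn t) v).1 hv

/-- Transport of a function on `U × U` to the stabilizer of `t`. -/
def kass_ext₂ {Y : Type*} (hn : K.fixingSubgroup.Normal)
    (f : ↥K.fixingSubgroup × ↥K.fixingSubgroup → Y) (t : ka_X K) :
    ↥(MulAction.stabilizer s55_GQ t) × ↥(MulAction.stabilizer s55_GQ t) → Y :=
  fun x => f (⟨x.1, kass_stab_le K hn t x.1.2⟩, ⟨x.2, kass_stab_le K hn t x.2.2⟩)

variable (A A' : Rep.{0, 0, 0} (ZMod p) s55_GQ)
  (C : shp_Coord (ka_X K) A (Rep.trivial (ZMod p) s55_GQ (ZMod p)))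
  (C' : shp_Coord (ka_X K) A' (pt_T p))

/-- **Shapiro, surjectivity in degree 2**: a level-`S` 2-cocycle of `U` in `F_p` is the Shapiro
component of a level-`S` 2-cocycle of `G_ℚ` in `A`. -/
theorem kass_exists_c [Finite (ka_X K)] (hK : K.IsUnramifiedOutside S)
    (hn : K.fixingSubgroup.Normal)
    (cK : ↥K.fixingSubgroup × ↥K.fixingSubgroup → ZMod p) (hcK : kl_IsCoc₂ cK)
    (hcKl : kl_LevelS₂ S K cK) :
    ∃ c : s55_GQ × s55_GQ → A, c ∈ levelCocyclesS₂ S A ∧
      ∀ u v : ↥K.fixingSubgroup, C.π (ka_x₀ K) (c ((u : s55_GQ), (v : s55_GQ))) = cK (u, v) := by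
  classical
  obtain ⟨F, hF, hFc⟩ := hcKl
  obtain ⟨F', hF', hnorm, hNK, hNF⟩ := kass_normal_level S K hK F hF
  haveI : F'.fixingSubgroup.Normal := hnorm
  obtain ⟨z, hzc, hzd, hzπ⟩ := shsu_main₂ (ZMod p) s55_GQ (ka_X K) A
    (Rep.trivial (ZMod p) s55_GQ (ZMod p)) C F'.fixingSubgroup
    (fun s hs x => ka_fix hn (hNK hs) x) ({ka_x₀ K} : Set (ka_X K)) ka_x₀_indep
    (kass_ext₂ K hn cK)
    (fun t _ g g' s s' hs hs' => by
      have h := hFc ⟨g, kass_stab_le K hn t g.2⟩ ⟨g', kass_stab_le K hn t g'.2⟩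
        ⟨s, kass_stab_le K hn t s.2⟩ ⟨s', kass_stab_le K hn t s'.2⟩ (hNF hs) (hNF hs')
      exact h)
    (fun t _ x => by
      obtain ⟨g, h, j⟩ := x
      have h1 := hcK ⟨g, kass_stab_le K hn t g.2⟩ ⟨h, kass_stab_le K hn t h.2⟩
        ⟨j, kass_stab_le K hn t j.2⟩
      simp only [shp_d₂, kass_ext₂]
      change cK (_, _) - cK (_, _) + cK (_, _) - cK (_, _) = 0
      have h2 : ∀ a b c d : ZMod p, a + b = c + d → c - a + d - b = 0 := by
        intro a b c d h
        linear_combination -h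
      exact h2 _ _ _ _ h1)
  refine ⟨z, ⟨?_, F', hF', fun g g' s s' hs hs' => hzc g g' s s' hs hs'⟩, fun u v => ?_⟩
  · refine (mem_cocycles₂_iff z).2 ?_
    intro g h j
    have h1 := hzd (g, h, j)
    simp only [shp_d₂, MonoidHom.id_apply] at h1
    have h2 : ∀ a b c d : A, a - b + c - d = 0 → b + d = a + c := by
      intro a b c d h
      have : b + d = b + d + (a - b + c - d) := by rw [h, add_zero]
      rw [this]
      abel
    exact h2 _ _ _ _ h1
  · have hu : (u : s55_GQ) ∈ MulAction.stabilizer s55_GQ (ka_x₀ K) := by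
      rw [ka_stab hn]
      exact u.2
    have hv : (v : s55_GQ) ∈ MulAction.stabilizer s55_GQ (ka_x₀ K) := by
      rw [ka_stab hn]
      exact v.2
    exact hzπ (ka_x₀ K) rfl ⟨u, hu⟩ ⟨v, hv⟩

end Setup

theorem kass_ρ_eq_zero {k G : Type} [CommRing k] [Group G] (B : Rep.{0, 0, 0} k G) (g : G)
    (b : B) (h : B.ρ g b = 0) : b = 0 := by
  have h1 : B.ρ g⁻¹ (B.ρ g b) = b := by
    rw [← Module.End.mul_apply, ← map_mul, inv_mul_cancel, map_one, Module.End.one_apply]
  rw [← h1, h, map_zero]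

theorem kass_coc₁ {k G : Type} [CommRing k] [Group G] (B : Rep.{0, 0, 0} k G)
    (y : cocycles₁ B) (x : G × G) : shp_d₁ (MonoidHom.id G) B y.1 x = 0 := by
  obtain ⟨g, h⟩ := x
  have h1 := (mem_cocycles₁_iff (y : G → B)).1 y.2 g h
  simp only [shp_d₁, MonoidHom.id_apply]
  rw [sub_add_eq_add_sub, sub_eq_zero]
  exact h1.symm

section Setup

variable {p : ℕ} [Fact p.Prime] (S : Finset Nat.Primes)
  (K : IntermediateField ℚ (AlgebraicClosure ℚ))

variable (A A' : Rep.{0, 0, 0} (ZMod p) s55_GQ)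
  (C : shp_Coord (ka_X K) A (Rep.trivial (ZMod p) s55_GQ (ZMod p)))
  (C' : shp_Coord (ka_X K) A' (pt_T p))

/-- A locally trivial class gives local coboundaries. -/
theorem kass_loc_cob (y : cocycles₁ A') (hy : IsLevelConstantS₁ S y)
    (hloc : asm_locH1Total S A' (pt_cls1 S _ y hy) = 0) (v : extArithIndex S) :
    ∃ m : A', ∀ σ : extArithLocalGroups S v,
      y.1 (extArithLoc S v σ) = A'.ρ (extArithLoc S v σ) m - m := by
  rw [pt_locH1Total_cls] at hloc
  have h1 := congrArg (fun f => ((f v : ↥(asm_H1v S v A')) :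
    H1 (Rep.res (extArithLoc S v) A'))) hloc
  simp only at h1
  rw [cone_q_apply] at h1
  have h2 : (H1π (Rep.res (extArithLoc S v) A')).hom (pt_locZ S A' v y hy).1 = 0 := h1
  rw [H1π_eq_zero_iff] at h2
  obtain ⟨m, hm⟩ := h2
  refine ⟨m, fun σ => ?_⟩
  have h3 := congrFun hm σ
  rw [pt_locZ_coe] at h3
  exact h3.symm

/-- **The Shapiro component of a locally trivial class is locally trivial.** -/
theorem kass_sha₁ [hn : K.fixingSubgroup.Normal]
    (hχ : ∀ s ∈ K.fixingSubgroup, cycloChar p s = 1) (R : ↥S → Finset s55_GQ)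
    (y : cocycles₁ A') (hy : IsLevelConstantS₁ S y)
    (hloc : asm_locH1Total S A' (pt_cls1 S _ y hy) = 0) :
    kl_IsSha₁ S K R (kass_yK K C' (y : s55_GQ → A')) := by
  refine ⟨?_, ?_, ?_⟩
  · intro g h
    have h1 := (mem_cocycles₁_iff (y : s55_GQ → A')).1 y.2 (g : s55_GQ) (h : s55_GQ)
    simp only [kass_yK_apply, Subgroup.coe_mul]
    rw [h1, map_add, kass_π'_fix K C' hn hχ g.2, add_comm]
  · obtain ⟨F, hF, hFy⟩ := hy
    refine ⟨F, hF, fun g s hs => ?_⟩
    simp only [kass_yK_apply, Subgroup.coe_mul]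
    rw [hFy _ _ hs]
  · intro q g hg τ
    obtain ⟨m, hm⟩ := kass_loc_cob S A' y hy hloc (Sum.inr q)
    have hs : localGaloisToGlobal ((q : Nat.Primes) : ℕ) (τ : lcf_Gal ((q : Nat.Primes) : ℕ)) ∈
        K.fixingSubgroup := τ.2
    have h1 := hm (τ : lcf_Gal ((q : Nat.Primes) : ℕ))
    rw [ka_loc_eq] at h1
    have h2 := ka_conj₁ C' y.1 (kass_coc₁ A' y) g
      (localGaloisToGlobal ((q : Nat.Primes) : ℕ) (τ : lcf_Gal ((q : Nat.Primes) : ℕ)))
      (ka_x₀ K) (ka_fix hn hs _) (fun b => kass_T_fix K hχ hs b)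
    rw [h1, map_sub, kass_π'_fix K C' hn hχ hs, sub_self] at h2
    rw [kass_yK_apply, kl_r_coe]
    exact kass_ρ_eq_zero (pt_T p) g _ h2.symm

end Setup

end Fermat.Agent.S55
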