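/-
S55 (Poitou-Tate), BRIDGE part 2, K→A package (6) [A-SHA-SURJ-OF] (helper21).  Prefix `kass_`.
Part 2: the cochain `E` with `d E = c ·∪ y`.

For a level-`S` 2-cocycle `c` of `G_ℚ` in `A` and a level-`S` 1-cocycle `y` of `A'`, the pointwise
product `w = c ·∪ y` (`π'_t w (g, h, j) = π_t c (g, h) • π'_t (g h • y j)`) is a 3-cocycle of
`A'`, constant modulo a normal level; its Shapiro component at `x₀` is `c_K ∪ y_K`, a level-`S`
3-cocycle of `U` in `F_p`, hence a coboundary by [K-H3]; by [SHAP-INJ 3], `w = d E`.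
The trace `ε' = ∑_t π'_t ∘ E` satisfies `d ε' = c ∪ y` (`kass_tr_d`), and the Shapiro component
`ε_K = π'_{x₀} ∘ E|U²` satisfies `d ε_K = c_K ∪ y_K` (`kass_εK_d`).
-/
import Mathlib
import Fermat.Agent.S55.Bridge.KAShaSurjBasic
import Fermat.Agent.S55.Bridge.ShapInj3

set_option autoImplicit false
set_option maxHeartbeats 1000000
set_option synthInstance.maxHeartbeats 400000
set_option linter.style.haveILetI false
set_option linter.unusedVariables false
set_option linter.unusedSectionVars false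
open CategoryTheory Module groupCohomology ExtCitation

noncomputable section

namespace Fermat.Agent.S55

/-- A 1-cocycle which is constant mod a normal subgroup `N` takes `N`-invariant values. -/
theorem kass_fix_val {k G : Type} [CommRing k] [Group G] (B : Rep.{0, 0, 0} k G)
    (y : G → B) (hc : ∀ g h : G, y (g * h) = B.ρ g (y h) + y g) (N : Subgroup G) [hN : N.Normal]
    (hy : ∀ g s : G, s ∈ N → y (g * s) = y g) (n : G) (hn : n ∈ N) (j : G) :
    B.ρ n (y j) = y j := by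
  have h1 : y 1 = 0 := by
    have := hc 1 1
    rw [mul_one, map_one, Module.End.one_apply] at this
    exact left_eq_add.mp this
  have h2 : y n = 0 := by
    have := hy 1 n hn
    rw [one_mul] at this
    rw [this, h1]
  have h3 : y (n * j) = y j := by
    have h4 : n * j = j * (j⁻¹ * n * j) := by group
    rw [h4]
    apply hy
    have := hN.conj_mem n hn j⁻¹
    rwa [inv_inv] at this
  have h5 := hc n j
  rw [h3, h2, add_zero] at h5
  exact h5.symm

section Setup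

variable {p : ℕ} [Fact p.Prime] (S : Finset Nat.Primes)
  (K : IntermediateField ℚ (AlgebraicClosure ℚ))

variable (A A' : Rep.{0, 0, 0} (ZMod p) s55_GQ)
  (C : shp_Coord (ka_X K) A (Rep.trivial (ZMod p) s55_GQ (ZMod p)))
  (C' : shp_Coord (ka_X K) A' (pt_T p))

/-- The Shapiro component at `x₀` of a 2-cochain of `A`, restricted to `U`. -/
def kass_cK {A} (C : shp_Coord (ka_X K) A (Rep.trivial (ZMod p) s55_GQ (ZMod p)))
    (c : s55_GQ × s55_GQ → A) : ↥K.fixingSubgroup × ↥K.fixingSubgroup → ZMod p :=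
  fun x => C.π (ka_x₀ K) (c ((x.1 : s55_GQ), (x.2 : s55_GQ)))

theorem kass_cK_apply {A} (C : shp_Coord (ka_X K) A (Rep.trivial (ZMod p) s55_GQ (ZMod p)))
    (c : s55_GQ × s55_GQ → A) (u v : ↥K.fixingSubgroup) :
    kass_cK K C c (u, v) = C.π (ka_x₀ K) (c ((u : s55_GQ), (v : s55_GQ))) := rfl

theorem kass_cK_coc {A} (C : shp_Coord (ka_X K) A (Rep.trivial (ZMod p) s55_GQ (ZMod p)))
    (hn : K.fixingSubgroup.Normal)
    (c : s55_GQ × s55_GQ → A) (hc : c ∈ cocycles₂ A) : kl_IsCoc₂ (kass_cK K C c) := by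
  intro g h j
  have h1 := (mem_cocycles₂_iff c).1 hc (g : s55_GQ) (h : s55_GQ) (j : s55_GQ)
  have h2 := congrArg (C.π (ka_x₀ K)) h1
  rw [map_add, map_add, kass_π_fix K C hn g.2] at h2
  exact h2

theorem kass_cK_level {A} (C : shp_Coord (ka_X K) A (Rep.trivial (ZMod p) s55_GQ (ZMod p)))
    (c : s55_GQ × s55_GQ → A) (hc : IsLevelConstantS₂ S c) : kl_LevelS₂ S K (kass_cK K C c) := by
  obtain ⟨F, hF, hFc⟩ := hc
  refine ⟨F, hF, fun g g' s s' hs hs' => ?_⟩
  simp only [kass_cK_apply, Subgroup.coe_mul]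
  rw [hFc _ _ _ _ hs hs']

/-- The pointwise product `c ·∪ y`, a 3-cochain of `A'`. -/
def kass_w (c : s55_GQ × s55_GQ → A) (y : s55_GQ → A') : s55_GQ × s55_GQ × s55_GQ → A' :=
  fun x => shin_mk C' (fun t => (show ZMod p from C.π t (c (x.1, x.2.1))) •
    C'.π t (A'.ρ (x.1 * x.2.1) (y x.2.2)))

theorem kass_π_w (c : s55_GQ × s55_GQ → A) (y : s55_GQ → A') (g h j : s55_GQ) (t : ka_X K) :
    C'.π t (kass_w K A A' C C' c y (g, h, j)) =
      (show ZMod p from C.π t (c (g, h))) • C'.π t (A'.ρ (g * h) (y j)) :=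
  shin_π_mk C' _ t

theorem kass_w_coc (c : s55_GQ × s55_GQ → A) (hc : c ∈ cocycles₂ A) (y : s55_GQ → A')
    (hy : ∀ g h : s55_GQ, y (g * h) = A'.ρ g (y h) + y g)
    (x : s55_GQ × s55_GQ × s55_GQ × s55_GQ) :
    shp_d₃ (MonoidHom.id s55_GQ) A' (kass_w K A A' C C' c y) x = 0 := by
  obtain ⟨g, h, j, l⟩ := x
  apply C'.inj
  intro t
  have hcc := (mem_cocycles₂_iff c).1 hc g h j
  have hyc := hy j l
  simp only [shp_d₃, MonoidHom.id_apply, map_add, map_sub]
  rw [shin_π_ρ C' g t, kass_π_w, kass_π_w, kass_π_w, kass_π_w, kass_π_w]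
  have e1 : (pt_T p).ρ g ((show ZMod p from C.π (g⁻¹ • t) (c (h, j))) •
      C'.π (g⁻¹ • t) (A'.ρ (h * j) (y l))) =
      (show ZMod p from C.π t (A.ρ g (c (h, j)))) • C'.π t (A'.ρ (g * h * j) (y l)) := by
    rw [map_smul, ← shin_π_ρ C' g t, ← Module.End.mul_apply, ← map_mul, ← mul_assoc]
    congr 1
    rw [shin_π_ρ C g t]
    rfl
  have e2 : A'.ρ (g * h) (y (j * l)) = A'.ρ (g * h * j) (y l) + A'.ρ (g * h) (y j) := by
    rw [hyc, map_add, ← Module.End.mul_apply, ← map_mul]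
  have e3 : (show ZMod p from C.π t (A.ρ g (c (h, j)))) =
      (show ZMod p from C.π t (c (g * h, j))) + (show ZMod p from C.π t (c (g, h))) -
        (show ZMod p from C.π t (c (g, h * j))) := by
    have := congrArg (C.π t) hcc
    rw [map_add, map_add] at this
    exact eq_sub_of_add_eq this.symm
  rw [e1, e2, e3, mul_assoc g h j, map_add, smul_add]
  simp only [add_smul, sub_smul]
  abel

theorem kass_w_const (N : Subgroup s55_GQ) [hN : N.Normal] (c : s55_GQ × s55_GQ → A)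
    (hcN : shp_Const₂ (MonoidHom.id s55_GQ) N c) (y : s55_GQ → A')
    (hy : ∀ g h : s55_GQ, y (g * h) = A'.ρ g (y h) + y g)
    (hyN : ∀ g s : s55_GQ, s ∈ N → y (g * s) = y g) :
    shp_Const₃ (MonoidHom.id s55_GQ) N (kass_w K A A' C C' c y) := by
  intro g g' g'' s s' s'' hs hs' hs''
  simp only [MonoidHom.id_apply] at hs hs' hs''
  simp only [kass_w]
  congr 1
  funext t
  rw [hcN g g' s s' hs hs', hyN g'' s'' hs'']
  congr 2
  have h1 : g * s * (g' * s') = g * g' * (g'⁻¹ * s * g' * s') := by group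
  have h2 : g'⁻¹ * s * g' * s' ∈ N := by
    refine N.mul_mem ?_ hs'
    have := hN.conj_mem s hs g'⁻¹
    rwa [inv_inv] at this
  rw [h1, map_mul, Module.End.mul_apply, kass_fix_val A' y hy N hyN _ h2 g'']

/-- **The cochain `E` with `d E = c ·∪ y`** ([K-H3] + Shapiro in degree 3). -/
theorem kass_exists_E [Finite (ka_X K)] (hH3 : kl_H3Statement) (hp2 : p ≠ 2)
    (hpS : pPrime p ∈ S) (hK : K.IsUnramifiedOutside S) (hn : K.fixingSubgroup.Normal)
    (hχ : ∀ s ∈ K.fixingSubgroup, cycloChar p s = 1)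
    (c : s55_GQ × s55_GQ → A) (hc : c ∈ levelCocyclesS₂ S A) (y : s55_GQ → A')
    (hy : ∀ g h : s55_GQ, y (g * h) = A'.ρ g (y h) + y g) (hyl : IsLevelConstantS₁ S y) :
    ∃ E : s55_GQ × s55_GQ → A', IsLevelConstantS₂ S E ∧
      ∀ (g h j : s55_GQ) (t : ka_X K),
        C'.π t (shp_d₂ (MonoidHom.id s55_GQ) A' E (g, h, j)) =
          (show ZMod p from C.π t (c (g, h))) • C'.π t (A'.ρ (g * h) (y j)) := by
  classical
  obtain ⟨hcc, Fc, hFc, hFcc⟩ := hc
  obtain ⟨Fy, hFy, hFyy⟩ := hyl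
  -- the `K`-level cocycle
  have hcK : kl_IsCoc₂ (kass_cK K C c) := kass_cK_coc K C hn c hcc
  have hyK : kl_IsHom (kass_yK K C' y) := by
    intro g h
    simp only [kass_yK_apply, Subgroup.coe_mul]
    rw [hy, map_add, kass_π'_fix K C' hn hχ g.2, add_comm]
  set zK : ↥K.fixingSubgroup × ↥K.fixingSubgroup × ↥K.fixingSubgroup → ZMod p :=
    fun x => kass_cK K C c (x.1, x.2.1) * kass_yK K C' y x.2.2 with hzK
  have hzKl : kl_LevelS₃ S K zK := by
    refine ⟨Fc ⊔ Fy, hFc.sup hFy, fun g g' g'' s s' s'' hs hs' hs'' => ?_⟩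
    have hs1 := IntermediateField.fixingSubgroup_antitone (le_sup_left : Fc ≤ Fc ⊔ Fy) hs
    have hs1' := IntermediateField.fixingSubgroup_antitone (le_sup_left : Fc ≤ Fc ⊔ Fy) hs'
    have hs2 := IntermediateField.fixingSubgroup_antitone (le_sup_right : Fy ≤ Fc ⊔ Fy) hs''
    simp only [hzK, kass_cK_apply, kass_yK_apply, Subgroup.coe_mul]
    rw [hFcc _ _ _ _ hs1 hs1', hFyy _ _ hs2]
  have hzKc : kl_IsCoc₃ zK := by
    intro g h j l
    have h1 := hcK g h j
    have h2 := hyK j l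
    simp only [hzK]
    rw [h2]
    linear_combination (kass_yK K C' y l) * (-h1)
  obtain ⟨aK, ⟨Fa, hFa, hFaa⟩, hda⟩ := hH3 hp2 S hpS K hK hχ zK hzKl hzKc
  -- the normal level
  obtain ⟨F', hF', hnorm, hNK, hNF⟩ := kass_normal_level S K hK (Fc ⊔ Fy ⊔ Fa)
    ((hFc.sup hFy).sup hFa)
  have hNc : F'.fixingSubgroup ≤ Fc.fixingSubgroup := hNF.trans
    (IntermediateField.fixingSubgroup_antitone (le_sup_left.trans le_sup_left))
  have hNy : F'.fixingSubgroup ≤ Fy.fixingSubgroup := hNF.trans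
    (IntermediateField.fixingSubgroup_antitone (le_sup_right.trans le_sup_left))
  have hNa : F'.fixingSubgroup ≤ Fa.fixingSubgroup := hNF.trans
    (IntermediateField.fixingSubgroup_antitone le_sup_right)
  haveI : F'.fixingSubgroup.Normal := hnorm
  obtain ⟨E, hEc, hEd⟩ := shin_main₃ (ZMod p) s55_GQ (ka_X K) A' (pt_T p) C' F'.fixingSubgroup
    (fun s hs x => ka_fix hn (hNK hs) x) ({ka_x₀ K} : Set (ka_X K)) ka_x₀_covers
    (kass_w K A A' C C' c y) (kass_w_coc K A A' C C' c hcc y hy)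
    (kass_w_const K A A' C C' F'.fixingSubgroup c
      (fun g g' s s' hs hs' => hFcc g g' s s' (hNc hs) (hNc hs')) y hy
      (fun g s hs => hFyy g s (hNy hs)))
    (kass_ext₂ K hn aK)
    (fun t _ g g' s s' hs hs' => by
      have h := hFaa ⟨g, kass_stab_le K hn t g.2⟩ ⟨g', kass_stab_le K hn t g'.2⟩
        ⟨s, kass_stab_le K hn t s.2⟩ ⟨s', kass_stab_le K hn t s'.2⟩ (hNa hs) (hNa hs')
      exact h)
    (fun t ht u v w => by
      rw [Set.mem_singleton_iff] at ht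
      subst ht
      have hu := kass_stab_le K hn _ u.2
      have hv := kass_stab_le K hn _ v.2
      have hw := kass_stab_le K hn _ w.2
      rw [kass_π_w]
      have h1 := hda (⟨u, hu⟩, ⟨v, hv⟩, ⟨w, hw⟩)
      simp only [kl_d₂, hzK, kass_cK_apply, kass_yK_apply] at h1
      simp only [shp_d₂, kass_ext₂, Subgroup.subtype_apply]
      rw [kass_T_fix K hχ hu, kass_π'_fix K C' hn hχ (K.fixingSubgroup.mul_mem hu hv)]
      exact h1.symm)
  refine ⟨E, ⟨F', hF', fun g g' s s' hs hs' => hEc g g' s s' hs hs'⟩, fun g h j t => ?_⟩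
  rw [hEd, kass_π_w]

end Setup

section Setup

variable {p : ℕ} [Fact p.Prime] (S : Finset Nat.Primes)
  (K : IntermediateField ℚ (AlgebraicClosure ℚ))

variable (A A' : Rep.{0, 0, 0} (ZMod p) s55_GQ)
  (C : shp_Coord (ka_X K) A (Rep.trivial (ZMod p) s55_GQ (ZMod p)))
  (C' : shp_Coord (ka_X K) A' (pt_T p))

/-- The trace `A' → F_p(1)`, `φ ↦ ∑_x π'_x φ`, is equivariant. -/
theorem kass_tr_ρ [Fintype (ka_X K)] (g : s55_GQ) (m : A') :
    ∑ t : ka_X K, C'.π t (A'.ρ g m) = (pt_T p).ρ g (∑ t : ka_X K, C'.π t m) := by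
  rw [map_sum]
  have h1 : ∀ t : ka_X K, C'.π t (A'.ρ g m) = (pt_T p).ρ g (C'.π (g⁻¹ • t) m) :=
    fun t => shin_π_ρ C' g t m
  rw [Finset.sum_congr rfl (fun t _ => h1 t)]
  exact Equiv.sum_comp (MulAction.toPerm g⁻¹ : Equiv.Perm (ka_X K))
    (fun t => (pt_T p).ρ g (C'.π t m))

/-- **The trace of `E` cobounds the cup product.** -/
theorem kass_tr_d [Fintype (ka_X K)] (ev : A →ₗ[ZMod p] A' →ₗ[ZMod p] pt_T p)
    (hev : ∀ (a : A) (φ : A'), ev a φ =
      ∑ t : ka_X K, (show ZMod p from C.π t a) • C'.π t φ)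
    (c : s55_GQ × s55_GQ → A) (y : s55_GQ → A') (E : s55_GQ × s55_GQ → A')
    (hE : ∀ (g h j : s55_GQ) (t : ka_X K),
      C'.π t (shp_d₂ (MonoidHom.id s55_GQ) A' E (g, h, j)) =
        (show ZMod p from C.π t (c (g, h))) • C'.π t (A'.ρ (g * h) (y j)))
    (ε : s55_GQ × s55_GQ → pt_T p)
    (hε : ∀ g h : s55_GQ, ε (g, h) = ∑ t : ka_X K, C'.π t (E (g, h))) :
    (d₂₃ (pt_T p)).hom ε = cup₂₁ ev c y := by
  funext x
  obtain ⟨g, h, j⟩ := x
  rw [d₂₃_hom_apply, cup₂₁_apply, hev, hε, hε, hε, hε, ← kass_tr_ρ K A' C',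
    ← Finset.sum_sub_distrib, ← Finset.sum_add_distrib, ← Finset.sum_sub_distrib]
  refine Finset.sum_congr rfl fun t _ => ?_
  rw [← hE g h j t]
  simp only [shp_d₂, MonoidHom.id_apply, map_add, map_sub]

/-- The Shapiro component at `x₀` of a 2-cochain of `A'`, restricted to `U`. -/
def kass_εK {A'} (C' : shp_Coord (ka_X K) A' (pt_T p)) (E : s55_GQ × s55_GQ → A') :
    ↥K.fixingSubgroup × ↥K.fixingSubgroup → ZMod p :=
  fun x => C'.π (ka_x₀ K) (E ((x.1 : s55_GQ), (x.2 : s55_GQ)))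

theorem kass_εK_apply {A'} (C' : shp_Coord (ka_X K) A' (pt_T p)) (E : s55_GQ × s55_GQ → A')
    (u v : ↥K.fixingSubgroup) :
    kass_εK K C' E (u, v) = C'.π (ka_x₀ K) (E ((u : s55_GQ), (v : s55_GQ))) := rfl

theorem kass_εK_level {A'} (C' : shp_Coord (ka_X K) A' (pt_T p)) (E : s55_GQ × s55_GQ → A')
    (hE : IsLevelConstantS₂ S E) : kl_LevelS₂ S K (kass_εK K C' E) := by
  obtain ⟨F, hF, hFE⟩ := hE
  refine ⟨F, hF, fun g g' s s' hs hs' => ?_⟩
  simp only [kass_εK_apply, Subgroup.coe_mul]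
  rw [hFE _ _ _ _ hs hs']

theorem kass_εK_d (hn : K.fixingSubgroup.Normal)
    (hχ : ∀ s ∈ K.fixingSubgroup, cycloChar p s = 1)
    (c : s55_GQ × s55_GQ → A) (y : s55_GQ → A') (E : s55_GQ × s55_GQ → A')
    (hE : ∀ (g h j : s55_GQ) (t : ka_X K),
      C'.π t (shp_d₂ (MonoidHom.id s55_GQ) A' E (g, h, j)) =
        (show ZMod p from C.π t (c (g, h))) • C'.π t (A'.ρ (g * h) (y j)))
    (g h j : ↥K.fixingSubgroup) :
    kl_d₂ (kass_εK K C' E) (g, h, j) = kass_cK K C c (g, h) * kass_yK K C' y j := by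
  have h1 := hE (g : s55_GQ) (h : s55_GQ) (j : s55_GQ) (ka_x₀ K)
  simp only [shp_d₂, MonoidHom.id_apply, map_add, map_sub] at h1
  rw [kass_π'_fix K C' hn hχ g.2, kass_π'_fix K C' hn hχ (K.fixingSubgroup.mul_mem g.2 h.2)] at h1
  simp only [kl_d₂, kass_εK_apply, kass_cK_apply, kass_yK_apply, Subgroup.coe_mul]
  exact h1

end Setup

end Fermat.Agent.S55
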