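/-
S55 (Poitou-Tate), BRIDGE part 2, K→A package (6) [A-SHA-SURJ-OF] (helper21).  Prefix `kass_`.
Part 3: the local primitives.

`kass_exists_b` : let `c` be a 2-cocycle of `G_ℚ` in `A`, constant modulo a normal finite level,
whose Shapiro component `c_K = π_{x₀} ∘ c|U²` is, at every place `(q, g₀)`, `g₀ ∈ R q`, the
coboundary of a smooth 1-cochain of `kl_H K q`.  Then the restriction of `c` to the decomposition
group at `q` is the coboundary of a continuous 1-cochain.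
PROOF: [SHAP-INJ 2] for `Γ_q` acting on `X = G_ℚ / U` through `loc_q`, with the covering set
`ka_T R q`; the component at `t = g₀ x₀` is `c_K ∘ r_{q,g₀} - d (π_t ∘ κ_{g₀} ∘ loc_q)` with the
conjugation homotopy `κ_{g₀}` of [SHAP-CONJ 2]; the level is the fixing subgroup of a finite
normal extension of `ℚ_q` (`kras_cover`), and smooth = continuous by `kras_level_of_smooth₁`.
-/
import Mathlib
import Fermat.Agent.S55.Bridge.KAShaSurjE
import Fermat.Agent.S55.Bridge.ShapInj2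
import Fermat.Agent.S55.Bridge.ShapConj
import Fermat.Agent.S55.Local.Krasner

set_option autoImplicit false
set_option maxHeartbeats 1000000
set_option synthInstance.maxHeartbeats 400000
set_option linter.style.haveILetI false
set_option linter.unusedVariables false
set_option linter.unusedSectionVars false
open CategoryTheory Module groupCohomology ExtCitation

noncomputable section

namespace Fermat.Agent.S55

theorem kass_coc₂ {k G : Type} [CommRing k] [Group G] (B : Rep.{0, 0, 0} k G)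
    (c : G × G → B) (hc : c ∈ cocycles₂ B) (x : G × G × G) :
    shp_d₂ (MonoidHom.id G) B c x = 0 := by
  obtain ⟨g, h, j⟩ := x
  have h1 := (mem_cocycles₂_iff c).1 hc g h j
  simp only [shp_d₂, MonoidHom.id_apply]
  have h2 : ∀ a b c d : B, b + d = a + c → a - b + c - d = 0 := by
    intro a b c d h
    have : a - b + c - d = a + c - (b + d) := by abel
    rw [this, h, sub_self]
  exact h2 _ _ _ _ h1

section Setup

variable {p : ℕ} [Fact p.Prime] (S : Finset Nat.Primes)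
  (K : IntermediateField ℚ (AlgebraicClosure ℚ))

variable (A A' : Rep.{0, 0, 0} (ZMod p) s55_GQ)
  (C : shp_Coord (ka_X K) A (Rep.trivial (ZMod p) s55_GQ (ZMod p)))
  (C' : shp_Coord (ka_X K) A' (pt_T p))

/-- **The local primitives** ([SHAP-CONJ 2] + [SHAP-INJ 2] for the local group acting on
`X = G_ℚ / U`): if the Shapiro component `c_K` of the level cocycle `c` is a smooth coboundary at
all places above `q`, then the restriction of `c` to the decomposition group at `q` is the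
coboundary of a continuous 1-cochain. -/
theorem kass_exists_b [Finite (ka_X K)] [hn : K.fixingSubgroup.Normal]
    (q : ↥S) (R : ↥S → Finset s55_GQ) (hR : kl_IsReps S K R)
    (c : s55_GQ × s55_GQ → A) (hc : c ∈ cocycles₂ A)
    (F' : IntermediateField ℚ (AlgebraicClosure ℚ)) (hF'f : FiniteDimensional ℚ F')
    (hF'n : F'.fixingSubgroup.Normal) (hNK : F'.fixingSubgroup ≤ K.fixingSubgroup)
    (hcN : shp_Const₂ (MonoidHom.id s55_GQ) F'.fixingSubgroup c)
    (hloc : ∀ g ∈ R q, ∃ b : ↥(kl_H K (q : Nat.Primes)) → ZMod p,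
      lcf_Smooth₁ (kl_H K (q : Nat.Primes)) b ∧
        ∀ τ τ' : ↥(kl_H K (q : Nat.Primes)),
          kass_cK K C c (kl_r K (q : Nat.Primes) g τ, kl_r K (q : Nat.Primes) g τ') =
            kl_d₁ b (τ, τ')) :
    ∃ bq : lcf_Gal ((q : Nat.Primes) : ℕ) → A,
      IsLevelConstant₁ (localGaloisToGlobal ((q : Nat.Primes) : ℕ)) bq ∧
      ∀ σ τ : lcf_Gal ((q : Nat.Primes) : ℕ),
        A.ρ (localGaloisToGlobal ((q : Nat.Primes) : ℕ) σ) (bq τ) - bq (σ * τ) + bq σ =
          c (localGaloisToGlobal ((q : Nat.Primes) : ℕ) σ,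
            localGaloisToGlobal ((q : Nat.Primes) : ℕ) τ) := by
  classical
  letI : MulAction (lcf_Gal ((q : Nat.Primes) : ℕ)) (ka_X K) :=
    MulAction.compHom (ka_X K) (localGaloisToGlobal ((q : Nat.Primes) : ℕ))
  haveI := hF'n
  have hcd := kass_coc₂ A c hc
  -- the conjugation homotopies
  have hκ : ∀ g₀ : s55_GQ, ∃ κ : s55_GQ → A,
      shp_Const₁ (MonoidHom.id s55_GQ) F'.fixingSubgroup κ ∧ ∀ σ τ : s55_GQ,
        A.ρ g₀ (c (g₀⁻¹ * σ * g₀, g₀⁻¹ * τ * g₀)) - c (σ, τ) =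
          shp_d₁ (MonoidHom.id s55_GQ) A κ (σ, τ) :=
    fun g₀ => shcj_main₂ (ZMod p) s55_GQ A F'.fixingSubgroup c hcd hcN g₀
  choose κ hκc hκd using hκ
  -- the local primitives of the components
  choose! b hb using hloc
  have hsm : ∀ g : s55_GQ, ∃ E : IntermediateField ℚ_[((q : Nat.Primes) : ℕ)]
      (PadicAlgCl ((q : Nat.Primes) : ℕ)), FiniteDimensional ℚ_[((q : Nat.Primes) : ℕ)] E ∧
      (g ∈ R q → ∀ x s : ↥(kl_H K (q : Nat.Primes)),
        (s : lcf_Gal ((q : Nat.Primes) : ℕ)) ∈ E.fixingSubgroup → b g (x * s) = b g x) := by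
    intro g
    by_cases hg : g ∈ R q
    · obtain ⟨E, hE, h⟩ := (hb g hg).1
      exact ⟨E, hE, fun _ => h⟩
    · exact ⟨⊥, inferInstance, fun h => absurd h hg⟩
  choose Eg hEgf hEg using hsm
  have hE₀f : FiniteDimensional ℚ_[((q : Nat.Primes) : ℕ)] ↥((R q).sup Eg) :=
    Finset.sup_induction (p := fun E : IntermediateField ℚ_[((q : Nat.Primes) : ℕ)]
        (PadicAlgCl ((q : Nat.Primes) : ℕ)) => FiniteDimensional ℚ_[((q : Nat.Primes) : ℕ)] ↥E)
      inferInstance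
      (fun a ha b hb => by
        haveI := ha
        haveI := hb
        exact IntermediateField.finiteDimensional_sup a b)
      (fun g _ => hEgf g)
  obtain ⟨E, hEn, hEf, hE₀E, hEF'⟩ := @kras_cover ((q : Nat.Primes) : ℕ) _ ((R q).sup Eg) hE₀f
    F' hF'f
  haveI hNn : E.fixingSubgroup.Normal := by
    haveI := hEn
    haveI : IsGalois ℚ_[((q : Nat.Primes) : ℕ)] E := ⟨⟩
    infer_instance
  have hEg' : ∀ g ∈ R q, E.fixingSubgroup ≤ (Eg g).fixingSubgroup := fun g hg =>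
    IntermediateField.fixingSubgroup_antitone ((Finset.le_sup hg).trans hE₀E)
  -- stabilizers
  have hstab : ∀ (t : ka_X K) (v : lcf_Gal ((q : Nat.Primes) : ℕ)),
      v ∈ MulAction.stabilizer (lcf_Gal ((q : Nat.Primes) : ℕ)) t → v ∈ kl_H K (q : Nat.Primes) := by
    intro t v hv
    have := ka_stab_comp hn (localGaloisToGlobal ((q : Nat.Primes) : ℕ)) t
    rw [this] at hv
    exact hv
  -- the Shapiro components of the primitives
  set a' : ∀ t : ka_X K, ↥(MulAction.stabilizer (lcf_Gal ((q : Nat.Primes) : ℕ)) t) →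
      Rep.res (localGaloisToGlobal ((q : Nat.Primes) : ℕ))
        (Rep.trivial (ZMod p) s55_GQ (ZMod p)) := fun t v =>
    if h : ∃ g₀ ∈ R q, g₀ • ka_x₀ K = t then
      (b h.choose ⟨v, hstab t v v.2⟩ -
        C.π t (κ h.choose (localGaloisToGlobal ((q : Nat.Primes) : ℕ) (v : lcf_Gal _))) : ZMod p)
    else (0 : ZMod p) with ha'
  have hT := ka_T_covers (K := K) hR q
  have hN : ∀ s ∈ E.fixingSubgroup, ∀ x : ka_X K, s • x = x :=
    fun s hs x => ka_fix hn (hNK (hEF' s hs)) x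
  set z : lcf_Gal ((q : Nat.Primes) : ℕ) × lcf_Gal ((q : Nat.Primes) : ℕ) →
      Rep.res (localGaloisToGlobal ((q : Nat.Primes) : ℕ)) A :=
    fun x => c (localGaloisToGlobal ((q : Nat.Primes) : ℕ) x.1,
      localGaloisToGlobal ((q : Nat.Primes) : ℕ) x.2) with hz
  have hzd : ∀ x, shp_d₂ (MonoidHom.id (lcf_Gal ((q : Nat.Primes) : ℕ)))
      (Rep.res (localGaloisToGlobal ((q : Nat.Primes) : ℕ)) A) z x = 0 := by
    intro x
    have := hcd (localGaloisToGlobal ((q : Nat.Primes) : ℕ) x.1,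
      localGaloisToGlobal ((q : Nat.Primes) : ℕ) x.2.1,
      localGaloisToGlobal ((q : Nat.Primes) : ℕ) x.2.2)
    simp only [shp_d₂, MonoidHom.id_apply] at this
    simp only [shp_d₂, MonoidHom.id_apply, hz, map_mul]
    exact this
  have hzc : shp_Const₂ (MonoidHom.id (lcf_Gal ((q : Nat.Primes) : ℕ))) E.fixingSubgroup z := by
    intro g g' s s' hs hs'
    simp only [MonoidHom.id_apply] at hs hs'
    simp only [hz, map_mul]
    exact hcN _ _ _ _ (hEF' s hs) (hEF' s' hs')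
  have ha'c : ∀ t ∈ ((ka_T (K := K) R q : Finset (ka_X K)) : Set (ka_X K)),
      shp_Const₁ (MulAction.stabilizer (lcf_Gal ((q : Nat.Primes) : ℕ)) t).subtype
        E.fixingSubgroup (a' t) := by
    intro t ht g s hs
    simp only [Subgroup.subtype_apply] at hs
    obtain ⟨g₀', hg₀', rfl⟩ := Finset.mem_image.1 ht
    have hex : ∃ g₀ ∈ R q, g₀ • ka_x₀ K = g₀' • ka_x₀ K := ⟨g₀', hg₀', rfl⟩
    have hs1 : (s : lcf_Gal ((q : Nat.Primes) : ℕ)) ∈ E.fixingSubgroup := hs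
    have hs2 : localGaloisToGlobal ((q : Nat.Primes) : ℕ) (s : lcf_Gal ((q : Nat.Primes) : ℕ)) ∈
        F'.fixingSubgroup := hEF' _ hs1
    have h1 : b hex.choose (⟨g, hstab _ g g.2⟩ * ⟨s, hstab _ s s.2⟩) =
        b hex.choose ⟨g, hstab _ g g.2⟩ :=
      hEg hex.choose hex.choose_spec.1 ⟨g, hstab _ g g.2⟩ ⟨s, hstab _ s s.2⟩
        (hEg' _ hex.choose_spec.1 hs1)
    have h2 : κ hex.choose (localGaloisToGlobal ((q : Nat.Primes) : ℕ)
          (g : lcf_Gal ((q : Nat.Primes) : ℕ)) *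
        localGaloisToGlobal ((q : Nat.Primes) : ℕ) (s : lcf_Gal ((q : Nat.Primes) : ℕ))) =
        κ hex.choose (localGaloisToGlobal ((q : Nat.Primes) : ℕ)
          (g : lcf_Gal ((q : Nat.Primes) : ℕ))) :=
      hκc hex.choose _ _ hs2
    rw [← map_mul] at h2
    have e1 : (⟨((g * s : ↥(MulAction.stabilizer (lcf_Gal ((q : Nat.Primes) : ℕ))
        (g₀' • ka_x₀ K))) : lcf_Gal _), hstab _ _ (g * s).2⟩ : ↥(kl_H K (q : Nat.Primes))) =
        ⟨g, hstab _ g g.2⟩ * ⟨s, hstab _ s s.2⟩ := rfl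
    have e2 : a' (g₀' • ka_x₀ K) (g * s) = (b hex.choose ⟨(g * s : ↥(MulAction.stabilizer
        (lcf_Gal ((q : Nat.Primes) : ℕ)) (g₀' • ka_x₀ K))), hstab _ _ (g * s).2⟩ -
        C.π (g₀' • ka_x₀ K) (κ hex.choose (localGaloisToGlobal ((q : Nat.Primes) : ℕ)
          ((g * s : ↥(MulAction.stabilizer (lcf_Gal ((q : Nat.Primes) : ℕ))
            (g₀' • ka_x₀ K))) : lcf_Gal _))) : ZMod p) := by
      simp only [ha']
      rw [dif_pos hex]
    have e3 : a' (g₀' • ka_x₀ K) g = (b hex.choose ⟨g, hstab _ _ g.2⟩ -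
        C.π (g₀' • ka_x₀ K) (κ hex.choose (localGaloisToGlobal ((q : Nat.Primes) : ℕ)
          (g : lcf_Gal _))) : ZMod p) := by
      simp only [ha']
      rw [dif_pos hex]
    rw [e2, e3, e1, h1, Subgroup.coe_mul, h2]
  have ha'd : ∀ t ∈ ((ka_T (K := K) R q : Finset (ka_X K)) : Set (ka_X K)),
      ∀ v w : ↥(MulAction.stabilizer (lcf_Gal ((q : Nat.Primes) : ℕ)) t),
        (ka_res (localGaloisToGlobal ((q : Nat.Primes) : ℕ)) C).π t
            (z ((v : lcf_Gal ((q : Nat.Primes) : ℕ)), (w : lcf_Gal ((q : Nat.Primes) : ℕ)))) =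
          shp_d₁ (MulAction.stabilizer (lcf_Gal ((q : Nat.Primes) : ℕ)) t).subtype
            (Rep.res (localGaloisToGlobal ((q : Nat.Primes) : ℕ))
              (Rep.trivial (ZMod p) s55_GQ (ZMod p))) (a' t) (v, w) := by
    intro t ht v w
    obtain ⟨g₀', hg₀', hg₀'t⟩ := Finset.mem_image.1 ht
    have hex : ∃ g₀ ∈ R q, g₀ • ka_x₀ K = t := ⟨g₀', hg₀', hg₀'t⟩
    have ea : ∀ u : ↥(MulAction.stabilizer (lcf_Gal ((q : Nat.Primes) : ℕ)) t),
        a' t u = (b hex.choose ⟨u, hstab _ _ u.2⟩ -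
          C.π t (κ hex.choose (localGaloisToGlobal ((q : Nat.Primes) : ℕ)
            (u : lcf_Gal ((q : Nat.Primes) : ℕ)))) : ZMod p) := by
      intro u
      simp only [ha']
      rw [dif_pos hex]
    obtain ⟨hg₀, hg₀t⟩ := hex.choose_spec
    generalize hex.choose = g₀ at ea hg₀ hg₀t
    clear hex hg₀'t ht
    subst hg₀t
    have hv : localGaloisToGlobal ((q : Nat.Primes) : ℕ) (v : lcf_Gal ((q : Nat.Primes) : ℕ)) ∈
        K.fixingSubgroup := hstab _ _ v.2
    have hw : localGaloisToGlobal ((q : Nat.Primes) : ℕ) (w : lcf_Gal ((q : Nat.Primes) : ℕ)) ∈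
        K.fixingSubgroup := hstab _ _ w.2
    have h1 := hκd g₀ (localGaloisToGlobal ((q : Nat.Primes) : ℕ)
        (v : lcf_Gal ((q : Nat.Primes) : ℕ)))
      (localGaloisToGlobal ((q : Nat.Primes) : ℕ) (w : lcf_Gal ((q : Nat.Primes) : ℕ)))
    have h2 := congrArg (C.π (g₀ • ka_x₀ K)) h1
    simp only [shp_d₁, MonoidHom.id_apply, map_add, map_sub] at h2
    rw [kass_π_fix K C hn hv] at h2
    have h3 : C.π (g₀ • ka_x₀ K) (A.ρ g₀
        (c (g₀⁻¹ * localGaloisToGlobal ((q : Nat.Primes) : ℕ)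
            (v : lcf_Gal ((q : Nat.Primes) : ℕ)) * g₀,
          g₀⁻¹ * localGaloisToGlobal ((q : Nat.Primes) : ℕ)
            (w : lcf_Gal ((q : Nat.Primes) : ℕ)) * g₀))) =
        kl_d₁ (b g₀) (⟨v, hstab _ _ v.2⟩, ⟨w, hstab _ _ w.2⟩) := by
      rw [← (hb g₀ hg₀).2]
      exact C.equiv g₀ (ka_x₀ K) _
    rw [h3] at h2
    simp only [kl_d₁] at h2
    rw [ka_res_π]
    simp only [shp_d₁, Subgroup.subtype_apply]
    rw [ea v, ea w, ea (v * w)]
    have e1 : (⟨((v * w : ↥(MulAction.stabilizer (lcf_Gal ((q : Nat.Primes) : ℕ))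
        (g₀ • ka_x₀ K))) : lcf_Gal ((q : Nat.Primes) : ℕ)), hstab _ _ (v * w).2⟩ :
          ↥(kl_H K (q : Nat.Primes))) = ⟨v, hstab _ _ v.2⟩ * ⟨w, hstab _ _ w.2⟩ := rfl
    rw [e1, Subgroup.coe_mul, map_mul]
    have h4 : C.π (g₀ • ka_x₀ K) (z ((v : lcf_Gal ((q : Nat.Primes) : ℕ)),
        (w : lcf_Gal ((q : Nat.Primes) : ℕ)))) =
        kl_d₁ (b g₀) (⟨v, hstab _ _ v.2⟩, ⟨w, hstab _ _ w.2⟩) -
          (C.π (g₀ • ka_x₀ K) (κ g₀ (localGaloisToGlobal ((q : Nat.Primes) : ℕ)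
            (w : lcf_Gal ((q : Nat.Primes) : ℕ)))) -
          C.π (g₀ • ka_x₀ K) (κ g₀ (localGaloisToGlobal ((q : Nat.Primes) : ℕ)
            (v : lcf_Gal ((q : Nat.Primes) : ℕ)) *
            localGaloisToGlobal ((q : Nat.Primes) : ℕ) (w : lcf_Gal ((q : Nat.Primes) : ℕ)))) +
          C.π (g₀ • ka_x₀ K) (κ g₀ (localGaloisToGlobal ((q : Nat.Primes) : ℕ)
            (v : lcf_Gal ((q : Nat.Primes) : ℕ))))) := by
      rw [← h2]
      simp only [kl_d₁, hz]
      abel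
    rw [h4]
    simp only [kl_d₁]
    change _ = ((b g₀ ⟨w, hstab _ _ w.2⟩ - _ : ZMod p) - (_ - _ : ZMod p) + (_ - _ : ZMod p) : ZMod p)
    abel
  obtain ⟨bq, hbqc, hbqd⟩ := shin_main₂ (ZMod p) (lcf_Gal ((q : Nat.Primes) : ℕ)) (ka_X K)
    (Rep.res (localGaloisToGlobal ((q : Nat.Primes) : ℕ)) A)
    (Rep.res (localGaloisToGlobal ((q : Nat.Primes) : ℕ)) (Rep.trivial (ZMod p) s55_GQ (ZMod p)))
    (ka_res (localGaloisToGlobal ((q : Nat.Primes) : ℕ)) C) E.fixingSubgroup hN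
    ((ka_T (K := K) R q : Finset (ka_X K)) : Set (ka_X K)) hT z hzd hzc a' ha'c ha'd
  refine ⟨bq, ?_, fun σ τ => ?_⟩
  · apply kras_level_of_smooth₁
    exact ⟨E, hEf, fun g s hs => hbqc g s hs⟩
  · exact hbqd (σ, τ)

end Setup

end Fermat.Agent.S55
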