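/-
S55 (Poitou-Tate), BRIDGE part 2, K→A package (6) [A-SHA-SURJ-OF] (helper21).  Prefix `kass_`.

`kass_main : kl_ShaSurjStatement → kl_H3Statement → kl_RecQStatement → ab_ShaSurjOfStatement`.

PROOF.  `A = pt_A p K`, `A' = A.dualTwist χ`, `X = G_ℚ / U`, coordinates `ka_CA`, `ka_CA'`.
(1) A functional `l` on `H¹_S(A')` is `l_K ∘ ψ`, `ψ [y] = π'_{x₀} ∘ y|U` (`kass_exists_lK`).
(2) [K-SHA-SURJ] gives `c_K ∈ Ш²(G_{K,S}, F_p)` inducing `l_K` on `Ш¹`; [SHAP-SURJ 2] lifts it to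
    a level-`S` cocycle `c` of `A` (`kass_exists_c`); `c` is locally a coboundary of continuous
    cochains `b_v` (`kass_exists_b`, `larch_cob₂_inl`), so `x = (c, b)` is a cone cocycle.
(3) For a locally trivial `y` and any `ε` with `d ε = c ∪ y`: `y_K = ψ y ∈ Ш¹` (`kass_sha₁`);
    [K-H3] + [SHAP-INJ 3] give `E` with `d E = c ·∪ y` (`kass_exists_E`); `ε' = tr ∘ E` has
    `d ε' = c ∪ y`, so `ε' - ε` is a level-`S` cocycle of `F_p(1)` and its local invariants sum to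
    zero ([K-REC] via `rrd_main`); the shared calculation `kasc_main` (helper12) identifies
    `∑_v ptinv_v [b_v ∪ loc_v y - loc_v ε']` with `- ∑_w inv_w (ε_K ∘ r_w)`, a value of the
    `Ш`-pairing of `c_K` and `y_K`, which is `l_K y_K = l [y]`.
-/
import Mathlib
import Fermat.Agent.S55.Bridge.KAShaSurjLoc
import Fermat.Agent.S55.Bridge.KAShaCalc
import Fermat.Agent.S55.Bridge.RecRed
import Fermat.Agent.S55.Local.Arch

set_option autoImplicit false
set_option maxHeartbeats 1000000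
set_option synthInstance.maxHeartbeats 400000
set_option linter.style.haveILetI false
set_option linter.unusedVariables false
set_option linter.unusedSectionVars false
open CategoryTheory Module groupCohomology ExtCitation

noncomputable section

namespace Fermat.Agent.S55

section Setup

variable {p : ℕ} [Fact p.Prime] (S : Finset Nat.Primes)
  (K : IntermediateField ℚ (AlgebraicClosure ℚ))

/-- The conclusion of the shared calculation for a module `A` with coordinates. -/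
def kass_CalcAt (inv : lcf_InvType) (ptinv : pt_InvFamily) [K.fixingSubgroup.Normal]
    [Fintype (ka_X K)] (R : ↥S → Finset s55_GQ) (A : Rep.{0, 0, 0} (ZMod p) s55_GQ)
    (C : shp_Coord (ka_X K) A (Rep.trivial (ZMod p) s55_GQ (ZMod p)))
    (C' : shp_Coord (ka_X K) (A.dualTwist (cycloChar p)) (pt_T p)) : Prop :=
  ∀ (x : ↥(cone_Z S A)) (y : cocycles₁ (A.dualTwist (cycloChar p))),
    IsLevelConstantS₁ S y →
    (∀ (q : ↥S), ∀ g₀ ∈ R q, ∀ τ : ↥(kl_H K (q : Nat.Primes)),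
      C'.π (kasc_x₀ K) (y.1 ((kl_r K (q : Nat.Primes) g₀ τ : ↥K.fixingSubgroup) : s55_GQ)) = 0) →
  ∀ E : s55_GQ × s55_GQ → A.dualTwist (cycloChar p), IsLevelConstantS₂ S E →
    (∀ (g h j : s55_GQ) (x' : ka_X K),
      C'.π x' (shp_d₂ (MonoidHom.id s55_GQ) (A.dualTwist (cycloChar p)) E (g, h, j)) =
        (show ZMod p from C.π x' (x.1.1 (g, h))) •
          C'.π x' ((A.dualTwist (cycloChar p)).ρ (g * h) (y.1 j))) →
  ∀ ε : s55_GQ × s55_GQ → pt_T p,
    (∀ g h : s55_GQ, ε (g, h) = ∑ x' : ka_X K, C'.π x' (E (g, h))) →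
  ∀ (hcoc : ∀ v : extArithIndex S,
      cup₁₁ (pt_evv S v A) (x.1.2 v)
          (cone_loc₁ S (A.dualTwist (cycloChar p)) v y) -
          cone_loc₂ S (pt_T p) v ε ∈
        levelCocycles₂ (extArithLoc S v) (Rep.res (extArithLoc S v) (pt_T p))),
    kl_e (∑ v : extArithIndex S, ptinv p S v (continuousH2π _ _ ⟨_, hcoc v⟩)) =
      - ∑ q : ↥S, ∑ g₀ ∈ R q, kl_inv K inv (q : Nat.Primes) g₀
          (fun z => (show ZMod p from C'.π (kasc_x₀ K)
            (E (((kl_r K (q : Nat.Primes) g₀ z.1 : ↥K.fixingSubgroup) : s55_GQ),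
              ((kl_r K (q : Nat.Primes) g₀ z.2 : ↥K.fixingSubgroup) : s55_GQ)))))

theorem kass_calcAt (hcalc : kasc_CalcStatement) {inv : lcf_InvType} {ptinv : pt_InvFamily}
    (hinv : lcf_IsInvSystem inv) (hcp : ld_Compat inv ptinv) (hp2 : p ≠ 2)
    (hpS : pPrime p ∈ S) [K.fixingSubgroup.Normal] [Fintype (ka_X K)]
    (hK : K.IsUnramifiedOutside S) (hχ : ∀ s ∈ K.fixingSubgroup, cycloChar p s = 1)
    (R : ↥S → Finset s55_GQ) (hR : kl_IsReps S K R) :
    kass_CalcAt S K inv ptinv R (pt_A p K) (ka_CA p K) (ka_CA' p K) :=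
  hcalc inv ptinv hinv hcp hp2 S hpS K hK hχ R hR (ka_CA p K) (ka_CA' p K)
    (fun a φ => ka_pt_ev_sum p K a φ)

end Setup

section Setup

variable {p : ℕ} [Fact p.Prime] (S : Finset Nat.Primes)
  (K : IntermediateField ℚ (AlgebraicClosure ℚ))

theorem kass_kl_e_injective : Function.Injective (kl_e (p := p)) := by
  intro a b h
  apply ptinv_e_injective p
  rw [ptinv_e_apply, ptinv_e_apply]
  exact h

/-- **The core of [A-SHA-SURJ-OF]**, for a module `A` with coordinates. -/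
theorem kass_core {inv : lcf_InvType} {ptinv : pt_InvFamily} (hinv : lcf_IsInvSystem inv)
    (hSS : kl_ShaSurjStatement) (hH3 : kl_H3Statement) (hRec : pt_RecStatement ptinv)
    (hp2 : p ≠ 2) (hpS : pPrime p ∈ S) [hn : K.fixingSubgroup.Normal] [Fintype (ka_X K)]
    (hK : K.IsUnramifiedOutside S) (hχ : ∀ s ∈ K.fixingSubgroup, cycloChar p s = 1)
    (R : ↥S → Finset s55_GQ) (hR : kl_IsReps S K R) (A : Rep.{0, 0, 0} (ZMod p) s55_GQ)
    (C : shp_Coord (ka_X K) A (Rep.trivial (ZMod p) s55_GQ (ZMod p)))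
    (C' : shp_Coord (ka_X K) (A.dualTwist (cycloChar p)) (pt_T p))
    (hev : ∀ (a : A) (φ : A.dualTwist (cycloChar p)), pt_ev A a φ =
      ∑ t : ka_X K, (show ZMod p from C.π t a) • C'.π t φ)
    (hcalc : kass_CalcAt S K inv ptinv R A C C') : ab_ShaSurj ptinv S A := by
  classical
  intro l
  obtain ⟨lK, hlK⟩ := kass_exists_lK S K (A.dualTwist (cycloChar p)) C' hK hn hχ l
  obtain ⟨cK, ⟨hcKc, hcKl, hcKloc⟩, hcKpair⟩ := hSS inv hinv hp2 S hpS K hK hχ R hR
    (fun f => lK f) (fun y y' => map_add lK y y')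
  obtain ⟨c, hc, hcπ⟩ := kass_exists_c S K A C hK hn cK hcKc hcKl
  have hcKeq : kass_cK K C c = cK := funext (fun x => hcπ x.1 x.2)
  obtain ⟨hcc, Fc, hFc, hFcc⟩ := hc
  obtain ⟨F', hF', hnorm, hNK, hNF⟩ := kass_normal_level S K hK Fc hFc
  -- the local primitives
  have hb : ∀ v : extArithIndex S, ∃ b : extArithLocalGroups S v → Rep.res (extArithLoc S v) A,
      IsLevelConstant₁ (extArithLoc S v) b ∧
        (d₁₂ (Rep.res (extArithLoc S v) A)).hom b = cone_loc₂ S A v c := by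
    intro v
    rcases v with u | q
    · exact larch_cob₂_inl S A hp2 rfl _ (rrd_loc_mem S A (Sum.inl u) c ⟨hcc, Fc, hFc, hFcc⟩).1
    · obtain ⟨bq, hbql, hbqd⟩ := kass_exists_b S K A C q R hR c hcc F' hF'.1 hnorm hNK
        (fun g g' s s' hs hs' => hFcc g g' s s' (hNF hs) (hNF hs'))
        (fun g hg => by
          rw [hcKeq]
          exact hcKloc q g hg)
      refine ⟨bq, hbql, ?_⟩
      funext x
      obtain ⟨σ, τ⟩ := x
      exact hbqd σ τ
  choose b hbl hbd using hb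
  refine ⟨⟨(c, b), ⟨hcc, Fc, hFc, hFcc⟩, fun v => ⟨hbl v, hbd v⟩⟩, ?_⟩
  intro y hy hloc ε hε hdε hcoc
  -- the Shapiro component of `y` lies in `Ш¹`
  have hyK : kl_IsSha₁ S K R (kass_yK K C' (y : s55_GQ → A.dualTwist (cycloChar p))) :=
    kass_sha₁ S K (A.dualTwist (cycloChar p)) C' hχ R y hy hloc
  have hyc : ∀ g h : s55_GQ, (y : s55_GQ → A.dualTwist (cycloChar p)) (g * h) =
      (A.dualTwist (cycloChar p)).ρ g ((y : s55_GQ → A.dualTwist (cycloChar p)) h) +
        (y : s55_GQ → A.dualTwist (cycloChar p)) g :=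
    (mem_cocycles₁_iff (y : s55_GQ → A.dualTwist (cycloChar p))).1 y.2
  -- the cochain `E`
  obtain ⟨E, hEl, hEd⟩ := kass_exists_E S K A (A.dualTwist (cycloChar p)) C C' hH3 hp2 hpS hK hn
    hχ c ⟨hcc, Fc, hFc, hFcc⟩ (y : s55_GQ → A.dualTwist (cycloChar p)) hyc hy
  -- its trace
  set ε' : s55_GQ × s55_GQ → pt_T p := fun x => ∑ t : ka_X K, C'.π t (E x) with hε'
  have hε'l : IsLevelConstantS₂ S ε' := hEl.comp (fun m => ∑ t : ka_X K, C'.π t m)
  have hε'd : (d₂₃ (pt_T p)).hom ε' =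
      cup₂₁ (pt_ev A) c (y : s55_GQ → A.dualTwist (cycloChar p)) :=
    kass_tr_d K A (A.dualTwist (cycloChar p)) C C' (pt_ev A) hev c _ E hEd ε' (fun g h => rfl)
  -- the difference is a level-`S` cocycle
  have hδ : ε' - ε ∈ levelCocyclesS₂ S (pt_T p) := by
    refine ⟨?_, (levelCochainsS₂ S (pt_T p)).sub_mem hε'l hε⟩
    change (d₂₃ (pt_T p)).hom (ε' - ε) = 0
    rw [map_sub, hε'd, hdε, sub_self]
  have hδloc : ∀ v : extArithIndex S, cone_loc₂ S (pt_T p) v (ε' - ε) ∈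
      levelCocycles₂ (extArithLoc S v) (Rep.res (extArithLoc S v) (pt_T p)) :=
    fun v => rrd_loc_mem S (pt_T p) v _ hδ
  have hcoc' : ∀ v : extArithIndex S,
      cup₁₁ (pt_evv S v A) (b v) (cone_loc₁ S (A.dualTwist (cycloChar p)) v y) -
          cone_loc₂ S (pt_T p) v ε' ∈
        levelCocycles₂ (extArithLoc S v) (Rep.res (extArithLoc S v) (pt_T p)) := by
    intro v
    have h1 := Submodule.sub_mem _ (hcoc v) (hδloc v)
    have h2 : cup₁₁ (pt_evv S v A) (b v) (cone_loc₁ S (A.dualTwist (cycloChar p)) v y) -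
        cone_loc₂ S (pt_T p) v ε - cone_loc₂ S (pt_T p) v (ε' - ε) =
        cup₁₁ (pt_evv S v A) (b v) (cone_loc₁ S (A.dualTwist (cycloChar p)) v y) -
          cone_loc₂ S (pt_T p) v ε' := by
      rw [map_sub]
      exact sub_sub_sub_cancel_right _ _ _
    rw [← h2]
    exact h1
  -- the shared calculation
  have h3 := hcalc ⟨(c, b), ⟨hcc, Fc, hFc, hFcc⟩, fun v => ⟨hbl v, hbd v⟩⟩ y hy hyK.2.2 E hEl hEd
    ε' (fun g h => rfl) hcoc'
  -- the `Ш`-pairing
  have hpair : kl_ShaPair inv S K R cK (kass_yK K C' (y : s55_GQ → A.dualTwist (cycloChar p)))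
      (- ∑ q : ↥S, ∑ g₀ ∈ R q, kl_inv K inv (q : Nat.Primes) g₀
        (fun z => (show ZMod p from C'.π (kasc_x₀ K)
          (E (((kl_r K (q : Nat.Primes) g₀ z.1 : ↥K.fixingSubgroup) : s55_GQ),
            ((kl_r K (q : Nat.Primes) g₀ z.2 : ↥K.fixingSubgroup) : s55_GQ)))))) := by
    refine ⟨kass_εK K C' E, kass_εK_level S K C' E hEl, fun g h j => ?_, rfl⟩
    rw [kass_εK_d K A (A.dualTwist (cycloChar p)) C C' hn hχ c _ E hEd, hcKeq]
  have h4 := hcKpair _ _ hyK hpair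
  have h5 : ∑ v : extArithIndex S, ptinv p S v (continuousH2π _ _ ⟨_, hcoc' v⟩) =
      lK (kass_yK K C' (y : s55_GQ → A.dualTwist (cycloChar p))) :=
    kass_kl_e_injective (h3.trans h4)
  -- reciprocity for the difference
  have h6 : ∑ v : extArithIndex S, ptinv p S v (continuousH2π _ _ ⟨_, hδloc v⟩) = 0 :=
    hRec hp2 S hpS (continuousH2Sπ S (pt_T p) ⟨ε' - ε, hδ⟩)
  -- conclusion
  have h7 : ∀ v : extArithIndex S, ptinv p S v (continuousH2π _ _ ⟨_, hcoc v⟩) =
      ptinv p S v (continuousH2π _ _ ⟨_, hcoc' v⟩) +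
        ptinv p S v (continuousH2π _ _ ⟨_, hδloc v⟩) := by
    intro v
    rw [← map_add, ← map_add]
    congr 2
    apply Subtype.ext
    change _ = (_ - cone_loc₂ S (pt_T p) v ε') + cone_loc₂ S (pt_T p) v (ε' - ε)
    rw [map_sub]
    exact (sub_add_sub_cancel _ _ _).symm
  rw [Finset.sum_congr rfl (fun v _ => h7 v), Finset.sum_add_distrib, h5, h6, add_zero]
  exact hlK y hy

end Setup

/-- **[A-SHA-SURJ-OF]** (K→A package 6). -/
theorem kass_main :
    kl_ShaSurjStatement → kl_H3Statement → kl_RecQStatement → ab_ShaSurjOfStatement := by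
  intro hSS hH3 hRecQ inv ptinv hinv hcp p _ hp2 S hpS K hK hn hχ
  classical
  haveI := hn
  haveI : Finite (ka_X K) := ka_finite_X K hK
  letI : Fintype (ka_X K) := Fintype.ofFinite _
  obtain ⟨R, hR⟩ := ka_exists_reps S K
  exact kass_core S K hinv hSS hH3 (rrd_main hRecQ inv ptinv hinv hcp) hp2 hpS hK hχ R hR
    (pt_A p K) (ka_CA p K) (ka_CA' p K) (fun a φ => ka_pt_ev_sum p K a φ)
    (kass_calcAt S K kasc_main hinv hcp hp2 hpS hK hχ R hR)

end Fermat.Agent.S55
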