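/-
S55 (Poitou-Tate), BRIDGE part 2, K→A packages (5), (6): the shared calculation, PURE ALGEBRA.
Owner: helper12.  Prefix `kasc_`.

Generic setting: `G` a group acting on `X`, `χ : G →* F_pˣ`, `M, M'` representations with
coordinate systems `C : shp_Coord X M F_p` (trivial action), `C' : shp_Coord X M' F_p(χ)`;
`H` a group with `r : H →* G`.
* `kasc_prism`   : the conjugation homotopy for an arbitrary 2-cochain;
* `kasc_f`       : `f_x (σ, τ) = π_x (b σ) · π'_x (σ • y (r τ)) - π'_x (E (r σ, r τ))`;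
* `kasc_f_coc`   : `(f_x)_x` is a twisted 2-cocycle;
* `kasc_f_stab`  : the value of `f_{g₀ x₀}` on the stabilizer.
-/
import Mathlib
import Fermat.Agent.S55.Bridge.ShapInjBasic
import Fermat.Agent.S55.PT

set_option autoImplicit false
set_option maxHeartbeats 1000000
set_option synthInstance.maxHeartbeats 400000
open CategoryTheory Module groupCohomology ExtCitation

noncomputable section

namespace Fermat.Agent.S55

section Prism

variable {k Γ : Type} [CommRing k] [Group Γ] (M : Rep.{0, 0, 0} k Γ)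

/-- The homotopy `κ σ = E (g₀, g₀⁻¹ σ g₀) - E (σ, g₀)`. -/
def kasc_kappa (E : Γ × Γ → M) (g₀ : Γ) (σ : Γ) : M :=
  E (g₀, g₀⁻¹ * σ * g₀) - E (σ, g₀)

/-- **The conjugation homotopy** for an arbitrary 2-cochain `E`. -/
theorem kasc_prism (E : Γ × Γ → M) (g₀ σ τ : Γ) :
    M.ρ g₀ (E (g₀⁻¹ * σ * g₀, g₀⁻¹ * τ * g₀)) - E (σ, τ) =
      (M.ρ σ (kasc_kappa M E g₀ τ) - kasc_kappa M E g₀ (σ * τ) + kasc_kappa M E g₀ σ) +
      (shp_d₂ (MonoidHom.id Γ) M E (g₀, g₀⁻¹ * σ * g₀, g₀⁻¹ * τ * g₀)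
        - shp_d₂ (MonoidHom.id Γ) M E (σ, g₀, g₀⁻¹ * τ * g₀)
        + shp_d₂ (MonoidHom.id Γ) M E (σ, τ, g₀)) := by
  have e1 : g₀ * (g₀⁻¹ * σ * g₀) = σ * g₀ := by group
  have e2 : g₀ * (g₀⁻¹ * τ * g₀) = τ * g₀ := by group
  have e3 : g₀⁻¹ * σ * g₀ * (g₀⁻¹ * τ * g₀) = g₀⁻¹ * (σ * τ) * g₀ := by group
  simp only [shp_d₂, kasc_kappa, MonoidHom.id_apply, map_sub, e1, e2, e3]
  abel

end Prism

section Coord

variable {p : ℕ} [Fact p.Prime] {G : Type} [Group G] {X : Type} [MulAction G X]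
  (χ : G →* (ZMod p)ˣ) {M M' : Rep.{0, 0, 0} (ZMod p) G}
  (C : shp_Coord X M (Rep.trivial (ZMod p) G (ZMod p))) (C' : shp_Coord X M' (ofChar χ))

/-- Scalar coordinates on `M`. -/
def kasc_c (x : X) : M →ₗ[ZMod p] ZMod p := C.π x

/-- Scalar coordinates on `M'`. -/
def kasc_c' (x : X) : M' →ₗ[ZMod p] ZMod p := C'.π x

theorem kasc_c_ρ (g : G) (x : X) (m : M) : kasc_c C x (M.ρ g m) = kasc_c C (g⁻¹ • x) m :=
  shin_π_ρ C g x m

theorem kasc_c'_ρ (g : G) (x : X) (m : M') :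
    kasc_c' χ C' x (M'.ρ g m) = ((χ g : (ZMod p)ˣ) : ZMod p) * kasc_c' χ C' (g⁻¹ • x) m :=
  shin_π_ρ C' g x m

variable {H : Type} [Group H] (r : H →* G)

/-- `f_x (σ, τ) = π_x (b σ) · π'_x (σ • y (r τ)) - π'_x (E (r σ, r τ))`. -/
def kasc_f (b : H → M) (y : G → M') (E : G × G → M') (x : X) (z : H × H) : ZMod p :=
  kasc_c C x (b z.1) * kasc_c' χ C' x (M'.ρ (r z.1) (y (r z.2))) -
    kasc_c' χ C' x (E (r z.1, r z.2))

variable {χ C C' r}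

/-- **`(f_x)_x` is a twisted 2-cocycle.** -/
theorem kasc_f_coc {b : H → M} {y : G → M'} {E : G × G → M'} {c : G × G → M}
    (hb : ∀ g h : H, M.ρ (r g) (b h) - b (g * h) + b g = c (r g, r h))
    (hy : ∀ g h : G, y (g * h) = M'.ρ g (y h) + y g)
    (hE : ∀ (g h j : G) (x : X),
      kasc_c' χ C' x (shp_d₂ (MonoidHom.id G) M' E (g, h, j)) =
        kasc_c C x (c (g, h)) * kasc_c' χ C' x (M'.ρ (g * h) (y j)))
    (g h j : H) (x : X) :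
    kasc_f χ C C' r b y E x (g * h, j) + kasc_f χ C C' r b y E x (g, h) =
      ((χ (r g) : (ZMod p)ˣ) : ZMod p) * kasc_f χ C C' r b y E ((r g)⁻¹ • x) (h, j) +
        kasc_f χ C C' r b y E x (g, h * j) := by
  have h1 := hE (r g) (r h) (r j) x
  have h2 := congrArg (kasc_c C x) (hb g h)
  have h3 := congrArg (kasc_c' χ C' ((r g)⁻¹ • x)) (hy (r h) (r j))
  simp only [shp_d₂, MonoidHom.id_apply, map_sub, map_add, kasc_c_ρ, kasc_c'_ρ] at h1 h2 h3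
  simp only [kasc_f, r.map_mul]
  simp only [kasc_c'_ρ]
  simp only [χ.map_mul, Units.val_mul, mul_inv_rev, mul_smul] at h1 h3 ⊢
  rw [← h2] at h1
  linear_combination h1 - ((χ (r g) : (ZMod p)ˣ) : ZMod p) * kasc_c C x (b g) * h3

variable (χ C C' r) in
/-- The smooth 1-cochain whose coboundary is the error term of `kasc_f_stab`. -/
def kasc_beta (b : H → M) (y : G → M') (E : G × G → M') (x₀ : X) (g₀ : G) (σ : H) : ZMod p :=
  kasc_c' χ C' (g₀ • x₀) (kasc_kappa M' E g₀ (r σ)) +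
    kasc_c' χ C' (g₀ • x₀) (y g₀) * kasc_c C (g₀ • x₀) (b σ)

/-- On the stabilizer the coordinate of a 1-cocycle at `g₀ x₀` is the conjugate of the
coordinate at `x₀`. -/
theorem kasc_y_conj {y : G → M'} (hy : ∀ g h : G, y (g * h) = M'.ρ g (y h) + y g)
    (U : Subgroup G) (hUX : ∀ u ∈ U, ∀ x : X, u • x = x) (hUχ : ∀ u ∈ U, χ u = 1)
    (x₀ : X) (g₀ s : G) (hs : s ∈ U) :
    kasc_c' χ C' (g₀ • x₀) (y s) =
      ((χ g₀ : (ZMod p)ˣ) : ZMod p) * kasc_c' χ C' x₀ (y (g₀⁻¹ * s * g₀)) := by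
  have e1 : g₀ * (g₀⁻¹ * s * g₀) = s * g₀ := by group
  have h1 := congrArg (kasc_c' χ C' (g₀ • x₀)) (hy g₀ (g₀⁻¹ * s * g₀))
  have h2 := congrArg (kasc_c' χ C' (g₀ • x₀)) (hy s g₀)
  rw [e1] at h1
  rw [h1] at h2
  simp only [map_add, kasc_c'_ρ, inv_smul_smul, hUX s⁻¹ (U.inv_mem hs), hUχ s hs,
    Units.val_one, one_mul] at h2
  linear_combination -h2

/-- **The value of `f_{g₀ x₀}` on the stabilizer.** -/
theorem kasc_f_stab {b : H → M} {y : G → M'} {E : G × G → M'} {c : G × G → M}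
    (hb : ∀ g h : H, M.ρ (r g) (b h) - b (g * h) + b g = c (r g, r h))
    (hy : ∀ g h : G, y (g * h) = M'.ρ g (y h) + y g)
    (hE : ∀ (g h j : G) (x : X),
      kasc_c' χ C' x (shp_d₂ (MonoidHom.id G) M' E (g, h, j)) =
        kasc_c C x (c (g, h)) * kasc_c' χ C' x (M'.ρ (g * h) (y j)))
    (U : Subgroup G) (hUX : ∀ u ∈ U, ∀ x : X, u • x = x) (hUχ : ∀ u ∈ U, χ u = 1)
    (x₀ : X) (g₀ : G) (σ τ : H) (hσ : r σ ∈ U) (hτ : r τ ∈ U)
    (hyK : kasc_c' χ C' x₀ (y (g₀⁻¹ * r τ * g₀)) = 0) :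
    kasc_f χ C C' r b y E (g₀ • x₀) (σ, τ) =
      - (((χ g₀ : (ZMod p)ˣ) : ZMod p) *
          kasc_c' χ C' x₀ (E (g₀⁻¹ * r σ * g₀, g₀⁻¹ * r τ * g₀))) +
        (kasc_beta χ C C' r b y E x₀ g₀ τ - kasc_beta χ C C' r b y E x₀ g₀ (σ * τ) +
          kasc_beta χ C C' r b y E x₀ g₀ σ) := by
  have hinv : ∀ u ∈ U, ∀ x : X, u⁻¹ • x = x := fun u hu x => hUX u⁻¹ (U.inv_mem hu) x
  have e1 : g₀ * (g₀⁻¹ * r σ * g₀) = r σ * g₀ := by group
  have hx1 : (r σ * g₀)⁻¹ • (g₀ • x₀) = x₀ := by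
    rw [mul_inv_rev, mul_smul, hinv _ hσ, inv_smul_smul]
  have hx2 : (r σ * r τ)⁻¹ • (g₀ • x₀) = g₀ • x₀ := hinv _ (U.mul_mem hσ hτ) _
  have hχ2 : χ (r σ * r τ) = 1 := hUχ _ (U.mul_mem hσ hτ)
  -- the three `w`-terms
  have W1 := hE g₀ (g₀⁻¹ * r σ * g₀) (g₀⁻¹ * r τ * g₀) (g₀ • x₀)
  rw [kasc_c'_ρ, e1, hx1, hyK, mul_zero, mul_zero] at W1
  have W2 := hE (r σ) g₀ (g₀⁻¹ * r τ * g₀) (g₀ • x₀)
  rw [kasc_c'_ρ, hx1, hyK, mul_zero, mul_zero] at W2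
  have W3 := hE (r σ) (r τ) g₀ (g₀ • x₀)
  rw [kasc_c'_ρ, hx2, hχ2, Units.val_one, one_mul, ← hb σ τ] at W3
  simp only [map_sub, map_add, kasc_c_ρ, hinv _ hσ] at W3
  -- the cup product term
  have Y := kasc_y_conj (C' := C') hy U hUX hUχ x₀ g₀ (r τ) hτ
  rw [hyK, mul_zero] at Y
  -- the prism
  have P := congrArg (kasc_c' χ C' (g₀ • x₀)) (kasc_prism M' E g₀ (r σ) (r τ))
  simp only [map_sub, map_add, kasc_c'_ρ, inv_smul_smul, hinv _ hσ, hUχ _ hσ, Units.val_one,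
    one_mul] at P
  rw [W1, W2, W3] at P
  simp only [kasc_f, kasc_beta, kasc_c'_ρ, hinv _ hσ, hUχ _ hσ, Units.val_one, one_mul, Y,
    r.map_mul]
  linear_combination P

/-- `f_x` is constant modulo a subgroup `N ≤ U` modulo which `b, y, E` are constant. -/
theorem kasc_f_const {b : H → M} {y : G → M'} {E : G × G → M'}
    (U : Subgroup G) (hUX : ∀ u ∈ U, ∀ x : X, u • x = x) (hUχ : ∀ u ∈ U, χ u = 1)
    (N : Subgroup G) (hNU : N ≤ U)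
    (hbN : ∀ g s : H, r s ∈ N → b (g * s) = b g)
    (hyN : ∀ g s : G, s ∈ N → y (g * s) = y g)
    (hEN : ∀ g g' s s' : G, s ∈ N → s' ∈ N → E (g * s, g' * s') = E (g, g'))
    (x : X) (g g' s s' : H) (hs : r s ∈ N) (hs' : r s' ∈ N) :
    kasc_f χ C C' r b y E x (g * s, g' * s') = kasc_f χ C C' r b y E x (g, g') := by
  have hinv : (r s)⁻¹ • ((r g)⁻¹ • x) = (r g)⁻¹ • x :=
    hUX _ (U.inv_mem (hNU hs)) _
  simp only [kasc_f, r.map_mul, kasc_c'_ρ, hbN g s hs, hyN (r g') (r s') hs',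
    hEN (r g) (r g') (r s) (r s') hs hs', χ.map_mul, hUχ _ (hNU hs), mul_one, mul_inv_rev,
    mul_smul, hinv]

/-- `β` is constant modulo `N ∩ g₀ N g₀⁻¹`. -/
theorem kasc_beta_const {b : H → M} {y : G → M'} {E : G × G → M'} (N : Subgroup G)
    (hbN : ∀ g s : H, r s ∈ N → b (g * s) = b g)
    (hEN : ∀ g g' s s' : G, s ∈ N → s' ∈ N → E (g * s, g' * s') = E (g, g'))
    (x₀ : X) (g₀ : G) (σ s : H) (hs : r s ∈ N) (hs' : g₀⁻¹ * r s * g₀ ∈ N) :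
    kasc_beta χ C C' r b y E x₀ g₀ (σ * s) = kasc_beta χ C C' r b y E x₀ g₀ σ := by
  have e1 : g₀⁻¹ * (r σ * r s) * g₀ = (g₀⁻¹ * r σ * g₀) * (g₀⁻¹ * r s * g₀) := by group
  have h1 : E (g₀, g₀⁻¹ * r σ * g₀ * (g₀⁻¹ * r s * g₀)) = E (g₀, g₀⁻¹ * r σ * g₀) := by
    have := hEN g₀ (g₀⁻¹ * r σ * g₀) 1 (g₀⁻¹ * r s * g₀) N.one_mem hs'
    rwa [mul_one] at this
  have h2 : E (r σ * r s, g₀) = E (r σ, g₀) := by
    have := hEN (r σ) g₀ (r s) 1 hs N.one_mem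
    rwa [mul_one] at this
  simp only [kasc_beta, kasc_kappa, r.map_mul, e1, h1, h2, hbN σ s hs]

/-- The sum of the `f_x`. -/
theorem kasc_f_sum [Fintype X] {b : H → M} {y : G → M'} {E : G × G → M'}
    (φ : M →ₗ[ZMod p] M' →ₗ[ZMod p] ofChar χ)
    (hφ : ∀ a m, φ a m = ∑ x : X, kasc_c C x a * kasc_c' χ C' x m)
    (ε : G × G → ofChar χ) (hε : ∀ g h, ε (g, h) = ∑ x : X, kasc_c' χ C' x (E (g, h)))
    (z : H × H) :
    ∑ x : X, kasc_f χ C C' r b y E x z =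
      φ (b z.1) (M'.ρ (r z.1) (y (r z.2))) - ε (r z.1, r z.2) := by
  rw [hφ, hε]
  simp only [kasc_f]
  exact Finset.sum_sub_distrib _ _

end Coord

end Fermat.Agent.S55
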