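/-
S55 (Poitou-Tate), BRIDGE part 2, K→A package (5) [A-SHA-INJ-OF], PURE ALGEBRA.
Owner: helper12.  Prefix `kasi_`.

Generic setting of `KAShaCalcAlg.lean`: `G` a group acting on a finite set `X`,
`χ : G →* F_pˣ`, `M, M'` representations with coordinate systems `C : shp_Coord X M F_p`,
`C' : shp_Coord X M' F_p(χ)`.
* `kasi_vecEquiv` : `M' ≃ (X → F_p)`, all coordinates;
* `kasi_mu`       : the coordinatewise product `M × M' → M'`, an equivariant pairing;
* `kasi_tr`       : the trace `M' → F_p(χ)`, `φ ↦ ∑_x π'_x φ`, equivariant;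
* `kasi_d_tr`     : `d (tr ∘ E) = tr ∘ d E`.
-/
import Mathlib
import Fermat.Agent.S55.Bridge.KAShaCalcAlg

set_option autoImplicit false
set_option maxHeartbeats 1000000
set_option synthInstance.maxHeartbeats 400000
open CategoryTheory Module groupCohomology ExtCitation

noncomputable section

namespace Fermat.Agent.S55

section Coord

variable {p : ℕ} [Fact p.Prime] {G : Type} [Group G] {X : Type} [MulAction G X]
  (χ : G →* (ZMod p)ˣ) {M M' : Rep.{0, 0, 0} (ZMod p) G}
  (C : shp_Coord X M (Rep.trivial (ZMod p) G (ZMod p))) (C' : shp_Coord X M' (ofChar χ))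

/-- All the coordinates of an element of `M'`. -/
def kasi_vec : M' →ₗ[ZMod p] (X → ZMod p) := LinearMap.pi (kasc_c' χ C')

theorem kasi_vec_apply (φ : M') (x : X) : kasi_vec χ C' φ x = kasc_c' χ C' x φ := rfl

theorem kasi_vec_bijective : Function.Bijective (kasi_vec χ C') := by
  refine ⟨fun a b hab => ?_, fun f => ?_⟩
  · exact shin_ext C' (fun x => congrFun hab x)
  · obtain ⟨m, hm⟩ := C'.surj f
    exact ⟨m, funext hm⟩

/-- The coordinates identify `M'` with the functions on `X`. -/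
def kasi_vecEquiv : M' ≃ₗ[ZMod p] (X → ZMod p) :=
  LinearEquiv.ofBijective (kasi_vec χ C') (kasi_vec_bijective χ C')

theorem kasi_c'_symm (f : X → ZMod p) (x : X) :
    kasc_c' χ C' x ((kasi_vecEquiv χ C').symm f) = f x := by
  have h := (kasi_vecEquiv χ C').apply_symm_apply f
  exact congrFun h x

/-- Equality in `M'` is equality of all coordinates. -/
theorem kasi_ext {φ ψ : M'} (h : ∀ x, kasc_c' χ C' x φ = kasc_c' χ C' x ψ) : φ = ψ :=
  shin_ext C' h

/-- **The coordinatewise product** `M × M' → M'`. -/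
def kasi_mu : M →ₗ[ZMod p] M' →ₗ[ZMod p] M' :=
  LinearMap.mk₂ (ZMod p)
    (fun a φ => (kasi_vecEquiv χ C').symm (fun x => kasc_c C x a * kasc_c' χ C' x φ))
    (fun a a' φ => by
      apply kasi_ext χ C'
      intro x
      rw [map_add, kasi_c'_symm, kasi_c'_symm, kasi_c'_symm, map_add, add_mul])
    (fun r a φ => by
      apply kasi_ext χ C'
      intro x
      rw [map_smul, kasi_c'_symm, kasi_c'_symm, map_smul, smul_eq_mul, smul_eq_mul, mul_assoc])
    (fun a φ φ' => by
      apply kasi_ext χ C'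
      intro x
      rw [map_add, kasi_c'_symm, kasi_c'_symm, kasi_c'_symm, map_add, mul_add])
    (fun r a φ => by
      apply kasi_ext χ C'
      intro x
      rw [map_smul, kasi_c'_symm, kasi_c'_symm, map_smul, smul_eq_mul, smul_eq_mul,
        mul_left_comm])

theorem kasi_mu_c' (a : M) (φ : M') (x : X) :
    kasc_c' χ C' x (kasi_mu χ C C' a φ) = kasc_c C x a * kasc_c' χ C' x φ :=
  kasi_c'_symm χ C' _ x

/-- The coordinatewise product is equivariant. -/
theorem kasi_mu_equivariant : cup_Equivariant (kasi_mu χ C C') := by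
  intro g a φ
  apply kasi_ext χ C'
  intro x
  rw [kasi_mu_c', kasc_c_ρ, kasc_c'_ρ, kasc_c'_ρ, kasi_mu_c']
  ring

variable [Fintype X]

/-- **The trace** `M' → F_p(χ)`. -/
def kasi_tr : M' →ₗ[ZMod p] ZMod p := ∑ x : X, kasc_c' χ C' x

theorem kasi_tr_apply (φ : M') : kasi_tr χ C' φ = ∑ x : X, kasc_c' χ C' x φ := by
  simp only [kasi_tr, LinearMap.coe_sum, Finset.sum_apply]

/-- The trace is equivariant. -/
theorem kasi_tr_ρ (g : G) (φ : M') :
    kasi_tr χ C' (M'.ρ g φ) = ((χ g : (ZMod p)ˣ) : ZMod p) * kasi_tr χ C' φ := by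
  rw [kasi_tr_apply, kasi_tr_apply, Finset.mul_sum]
  simp only [kasc_c'_ρ]
  exact Fintype.sum_equiv (MulAction.toPerm g⁻¹) _ _ (fun x => rfl)

/-- `d (tr ∘ E) = tr ∘ d E`. -/
theorem kasi_d_tr (E : G × G → M') (g h j : G) :
    ((χ g : (ZMod p)ˣ) : ZMod p) * kasi_tr χ C' (E (h, j)) - kasi_tr χ C' (E (g * h, j)) +
        kasi_tr χ C' (E (g, h * j)) - kasi_tr χ C' (E (g, h)) =
      kasi_tr χ C' (shp_d₂ (MonoidHom.id G) M' E (g, h, j)) := by
  simp only [shp_d₂, MonoidHom.id_apply, map_sub, map_add, kasi_tr_ρ]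

/-- The trace of a coordinatewise product. -/
theorem kasi_tr_mu (a : M) (φ : M') :
    kasi_tr χ C' (kasi_mu χ C C' a φ) = ∑ x : X, kasc_c C x a * kasc_c' χ C' x φ := by
  rw [kasi_tr_apply]
  simp only [kasi_mu_c']

end Coord

end Fermat.Agent.S55
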