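/-
S55 (Poitou-Tate), BRIDGE part 2, K→A package (5) [A-SHA-INJ-OF], part 1 (helper12).
Prefix `kasi_`.

The Shapiro component `c_K = π_{x₀} ∘ c|U²` of the 2-cocycle `c` of a cone cocycle `(c, b)` of
`A = pt_A p K` is a representative of a class in `Ш²(G_{K,S}, F_p)` (`kasi_sha₂`):
at the place `(q, g₀)`,  `c_K ∘ r = d (π_{g₀ x₀} ∘ (b_q + κ ∘ loc))`, `κ` the conjugation homotopy
of [SHAP-CONJ 2].
-/
import Mathlib
import Fermat.Agent.S55.Bridge.KAShaInjAlg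
import Fermat.Agent.S55.Bridge.KAShaCalcDefs
import Fermat.Agent.S55.Bridge.KACoord
import Fermat.Agent.S55.Bridge.ShapConj
import Fermat.Agent.S55.Local.PtInv
import Fermat.Agent.S55.H3OfMain

set_option autoImplicit false
set_option maxHeartbeats 1000000
set_option synthInstance.maxHeartbeats 400000
set_option linter.style.haveILetI false
set_option linter.unusedVariables false
set_option linter.unusedSectionVars false
open CategoryTheory Module groupCohomology ExtCitation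

noncomputable section

namespace Fermat.Agent.S55

section Sha

variable {p : ℕ} [Fact p.Prime] {S : Finset Nat.Primes}
  {K : IntermediateField ℚ (AlgebraicClosure ℚ)} [hKn : K.fixingSubgroup.Normal]
  (C : shp_Coord (s55_GQ ⧸ K.fixingSubgroup) (pt_A p K) (Rep.trivial (ZMod p) s55_GQ (ZMod p)))

/-- The Shapiro component at the trivial coset of a 2-cochain of `pt_A p K`. -/
def kasi_cK (c : s55_GQ × s55_GQ → pt_A p K)
    (z : ↥K.fixingSubgroup × ↥K.fixingSubgroup) : ZMod p :=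
  kasc_c C (kasc_x₀ K) (c ((z.1 : s55_GQ), (z.2 : s55_GQ)))

omit [Fact p.Prime] in
/-- `U` fixes every point of `X` (`U` normal). -/
theorem kasi_fix {s : s55_GQ} (hs : s ∈ K.fixingSubgroup) (x : s55_GQ ⧸ K.fixingSubgroup) :
    s • x = x := ka_fix hKn hs x

theorem kasi_c_fix {s : s55_GQ} (hs : s ∈ K.fixingSubgroup) (x : s55_GQ ⧸ K.fixingSubgroup)
    (m : pt_A p K) : kasc_c C x ((pt_A p K).ρ s m) = kasc_c C x m := by
  rw [kasc_c_ρ, kasi_fix (K.fixingSubgroup.inv_mem hs)]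

/-- `c_K` is a 2-cocycle. -/
theorem kasi_cK_coc {c : s55_GQ × s55_GQ → pt_A p K} (hc : c ∈ cocycles₂ (pt_A p K)) :
    kl_IsCoc₂ (kasi_cK C c) := by
  intro g h j
  have h1 := congrArg (kasc_c C (kasc_x₀ K))
    ((mem_cocycles₂_iff c).1 hc (g : s55_GQ) (h : s55_GQ) (j : s55_GQ))
  rw [map_add, map_add, kasi_c_fix C g.2] at h1
  exact h1

omit hKn in
/-- `c_K` is of level `S`. -/
theorem kasi_cK_level {c : s55_GQ × s55_GQ → pt_A p K} (hc : IsLevelConstantS₂ S c) :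
    kl_LevelS₂ S K (kasi_cK C c) := by
  obtain ⟨F, hF, hFc⟩ := hc
  refine ⟨F, hF, fun g g' s s' hs hs' => ?_⟩
  simp only [kasi_cK, Subgroup.coe_mul]
  rw [hFc _ _ _ _ hs hs']

/-- `c_K` is locally a smooth coboundary at every place. -/
theorem kasi_cK_loc (hK : K.IsUnramifiedOutside S) {c : s55_GQ × s55_GQ → pt_A p K}
    (hc : c ∈ levelCocyclesS₂ S (pt_A p K)) (q : Nat.Primes)
    (b : lcf_Gal (q : ℕ) → pt_A p K)
    (hbl : ∃ F : IntermediateField ℚ (AlgebraicClosure ℚ), FiniteDimensional ℚ F ∧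
      ∀ g s : lcf_Gal (q : ℕ), localGaloisToGlobal (q : ℕ) s ∈ F.fixingSubgroup →
        b (g * s) = b g)
    (hb : ∀ g h : lcf_Gal (q : ℕ),
      (pt_A p K).ρ (localGaloisToGlobal (q : ℕ) g) (b h) - b (g * h) + b g =
        c (localGaloisToGlobal (q : ℕ) g, localGaloisToGlobal (q : ℕ) h))
    (g₀ : s55_GQ) :
    ∃ β : ↥(kl_H K q) → ZMod p, lcf_Smooth₁ (kl_H K q) β ∧
      ∀ τ τ' : ↥(kl_H K q),
        kasi_cK C c (kl_r K q g₀ τ, kl_r K q g₀ τ') = kl_d₁ β (τ, τ') := by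
  obtain ⟨Fc, hFc, hcc⟩ := hc.2
  obtain ⟨F', hle, hF', hnorm⟩ := h3o_normalLevel S (K ⊔ Fc) (hK.sup hFc)
  haveI : (F'.fixingSubgroup).Normal := hnorm
  have hNc : F'.fixingSubgroup ≤ Fc.fixingSubgroup :=
    IntermediateField.fixingSubgroup_antitone (le_sup_right.trans hle)
  obtain ⟨κ, hκc, hκ⟩ := shcj_main₂ (ZMod p) s55_GQ (pt_A p K) F'.fixingSubgroup c
    (fun x => by
      have h := (mem_cocycles₂_iff c).1 hc.1 x.1 x.2.1 x.2.2
      simp only [shp_d₂, MonoidHom.id_apply]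
      rw [sub_add_eq_add_sub, ← h]
      abel)
    (fun g g' s s' hs hs' => hcc g g' s s' (hNc hs) (hNc hs')) g₀
  obtain ⟨Fb, hFb, hbb⟩ := hbl
  haveI : FiniteDimensional ℚ F' := hF'.1
  haveI := hFb
  obtain ⟨E₀, hE₀, hE₀F⟩ := ptinv_loc_fix (q : ℕ) (F' ⊔ Fb)
  have hE1 : ∀ s : lcf_Gal (q : ℕ), s ∈ E₀.fixingSubgroup →
      localGaloisToGlobal (q : ℕ) s ∈ F'.fixingSubgroup := fun s hs =>
    IntermediateField.fixingSubgroup_antitone le_sup_left (hE₀F s hs)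
  have hE2 : ∀ s : lcf_Gal (q : ℕ), s ∈ E₀.fixingSubgroup →
      localGaloisToGlobal (q : ℕ) s ∈ Fb.fixingSubgroup := fun s hs =>
    IntermediateField.fixingSubgroup_antitone le_sup_right (hE₀F s hs)
  refine ⟨fun τ => kasc_c C (g₀ • kasc_x₀ K)
      (b (τ : lcf_Gal (q : ℕ)) + κ (localGaloisToGlobal (q : ℕ) (τ : lcf_Gal (q : ℕ)))),
    ⟨E₀, hE₀, fun g s hs => ?_⟩, fun τ τ' => ?_⟩
  · have hκ' : ∀ g s : s55_GQ, s ∈ F'.fixingSubgroup → κ (g * s) = κ g :=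
      fun g s hs => hκc g s hs
    simp only [Subgroup.coe_mul, map_mul]
    rw [hbb _ _ (hE2 _ hs), hκ' _ _ (hE1 _ hs)]
  · have h1 := congrArg (kasc_c C (g₀ • kasc_x₀ K))
      (hκ (localGaloisToGlobal (q : ℕ) (τ : lcf_Gal (q : ℕ)))
        (localGaloisToGlobal (q : ℕ) (τ' : lcf_Gal (q : ℕ))))
    have h2 := congrArg (kasc_c C (g₀ • kasc_x₀ K)) (hb (τ : lcf_Gal (q : ℕ)) (τ' : lcf_Gal (q : ℕ)))
    have hτ : localGaloisToGlobal (q : ℕ) (τ : lcf_Gal (q : ℕ)) ∈ K.fixingSubgroup := τ.2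
    simp only [shp_d₁, MonoidHom.id_apply, map_sub, map_add, kasi_c_fix C hτ] at h1 h2
    rw [kasc_c_ρ, inv_smul_smul] at h1
    simp only [kasi_cK, kl_r_coe, kl_d₁, Subgroup.coe_mul, map_mul, map_add]
    linear_combination h1 - h2

end Sha

end Fermat.Agent.S55
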