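/-
S55 (Poitou-Tate), BRIDGE part 2, package [TR-INV] (helper14).  Prefix `shtr_`.

Part 1: the module of functions `X → A` (`A` a multiplicative `Γ`-module, `X` a `Γ`-set) as a
representation over `ℤ` with its coordinate system, and the equivariance of the product map
`∏_x : (X → A) → A`.
-/
import Mathlib
import Fermat.Agent.S55.Bridge.ShapDefs

set_option autoImplicit false

noncomputable section

namespace Fermat.Agent.S55

open groupCohomology

section rep

variable (Γ : Type) [Group Γ] (A : Type) [CommGroup A] [MulDistribMulAction Γ A]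
  (X : Type) [MulAction Γ X]

/-- The `Γ`-module of functions `X → A`, written additively:
`(g φ)(x) = g (φ (g⁻¹ x))`. -/
def shtr_rho : Representation ℤ Γ (X → Additive A) where
  toFun g := AddMonoidHom.toIntLinearMap
    { toFun := fun φ x => Additive.ofMul (g • Additive.toMul (φ (g⁻¹ • x)))
      map_zero' := by
        funext x
        show Additive.ofMul (g • (1 : A)) = 0
        rw [smul_one]
        rfl
      map_add' := fun φ ψ => by
        funext x
        show Additive.ofMul (g • (Additive.toMul (φ (g⁻¹ • x)) * Additive.toMul (ψ (g⁻¹ • x)))) =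
          Additive.ofMul (g • Additive.toMul (φ (g⁻¹ • x))) +
            Additive.ofMul (g • Additive.toMul (ψ (g⁻¹ • x)))
        rw [smul_mul']
        rfl }
  map_one' := by
    refine LinearMap.ext fun φ => funext fun x => ?_
    show Additive.ofMul ((1 : Γ) • Additive.toMul (φ ((1 : Γ)⁻¹ • x))) = φ x
    rw [one_smul, inv_one, one_smul]
    rfl
  map_mul' g h := by
    refine LinearMap.ext fun φ => funext fun x => ?_
    show Additive.ofMul ((g * h) • Additive.toMul (φ ((g * h)⁻¹ • x))) =
      Additive.ofMul (g • (h • Additive.toMul (φ (h⁻¹ • g⁻¹ • x))))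
    rw [mul_smul, mul_inv_rev, mul_smul]

theorem shtr_rho_apply (g : Γ) (φ : X → Additive A) (x : X) :
    shtr_rho Γ A X g φ x = Additive.ofMul (g • Additive.toMul (φ (g⁻¹ • x))) := rfl

/-- The module of functions `X → A` as an object of `Rep ℤ Γ`. -/
def shtr_M : Rep.{0, 0, 0} ℤ Γ := Rep.of (shtr_rho Γ A X)

/-- The module `A` as an object of `Rep ℤ Γ`. -/
def shtr_B : Rep.{0, 0, 0} ℤ Γ := Rep.ofMulDistribMulAction Γ A

theorem shtr_M_ρ_apply (g : Γ) (φ : X → Additive A) (x : X) :
    ((shtr_M Γ A X).ρ g (φ : shtr_M Γ A X) : X → Additive A) x =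
      Additive.ofMul (g • Additive.toMul (φ (g⁻¹ • x))) := rfl

theorem shtr_B_ρ_apply (g : Γ) (a : Additive A) :
    (shtr_B Γ A).ρ g (a : shtr_B Γ A) = Additive.ofMul (g • Additive.toMul a) := rfl

/-- The coordinate system of the module of functions. -/
def shtr_coord : shp_Coord X (shtr_M Γ A X) (shtr_B Γ A) where
  π x := (LinearMap.proj x : (X → Additive A) →ₗ[ℤ] Additive A)
  equiv g x m := by
    show Additive.ofMul (g • Additive.toMul ((m : X → Additive A) (g⁻¹ • g • x))) =
      Additive.ofMul (g • Additive.toMul ((m : X → Additive A) x))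
    rw [inv_smul_smul]
  inj m h := funext h
  surj f := ⟨f, fun _ => rfl⟩

theorem shtr_coord_π_apply (x : X) (m : X → Additive A) :
    (shtr_coord Γ A X).π x (m : shtr_M Γ A X) = m x := rfl

variable {Γ A X}

/-- The product over `X` is equivariant. -/
theorem shtr_prod_smul [Fintype X] (g : Γ) (φ : X → A) :
    ∏ x : X, g • φ (g⁻¹ • x) = g • ∏ x : X, φ x := by
  rw [Finset.smul_prod']
  exact Fintype.prod_equiv (MulAction.toPerm g⁻¹) _ _ (fun _ => rfl)

end rep

end Fermat.Agent.S55
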